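/-
S59, wall M5 = P-STEP (helper5, deputy) — INTERFACE.  Ledger: NOTES/S59-M5.md.

CASE (c) of the frozen S59: `W` has MULTIPLICATIVE reduction at `p` and `ρ̄_{W,p}` is FLAT at `p`
(`p ∣ v_p(Δ)`).  Then `ρ_{W,p}` is strictly ordinary and NOT flat, while every Hecke ring of a level
`N` with `p ∥ N` contains `p`-OLD forms (not strictly ordinary): neither `twFlat` nor `twOrd` works.
Remedy: Wiles' induction with the NON-STRICT ordinary conditions `s59psCond 𝒪 p Smin Σ`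
(`p ∈ Σ` allowed):
  `det = χ`, `IsOrdinaryAt p`, unramified outside `Smin ∪ Σ`, unipotent on inertia at `Smin ∖ {p}`,
  and, if `p ∉ Σ`, PEU RAMIFIÉ at `p` (`s59psPeuTriv`: the peu ramifié subgroups at `p` act trivially).
The step `Σ ↦ Σ ∪ {p}` is the `p`-STEP, with `c_p = α² − 1` (`α` = the unit root of Frobenius at `p`
of the base lift; `α² − 1 ~ a_p² − (p + 1)²`, `a_p = α + p / α`).

* `s59psTriv ρ X`, `s59psRamX ρ X` : "`ρ` is trivial on `X ⊆ G_ℚ`" and the ideal of the matrix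
  entries of `ρ σ − 1`, `σ ∈ X` (for `X` = inertia at `q` this is `IsUnramifiedAt q`, `s59selRam`).
* `s59psPeu P p` : the peu ramifié subgroup (all `p`-power roots of the inertia-fixed units).
* `s59ps_StmtCoreX` : **CORE, abstract in `X`** (`length (Φ' ⧸ Φ_X) ≤ length Φ`).
* `s59ps_StmtLocalP` : **LOCAL-P** (`length Φ_X ≤ length (𝒪 ⧸ (α² − 1))`, Kummer theory at `p`).
* `s59ps_StmtSelP`   : **SEL-P**, the Selmer inequality of the `p`-step.
* `s59ps_selP_of : CORE-X → LOCAL-P → SEL-P`  (PROVED here).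
-/
import Fermat.Agent.S59.SelFin

set_option autoImplicit false
set_option linter.unusedSectionVars false
set_option linter.unusedVariables false
set_option linter.style.longLine false
set_option linter.style.haveILetI false

noncomputable section

namespace Fermat.Agent.S59

open IsLocalRing Fermat.Agent.TW

/-- `ℚ̄` -/
local notation "Qbar" => AlgebraicClosure ℚ

/-! ### Triviality on a subset of `G_ℚ` -/

section Triv

variable {A : Type} [CommRing A] [IsLocalRing A]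

/-- `ρ` is trivial on the subset `X` of `G_ℚ`. -/
def s59psTriv (ρ : GaloisRepAdic A) (X : Set S59G) : Prop :=
  ∀ σ ∈ X, ρ.ρ σ = 1

/-- The ideal generated by the matrix entries `ℓ (ρ σ v − v)`, `σ ∈ X`: the smallest ideal modulo
which `ρ` is trivial on `X`. -/
def s59psRamX (ρ : GaloisRepAdic A) (X : Set S59G) : Ideal A :=
  Ideal.span {r | ∃ σ ∈ X, ∃ (ℓ : Module.Dual A ρ.V) (v : ρ.V), r = ℓ (ρ.ρ σ v - v)}

/-- triviality on `X` passes through an equivalence -/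
theorem s59ps_triv_of_isEquiv {ρ ρ' : GaloisRepAdic A} (h : ρ.IsEquiv ρ') (X : Set S59G)
    (h' : s59psTriv ρ' X) : s59psTriv ρ X := by
  obtain ⟨e⟩ := h
  intro σ hσ
  refine LinearMap.ext fun v => ?_
  apply e.toLinearEquiv.injective
  rw [e.map_apply, h' σ hσ]
  rfl

/-- The inertia groups of the places over `q`, as a subset of `G_ℚ`. -/
def s59psInertia (q : ℕ) : Set S59G :=
  {σ | ∃ P : ValuationSubring Qbar, P.LiesOverPrime q ∧ σ ∈ P.inertiaSubgroupIn ℚ}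

theorem s59ps_triv_inertia_iff (ρ : GaloisRepAdic A) (q : ℕ) :
    s59psTriv ρ (s59psInertia q) ↔ ρ.IsUnramifiedAt q :=
  ⟨fun h P hP σ hσ => h σ ⟨P, hP, hσ⟩, fun h σ ⟨P, hP, hσ⟩ => h P hP σ hσ⟩

end Triv

/-! ### The peu ramifié subgroup -/

section Peu

/-- **The peu ramifié subgroup** of the inertia group of `P` (all levels): the elements of inertia
fixing every `p`-power root of every unit of `P` which is fixed by inertia.  Its fixed field is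
`K(μ_{p^∞}, U^{1/p^∞})`, `K = ℚ̄^I`, `U` the units of `P ∩ K`.
(`Fermat.Agent.R38.peuSubgroup` is the level `n = 1`.) -/
def s59psPeu (P : ValuationSubring Qbar) (p : ℕ) : Subgroup S59G where
  carrier := {σ | σ ∈ P.inertiaSubgroupIn ℚ ∧ ∀ (n : ℕ) (y : Qbar), y ^ p ^ n ∈ P →
    (y ^ p ^ n)⁻¹ ∈ P → (∀ τ ∈ P.inertiaSubgroupIn ℚ, τ (y ^ p ^ n) = y ^ p ^ n) → σ y = y}
  mul_mem' := by
    rintro σ τ ⟨hσ, hσ'⟩ ⟨hτ, hτ'⟩
    refine ⟨mul_mem hσ hτ, fun n y h1 h2 h3 => ?_⟩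
    rw [AlgEquiv.mul_apply, hτ' n y h1 h2 h3, hσ' n y h1 h2 h3]
  one_mem' := ⟨one_mem _, fun _ _ _ _ _ => rfl⟩
  inv_mem' := by
    rintro σ ⟨hσ, hσ'⟩
    refine ⟨inv_mem hσ, fun n y h1 h2 h3 => ?_⟩
    have h := hσ' n y h1 h2 h3
    calc σ⁻¹ y = σ⁻¹ (σ y) := by rw [h]
      _ = y := by
        rw [← AlgEquiv.mul_apply, inv_mul_cancel, AlgEquiv.one_apply]

theorem s59psPeu_le (P : ValuationSubring Qbar) (p : ℕ) :
    s59psPeu P p ≤ P.inertiaSubgroupIn ℚ := fun _ h => h.1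

/-- The peu ramifié subgroups of the places over `p`, as a subset of `G_ℚ`. -/
def s59psPeuSet (p : ℕ) : Set S59G :=
  {σ | ∃ P : ValuationSubring Qbar, P.LiesOverPrime p ∧ σ ∈ s59psPeu P p}

theorem s59psPeuSet_subset (p : ℕ) : s59psPeuSet p ⊆ s59psInertia p :=
  fun _ ⟨P, hP, hσ⟩ => ⟨P, hP, s59psPeu_le P p hσ⟩

variable {A : Type} [CommRing A] [IsLocalRing A]

/-- `ρ` is **peu ramifié at `p`**: the peu ramifié subgroups at `p` act trivially. -/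
def s59psPeuTriv (ρ : GaloisRepAdic A) (p : ℕ) : Prop :=
  s59psTriv ρ (s59psPeuSet p)

/-- unramified at `p` ⇒ peu ramifié at `p` -/
theorem s59ps_peuTriv_of_unram {ρ : GaloisRepAdic A} {p : ℕ} (h : ρ.IsUnramifiedAt p) :
    s59psPeuTriv ρ p :=
  fun σ hσ => (s59ps_triv_inertia_iff ρ p).2 h σ (s59psPeuSet_subset p hσ)

/-- The unit root of Frobenius at `p` of an ordinary `ρ` is `α`: on the unramified quotient `V ⧸ L`
every Frobenius element at `p` acts through `α`. -/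
def s59psUnitRoot (ρ : GaloisRepAdic A) (p : ℕ) (α : A) : Prop :=
  ∀ P : ValuationSubring Qbar, P.LiesOverPrime p →
    ∃ L : Submodule A ρ.V,
      (∃ b : Module.Basis (Fin 2) A ρ.V, L = A ∙ b 0) ∧
      (∀ σ ∈ P.decompositionSubgroup ℚ, ∀ v ∈ L, ρ.ρ σ v ∈ L) ∧
      (∀ σ ∈ P.inertiaSubgroupIn ℚ, ∀ v : ρ.V, ρ.ρ σ v - v ∈ L) ∧
      ∀ φ : S59G, P.IsFrobeniusAt φ p → ∀ v : ρ.V, ρ.ρ φ v - α • v ∈ L

end Peu

/-! ### The conditions -/

section Cond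

variable (𝒪 : Type) [CommRing 𝒪]

/-- **The non-strict ordinary condition of the `p`-step** with the extra primes `Sg` (`p ∈ Sg`
allowed): `det = χ`, ordinary at `p`, unramified outside `Smin ∪ Sg`, unipotent on inertia at the
primes `q ≠ p` of `Smin`, and PEU RAMIFIÉ at `p` unless `p ∈ Sg`. -/
def s59psCond (p : ℕ) (Smin Sg : Finset ℕ) :
    ∀ ⦃A : Type⦄ [CommRing A] [IsLocalRing A] [Algebra 𝒪 A], GaloisRepAdic A → Prop :=
  fun _A _ _ _ ρ => GaloisRep.ordinaryCondition 𝒪 p (Smin ∪ Sg) ρ ∧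
    (p ∉ Sg → s59psPeuTriv ρ p) ∧
    ∀ q ∈ Smin, q.Prime → q ≠ p → ρ.IsUnipotentOnInertiaAt q

/-- `twOrd ⊆ s59psCond` when `p ∈ Sg` (strictly ordinary ⇒ ordinary). -/
theorem s59ps_cond_of_twOrd (p : ℕ) (Smin Sg : Finset ℕ) (hp : p ∈ Sg)
    (A : Type) [CommRing A] [IsLocalRing A] [Algebra 𝒪 A] (ρ : GaloisRepAdic A)
    (h : twOrd 𝒪 p Smin Sg ρ) : s59psCond 𝒪 p Smin Sg ρ :=
  ⟨GaloisRep.ordinaryCondition_of_strictOrdinaryCondition h.1, fun h' => absurd hp h', h.2⟩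

/-- unramified primes: `Smin ∪ insert q Sg` against `Smin ∪ Sg` -/
theorem s59ps_cond_mono (p : ℕ) (Smin Sg : Finset ℕ) (q : ℕ)
    (A : Type) [CommRing A] [IsLocalRing A] [Algebra 𝒪 A] (ρ : GaloisRepAdic A)
    (h : s59psCond 𝒪 p Smin Sg ρ) : s59psCond 𝒪 p Smin (insert q Sg) ρ := by
  refine ⟨⟨h.1.1, h.1.2.1, fun l hl hlS => h.1.2.2 l hl fun hl' => hlS ?_⟩,
    fun hp => h.2.1 fun hp' => hp (Finset.mem_insert_of_mem hp'), h.2.2⟩
  rcases Finset.mem_union.1 hl' with h1 | h1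
  · exact Finset.mem_union_left _ h1
  · exact Finset.mem_union_right _ (Finset.mem_insert_of_mem h1)

/-- the `p`-step, downwards: type `Sg ∪ {p}` and peu ramifié at `p` ⇒ type `Sg` (`p ∈ Smin`). -/
theorem s59ps_cond_of_peu (p : ℕ) (Smin Sg : Finset ℕ) (hpSmin : p ∈ Smin)
    (A : Type) [CommRing A] [IsLocalRing A] [Algebra 𝒪 A] (ρ : GaloisRepAdic A)
    (h : s59psCond 𝒪 p Smin (insert p Sg) ρ) (hu : s59psPeuTriv ρ p) :
    s59psCond 𝒪 p Smin Sg ρ := by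
  refine ⟨⟨h.1.1, h.1.2.1, fun l hl hlS => h.1.2.2 l hl fun hl' => hlS ?_⟩, fun _ => hu, h.2.2⟩
  rcases Finset.mem_union.1 hl' with h1 | h1
  · exact Finset.mem_union_left _ h1
  · rcases Finset.mem_insert.1 h1 with h2 | h2
    · exact Finset.mem_union_left _ (h2 ▸ hpSmin)
    · exact Finset.mem_union_right _ h2

/-- a `q`-step, downwards (`q ≠ p`). -/
theorem s59ps_cond_of_unr (p : ℕ) (Smin Sg : Finset ℕ) (q : ℕ) (hqp : q ≠ p)
    (A : Type) [CommRing A] [IsLocalRing A] [Algebra 𝒪 A] (ρ : GaloisRepAdic A)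
    (h : s59psCond 𝒪 p Smin (insert q Sg) ρ) (hu : ρ.IsUnramifiedAt q) :
    s59psCond 𝒪 p Smin Sg ρ := by
  refine ⟨⟨h.1.1, h.1.2.1, fun l hl hlS => ?_⟩,
    fun hp => h.2.1 fun hp' => ?_, h.2.2⟩
  · by_cases hlq : l = q
    · rw [hlq]; exact hu
    · refine h.1.2.2 l hl fun hl' => hlS ?_
      rcases Finset.mem_union.1 hl' with h1 | h1
      · exact Finset.mem_union_left _ h1
      · rcases Finset.mem_insert.1 h1 with h2 | h2
        · exact absurd h2 hlq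
        · exact Finset.mem_union_right _ h2
  · rcases Finset.mem_insert.1 hp' with h2 | h2
    · exact hqp h2.symm
    · exact hp h2

theorem s59ps_cond_unr (p : ℕ) (Smin Sg : Finset ℕ) (q : ℕ) (hq : q.Prime)
    (hqSmin : q ∉ Smin) (hqSg : q ∉ Sg)
    (A : Type) [CommRing A] [IsLocalRing A] [Algebra 𝒪 A] (ρ : GaloisRepAdic A)
    (h : s59psCond 𝒪 p Smin Sg ρ) : ρ.IsUnramifiedAt q :=
  h.1.2.2 q hq fun hq' => (Finset.mem_union.1 hq').elim hqSmin hqSg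

theorem s59ps_cond_peu (p : ℕ) (Smin Sg : Finset ℕ) (hpSg : p ∉ Sg)
    (A : Type) [CommRing A] [IsLocalRing A] [Algebra 𝒪 A] (ρ : GaloisRepAdic A)
    (h : s59psCond 𝒪 p Smin Sg ρ) : s59psPeuTriv ρ p :=
  h.2.1 hpSg

end Cond

/-! ### The statements -/

section Stmt

variable (𝒪 : Type) [CommRing 𝒪] [IsDomain 𝒪] [IsDiscreteValuationRing 𝒪]
  [IsAdicComplete (maximalIdeal 𝒪) 𝒪] [Finite (ResidueField 𝒪)]

/-- **CORE, abstract in the set `X`.**  `𝒟₀ ⊆ 𝒟₁` two deformation conditions which differ by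
"trivial on `X`", `𝒟₁` stable under base change along SURJECTIVE local maps; `D`, `D'` universal of
type `𝒟₀`, `𝒟₁`, `x`, `x'` augmentations with equivalent specialisations.  Then
`length (Φ' ⧸ Φ_X) ≤ length Φ`.  (`StmtSelCoreLen` is the case `X` = inertia at `q`; same proof.) -/
def s59ps_StmtCoreX : Prop :=
  ∀ (X : Set S59G) (ρbar : ResidualGaloisRep (ResidueField 𝒪))
    (𝒟₀ 𝒟₁ : ∀ ⦃A : Type⦄ [CommRing A] [IsLocalRing A] [Algebra 𝒪 A], GaloisRepAdic A → Prop),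
    (∀ (A : Type) [CommRing A] [IsLocalRing A] [Algebra 𝒪 A] (ρ : GaloisRepAdic A),
      𝒟₀ ρ → 𝒟₁ ρ) →
    (∀ (A : Type) [CommRing A] [IsLocalRing A] [Algebra 𝒪 A] (ρ : GaloisRepAdic A),
      𝒟₁ ρ → s59psTriv ρ X → 𝒟₀ ρ) →
    (∀ (A : Type) [CommRing A] [IsLocalRing A] [Algebra 𝒪 A] (ρ : GaloisRepAdic A),
      𝒟₀ ρ → s59psTriv ρ X) →
    (∀ (A B : Type) [CommRing A] [IsLocalRing A] [Algebra 𝒪 A] [CommRing B] [IsLocalRing B]
      [Algebra 𝒪 B] (φ : A →ₐ[𝒪] B) (hφ : IsLocalHom (φ : A →+* B)), Function.Surjective φ →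
      ∀ ρ : GaloisRepAdic A, 𝒟₁ ρ → 𝒟₁ (ρ.baseChangeAlong (φ : A →+* B) hφ)) →
    ∀ (D : GaloisRep.DeformationRingData 𝒪 ρbar 𝒟₀)
      (D' : GaloisRep.DeformationRingData 𝒪 ρbar 𝒟₁)
      (x : D.R →ₐ[𝒪] 𝒪) (x' : D'.R →ₐ[𝒪] 𝒪),
      s59selSame 𝒪 D D' x x' →
      Module.length 𝒪 ((RingHom.ker (x' : D'.R →+* 𝒪)).Cotangent ⧸
          s59selPhiN 𝒪 x' (s59psRamX D'.ρ X)) ≤ s59p_phiLen 𝒪 x

/-- **LOCAL-P.**  `ρ` over a complete noetherian local `𝒪`-algebra `A`, `det = χ`, ordinary at the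
odd prime `p`; `x : A → 𝒪` an augmentation such that `ρ_x` is peu ramifié at `p`, with unit root
`α` of Frobenius at `p`, `α² ≠ 1`.  Then the image `Φ_X` of the peu-ramification ideal in the
cotangent space at `x` has length `≤ length (𝒪 ⧸ (α² − 1))`.
(On the peu ramifié subgroup `H`: `ρ σ = 1 + β σ`, `β : H → Hom(V ⧸ L, L)` additive,
`β (g σ g⁻¹) = χ(g) ψ(g)⁻² β σ`, `ψ` the unramified character of `V ⧸ L`; KUMMER: modulo every
`𝔪ⁿ`, `β` factors through the Kummer character `t` of `p`, `t (g σ g⁻¹) = χ(g) t σ`.  So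
`(ψ(φ)² − 1) β = 0`, `Φ_X` is cyclic and killed by `α² − 1`; LIMIT ✓ `s59sell_limit`.) -/
def s59ps_StmtLocalP : Prop :=
  ∀ (p : ℕ) [Fact p.Prime], p ≠ 2 → (p : 𝒪) ∈ maximalIdeal 𝒪 →
  ∀ (A : Type) [CommRing A] [IsLocalRing A] [IsNoetherianRing A]
    [IsAdicComplete (maximalIdeal A) A] [Algebra 𝒪 A] (ρ : GaloisRepAdic A),
    ρ.DetIsCyclotomic p → ρ.IsOrdinaryAt p →
  ∀ (x : A →ₐ[𝒪] 𝒪) (hx : IsLocalHom (x : A →+* 𝒪)) (α : 𝒪),
    s59psPeuTriv (ρ.baseChangeAlong (x : A →+* 𝒪) hx) p →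
    s59psUnitRoot (ρ.baseChangeAlong (x : A →+* 𝒪) hx) p α →
    α ^ 2 - 1 ≠ 0 →
    Module.length 𝒪 (s59selPhiN 𝒪 x (s59psRamX ρ (s59psPeuSet p))) ≤
      Module.length 𝒪 (𝒪 ⧸ Ideal.span {α ^ 2 - 1})

/-- **SEL-P**: the Selmer inequality of the `p`-step,
`length Φ_{R^{ord}_Σ} ≤ length Φ_{R^{ord, peu}_Σ} + length (𝒪 ⧸ (α² − 1))`. -/
def s59ps_StmtSelP : Prop :=
  ∀ (p : ℕ) [Fact p.Prime] (ρbar : ResidualGaloisRep (ResidueField 𝒪)) (S Smin : Finset ℕ),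
    TWHyp 𝒪 p ρbar S Smin → ∀ (Sg : Finset ℕ), p ∉ Sg →
    ∀ (D : GaloisRep.DeformationRingData 𝒪 ρbar (s59psCond 𝒪 p Smin Sg))
      (D' : GaloisRep.DeformationRingData 𝒪 ρbar (s59psCond 𝒪 p Smin (insert p Sg)))
      (x : D.R →ₐ[𝒪] 𝒪) (x' : D'.R →ₐ[𝒪] 𝒪) (α : 𝒪),
      s59selSame 𝒪 D D' x x' →
      (∀ hx : IsLocalHom (x : D.R →+* 𝒪),
        s59psUnitRoot (D.ρ.baseChangeAlong (x : D.R →+* 𝒪) hx) p α) →
      s59p_phiLen 𝒪 x' ≤ s59p_phiLen 𝒪 x + Module.length 𝒪 (𝒪 ⧸ Ideal.span {α ^ 2 - 1})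

/-- **SEL-Q for the conditions of the `p`-step** (the `q`-steps, `q ≠ p`, `q ∉ Smin`). -/
def s59ps_StmtSelQ : Prop :=
  ∀ (p : ℕ) [Fact p.Prime] (ρbar : ResidualGaloisRep (ResidueField 𝒪)) (S Smin : Finset ℕ),
    TWHyp 𝒪 p ρbar S Smin → ∀ (Sg : Finset ℕ) (q : ℕ), q.Prime → q ∉ Smin → q ∉ Sg →
    ∀ (D : GaloisRep.DeformationRingData 𝒪 ρbar (s59psCond 𝒪 p Smin Sg))
      (D' : GaloisRep.DeformationRingData 𝒪 ρbar (s59psCond 𝒪 p Smin (insert q Sg)))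
      (x : D.R →ₐ[𝒪] 𝒪) (x' : D'.R →ₐ[𝒪] 𝒪) (t : 𝒪),
      s59selSame 𝒪 D D' x x' → s59selTrace 𝒪 D x q t →
      s59p_phiLen 𝒪 x' ≤ s59p_phiLen 𝒪 x + Module.length 𝒪 (𝒪 ⧸ Ideal.span {s59p_cq 𝒪 q t})

end Stmt

/-! ### Base change of the conditions -/

section BC

variable (𝒪 : Type) [CommRing 𝒪]

/-- triviality on `X` is stable under base change -/
theorem s59ps_triv_bc {A B : Type} [CommRing A] [IsLocalRing A] [CommRing B] [IsLocalRing B]
    (φ : A →+* B) (hφ : IsLocalHom φ) (ρ : GaloisRepAdic A) (X : Set S59G)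
    (h : s59psTriv ρ X) : s59psTriv (ρ.baseChangeAlong φ hφ) X := by
  intro σ hσ
  have h1 := h σ hσ
  letI : Algebra A B := φ.toAlgebra
  show LinearMap.baseChange B (ρ.ρ σ) = 1
  rw [h1]
  exact LinearMap.baseChange_one (R := A) (A := B) (M := ρ.V)

theorem s59ps_cond_bc (p : ℕ) (Smin Sg : Finset ℕ)
    (A B : Type) [CommRing A] [IsLocalRing A] [Algebra 𝒪 A] [CommRing B] [IsLocalRing B]
    [Algebra 𝒪 B] (φ : A →ₐ[𝒪] B) (hφ : IsLocalHom (φ : A →+* B))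
    (ρ : GaloisRepAdic A) (h : s59psCond 𝒪 p Smin Sg ρ) :
    s59psCond 𝒪 p Smin Sg (ρ.baseChangeAlong (φ : A →+* B) hφ) :=
  ⟨twbc_ordinaryCondition 𝒪 (φ : A →+* B) hφ p _ ρ h.1,
    fun hp => s59ps_triv_bc (φ : A →+* B) hφ ρ _ (h.2.1 hp),
    fun l hl hlp hlne => twbc_isUnipotentOnInertiaAt _ hφ ρ l (h.2.2 l hl hlp hlne)⟩

end BC

/-! ### CORE-X + LOCAL-P ⇒ SEL-P;  SEL-Q -/

section Main

variable (𝒪 : Type) [CommRing 𝒪] [IsDomain 𝒪] [IsDiscreteValuationRing 𝒪]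
  [IsAdicComplete (maximalIdeal 𝒪) 𝒪] [Finite (ResidueField 𝒪)]

/-- **SEL-P from CORE-X and LOCAL-P.** -/
theorem s59ps_selP_of (hcore : s59ps_StmtCoreX 𝒪) (hloc : s59ps_StmtLocalP 𝒪) :
    s59ps_StmtSelP 𝒪 := by
  intro p _ ρbar S Smin hyp Sg hpSg D D' x x' α hsame hα
  by_cases hc : α ^ 2 - 1 = 0
  · rw [hc]
    have e : Module.length 𝒪 (𝒪 ⧸ Ideal.span {(0 : 𝒪)}) = Module.length 𝒪 𝒪 := by
      have := Ring.ord_zero (R := 𝒪)
      rw [Ring.ord] at this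
      exact this
    rw [e, s59seld_length_self_eq_top (IsDiscreteValuationRing.not_isField 𝒪), add_top]
    exact le_top
  · have h1 := hcore (s59psPeuSet p) ρbar (s59psCond 𝒪 p Smin Sg)
      (s59psCond 𝒪 p Smin (insert p Sg))
      (fun A _ _ _ ρ h => s59ps_cond_mono 𝒪 p Smin Sg p A ρ h)
      (fun A _ _ _ ρ h hu => s59ps_cond_of_peu 𝒪 p Smin Sg hyp.hpSmin A ρ h hu)
      (fun A _ _ _ ρ h => s59ps_cond_peu 𝒪 p Smin Sg hpSg A ρ h)
      (fun A B _ _ _ _ _ _ φ hφ _ ρ h => s59ps_cond_bc 𝒪 p Smin _ A B φ hφ ρ h)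
      D D' x x' hsame
    obtain ⟨hx, hx', hE⟩ := hsame
    -- `ρ_{x'}` is peu ramifié at `p`, with unit root `α`
    have hpeu : s59psPeuTriv (D'.ρ.baseChangeAlong (x' : D'.R →+* 𝒪) hx') p :=
      s59ps_triv_of_isEquiv hE _
        (s59ps_triv_bc (x : D.R →+* 𝒪) hx D.ρ _ (s59ps_cond_peu 𝒪 p Smin Sg hpSg D.R D.ρ D.isOfType))
    have hur : s59psUnitRoot (D'.ρ.baseChangeAlong (x' : D'.R →+* 𝒪) hx') p α := by
      obtain ⟨e⟩ := hE
      intro P hP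
      obtain ⟨L, ⟨b, hb⟩, hD, hI, hF⟩ := hα hx P hP
      have key : ∀ (σ : S59G) (v : (D'.ρ.baseChangeAlong (x' : D'.R →+* 𝒪) hx').V),
          e.toLinearEquiv ((D'.ρ.baseChangeAlong (x' : D'.R →+* 𝒪) hx').ρ σ v) =
            (D.ρ.baseChangeAlong (x : D.R →+* 𝒪) hx).ρ σ (e.toLinearEquiv v) :=
        fun σ v => e.map_apply σ v
      refine ⟨L.comap e.toLinearEquiv.toLinearMap, ⟨b.map e.toLinearEquiv.symm, ?_⟩,
        fun σ hσ v hv => ?_, fun σ hσ v => ?_, fun φ hφ v => ?_⟩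
      · ext v
        rw [Submodule.mem_comap, hb, Submodule.mem_span_singleton, Submodule.mem_span_singleton]
        constructor
        · rintro ⟨a, ha⟩
          refine ⟨a, ?_⟩
          apply e.toLinearEquiv.injective
          rw [map_smul, Module.Basis.map_apply, LinearEquiv.apply_symm_apply]
          exact ha
        · rintro ⟨a, ha⟩
          refine ⟨a, ?_⟩
          rw [← ha, map_smul, Module.Basis.map_apply]
          show a • b 0 = a • e.toLinearEquiv (e.toLinearEquiv.symm (b 0))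
          rw [LinearEquiv.apply_symm_apply]
      · rw [Submodule.mem_comap] at hv ⊢
        show e.toLinearEquiv _ ∈ L
        rw [key]
        exact hD σ hσ _ hv
      · rw [Submodule.mem_comap]
        show e.toLinearEquiv _ ∈ L
        rw [map_sub, key]
        exact hI σ hσ _
      · rw [Submodule.mem_comap]
        show e.toLinearEquiv _ ∈ L
        rw [map_sub, map_smul, key]
        exact hF φ hφ _
    have h2 := hloc p hyp.hp2 hyp.hp𝒪 D'.R D'.ρ D'.isOfType.1.1 D'.isOfType.1.2.1 x' hx' α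
      hpeu hur hc
    have h3 := s59self_length_add (R := 𝒪) (s59selPhiN 𝒪 x' (s59psRamX D'.ρ (s59psPeuSet p)))
    show Module.length 𝒪 (RingHom.ker (x' : D'.R →+* 𝒪)).Cotangent ≤ _
    rw [h3, add_comm]
    exact add_le_add h1 h2

/-- **SEL-Q for the conditions of the `p`-step**, from CORE ✓ and LOCAL ✓ (`s59self_generic`). -/
theorem s59ps_selQ_of (hcore : StmtSelCoreLen 𝒪) (hloc : StmtSelLocal 𝒪) : s59ps_StmtSelQ 𝒪 := by
  intro p _ ρbar S Smin hyp Sg q hq hqSmin hqSg D D' x x' t hsame htr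
  have hqp : q ≠ p := fun h => hqSmin (h ▸ hyp.hpSmin)
  exact s59self_generic 𝒪 hcore hloc p ρbar (s59psCond 𝒪 p Smin Sg)
    (s59psCond 𝒪 p Smin (insert q Sg)) q hq hqp hyp.hp𝒪
    (fun A _ _ _ ρ h => s59ps_cond_mono 𝒪 p Smin Sg q A ρ h)
    (fun A _ _ _ ρ h hu => s59ps_cond_of_unr 𝒪 p Smin Sg q hqp A ρ h hu)
    (fun A _ _ _ ρ h => s59ps_cond_unr 𝒪 p Smin Sg q hq hqSmin hqSg A ρ h)
    (fun A _ _ _ ρ h => h.1.1)
    (fun A B _ _ _ _ _ _ φ hφ _ ρ h => s59ps_cond_bc 𝒪 p Smin _ A B φ hφ ρ h)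
    D D' x x' t hsame htr

end Main

end Fermat.Agent.S59

end
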