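/-
S59, wall M5 = P-STEP, leaf FIN-P (helper44).  Ledger: NOTES/S59-M5.md.

THE END OF (STAGES) IN CASE (c): `W` semistable with MULTIPLICATIVE reduction at `p ∈ {3, 5}`.
The `p`-adic representation `s59feRep W hΔ p φ hφ` of `W` (coefficients in `𝒪`) is of the
NON-STRICT ordinary type `s59psCond 𝒪 p Smin Sg` of the `p`-step as soon as `p ∈ Sg` and
`Smin ∪ Sg` contains the bad primes of `W`; in particular for
`Smin = s59feSmin W hΔ p`, `Sg = SW := insert p (s59feSigma W hΔ p)` (`= Σ_W ∪ {p}`).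

* `s59psfin_cond_of`   : general `Smin`, `Sg` with `p ∈ Sg`;
* `s59psfin_cond`      : `Smin = s59feSmin`, `Sg = insert p s59feSigma`   (**FIN-P**);
* `s59psfin_ordinary`  : the prelude's `GaloisRep.ordinaryCondition 𝒪 p (Smin ∪ SW)`;
* `s59psfin_SW_prime`, `s59psfin_SW_not_mem` : the primes of `SW` other than `p` are primes
  outside `Smin` (the hypothesis `hSW` of the steps at `q ≠ p`), `p ∈ SW`, `Σ_W ⊆ SW`.

Sorry-free; axioms: propext, Classical.choice, Quot.sound.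
-/
import Fermat.Agent.S59.PStep.Plan
import Fermat.Agent.S59.FinE

set_option autoImplicit false
set_option linter.unusedSectionVars false
set_option linter.unusedVariables false
set_option linter.style.longLine false

noncomputable section

namespace Fermat.Agent.S59

open IsLocalRing Fermat.Agent.TW Fermat.Agent.EC

section FinP

variable (W : WeierstrassCurve ℤ) (hΔ : W.Δ ≠ 0) (p : ℕ) [hp : Fact p.Prime]
variable {𝒪 : Type} [CommRing 𝒪] [IsLocalRing 𝒪] (φ : ℤ_[p] →+* 𝒪) (hφ : IsLocalHom φ)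

/-- `SW = Σ_W ∪ {p}`: the set of the extra primes at the end of (STAGES) in case (c). -/
def s59psfinSW : Finset ℕ := insert p (s59feSigma W hΔ p)

theorem s59psfin_p_mem_SW : p ∈ s59psfinSW W hΔ p := Finset.mem_insert_self _ _

theorem s59psfin_Sigma_subset_SW : s59feSigma W hΔ p ⊆ s59psfinSW W hΔ p :=
  Finset.subset_insert _ _

/-- the elements of `SW` are primes -/
theorem s59psfin_SW_prime {q : ℕ} (h : q ∈ s59psfinSW W hΔ p) : q.Prime := by
  rcases Finset.mem_insert.1 h with rfl | h1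
  · exact hp.out
  · exact s59fe_prime_of_mem_Sigma W hΔ p h1

/-- the elements of `SW` other than `p` lie outside `Smin` -/
theorem s59psfin_SW_not_mem {q : ℕ} (h : q ∈ s59psfinSW W hΔ p) (hqp : q ≠ p) :
    q ∉ s59feSmin W hΔ p := by
  rcases Finset.mem_insert.1 h with h1 | h1
  · exact absurd h1 hqp
  · exact fun h2 => Finset.disjoint_left.1 (s59fe_disjoint W hΔ p) h2 h1

/-- `Smin ∪ SW = Smin ∪ Σ_W` (`p ∈ Smin`) -/
theorem s59psfin_union_SW :
    s59feSmin W hΔ p ∪ s59psfinSW W hΔ p = s59feSmin W hΔ p ∪ s59feSigma W hΔ p := by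
  classical
  ext q
  simp only [Finset.mem_union, s59psfinSW, Finset.mem_insert]
  constructor
  · rintro (h | h | h)
    · exact Or.inl h
    · exact Or.inl (h ▸ s59fe_p_mem_Smin W hΔ p)
    · exact Or.inr h
  · rintro (h | h)
    · exact Or.inl h
    · exact Or.inr (Or.inr h)

variable [Algebra 𝒪 𝒪]

/-- **FIN-P, general form**: `ρ_{W,p}` is of type `s59psCond 𝒪 p Smin Sg` when `p ∈ Sg` and
`Smin ∪ Sg` contains the bad primes of `W` (`W` semistable, multiplicative at `p ∈ {3, 5}`). -/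
theorem s59psfin_cond_of (hss : W.IsSemistableModel) (hp35 : p = 3 ∨ p = 5)
    (hbad : (p : ℤ) ∣ W.Δ) (Smin Sg : Finset ℕ) (hpSg : p ∈ Sg)
    (hS : ∀ q : ℕ, q.Prime → (q : ℤ) ∣ W.Δ → q ∈ Smin ∪ Sg) :
    s59psCond 𝒪 p Smin Sg (s59feRep W hΔ p φ hφ) :=
  s59ps_cond_of_twOrd 𝒪 p Smin Sg hpSg 𝒪 _
    (s59fe_twOrd_of W hΔ p φ hφ hss hp35 hbad Smin Sg (Finset.mem_union_right _ hpSg) hS)

/-- **FIN-P**: the end of (STAGES) in case (c), `Smin = s59feSmin`, `SW = Σ_W ∪ {p}`. -/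
theorem s59psfin_cond (hss : W.IsSemistableModel) (hp35 : p = 3 ∨ p = 5)
    (hbad : (p : ℤ) ∣ W.Δ) :
    s59psCond 𝒪 p (s59feSmin W hΔ p) (s59psfinSW W hΔ p) (s59feRep W hΔ p φ hφ) :=
  s59psfin_cond_of W hΔ p φ hφ hss hp35 hbad _ _ (s59psfin_p_mem_SW W hΔ p)
    (fun q hq hbad' => by
      rw [s59psfin_union_SW]
      exact s59fe_bad_mem W hΔ p hq hbad')

/-- the prelude's ordinary condition for `ρ_{W,p}` at the end of (STAGES) -/
theorem s59psfin_ordinary (hss : W.IsSemistableModel) (hp35 : p = 3 ∨ p = 5)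
    (hbad : (p : ℤ) ∣ W.Δ) :
    GaloisRep.ordinaryCondition 𝒪 p (s59feSmin W hΔ p ∪ s59psfinSW W hΔ p)
      (s59feRep W hΔ p φ hφ) :=
  (s59psfin_cond W hΔ p φ hφ hss hp35 hbad).1

/-- the prelude's MINIMAL ordinary condition for `ρ_{W,p}` with the whole set of bad primes:
`det = χ`, ordinary at `p`, unramified outside `Smin ∪ Σ_W`, unipotent on inertia at `q ≠ p`. -/
theorem s59psfin_minimalOrdinary (hss : W.IsSemistableModel) (hp35 : p = 3 ∨ p = 5)
    (hbad : (p : ℤ) ∣ W.Δ) :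
    GaloisRep.minimalOrdinaryCondition 𝒪 p (s59feSmin W hΔ p ∪ s59feSigma W hΔ p)
      (s59feRep W hΔ p φ hφ) := by
  have hp2 : p ≠ 2 := by rcases hp35 with rfl | rfl <;> decide
  have h := s59psfin_ordinary W hΔ p φ hφ hss hp35 hbad
  rw [s59psfin_union_SW] at h
  exact ⟨h, fun q _ hq hne => s59fe_isUnipotentOnInertiaAt W hΔ p φ hφ hss hp2 hq hne⟩

end FinP

end Fermat.Agent.S59
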