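/-
S59, wall M5 = P-STEP (helper5, deputy) — INTERFACE, part 2: KUMMER THEORY AT LEVEL `pⁿ`
(shared with S33-STRICT, helper43).  Ledger: NOTES/S59-M5.md.

`P ⊂ ℚ̄` a valuation subring over the odd prime `p`, `I` its inertia group, `K = ℚ̄^I`,
`I_n = s59psIn P p n = {σ ∈ I : σ = 1 on μ_{pⁿ}} = Gal(ℚ̄ / K(μ_{pⁿ}))`,
`H = s59psPeu P p` (the peu ramifié subgroup, all levels; `S59/PStep/Plan.lean`).

`h : G_ℚ → B` is a plain function into an abelian group killed by `pⁿ` with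
 (add)  `h (σ τ) = h σ + h τ` for `σ, τ ∈ I_n`,
 (cont) `h σ = 0` for `σ ∈ I_n` fixing a finite level `F`,
 (eq)   `h (g σ g⁻¹) = a • h σ` for `g ∈ I` acting on `μ_{pⁿ}` through `ζ ↦ ζ^a`, `σ ∈ I_n`.
(Example: `h σ` = the upper right entry of `ρ σ` modulo `pⁿ A + 𝔪ᵏ`, `ρ` ordinary with `det = χ`, in
an ordinary basis.)

* `s59ps_StmtKum`  (**KUM-n**): then `h σ = 0` for every `σ ∈ I_n` which fixes every `y` with
  `y^{pⁿ} ∈ K`.
  PROOF (by hand, one Hilbert 90).  Let `σ` be as in the statement with `h σ ≠ 0`; take a character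
  `θ : B → μ_{pⁿ}` with `θ (h σ) ≠ 1`.  `I = ⟨g₀⟩ I_n`, `g₀ ↦ a` a generator of the image of `I` in
  `(ℤ/pⁿ)ˣ` (cyclic, `p` odd), `a ≢ 1 mod p` (`S33.exists_inertia_inv_root`).  `h (g₀^m) = 0` if
  `g₀^m ∈ I_n` (from (eq): `(a − 1) h (g₀^m) = 0`).  So `Θ (τ g₀^i) := θ (h τ)` (`τ ∈ I_n`) is a
  well defined 1-COCYCLE `I → μ_{pⁿ} ⊂ ℚ̄ˣ` (`Θ (s t) = Θ s · s (Θ t)`, by (add), (eq)), trivial on an
  open subgroup.  HILBERT 90 (resolvent `y = Σ_{g ∈ I / N₀} Θ g · g c`, Dedekind): `Θ g = g y' / y'`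
  with `y' ∈ ℚ̄ˣ`.  Then `y'^{pⁿ}` is fixed by `I`, so `σ y' = y'`, `θ (h σ) = Θ σ = 1`.  Contradiction.
* `s59ps_StmtKumH` (**KUM-H**, the form which is USED): there is `t ∈ H` (depending on `P, p` only)
  such that for all `n`, `B`, `h` as above:  (cyc) `h σ ∈ ℕ • h t` for `σ ∈ H`, and
  (rel) `h (g σ g⁻¹) = a • h σ` for `σ ∈ H` and `g` in the DECOMPOSITION group acting on `μ_{pⁿ}`
  through `ζ ↦ ζ^a`.
  PROOF from KUM-n: `K^× = U · p^ℤ` (`UNIP.beta0_div_mem`), so `σ ∈ H` with `σ π_n = π_n`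
  (`π_n^{pⁿ} = p`) fixes every `y` with `y^{pⁿ} ∈ K`; `κ_n σ := σ π_n / π_n` is a character of `H`,
  `κ_n (g σ g⁻¹) = κ_n (σ)^a`; `t` := an element of `H` with `κ_{n₁} t ≠ 1`, `n₁` minimal.
-/
import Fermat.Agent.S59.PStep.Plan

set_option autoImplicit false
set_option linter.unusedSectionVars false
set_option linter.unusedVariables false
set_option linter.style.longLine false

noncomputable section

namespace Fermat.Agent.S59

/-- `ℚ̄` -/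
local notation "Qbar" => AlgebraicClosure ℚ

/-- `I_n = Gal(ℚ̄ / K(μ_{pⁿ}))`: the elements of the inertia group of `P` fixing the `pⁿ`-th roots
of unity. -/
def s59psIn (P : ValuationSubring Qbar) (p n : ℕ) : Subgroup S59G where
  carrier := {σ | σ ∈ P.inertiaSubgroupIn ℚ ∧ ∀ ζ : Qbar, ζ ^ p ^ n = 1 → σ ζ = ζ}
  mul_mem' := by
    rintro σ τ ⟨hσ, hσ'⟩ ⟨hτ, hτ'⟩
    refine ⟨mul_mem hσ hτ, fun ζ hζ => ?_⟩
    rw [AlgEquiv.mul_apply, hτ' ζ hζ, hσ' ζ hζ]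
  one_mem' := ⟨one_mem _, fun _ _ => rfl⟩
  inv_mem' := by
    rintro σ ⟨hσ, hσ'⟩
    refine ⟨inv_mem hσ, fun ζ hζ => ?_⟩
    have h := hσ' ζ hζ
    calc σ⁻¹ ζ = σ⁻¹ (σ ζ) := by rw [h]
      _ = ζ := by rw [← AlgEquiv.mul_apply, inv_mul_cancel, AlgEquiv.one_apply]

theorem s59psIn_le (P : ValuationSubring Qbar) (p n : ℕ) :
    s59psIn P p n ≤ P.inertiaSubgroupIn ℚ := fun _ h => h.1

/-- the peu ramifié subgroup is contained in every `I_n` (`1` is a unit fixed by inertia) -/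
theorem s59psPeu_le_In (P : ValuationSubring Qbar) (p n : ℕ) :
    s59psPeu P p ≤ s59psIn P p n := by
  rintro σ ⟨hσ, hσ'⟩
  refine ⟨hσ, fun ζ hζ => hσ' n ζ ?_ ?_ ?_⟩
  · rw [hζ]; exact P.one_mem
  · rw [hζ, inv_one]; exact P.one_mem
  · intro τ _
    rw [hζ, map_one]

/-- The hypotheses (add), (cont), (eq) on `h : G_ℚ → B` at level `n`. -/
structure S59psKumHyp (P : ValuationSubring Qbar) (p n : ℕ) {B : Type} [AddCommGroup B]
    (h : S59G → B) : Prop where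
  kill : ∀ b : B, (p ^ n) • b = 0
  add : ∀ σ ∈ s59psIn P p n, ∀ τ ∈ s59psIn P p n, h (σ * τ) = h σ + h τ
  cont : ∃ F : IntermediateField ℚ Qbar, FiniteDimensional ℚ F ∧
    ∀ σ ∈ s59psIn P p n, σ ∈ F.fixingSubgroup → h σ = 0
  eq : ∀ g ∈ P.inertiaSubgroupIn ℚ, ∀ a : ℕ, (∀ ζ : Qbar, ζ ^ p ^ n = 1 → g ζ = ζ ^ a) →
    ∀ σ ∈ s59psIn P p n, h (g * σ * g⁻¹) = a • h σ

/-- **KUM-n** (Kummer theory at level `pⁿ` over the inertia field): `h` vanishes on the elements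
of `I_n` which fix all the `pⁿ`-th roots of the elements of `K = ℚ̄^I`. -/
def s59ps_StmtKum : Prop :=
  ∀ (p : ℕ) [Fact p.Prime], p ≠ 2 → ∀ P : ValuationSubring Qbar, P.LiesOverPrime p →
  ∀ (n : ℕ) (B : Type) [AddCommGroup B] (h : S59G → B), S59psKumHyp P p n h →
    ∀ σ ∈ s59psIn P p n,
      (∀ y : Qbar, (∀ τ ∈ P.inertiaSubgroupIn ℚ, τ (y ^ p ^ n) = y ^ p ^ n) → σ y = y) →
      h σ = 0

/-- **KUM-H** (the form which is used): on the peu ramifié subgroup `H`, `h` takes its values in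
the multiples of `h t` (`t ∈ H` fixed), and `h (g σ g⁻¹) = a • h σ` for `g` in the DECOMPOSITION
group acting on `μ_{pⁿ}` through `ζ ↦ ζ^a`. -/
def s59ps_StmtKumH : Prop :=
  ∀ (p : ℕ) [Fact p.Prime], p ≠ 2 → ∀ P : ValuationSubring Qbar, P.LiesOverPrime p →
  ∃ t ∈ s59psPeu P p, ∀ (n : ℕ) (B : Type) [AddCommGroup B] (h : S59G → B),
    S59psKumHyp P p n h →
    (∀ σ ∈ s59psPeu P p, ∃ m : ℕ, h σ = m • h t) ∧
    ∀ g ∈ P.decompositionSubgroup ℚ, ∀ a : ℕ, (∀ ζ : Qbar, ζ ^ p ^ n = 1 → g ζ = ζ ^ a) →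
      ∀ σ ∈ s59psPeu P p, h (g * σ * g⁻¹) = a • h σ

/-- **LOCAL-P, ring form** (REL + CYC; what `s59ps_StmtLocalP` needs from Galois theory):
`ρ` over a complete noetherian local ring `A` (`p ∈ 𝔪`, `p` odd), `det = χ`, ordinary at `p`.
Then the ideal `s59psRamX ρ (s59psPeuSet p)` is PRINCIPAL, generated by some `b₀`, and for every
place `P` over `p` with ordinary line `L` and every `g` in the decomposition group of `P` acting on
`V ⧸ L` through the scalar `z`:  `(z² − 1) b₀ = 0`. -/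
def s59ps_StmtLocalRing : Prop :=
  ∀ (p : ℕ) [Fact p.Prime], p ≠ 2 →
  ∀ (A : Type) [CommRing A] [IsLocalRing A] [IsNoetherianRing A]
    [IsAdicComplete (IsLocalRing.maximalIdeal A) A] (ρ : GaloisRepAdic A),
    ρ.DetIsCyclotomic p → ρ.IsOrdinaryAt p →
    ∃ b₀ : A, s59psRamX ρ (s59psPeuSet p) = Ideal.span {b₀} ∧
      ∀ P : ValuationSubring Qbar, P.LiesOverPrime p → ∀ L : Submodule A ρ.V,
        (∃ b : Module.Basis (Fin 2) A ρ.V, L = A ∙ b 0) →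
        (∀ σ ∈ P.decompositionSubgroup ℚ, ∀ v ∈ L, ρ.ρ σ v ∈ L) →
        (∀ σ ∈ P.inertiaSubgroupIn ℚ, ∀ v : ρ.V, ρ.ρ σ v - v ∈ L) →
        ∀ g ∈ P.decompositionSubgroup ℚ, ∀ z : A, (∀ v : ρ.V, ρ.ρ g v - z • v ∈ L) →
          (z ^ 2 - 1) * b₀ = 0

end Fermat.Agent.S59

end
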