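/-
S59, wall M5 = P-STEP (helper5), leaf KUM-n, part 1: the MULTIPLICATIVE CORE.

`E : G_ℚ → ℚ̄` a plain function, multiplicative on `I_n = s59psIn P p n`, with values in `μ_{pⁿ}`,
trivial on `I_n ∩ Gal(ℚ̄/F)` (`F/ℚ` finite), and `E (g τ g⁻¹) = E τ ^ a` for `g ∈ I` acting on
`μ_{pⁿ}` through `ζ ↦ ζ^a`.  If some `g₁ ∈ I` acts on `μ_{pⁿ}` through `a₁` with `(a₁ − 1) c ≡ 1`
modulo `pⁿ`, then `E σ = 1` for every `σ ∈ I_n` fixing all `y` with `y^{pⁿ}` fixed by `I`.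

Proof: `Θ g := E (g₁ g g₁⁻¹ g⁻¹) ^ c` is a 1-cocycle `I → μ_{pⁿ}` extending `E`
(`s59psk_theta_mul`, `s59psk_theta_res`), constant on the cosets of `I ∩ Gal(ℚ̄/M)`, `M ⊇ F(μ_{pⁿ})`
finite Galois; the resolvent `y = Σ_{s ∈ Gal(M/ℚ)} Θ̃ s · s c₀` (Dedekind: `y ≠ 0` for some `c₀`)
satisfies `g y = Θ(g)⁻¹ y`, so `y^{pⁿ}` is fixed by `I`, `σ y = y`, `E σ = Θ σ = 1`.
-/
import Fermat.Agent.S59.PStep.PlanKum

set_option autoImplicit false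
set_option linter.unusedSectionVars false
set_option linter.unusedVariables false
set_option linter.style.longLine false
set_option linter.style.haveILetI false

noncomputable section

namespace Fermat.Agent.S59

/-- `ℚ̄` -/
local notation "Qbar" => AlgebraicClosure ℚ

/-! ### Roots of unity -/

/-- `ζ^m` depends on `m` modulo `N` only. -/
theorem s59psk_pow_congr {ζ : Qbar} {N : ℕ} (hζ : ζ ^ N = 1) {m m' : ℕ} (h : m ≡ m' [MOD N]) :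
    ζ ^ m = ζ ^ m' := by
  have e : ∀ k : ℕ, ζ ^ k = ζ ^ (k % N) := fun k => by
    conv_lhs => rw [← Nat.mod_add_div k N, pow_add, pow_mul, hζ, one_pow, mul_one]
  rw [e m, e m', h]

/-- every automorphism acts on `μ_N` through a power -/
theorem s59psk_exists_exp (N : ℕ) (hN : N ≠ 0) (g : S59G) :
    ∃ a : ℕ, ∀ ζ : Qbar, ζ ^ N = 1 → g ζ = ζ ^ a := by
  haveI : NeZero (N : ℚ) := ⟨Nat.cast_ne_zero.2 hN⟩
  haveI : NeZero N := ⟨hN⟩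
  obtain ⟨ζ₀, hζ₀⟩ := HasEnoughRootsOfUnity.exists_primitiveRoot Qbar N
  have h1 : (g ζ₀) ^ N = 1 := by rw [← map_pow, hζ₀.pow_eq_one, map_one]
  obtain ⟨a, -, ha⟩ := hζ₀.eq_pow_of_pow_eq_one h1
  refine ⟨a, fun ζ hζ => ?_⟩
  obtain ⟨j, -, rfl⟩ := hζ₀.eq_pow_of_pow_eq_one hζ
  rw [map_pow, ← ha, ← pow_mul, ← pow_mul, mul_comm]

/-! ### The group `I_n` -/

section In

variable (P : ValuationSubring Qbar) (p n : ℕ)

/-- the inertia group is normal in the decomposition group: conjugation -/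
theorem s59psk_conj_mem_inertia {g σ : S59G} (hg : g ∈ P.inertiaSubgroupIn ℚ)
    (hσ : σ ∈ P.inertiaSubgroupIn ℚ) : g * σ * g⁻¹ ∈ P.inertiaSubgroupIn ℚ :=
  mul_mem (mul_mem hg hσ) (inv_mem hg)

/-- `I_n` is normalised by `I` (in fact by everything normalising `I`). -/
theorem s59psk_conj_mem_In {g σ : S59G} (hg : g ∈ P.inertiaSubgroupIn ℚ)
    (hσ : σ ∈ s59psIn P p n) : g * σ * g⁻¹ ∈ s59psIn P p n := by
  refine ⟨s59psk_conj_mem_inertia P hg hσ.1, fun ζ hζ => ?_⟩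
  have h1 : (g⁻¹ ζ) ^ p ^ n = 1 := by rw [← map_pow, hζ, map_one]
  rw [AlgEquiv.mul_apply, AlgEquiv.mul_apply, hσ.2 _ h1, ← AlgEquiv.mul_apply, mul_inv_cancel,
    AlgEquiv.one_apply]

/-- commutators of elements of `I` lie in `I_n` -/
theorem s59psk_comm_mem_In (hn : p ^ n ≠ 0) {g₁ g : S59G} (hg₁ : g₁ ∈ P.inertiaSubgroupIn ℚ)
    (hg : g ∈ P.inertiaSubgroupIn ℚ) : g₁ * g * g₁⁻¹ * g⁻¹ ∈ s59psIn P p n := by
  refine ⟨mul_mem (mul_mem (mul_mem hg₁ hg) (inv_mem hg₁)) (inv_mem hg), fun ζ hζ => ?_⟩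
  obtain ⟨a, ha⟩ := s59psk_exists_exp (p ^ n) hn g₁
  obtain ⟨b, hb⟩ := s59psk_exists_exp (p ^ n) hn g
  -- `g₁ g ζ = g g₁ ζ`
  have h1 : g₁ (g ζ) = g (g₁ ζ) := by
    rw [hb ζ hζ, ha ζ hζ, map_pow, map_pow, ha ζ hζ, hb ζ hζ, ← pow_mul, ← pow_mul, mul_comm]
  have h2 : (g₁⁻¹ (g⁻¹ ζ)) ^ p ^ n = 1 := by rw [← map_pow, ← map_pow, hζ, map_one, map_one]
  have h3 : g₁ (g (g₁⁻¹ (g⁻¹ ζ))) = ζ := by
    have := ha _ h2
    have h4 : g (g₁ (g₁⁻¹ (g⁻¹ ζ))) = ζ := by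
      rw [← AlgEquiv.mul_apply g₁, mul_inv_cancel, AlgEquiv.one_apply, ← AlgEquiv.mul_apply,
        mul_inv_cancel, AlgEquiv.one_apply]
    have h5 : g₁ (g (g₁⁻¹ (g⁻¹ ζ))) = g (g₁ (g₁⁻¹ (g⁻¹ ζ))) := by
      rw [hb _ h2, this, map_pow, map_pow, this, hb _ h2, ← pow_mul, ← pow_mul, mul_comm]
    rw [h5, h4]
  -- the commutator `g₁ g g₁⁻¹ g⁻¹` applied to `ζ`
  have h6 : (g₁ * g * g₁⁻¹ * g⁻¹) ζ = g₁ (g (g₁⁻¹ (g⁻¹ ζ))) := by
    simp only [AlgEquiv.mul_apply]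
  rw [h6, h3]

end In

/-! ### The cocycle `Θ` -/

section Theta

variable (P : ValuationSubring Qbar) (p n : ℕ) (E : S59G → Qbar)

/-- The hypotheses on `E` (multiplicative form of `S59psKumHyp`). -/
structure S59pskHyp : Prop where
  mul : ∀ σ ∈ s59psIn P p n, ∀ τ ∈ s59psIn P p n, E (σ * τ) = E σ * E τ
  pow : ∀ σ ∈ s59psIn P p n, E σ ^ p ^ n = 1
  cont : ∃ F : IntermediateField ℚ Qbar, FiniteDimensional ℚ F ∧
    ∀ σ ∈ s59psIn P p n, σ ∈ F.fixingSubgroup → E σ = 1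
  eq : ∀ g ∈ P.inertiaSubgroupIn ℚ, ∀ a : ℕ, (∀ ζ : Qbar, ζ ^ p ^ n = 1 → g ζ = ζ ^ a) →
    ∀ σ ∈ s59psIn P p n, E (g * σ * g⁻¹) = E σ ^ a

variable {P p n E}

theorem S59pskHyp.ne_zero (h : S59pskHyp P p n E) (hn : p ^ n ≠ 0) {σ : S59G}
    (hσ : σ ∈ s59psIn P p n) : E σ ≠ 0 := by
  intro h0
  have := h.pow σ hσ
  rw [h0, zero_pow hn] at this
  exact zero_ne_one this

theorem S59pskHyp.map_one (h : S59pskHyp P p n E) (hn : p ^ n ≠ 0) : E 1 = 1 := by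
  have h1 := h.mul 1 (one_mem _) 1 (one_mem _)
  rw [mul_one] at h1
  have h2 := h.ne_zero hn (one_mem (s59psIn P p n))
  exact (mul_right_cancel₀ h2 (by rw [one_mul]; exact h1)).symm

theorem S59pskHyp.map_inv (h : S59pskHyp P p n E) (hn : p ^ n ≠ 0) {σ : S59G}
    (hσ : σ ∈ s59psIn P p n) : E σ⁻¹ = (E σ)⁻¹ := by
  have h1 := h.mul σ hσ σ⁻¹ (inv_mem hσ)
  rw [mul_inv_cancel, h.map_one hn] at h1
  exact eq_inv_of_mul_eq_one_right h1.symm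

/-- The cocycle `Θ g = E (g₁ g g₁⁻¹ g⁻¹) ^ c`. -/
def s59pskTheta (E : S59G → Qbar) (g₁ : S59G) (c : ℕ) (g : S59G) : Qbar :=
  E (g₁ * g * g₁⁻¹ * g⁻¹) ^ c

theorem s59psk_theta_pow (h : S59pskHyp P p n E) (hn : p ^ n ≠ 0) {g₁ : S59G}
    (hg₁ : g₁ ∈ P.inertiaSubgroupIn ℚ) (c : ℕ) {g : S59G} (hg : g ∈ P.inertiaSubgroupIn ℚ) :
    s59pskTheta E g₁ c g ^ p ^ n = 1 := by
  unfold s59pskTheta
  rw [← pow_mul, mul_comm, pow_mul, h.pow _ (s59psk_comm_mem_In P p n hn hg₁ hg), one_pow]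

theorem s59psk_theta_ne_zero (h : S59pskHyp P p n E) (hn : p ^ n ≠ 0) {g₁ : S59G}
    (hg₁ : g₁ ∈ P.inertiaSubgroupIn ℚ) (c : ℕ) {g : S59G} (hg : g ∈ P.inertiaSubgroupIn ℚ) :
    s59pskTheta E g₁ c g ≠ 0 := by
  intro h0
  have := s59psk_theta_pow h hn hg₁ c hg
  rw [h0, zero_pow hn] at this
  exact zero_ne_one this

/-- `Θ` extends `E`. -/
theorem s59psk_theta_res (h : S59pskHyp P p n E) (hn : p ^ n ≠ 0) {g₁ : S59G}
    (hg₁ : g₁ ∈ P.inertiaSubgroupIn ℚ) {a₁ c : ℕ}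
    (ha₁ : ∀ ζ : Qbar, ζ ^ p ^ n = 1 → g₁ ζ = ζ ^ a₁) (hc : a₁ * c ≡ c + 1 [MOD p ^ n])
    {τ : S59G} (hτ : τ ∈ s59psIn P p n) : s59pskTheta E g₁ c τ = E τ := by
  unfold s59pskTheta
  have h1 : E (g₁ * τ * g₁⁻¹ * τ⁻¹) = E τ ^ a₁ * (E τ)⁻¹ := by
    rw [h.mul _ (s59psk_conj_mem_In P p n hg₁ hτ) _ (inv_mem hτ), h.eq g₁ hg₁ a₁ ha₁ τ hτ,
      h.map_inv hn hτ]
  have h0 := h.ne_zero hn hτ
  rw [h1, mul_pow, ← pow_mul, s59psk_pow_congr (h.pow τ hτ) hc, inv_pow, pow_succ]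
  field_simp

/-- `Θ` is a cocycle. -/
theorem s59psk_theta_mul (h : S59pskHyp P p n E) (hn : p ^ n ≠ 0) {g₁ : S59G}
    (hg₁ : g₁ ∈ P.inertiaSubgroupIn ℚ) (c : ℕ) {g g' : S59G}
    (hg : g ∈ P.inertiaSubgroupIn ℚ) (hg' : g' ∈ P.inertiaSubgroupIn ℚ) {a : ℕ}
    (ha : ∀ ζ : Qbar, ζ ^ p ^ n = 1 → g ζ = ζ ^ a) :
    s59pskTheta E g₁ c (g * g') = s59pskTheta E g₁ c g * s59pskTheta E g₁ c g' ^ a := by
  unfold s59pskTheta
  have e : g₁ * (g * g') * g₁⁻¹ * (g * g')⁻¹ =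
      (g₁ * g * g₁⁻¹ * g⁻¹) * (g * (g₁ * g' * g₁⁻¹ * g'⁻¹) * g⁻¹) := by group
  rw [e, h.mul _ (s59psk_comm_mem_In P p n hn hg₁ hg) _
    (s59psk_conj_mem_In P p n hg (s59psk_comm_mem_In P p n hn hg₁ hg')),
    h.eq g hg a ha _ (s59psk_comm_mem_In P p n hn hg₁ hg'), mul_pow, ← pow_mul, ← pow_mul,
    mul_comm a c]

end Theta

/-! ### The finite Galois level -/

section Level

/-- A finite Galois extension `M/ℚ` containing `F` and a given element `ζ₀`. -/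
theorem s59psk_exists_level (F : IntermediateField ℚ Qbar) (hF : FiniteDimensional ℚ F)
    (ζ₀ : Qbar) :
    ∃ M : IntermediateField ℚ Qbar, FiniteDimensional ℚ M ∧ Normal ℚ M ∧ F ≤ M ∧ ζ₀ ∈ M := by
  haveI : IsAlgClosure ℚ (AlgebraicClosure ℚ) :=
    ⟨inferInstance, AlgebraicClosure.isAlgebraic ℚ⟩
  haveI : Normal ℚ (AlgebraicClosure ℚ) := IsAlgClosure.normal ℚ (AlgebraicClosure ℚ)
  haveI := hF
  haveI : Algebra.IsAlgebraic ℚ Qbar := AlgebraicClosure.isAlgebraic ℚ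
  have hint : IsIntegral ℚ ζ₀ := Algebra.IsIntegral.isIntegral ζ₀
  haveI : FiniteDimensional ℚ (IntermediateField.adjoin ℚ {ζ₀}) :=
    IntermediateField.adjoin.finiteDimensional hint
  let F₁ : IntermediateField ℚ Qbar := F ⊔ IntermediateField.adjoin ℚ {ζ₀}
  haveI : FiniteDimensional ℚ F₁ := IntermediateField.finiteDimensional_sup _ _
  refine ⟨IntermediateField.normalClosure ℚ F₁ (AlgebraicClosure ℚ),
    normalClosure.is_finiteDimensional ℚ F₁ (AlgebraicClosure ℚ),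
    normalClosure.normal ℚ F₁ (AlgebraicClosure ℚ), ?_, ?_⟩
  · exact le_trans le_sup_left (IntermediateField.le_normalClosure F₁)
  · exact IntermediateField.le_normalClosure F₁
      (le_sup_right (a := F) (IntermediateField.mem_adjoin_simple_self ℚ ζ₀))

end Level

/-! ### The resolvent -/

section Resolvent

variable {P : ValuationSubring Qbar} {p n : ℕ} {E : S59G → Qbar}

/-- **KUM-n, multiplicative core.** -/
theorem s59psk_core (h : S59pskHyp P p n E) (hn : p ^ n ≠ 0) {g₁ : S59G}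
    (hg₁ : g₁ ∈ P.inertiaSubgroupIn ℚ) {a₁ c : ℕ}
    (ha₁ : ∀ ζ : Qbar, ζ ^ p ^ n = 1 → g₁ ζ = ζ ^ a₁) (hc : a₁ * c ≡ c + 1 [MOD p ^ n])
    {σ : S59G} (hσ : σ ∈ s59psIn P p n)
    (hfix : ∀ y : Qbar, (∀ τ ∈ P.inertiaSubgroupIn ℚ, τ (y ^ p ^ n) = y ^ p ^ n) → σ y = y) :
    E σ = 1 := by
  classical
  -- the level
  obtain ⟨F, hF, hFE⟩ := h.cont
  haveI : NeZero ((p ^ n : ℕ) : ℚ) := ⟨Nat.cast_ne_zero.2 hn⟩
  haveI : NeZero (p ^ n) := ⟨hn⟩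
  obtain ⟨ζ₀, hζ₀⟩ := HasEnoughRootsOfUnity.exists_primitiveRoot Qbar (p ^ n)
  obtain ⟨M, hMfin, hMn, hFM, hζM⟩ := s59psk_exists_level F hF ζ₀
  haveI := hMfin
  haveI := hMn
  set r : S59G →* (M ≃ₐ[ℚ] M) := AlgEquiv.restrictNormalHom (F := ℚ) (K₁ := Qbar) M with hr
  have hrapp : ∀ (g : S59G) (x : M), ((r g x : M) : Qbar) = g (x : Qbar) := fun g x =>
    AlgEquiv.restrictNormal_commutes g M x
  -- elements of `I` which are trivial on `M`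
  have hker : ∀ τ ∈ P.inertiaSubgroupIn ℚ, r τ = 1 → τ ∈ s59psIn P p n ∧ E τ = 1 := by
    intro τ hτ hτ1
    have hfixM : ∀ x : M, τ (x : Qbar) = x := fun x => by
      rw [← hrapp, hτ1]
      rfl
    have h1 : τ ∈ s59psIn P p n := by
      refine ⟨hτ, fun ζ hζ => ?_⟩
      obtain ⟨j, -, rfl⟩ := hζ₀.eq_pow_of_pow_eq_one hζ
      rw [map_pow, hfixM ⟨ζ₀, hζM⟩]
    refine ⟨h1, hFE τ h1 ?_⟩
    rw [IntermediateField.mem_fixingSubgroup_iff]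
    intro x hx
    exact hfixM ⟨x, hFM hx⟩
  -- the cocycle
  set Θ : S59G → Qbar := s59pskTheta E g₁ c with hΘ
  have hΘpow : ∀ g ∈ P.inertiaSubgroupIn ℚ, Θ g ^ p ^ n = 1 := fun g hg =>
    s59psk_theta_pow h hn hg₁ c hg
  have hΘne : ∀ g ∈ P.inertiaSubgroupIn ℚ, Θ g ≠ 0 := fun g hg =>
    s59psk_theta_ne_zero h hn hg₁ c hg
  have hΘres : ∀ τ ∈ s59psIn P p n, Θ τ = E τ := fun τ hτ =>
    s59psk_theta_res h hn hg₁ ha₁ hc hτ
  have hΘmul : ∀ g ∈ P.inertiaSubgroupIn ℚ, ∀ g' ∈ P.inertiaSubgroupIn ℚ,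
      Θ (g * g') = Θ g * g (Θ g') := by
    intro g hg g' hg'
    obtain ⟨a, ha⟩ := s59psk_exists_exp (p ^ n) hn g
    rw [hΘ, s59psk_theta_mul h hn hg₁ c hg hg' ha, ha _ (hΘpow g' hg')]
  -- `Θ` is constant on the cosets of `I ∩ Gal(ℚ̄/M)`
  have hΘcoset : ∀ g ∈ P.inertiaSubgroupIn ℚ, ∀ g' ∈ P.inertiaSubgroupIn ℚ, r g = r g' →
      Θ g = Θ g' := by
    intro g hg g' hg' hgg'
    have hτ : g'⁻¹ * g ∈ P.inertiaSubgroupIn ℚ := mul_mem (inv_mem hg') hg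
    have hτ1 : r (g'⁻¹ * g) = 1 := by rw [map_mul, map_inv, hgg', inv_mul_cancel]
    obtain ⟨hτn, hEτ⟩ := hker _ hτ hτ1
    have e : g = g' * (g'⁻¹ * g) := by group
    rw [e, hΘmul g' hg' _ hτ, hΘres _ hτn, hEτ, map_one, mul_one]
  -- the coefficients on `Gal(M/ℚ)`
  let Θt : (M ≃ₐ[ℚ] M) → Qbar := fun s =>
    if hs : ∃ g ∈ P.inertiaSubgroupIn ℚ, r g = s then Θ hs.choose else 0
  have hΘt : ∀ g ∈ P.inertiaSubgroupIn ℚ, Θt (r g) = Θ g := by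
    intro g hg
    have hs : ∃ g' ∈ P.inertiaSubgroupIn ℚ, r g' = r g := ⟨g, hg, rfl⟩
    show (if hs : ∃ g' ∈ P.inertiaSubgroupIn ℚ, r g' = r g then Θ hs.choose else 0) = Θ g
    rw [dif_pos hs]
    exact hΘcoset _ hs.choose_spec.1 g hg hs.choose_spec.2
  have hΘt0 : ∀ s : M ≃ₐ[ℚ] M, (¬ ∃ g ∈ P.inertiaSubgroupIn ℚ, r g = s) → Θt s = 0 := by
    intro s hs
    show (if hs : ∃ g' ∈ P.inertiaSubgroupIn ℚ, r g' = s then Θ hs.choose else 0) = 0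
    rw [dif_neg hs]
  haveI : Finite (M ≃ₐ[ℚ] M) := inferInstance
  haveI : Fintype (M ≃ₐ[ℚ] M) := Fintype.ofFinite _
  -- the transformation rule of the coefficients
  have hrule : ∀ g ∈ P.inertiaSubgroupIn ℚ, ∀ s : M ≃ₐ[ℚ] M,
      Θ g * g (Θt s) = Θt (r g * s) := by
    intro g hg s
    by_cases hs : ∃ g' ∈ P.inertiaSubgroupIn ℚ, r g' = s
    · obtain ⟨g', hg', rfl⟩ := hs
      rw [hΘt g' hg', ← map_mul, hΘt _ (mul_mem hg hg'), hΘmul g hg g' hg']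
    · have hs' : ¬ ∃ g' ∈ P.inertiaSubgroupIn ℚ, r g' = r g * s := by
        rintro ⟨g', hg', hgs⟩
        refine hs ⟨g⁻¹ * g', mul_mem (inv_mem hg) hg', ?_⟩
        rw [map_mul, map_inv, hgs, inv_mul_cancel_left]
      rw [hΘt0 s hs, hΘt0 _ hs', map_zero, mul_zero]
  -- the resolvent
  let y : M → Qbar := fun c₀ => ∑ s : M ≃ₐ[ℚ] M, Θt s * ((s c₀ : M) : Qbar)
  have hy : ∀ g ∈ P.inertiaSubgroupIn ℚ, ∀ c₀ : M, Θ g * g (y c₀) = y c₀ := by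
    intro g hg c₀
    show Θ g * g (∑ s : M ≃ₐ[ℚ] M, Θt s * ((s c₀ : M) : Qbar)) =
      ∑ s : M ≃ₐ[ℚ] M, Θt s * ((s c₀ : M) : Qbar)
    rw [map_sum, Finset.mul_sum]
    have e1 : ∀ s : M ≃ₐ[ℚ] M, Θ g * g (Θt s * ((s c₀ : M) : Qbar)) =
        Θt (r g * s) * (((r g * s) c₀ : M) : Qbar) := by
      intro s
      rw [map_mul, ← mul_assoc, hrule g hg s, ← hrapp g (s c₀)]
      rfl
    rw [Finset.sum_congr rfl fun s _ => e1 s]
    exact Fintype.sum_equiv (Equiv.mulLeft (r g)) _ _ fun s => rfl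
  -- Dedekind: the resolvent does not vanish identically
  obtain ⟨c₀, hc₀⟩ : ∃ c₀ : M, y c₀ ≠ 0 := by
    by_contra hall0
    have hall : ∀ c₀ : M, y c₀ = 0 := fun c₀ => by_contra fun hc => hall0 ⟨c₀, hc⟩
    let f : (M ≃ₐ[ℚ] M) → (M →ₐ[ℚ] Qbar) := fun s => (IntermediateField.val M).comp (s : M →ₐ[ℚ] M)
    have hf : Function.Injective f := by
      intro s s' hss'
      ext x
      have := congrArg (fun φ : M →ₐ[ℚ] Qbar => φ x) hss'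
      exact this
    have hli := (linearIndependent_toLinearMap ℚ M Qbar).comp f hf
    have hsum : ∑ s : M ≃ₐ[ℚ] M, Θt s • ((AlgHom.toLinearMap ∘ f) s : M →ₗ[ℚ] Qbar) = 0 := by
      ext c₀
      rw [LinearMap.sum_apply]
      simp only [LinearMap.smul_apply, smul_eq_mul, LinearMap.zero_apply]
      exact hall c₀
    have h0 := Fintype.linearIndependent_iff.1 hli Θt hsum (r 1)
    rw [hΘt 1 (one_mem _)] at h0
    exact hΘne 1 (one_mem _) h0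
  -- conclusion
  have hyfix : ∀ τ ∈ P.inertiaSubgroupIn ℚ, τ (y c₀ ^ p ^ n) = y c₀ ^ p ^ n := by
    intro τ hτ
    have h1 := hy τ hτ c₀
    calc τ (y c₀ ^ p ^ n) = 1 * (τ (y c₀)) ^ p ^ n := by rw [one_mul, map_pow]
      _ = (Θ τ * τ (y c₀)) ^ p ^ n := by rw [mul_pow, hΘpow τ hτ]
      _ = y c₀ ^ p ^ n := by rw [h1]
  have h2 := hfix (y c₀) hyfix
  have h3 := hy σ hσ.1 c₀
  rw [h2, hΘres σ hσ] at h3
  exact mul_right_cancel₀ hc₀ (by rw [one_mul]; exact h3)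

end Resolvent

end Fermat.Agent.S59

end
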