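/-
S59, wall M5 = P-STEP (helper5), leaf KUM-n: `s59psk_kum : s59ps_StmtKum`
(`S59/PStep/PlanKum.lean`; Kummer theory at level `pⁿ` over the inertia field, by ONE Hilbert 90).

From the multiplicative core `s59psk_core` (`S59/PStep/KumCore.lean`):
* `g₁ ∈ I` inverting `μ_p` (`S33.exists_inertia_inv_root`) acts on `μ_{pⁿ}` through `a₁ ≡ −1 mod p`,
  so `(a₁ − 1) c ≡ 1 mod pⁿ` for some `c` (`s59psk_exists_g1`);
* if `h σ ≠ 0`, a character `θ` of the finite group `h (I_n)` with `θ (h σ) ≠ 1`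
  (`CommGroup.exists_apply_ne_one_of_hasEnoughRootsOfUnity`), `E := θ ∘ h`.
-/
import Fermat.Agent.S59.PStep.KumCore
import Fermat.Agent.S33.DetCyclo

set_option autoImplicit false
set_option linter.unusedSectionVars false
set_option linter.unusedVariables false
set_option linter.style.longLine false
set_option linter.style.haveILetI false

noncomputable section

namespace Fermat.Agent.S59

/-- `ℚ̄` -/
local notation "Qbar" => AlgebraicClosure ℚ

/-- `Gal(ℚ̄/F)` has finite index for `F/ℚ` finite (copy of `PT.B.finiteIndex_fixingSubgroup`). -/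
theorem s59psk_finiteIndex_fixingSubgroup (F : IntermediateField ℚ Qbar)
    (hF : FiniteDimensional ℚ F) : F.fixingSubgroup.FiniteIndex := by
  haveI : IsAlgClosure ℚ (AlgebraicClosure ℚ) :=
    ⟨inferInstance, AlgebraicClosure.isAlgebraic ℚ⟩
  haveI : Normal ℚ (AlgebraicClosure ℚ) := IsAlgClosure.normal ℚ (AlgebraicClosure ℚ)
  let L : IntermediateField ℚ Qbar := IntermediateField.normalClosure ℚ F (AlgebraicClosure ℚ)
  haveI hLn : Normal ℚ L := normalClosure.normal ℚ F (AlgebraicClosure ℚ)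
  haveI hLf : FiniteDimensional ℚ L := normalClosure.is_finiteDimensional ℚ F (AlgebraicClosure ℚ)
  have hle : L.fixingSubgroup ≤ F.fixingSubgroup :=
    IntermediateField.fixingSubgroup_antitone (IntermediateField.le_normalClosure F)
  haveI : Finite (L ≃ₐ[ℚ] L) := inferInstance
  haveI : (AlgEquiv.restrictNormalHom (F := ℚ) (K₁ := AlgebraicClosure ℚ) L).ker.FiniteIndex :=
    Subgroup.finiteIndex_ker _
  haveI : L.fixingSubgroup.FiniteIndex := by
    rw [← L.restrictNormalHom_ker]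
    infer_instance
  exact Subgroup.finiteIndex_of_le hle

/-- The element `g₁` of the inertia group and the exponents `a₁`, `c`. -/
theorem s59psk_exists_g1 (p : ℕ) [Fact p.Prime] (hp2 : p ≠ 2) (P : ValuationSubring Qbar)
    (hP : P.LiesOverPrime p) (n : ℕ) (hn : n ≠ 0) :
    ∃ g₁ ∈ P.inertiaSubgroupIn ℚ, ∃ a₁ c : ℕ,
      (∀ ζ : Qbar, ζ ^ p ^ n = 1 → g₁ ζ = ζ ^ a₁) ∧ a₁ * c ≡ c + 1 [MOD p ^ n] := by
  have hp : p.Prime := Fact.out
  have hpn : p ^ n ≠ 0 := pow_ne_zero _ hp.ne_zero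
  obtain ⟨g₁, hg₁, hinv⟩ := Fermat.Agent.S33.exists_inertia_inv_root hp P hP
  obtain ⟨a₁, ha₁⟩ := s59psk_exists_exp (p ^ n) hpn g₁
  -- `p ∣ a₁ + 1`
  haveI : NeZero ((p : ℕ) : ℚ) := ⟨Nat.cast_ne_zero.2 hp.ne_zero⟩
  haveI : NeZero p := ⟨hp.ne_zero⟩
  obtain ⟨ξ, hξ⟩ := HasEnoughRootsOfUnity.exists_primitiveRoot Qbar p
  have hξn : ξ ^ p ^ n = 1 := by
    obtain ⟨m, rfl⟩ := Nat.exists_eq_succ_of_ne_zero hn
    rw [pow_succ', pow_mul, hξ.pow_eq_one, one_pow]
  have hξ0 : ξ ≠ 0 := hξ.ne_zero hp.ne_zero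
  have h1 : ξ ^ (a₁ + 1) = 1 := by
    have e1 := ha₁ ξ hξn
    rw [hinv ξ hξ.pow_eq_one] at e1
    rw [pow_succ, ← e1, inv_mul_cancel₀ hξ0]
  have hdvd : p ∣ a₁ + 1 := hξ.dvd_of_pow_eq_one _ h1
  -- `a₁ − 1` is prime to `p`
  have ha2 : 2 ≤ a₁ := by
    have := Nat.le_of_dvd (Nat.succ_pos _) hdvd
    have hp3 : 3 ≤ p := by
      have := hp.two_le
      omega
    omega
  have hndvd : ¬ p ∣ a₁ - 1 := by
    intro hd
    have h2 : p ∣ (a₁ + 1) - (a₁ - 1) := Nat.dvd_sub hdvd hd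
    have h3 : (a₁ + 1) - (a₁ - 1) = 2 := by omega
    rw [h3] at h2
    have := Nat.le_of_dvd (by norm_num) h2
    have := hp.two_le
    omega
  have hcop : Nat.Coprime (a₁ - 1) (p ^ n) :=
    Nat.Coprime.pow_right n ((Nat.Prime.coprime_iff_not_dvd hp).2 hndvd).symm
  have h1lt : 1 < p ^ n := Nat.one_lt_pow hn hp.one_lt
  obtain ⟨c, -, hc⟩ := Nat.exists_mul_mod_eq_one_of_coprime hcop h1lt
  refine ⟨g₁, hg₁, a₁, c, ha₁, ?_⟩
  have e : a₁ * c = (a₁ - 1) * c + c := by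
    have : a₁ = (a₁ - 1) + 1 := by omega
    conv_lhs => rw [this, add_mul, one_mul]
  rw [e, add_comm c 1]
  refine Nat.ModEq.add_right c ?_
  show (a₁ - 1) * c % p ^ n = 1 % p ^ n
  rw [hc, Nat.mod_eq_of_lt h1lt]

/-- **KUM-n** (`s59ps_StmtKum`, `S59/PStep/PlanKum.lean`). -/
theorem s59psk_kum : s59ps_StmtKum := by
  classical
  intro p _ hp2 P hP n B _ h hyp σ hσ hfix
  have hp : p.Prime := Fact.out
  have hpn : p ^ n ≠ 0 := pow_ne_zero _ hp.ne_zero
  by_cases hn : n = 0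
  · have := hyp.kill (h σ)
    rwa [hn, pow_zero, one_smul] at this
  by_contra hne
  obtain ⟨g₁, hg₁, a₁, c, ha₁, hc⟩ := s59psk_exists_g1 p hp2 P hP n hn
  -- the homomorphism `I_n → Multiplicative B`
  let hm : ↥(s59psIn P p n) →* Multiplicative B :=
    { toFun := fun τ => Multiplicative.ofAdd (h (τ : S59G))
      map_one' := by
        have h1 := hyp.add 1 (one_mem _) 1 (one_mem _)
        rw [mul_one] at h1
        have h2 : h (1 : S59G) = 0 := by
          have := congrArg (fun b => b - h (1 : S59G)) h1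
          simpa using this.symm
        show Multiplicative.ofAdd (h ((1 : ↥(s59psIn P p n)) : S59G)) = 1
        rw [Subgroup.coe_one, h2]
        rfl
      map_mul' := fun τ τ' => by
        show Multiplicative.ofAdd (h ((τ * τ' : ↥(s59psIn P p n)) : S59G)) = _
        rw [Subgroup.coe_mul, hyp.add _ τ.2 _ τ'.2]
        rfl }
  have hmapp : ∀ τ : ↥(s59psIn P p n), hm τ = Multiplicative.ofAdd (h (τ : S59G)) := fun _ => rfl
  -- the range is finite
  obtain ⟨F, hF, hFh⟩ := hyp.cont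
  haveI := s59psk_finiteIndex_fixingSubgroup F hF
  have hle : F.fixingSubgroup.subgroupOf (s59psIn P p n) ≤ hm.ker := by
    intro τ hτ
    rw [MonoidHom.mem_ker, hmapp, hFh τ τ.2 (Subgroup.mem_subgroupOf.1 hτ)]
    rfl
  haveI : hm.ker.FiniteIndex := Subgroup.finiteIndex_of_le hle
  haveI : Finite (↥(s59psIn P p n) ⧸ hm.ker) := Subgroup.finite_quotient_of_finiteIndex
  haveI : Finite ↥hm.range := Finite.of_equiv _ (QuotientGroup.quotientKerEquivRange hm).toEquiv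
  -- the character
  have hexp : Monoid.exponent ↥hm.range ≠ 0 := Monoid.exponent_ne_zero_of_finite
  haveI : NeZero ((Monoid.exponent ↥hm.range : ℕ) : ℚ) := ⟨Nat.cast_ne_zero.2 hexp⟩
  have hσ1 : hm.rangeRestrict ⟨σ, hσ⟩ ≠ 1 := by
    intro h1
    have h2 : hm ⟨σ, hσ⟩ = 1 := congrArg Subtype.val h1
    rw [hmapp] at h2
    exact hne (Multiplicative.ofAdd.injective h2)
  obtain ⟨θ, hθ⟩ := CommGroup.exists_apply_ne_one_of_hasEnoughRootsOfUnity (↥hm.range) Qbar hσ1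
  let ε : ↥(s59psIn P p n) →* Qbarˣ := θ.comp hm.rangeRestrict
  have hεcongr : ∀ x x' : ↥(s59psIn P p n), hm x = hm x' → ε x = ε x' := by
    intro x x' hxx'
    show θ (hm.rangeRestrict x) = θ (hm.rangeRestrict x')
    congr 1
    exact Subtype.ext hxx'
  have hmpow : ∀ (x : ↥(s59psIn P p n)) (k : ℕ),
      hm (x ^ k) = Multiplicative.ofAdd (k • h (x : S59G)) := by
    intro x k
    rw [map_pow, hmapp, ← ofAdd_nsmul]
  -- the function `E`
  let E : S59G → Qbar := fun τ =>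
    if hτ : τ ∈ s59psIn P p n then ((ε ⟨τ, hτ⟩ : Qbarˣ) : Qbar) else 1
  have hE : ∀ (τ : S59G) (hτ : τ ∈ s59psIn P p n),
      E τ = ((ε ⟨τ, hτ⟩ : Qbarˣ) : Qbar) := fun τ hτ => dif_pos hτ
  have hEhyp : S59pskHyp P p n E := by
    refine ⟨fun τ hτ τ' hτ' => ?_, fun τ hτ => ?_, ⟨F, hF, fun τ hτ hτF => ?_⟩,
      fun g hg a ha τ hτ => ?_⟩
    · rw [hE _ (mul_mem hτ hτ'), hE τ hτ, hE τ' hτ', ← Units.val_mul, ← map_mul]
      rfl
    · rw [hE τ hτ, ← Units.val_pow_eq_pow_val, ← map_pow]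
      have h1 : ε (⟨τ, hτ⟩ ^ p ^ n) = ε 1 := by
        apply hεcongr
        rw [hmpow, hyp.kill, map_one]
        rfl
      rw [h1, map_one, Units.val_one]
    · rw [hE τ hτ]
      have h1 : ε ⟨τ, hτ⟩ = ε 1 := by
        apply hεcongr
        rw [hmapp, map_one, hFh τ hτ hτF]
        rfl
      rw [h1, map_one, Units.val_one]
    · have hc' := s59psk_conj_mem_In P p n hg hτ
      rw [hE _ hc', hE τ hτ, ← Units.val_pow_eq_pow_val, ← map_pow]
      congr 1
      apply hεcongr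
      rw [hmpow, hmapp]
      exact congrArg _ (hyp.eq g hg a ha τ hτ)
  have h1 := s59psk_core hEhyp hpn hg₁ ha₁ hc hσ hfix
  rw [hE σ hσ] at h1
  exact hθ (Units.ext h1)

end Fermat.Agent.S59

end
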