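import Mathlib

/-!
# S59, wall M5 = P-STEP, leaf ALG-C (helper42)

`𝒪` a local ring, `p ∈ 𝔪_𝒪`, `α` a unit with `α² − a α + p = 0` (the unit root of the Hecke
polynomial `X² − a X + p` at `p`).  Then

  `a² − (p + 1)² = (α² − 1) · u²`,   `u² · α² = α² − p²`,   `α² − p²` a unit,

so `(α² − 1) = (a² − (p + 1)²) = ((p + 1)² − a²)` as ideals of `𝒪`, and the quotients
`𝒪 ⧸ (α² − 1)`, `𝒪 ⧸ (a² − (p + 1)²)` have the same length.

* `s59psac_key`      : `(a² − (p + 1)²) α² = (α² − 1) (α² − p²)`;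
* `s59psac_unit`     : `α² − p²` is a unit;
* `s59psac_span`     : `span {α² − 1} = span {a² − (p + 1)²}`;
* `s59psac_span'`    : `span {α² − 1} = span {(p + 1)² − a²}`;
* `s59psac_length`   : the lengths of the quotients agree;
* `s59psac_ne_zero`  : `α² − 1 ≠ 0 ↔ a² − (p + 1)² ≠ 0`;
* `s59psac_exists_unique_root` is NOT claimed here (Hensel): only the algebra.
-/

set_option autoImplicit false

namespace Fermat.Agent.S59

open IsLocalRing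

section

variable {𝒪 : Type*} [CommRing 𝒪]

/-- the key identity: `(a² − (p + 1)²) α² = (α² − 1) (α² − p²)` when `α² − a α + p = 0`. -/
theorem s59psac_key (p α a : 𝒪) (h : α ^ 2 - a * α + p = 0) :
    (a ^ 2 - (p + 1) ^ 2) * α ^ 2 = (α ^ 2 - 1) * (α ^ 2 - p ^ 2) := by
  have h1 : a * α = α ^ 2 + p := by linear_combination -h
  have h2 : a ^ 2 * α ^ 2 = (α ^ 2 + p) ^ 2 := by rw [← h1]; ring
  linear_combination h2

/-- the two linear factors: `(a − (p + 1)) α = (α − 1) (α − p)`. -/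
theorem s59psac_key_sub (p α a : 𝒪) (h : α ^ 2 - a * α + p = 0) :
    (a - (p + 1)) * α = (α - 1) * (α - p) := by
  linear_combination -h

/-- the two linear factors: `(a + (p + 1)) α = (α + 1) (α + p)`. -/
theorem s59psac_key_add (p α a : 𝒪) (h : α ^ 2 - a * α + p = 0) :
    (a + (p + 1)) * α = (α + 1) * (α + p) := by
  linear_combination -h

variable [IsLocalRing 𝒪]

/-- `α² − p²` is a unit when `α` is a unit and `p ∈ 𝔪`. -/
theorem s59psac_unit (p α : 𝒪) (hp : p ∈ maximalIdeal 𝒪) (hα : IsUnit α) :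
    IsUnit (α ^ 2 - p ^ 2) := by
  by_contra hu
  have hm : α ^ 2 - p ^ 2 ∈ maximalIdeal 𝒪 := (mem_maximalIdeal _).2 hu
  have hp2 : p ^ 2 ∈ maximalIdeal 𝒪 := Ideal.pow_mem_of_mem _ hp 2 (by norm_num)
  have hα2 : α ^ 2 ∈ maximalIdeal 𝒪 := by
    have := Ideal.add_mem _ hm hp2
    rwa [sub_add_cancel] at this
  exact (mem_maximalIdeal _).1 hα2 (hα.pow 2)

/-- `α − p` and `α + p` are units. -/
theorem s59psac_unit_sub (p α : 𝒪) (hp : p ∈ maximalIdeal 𝒪) (hα : IsUnit α) :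
    IsUnit (α - p) := by
  by_contra hu
  have hm : α - p ∈ maximalIdeal 𝒪 := (mem_maximalIdeal _).2 hu
  have hα2 : α ∈ maximalIdeal 𝒪 := by
    have := Ideal.add_mem _ hm hp
    rwa [sub_add_cancel] at this
  exact (mem_maximalIdeal _).1 hα2 hα

theorem s59psac_unit_add (p α : 𝒪) (hp : p ∈ maximalIdeal 𝒪) (hα : IsUnit α) :
    IsUnit (α + p) := by
  have := s59psac_unit_sub (-p) α (neg_mem hp) hα
  rwa [sub_neg_eq_add] at this

/-- **ALG-C**, associated form: `a² − (p + 1)² = (α² − 1) · v` with `v` a unit. -/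
theorem s59psac_assoc (p α a : 𝒪) (hp : p ∈ maximalIdeal 𝒪) (hα : IsUnit α)
    (h : α ^ 2 - a * α + p = 0) :
    ∃ v : 𝒪ˣ, a ^ 2 - (p + 1) ^ 2 = (α ^ 2 - 1) * (v : 𝒪) := by
  obtain ⟨u, hu⟩ := s59psac_unit p α hp hα
  obtain ⟨w, hw⟩ := hα.pow 2
  refine ⟨u * w⁻¹, ?_⟩
  have hk := s59psac_key p α a h
  rw [← hu, ← hw] at hk
  have hw1 : (w : 𝒪) * ((w⁻¹ : 𝒪ˣ) : 𝒪) = 1 := by
    rw [← Units.val_mul, mul_inv_cancel, Units.val_one]
  calc a ^ 2 - (p + 1) ^ 2 = (a ^ 2 - (p + 1) ^ 2) * ((w : 𝒪) * ((w⁻¹ : 𝒪ˣ) : 𝒪)) := by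
        rw [hw1, mul_one]
    _ = ((a ^ 2 - (p + 1) ^ 2) * (w : 𝒪)) * ((w⁻¹ : 𝒪ˣ) : 𝒪) := by ring
    _ = ((α ^ 2 - 1) * (u : 𝒪)) * ((w⁻¹ : 𝒪ˣ) : 𝒪) := by rw [hk, hw]
    _ = (α ^ 2 - 1) * ((u * w⁻¹ : 𝒪ˣ) : 𝒪) := by rw [Units.val_mul]; ring

/-- **ALG-C**: `span {α² − 1} = span {a² − (p + 1)²}`. -/
theorem s59psac_span (p α a : 𝒪) (hp : p ∈ maximalIdeal 𝒪) (hα : IsUnit α)
    (h : α ^ 2 - a * α + p = 0) :
    Ideal.span {α ^ 2 - 1} = Ideal.span {a ^ 2 - (p + 1) ^ 2} := by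
  obtain ⟨v, hv⟩ := s59psac_assoc p α a hp hα h
  rw [hv]
  exact (Ideal.span_singleton_mul_right_unit v.isUnit _).symm

/-- **ALG-C**, with the sign of `c_p = (p + 1)² − a²`. -/
theorem s59psac_span' (p α a : 𝒪) (hp : p ∈ maximalIdeal 𝒪) (hα : IsUnit α)
    (h : α ^ 2 - a * α + p = 0) :
    Ideal.span {α ^ 2 - 1} = Ideal.span {(p + 1) ^ 2 - a ^ 2} := by
  rw [s59psac_span p α a hp hα h, ← Ideal.span_singleton_neg, neg_sub]

/-- `α² − 1 = 0 ↔ a² − (p + 1)² = 0`. -/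
theorem s59psac_eq_zero_iff (p α a : 𝒪) (hp : p ∈ maximalIdeal 𝒪) (hα : IsUnit α)
    (h : α ^ 2 - a * α + p = 0) :
    α ^ 2 - 1 = 0 ↔ a ^ 2 - (p + 1) ^ 2 = 0 := by
  have hs := s59psac_span p α a hp hα h
  constructor
  · intro h0
    rw [h0, Ideal.span_singleton_eq_bot.2 rfl] at hs
    exact Ideal.span_singleton_eq_bot.1 hs.symm
  · intro h0
    rw [h0, Ideal.span_singleton_eq_bot.2 rfl] at hs
    exact Ideal.span_singleton_eq_bot.1 hs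

theorem s59psac_ne_zero_iff (p α a : 𝒪) (hp : p ∈ maximalIdeal 𝒪) (hα : IsUnit α)
    (h : α ^ 2 - a * α + p = 0) :
    α ^ 2 - 1 ≠ 0 ↔ a ^ 2 - (p + 1) ^ 2 ≠ 0 :=
  not_congr (s59psac_eq_zero_iff p α a hp hα h)

end

section Length

variable {𝒪 : Type} [CommRing 𝒪] [IsLocalRing 𝒪]

/-- **ALG-C**, lengths: `length (𝒪 ⧸ (α² − 1)) = length (𝒪 ⧸ (a² − (p + 1)²))`. -/
theorem s59psac_length (p α a : 𝒪) (hp : p ∈ maximalIdeal 𝒪) (hα : IsUnit α)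
    (h : α ^ 2 - a * α + p = 0) :
    Module.length 𝒪 (𝒪 ⧸ Ideal.span {α ^ 2 - 1}) =
      Module.length 𝒪 (𝒪 ⧸ Ideal.span {a ^ 2 - (p + 1) ^ 2}) := by
  rw [s59psac_span p α a hp hα h]

/-- **ALG-C**, lengths, with the sign of `c_p = (p + 1)² − a²`. -/
theorem s59psac_length' (p α a : 𝒪) (hp : p ∈ maximalIdeal 𝒪) (hα : IsUnit α)
    (h : α ^ 2 - a * α + p = 0) :
    Module.length 𝒪 (𝒪 ⧸ Ideal.span {α ^ 2 - 1}) =
      Module.length 𝒪 (𝒪 ⧸ Ideal.span {(p + 1) ^ 2 - a ^ 2}) := by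
  rw [s59psac_span' p α a hp hα h]

/-- the natural-number form: `p : ℕ` cast into `𝒪`. -/
theorem s59psac_length_nat (p : ℕ) (α a : 𝒪) (hp : (p : 𝒪) ∈ maximalIdeal 𝒪) (hα : IsUnit α)
    (h : α ^ 2 - a * α + (p : 𝒪) = 0) :
    Module.length 𝒪 (𝒪 ⧸ Ideal.span {α ^ 2 - 1}) =
      Module.length 𝒪 (𝒪 ⧸ Ideal.span {a ^ 2 - ((p : 𝒪) + 1) ^ 2}) :=
  s59psac_length (p : 𝒪) α a hp hα h

end Length

end Fermat.Agent.S59
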