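/-
S59, wall M5 = P-STEP, leaf HGD-ORD-P (helper44).  Ledger: NOTES/S59-M5.md.

THE TYPE OF `H.ρ` AT A LEVEL `N` WITH `p ∥ N`.  `H` a Hecke–Galois datum of level `N`
(away from `S = Smin ∪ Sg`, `p ∈ Sg`), residually equivalent to `ρ̄ ⊗ k_T`, `ρ̄` ORDINARY at `p`:
then `H.ρ` is ordinary at `p` (S33 ✓) and, with S34 ✓, of the non-strict ordinary type
`s59psCond 𝒪 p Smin Sg` of the `p`-step (the "peu ramifié" clause is void because `p ∈ Sg`).

* `s59pshop_residual`        : ordinary ⇒ the residual representation is ordinary;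
* `s59pshop_baseChangeAlong` : ordinarity of residual representations passes to field extensions;
* `s59pshop_isEquiv`         : ... and through equivalences;
* `s59pshop_main`            : **HGD-ORD-P**: `H.ρ.IsOrdinaryAt p` (`p ∥ N`, `ρ̄` ordinary at `p`);
* `s59pshop_cond`            : the type `s59psCond 𝒪 p Smin Sg H.ρ` (the `htype` of the `p`-step);
* `s59pshop_feBar`           : `ρ̄ = s59feBar W` is ordinary at `p` (`W` multiplicative at
                               `p ∈ {3, 5}`), so the hypothesis `hord` holds in case (c).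

(Imports the LEAF modules of S33 and S34, NOT the roots `Fermat.Agent.S33`, `Fermat.Agent.S34`:
request of the ZB captain, the roots become bundle-rooted at the switch.)

Sorry-free; axioms: propext, Classical.choice, Quot.sound.
-/
import Fermat.Agent.S33.OfWild
import Fermat.Agent.S33.WildFinal
import Fermat.Agent.S34.OfInputs
import Fermat.Agent.INJ.InjAll
import Fermat.Agent.ES.TorsionUnifProved
import Fermat.Agent.UNIP.MGChartsBeta0All
import Fermat.Agent.TW.Res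
import Fermat.Agent.S59.PStep.Plan
import Fermat.Agent.S59.FinE

set_option autoImplicit false
set_option linter.unusedSectionVars false
set_option linter.unusedVariables false
set_option linter.style.longLine false

noncomputable section

namespace Fermat.Agent.S59

open IsLocalRing Fermat.Agent.TW Fermat.Agent.EC
open scoped TensorProduct

section Res

/-- the residual representation of an ordinary representation is ordinary -/
theorem s59pshop_residual {A : Type} [CommRing A] [IsLocalRing A] (ρ : GaloisRepAdic A) (p : ℕ)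
    (h : ρ.IsOrdinaryAt p) : (GaloisRepAdic.ofResidualGaloisRep ρ.residual).IsOrdinaryAt p := by
  intro P hP
  exact @twbc_aux_ord A (ResidueField A) _ _ _ _ _ ρ.V _ _ ρ.ρ
    (P.decompositionSubgroup ℚ : Set (AlgebraicClosure ℚ ≃ₐ[ℚ] AlgebraicClosure ℚ))
    (P.inertiaSubgroupIn ℚ : Set (AlgebraicClosure ℚ ≃ₐ[ℚ] AlgebraicClosure ℚ)) (h P hP)

/-- ordinarity of a residual representation passes to an extension of the coefficient field -/
theorem s59pshop_baseChangeAlong {k K : Type} [Field k] [Field K] (ι : k →+* K)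
    (ρ : ResidualGaloisRep k) (p : ℕ)
    (h : (GaloisRepAdic.ofResidualGaloisRep ρ).IsOrdinaryAt p) :
    (GaloisRepAdic.ofResidualGaloisRep (ρ.baseChangeAlong ι)).IsOrdinaryAt p := by
  intro P hP
  exact @twbc_aux_ord k K _ _ ι.toAlgebra _ _ ρ.V _ _ ρ.ρ
    (P.decompositionSubgroup ℚ : Set (AlgebraicClosure ℚ ≃ₐ[ℚ] AlgebraicClosure ℚ))
    (P.inertiaSubgroupIn ℚ : Set (AlgebraicClosure ℚ ≃ₐ[ℚ] AlgebraicClosure ℚ)) (h P hP)

/-- ordinarity of a residual representation passes through equivalences -/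
theorem s59pshop_isEquiv {k : Type} [Field k] {ρ ρ' : ResidualGaloisRep k} (h : ρ.IsEquiv ρ')
    (p : ℕ) (hρ : (GaloisRepAdic.ofResidualGaloisRep ρ').IsOrdinaryAt p) :
    (GaloisRepAdic.ofResidualGaloisRep ρ).IsOrdinaryAt p := by
  obtain ⟨e⟩ := h
  have e' : GaloisRepAdic.Equiv (GaloisRepAdic.ofResidualGaloisRep ρ')
      (GaloisRepAdic.ofResidualGaloisRep ρ) :=
    { toLinearEquiv := e.symm.toLinearEquiv
      map_apply := e.symm.map_apply }
  exact tweq_isOrdinaryAt ⟨e'⟩ p hρ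

/-- the same, in the other direction -/
theorem s59pshop_isEquiv' {k : Type} [Field k] {ρ ρ' : ResidualGaloisRep k} (h : ρ.IsEquiv ρ')
    (p : ℕ) (hρ : (GaloisRepAdic.ofResidualGaloisRep ρ).IsOrdinaryAt p) :
    (GaloisRepAdic.ofResidualGaloisRep ρ').IsOrdinaryAt p := by
  obtain ⟨e⟩ := h
  exact s59pshop_isEquiv ⟨e.symm⟩ p hρ

end Res

section Main

variable {p : ℕ} {N : ℕ} [NeZero N] {S : Finset ℕ}
  {𝒪 : Type} [CommRing 𝒪] [IsDomain 𝒪] [IsDiscreteValuationRing 𝒪]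
  [IsAdicComplete (maximalIdeal 𝒪) 𝒪]
  {θ : CuspForm.heckeAlgebra N 2 (↑S : Set ℕ) →+* ResidueField 𝒪}
  {T : Type} [CommRing T] [IsLocalRing T] [IsNoetherianRing T]
  [IsAdicComplete (maximalIdeal T) T] [Algebra 𝒪 T] [IsLocalHom (algebraMap 𝒪 T)]
  [Module.Finite 𝒪 T] [Module.Free 𝒪 T]

/-- **HGD-ORD-P.**  `H` a Hecke–Galois datum of a level `N` with `p ∥ N`, `p` odd, residually
equivalent to (the extension of scalars of) `ρ̄`, `ρ̄` ordinary at `p`: `H.ρ` is ordinary at `p`. -/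
theorem s59pshop_main [Finite (ResidueField 𝒪)] [CharZero 𝒪]
    (hp : p.Prime) (hp2 : p ≠ 2) (hp𝒪 : (p : 𝒪) ∈ maximalIdeal 𝒪) (hN : p ∣ N ∧ ¬ p ^ 2 ∣ N)
    (hNS : ∀ q : ℕ, q.Prime → q ∣ N → q ∈ S)
    (H : CuspForm.HeckeGaloisRepDatum N (↑S : Set ℕ) 𝒪 θ T)
    (ρbar : ResidualGaloisRep (ResidueField 𝒪))
    (hord : (GaloisRepAdic.ofResidualGaloisRep ρbar).IsOrdinaryAt p)
    (hres : H.ρ.residual.IsEquiv (ρbar.baseChangeAlong (ResidueField.map (algebraMap 𝒪 T)))) :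
    H.ρ.IsOrdinaryAt p :=
  Fermat.Agent.S33.s33_of_wild Fermat.Agent.S33.stmtWildT hp hp2 hp𝒪 hN hNS H
    (s59pshop_isEquiv hres p (s59pshop_baseChangeAlong _ ρbar p hord))

end Main

section Cond

variable {p : ℕ} {N : ℕ} [NeZero N] {Smin Sg : Finset ℕ}
  {𝒪 : Type} [CommRing 𝒪] [IsDomain 𝒪] [IsDiscreteValuationRing 𝒪]
  [IsAdicComplete (maximalIdeal 𝒪) 𝒪]
  {θ : CuspForm.heckeAlgebra N 2 (↑(Smin ∪ Sg) : Set ℕ) →+* ResidueField 𝒪}
  {T : Type} [CommRing T] [IsLocalRing T] [IsNoetherianRing T]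
  [IsAdicComplete (maximalIdeal T) T] [Algebra 𝒪 T] [IsLocalHom (algebraMap 𝒪 T)]
  [Module.Finite 𝒪 T] [Module.Free 𝒪 T]

/-- **The type of `H.ρ` after the `p`-step** (`htype`): `H` of level `N`, `p ∥ N`, away from
`Smin ∪ Sg` with `p ∈ Sg`; the primes `q ≠ p` of `Smin` divide `N` exactly once; `ρ̄` ordinary at
`p`.  Then `H.ρ` is of type `s59psCond 𝒪 p Smin Sg`.  (Inputs `hdetH`, `hres`, `hunr` are the
outputs of `s59hgd_main`.) -/
theorem s59pshop_cond [Finite (ResidueField 𝒪)] [CharZero 𝒪]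
    (hp : p.Prime) (hp2 : p ≠ 2) (hp𝒪 : (p : 𝒪) ∈ maximalIdeal 𝒪) (hN : p ∣ N ∧ ¬ p ^ 2 ∣ N)
    (hpSg : p ∈ Sg)
    (hNS : ∀ q : ℕ, q.Prime → q ∣ N → q ∈ Smin ∪ Sg)
    (hSmin : ∀ q ∈ Smin, q.Prime → q ≠ p → q ∣ N ∧ ¬ q ^ 2 ∣ N)
    (H : CuspForm.HeckeGaloisRepDatum N (↑(Smin ∪ Sg) : Set ℕ) 𝒪 θ T)
    (ρbar : ResidualGaloisRep (ResidueField 𝒪))
    (hord : (GaloisRepAdic.ofResidualGaloisRep ρbar).IsOrdinaryAt p)
    (hdetH : H.ρ.DetIsCyclotomic p)
    (hres : H.ρ.residual.IsEquiv (ρbar.baseChangeAlong (ResidueField.map (algebraMap 𝒪 T))))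
    (hunr : ∀ q : ℕ, q.Prime → ¬ q ∣ N * p → H.ρ.IsUnramifiedAt q) :
    s59psCond 𝒪 p Smin Sg H.ρ := by
  have hpS : p ∈ Smin ∪ Sg := Finset.mem_union_right _ hpSg
  refine ⟨⟨hdetH, s59pshop_main hp hp2 hp𝒪 hN hNS H ρbar hord hres, fun ℓ hℓ hℓS => ?_⟩,
    fun h => absurd hpSg h, fun q hq hqp hne => ?_⟩
  · refine hunr ℓ hℓ fun hd => ?_
    rcases (Nat.Prime.dvd_mul hℓ).1 hd with h1 | h1
    · exact hℓS (hNS ℓ hℓ h1)
    · rw [(Nat.prime_dvd_prime_iff_eq hℓ hp).1 h1] at hℓS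
      exact hℓS hpS
  · exact Fermat.Agent.S34.s34_of_inputs Fermat.Agent.INJ.injAll_stmtINJAll
      Fermat.Agent.UNIP.mgcb_stmtUnipKummer hp hp𝒪 (Fermat.Agent.ES.torsionUnif_proved N p hp.pos)
      hpS hNS H q hqp hne (hSmin q hq hqp hne).1 (hSmin q hq hqp hne).2

end Cond

section Bar

variable (W : WeierstrassCurve ℤ) (hΔ : W.Δ ≠ 0) (p : ℕ) [hp : Fact p.Prime]
variable {𝒪 : Type} [CommRing 𝒪] [IsLocalRing 𝒪] (φ : ℤ_[p] →+* 𝒪) (hφ : IsLocalHom φ)

/-- the residual representation `E[p]` of a curve with multiplicative reduction at `p ∈ {3, 5}`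
is ordinary at `p` -/
theorem s59pshop_tateRes (hp35 : p = 3 ∨ p = 5) (hbad : (p : ℤ) ∣ W.Δ)
    (hc₄ : ¬ (p : ℤ) ∣ W.c₄) :
    (GaloisRepAdic.ofResidualGaloisRep (tateRepInt W hΔ p).residual).IsOrdinaryAt p :=
  s59pshop_residual _ p (tateRepInt_isStrictOrdinaryAt W hΔ p hp35 hbad hc₄).isOrdinaryAt

/-- **`ρ̄ = s59feBar W` is ordinary at `p`** (`W` multiplicative at `p ∈ {3, 5}`). -/
theorem s59pshop_feBar (hp35 : p = 3 ∨ p = 5) (hbad : (p : ℤ) ∣ W.Δ)
    (hc₄ : ¬ (p : ℤ) ∣ W.c₄) :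
    (GaloisRepAdic.ofResidualGaloisRep (s59feBar W hΔ p φ hφ)).IsOrdinaryAt p :=
  s59pshop_baseChangeAlong _ _ p (s59pshop_tateRes W hΔ p hp35 hbad hc₄)

/-- the same for a semistable `W` -/
theorem s59pshop_feBar_of_semistable (hss : W.IsSemistableModel) (hp35 : p = 3 ∨ p = 5)
    (hbad : (p : ℤ) ∣ W.Δ) :
    (GaloisRepAdic.ofResidualGaloisRep (s59feBar W hΔ p φ hφ)).IsOrdinaryAt p :=
  s59pshop_feBar W hΔ p φ hφ hp35 hbad (hss p hp.out hbad)

end Bar

end Fermat.Agent.S59
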