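/-
S59, wall M5 (P-STEP), piece **P-STEP ASSEMBLY** (helper76): THE STEP of Wiles' induction for the
conditions `𝒟 Σ = s59psCond 𝒪 p Smin Σ` of the `p`-step (case (c): `W` multiplicative at `p`, `ρ̄`
peu ramifié at `p`), for `Σ ⊆ SW = insert p Σ_W` in ANY order.  Twin of `s59tops_step_flat`
(`S59/TopStep.lean`).

* `s59pstp_level N0 p Σ = N₀ · ∏_{q ∈ Σ ∖ p} q² · (p if p ∈ Σ)` and its arithmetic;
* `S59R2DataP` : the interface of R2 with the `p`-step (`nextP`, `stepP`: `J_{N p}(x') ≤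
  ((p + 1)² − ψ(p)²) · J_N(x)`, `p ∤ N`);
* `s59pstp_inv` : the invariant of a stage;
* `s59pstp_build` : a stage with the invariant from a good state of R2 of level `level Σ'`
  (HGD ✓, HGD-ORD-P ✓ when `p ∈ Σ'`, HGD-ORD/PEU (hypothesis `hHgd`) when `p ∉ Σ'`, S34 ✓, S54 ✓,
  DEF-COND (`hD`), CAR (`hcar`), E-BIG (`hBig`));
* `s59pstp_unitRoot_of_isEquiv` : the unit root passes through equivalences;
* **`s59pstp_step`** : THE STEP, three cases: `q ≠ p` (SEL-Q ✓ + R2 `step`), `q = p`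
  (SEL-P (hypothesis `hselP`, ⇐ LOCAL-P) + ALG-C ✓ + R2 `stepP` + LG-P (hypotheses `α`, `hα`)).
-/
import Fermat.Agent.S59.TopStep
import Fermat.Agent.S59.PStep.Core
import Fermat.Agent.S59.PStep.AlgC
import Fermat.Agent.S59.PStep.HgdOrdP

set_option autoImplicit false
set_option linter.style.haveILetI false
set_option linter.unusedSectionVars false
set_option linter.unusedVariables false
set_option linter.style.longLine false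

noncomputable section

namespace Fermat.Agent.S59

open IsLocalRing Fermat.Agent.TW Fermat.Agent.S53

/-! ### The levels -/

/-- the level at `Σ` : `N₀ · ∏_{q ∈ Σ ∖ p} q² · (p if p ∈ Σ)` -/
def s59pstp_level (N0 p : ℕ) (Sg : Finset ℕ) : ℕ :=
  s59tops_level N0 (Sg.erase p) * (if p ∈ Sg then p else 1)

theorem s59pstp_level_insert (N0 p : ℕ) {Sg : Finset ℕ} {q : ℕ} (hq : q ∉ Sg) (hqp : q ≠ p) :
    s59pstp_level N0 p (insert q Sg) = s59pstp_level N0 p Sg * q * q := by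
  classical
  unfold s59pstp_level
  have h1 : (insert q Sg).erase p = insert q (Sg.erase p) :=
    Finset.erase_insert_of_ne hqp
  have h2 : q ∉ Sg.erase p := fun h => hq (Finset.mem_of_mem_erase h)
  have h3 : (p ∈ insert q Sg) ↔ p ∈ Sg := by
    rw [Finset.mem_insert]
    exact ⟨fun h => h.resolve_left (fun h' => hqp h'.symm), Or.inr⟩
  rw [h1, s59tops_level_insert N0 h2]
  by_cases hp : p ∈ Sg
  · rw [if_pos hp, if_pos (h3.2 hp)]; ring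
  · rw [if_neg hp, if_neg (fun h => hp (h3.1 h))]; ring

theorem s59pstp_level_insert_p (N0 p : ℕ) {Sg : Finset ℕ} (hp : p ∉ Sg) :
    s59pstp_level N0 p (insert p Sg) = s59pstp_level N0 p Sg * p := by
  classical
  unfold s59pstp_level
  rw [Finset.erase_insert hp, Finset.erase_eq_of_notMem hp, if_pos (Finset.mem_insert_self p Sg),
    if_neg hp, mul_one]

theorem s59pstp_level_of_notMem (N0 p : ℕ) {Sg : Finset ℕ} (hp : p ∉ Sg) :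
    s59pstp_level N0 p Sg = s59tops_level N0 Sg := by
  classical
  unfold s59pstp_level
  rw [Finset.erase_eq_of_notMem hp, if_neg hp, mul_one]

theorem s59pstp_prime_dvd_level {N0 p : ℕ} {Sg : Finset ℕ} (hSg : ∀ q ∈ Sg, q.Prime) {ℓ : ℕ}
    (hℓ : ℓ.Prime) (h : ℓ ∣ s59pstp_level N0 p Sg) : ℓ ∣ N0 ∨ ℓ ∈ Sg := by
  classical
  unfold s59pstp_level at h
  rcases (Nat.Prime.dvd_mul hℓ).1 h with h | h
  · rcases s59tops_prime_dvd_level (fun q hq => hSg q (Finset.mem_of_mem_erase hq)) hℓ h with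
      h1 | h1
    · exact Or.inl h1
    · exact Or.inr (Finset.mem_of_mem_erase h1)
  · by_cases hp : p ∈ Sg
    · rw [if_pos hp] at h
      rw [(Nat.prime_dvd_prime_iff_eq hℓ (hSg p hp)).1 h]
      exact Or.inr hp
    · rw [if_neg hp] at h
      exact absurd (Nat.dvd_one.1 h) hℓ.one_lt.ne'

theorem s59pstp_mem_dvd_level {p N0 : ℕ} {Smin Sg : Finset ℕ}
    (hN0 : ∀ ℓ : ℕ, ℓ.Prime → (ℓ ∣ N0 ↔ ℓ ∈ Smin ∧ ℓ ≠ p)) {ℓ : ℕ} (hℓ : ℓ.Prime)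
    (h : ℓ ∈ Smin ∪ Sg) : ℓ = p ∨ ℓ ∣ s59pstp_level N0 p Sg := by
  classical
  by_cases hp : ℓ = p
  · exact Or.inl hp
  · right
    have h' : ℓ ∈ Smin ∪ Sg.erase p := by
      rcases Finset.mem_union.1 h with h1 | h1
      · exact Finset.mem_union_left _ h1
      · exact Finset.mem_union_right _ (Finset.mem_erase.2 ⟨hp, h1⟩)
    rcases s59tops_mem_dvd_level hN0 hℓ h' with h2 | h2
    · exact absurd h2 hp
    · exact Dvd.dvd.mul_right h2 _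

/-- `p ∤ level Σ` when `p ∉ Σ` -/
theorem s59pstp_p_not_dvd_level {p N0 : ℕ} {Smin Sg : Finset ℕ} (hp : p.Prime)
    (hN0 : ∀ ℓ : ℕ, ℓ.Prime → (ℓ ∣ N0 ↔ ℓ ∈ Smin ∧ ℓ ≠ p)) (hSg : ∀ q ∈ Sg, q.Prime)
    (hpSg : p ∉ Sg) : ¬ p ∣ s59pstp_level N0 p Sg := by
  intro hd
  rcases s59pstp_prime_dvd_level hSg hp hd with h1 | h1
  · exact ((hN0 p hp).1 h1).2 rfl
  · exact hpSg h1

/-- `p ∥ level Σ` when `p ∈ Σ` -/
theorem s59pstp_p_exact_level {p N0 : ℕ} {Smin Sg : Finset ℕ} (hp : p.Prime)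
    (hN0 : ∀ ℓ : ℕ, ℓ.Prime → (ℓ ∣ N0 ↔ ℓ ∈ Smin ∧ ℓ ≠ p)) (hSg : ∀ q ∈ Sg, q.Prime)
    (hpSg : p ∈ Sg) : p ∣ s59pstp_level N0 p Sg ∧ ¬ p ^ 2 ∣ s59pstp_level N0 p Sg := by
  classical
  have hlev : s59pstp_level N0 p Sg = s59tops_level N0 (Sg.erase p) * p := by
    unfold s59pstp_level
    rw [if_pos hpSg]
  have hnd : ¬ p ∣ s59tops_level N0 (Sg.erase p) := by
    intro hd
    rcases s59tops_prime_dvd_level (fun q hq => hSg q (Finset.mem_of_mem_erase hq)) hp hd with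
      h1 | h1
    · exact ((hN0 p hp).1 h1).2 rfl
    · exact (Finset.notMem_erase p Sg) h1
  rw [hlev]
  refine ⟨Dvd.intro_left _ rfl, fun h => hnd ?_⟩
  rw [pow_two] at h
  exact (Nat.mul_dvd_mul_iff_right hp.pos).1 h

/-- the primes `q₀ ≠ p` of `Smin` divide the level exactly once -/
theorem s59pstp_smin_exact_level {p N0 : ℕ} {Smin Sg : Finset ℕ} (hp : p.Prime)
    (hN0 : ∀ ℓ : ℕ, ℓ.Prime → (ℓ ∣ N0 ↔ ℓ ∈ Smin ∧ ℓ ≠ p)) (hN0sq : Squarefree N0)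
    (hSg : ∀ q ∈ Sg, q.Prime) {q₀ : ℕ} (hq₀ : q₀.Prime) (hq₀S : q₀ ∈ Smin) (hne : q₀ ≠ p)
    (hq₀Sg : q₀ ∉ Sg) :
    q₀ ∣ s59pstp_level N0 p Sg ∧ ¬ q₀ ^ 2 ∣ s59pstp_level N0 p Sg := by
  classical
  have hSg' : ∀ q ∈ Sg.erase p, q.Prime := fun q hq => hSg q (Finset.mem_of_mem_erase hq)
  have hq₀Sg' : q₀ ∉ Sg.erase p := fun h => hq₀Sg (Finset.mem_of_mem_erase h)
  refine ⟨?_, fun h => ?_⟩
  · unfold s59pstp_level s59tops_level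
    exact Dvd.dvd.mul_right (Dvd.dvd.mul_right ((hN0 q₀ hq₀).2 ⟨hq₀S, hne⟩) _) _
  · unfold s59pstp_level at h
    have hcop : Nat.Coprime (q₀ ^ 2) (if p ∈ Sg then p else 1) := by
      by_cases hpS : p ∈ Sg
      · rw [if_pos hpS]
        exact Nat.Coprime.pow_left 2 ((Nat.coprime_primes hq₀ hp).2 hne)
      · rw [if_neg hpS]
        exact Nat.coprime_one_right _
    exact s59tops_sq_not_dvd_level hN0sq hSg' hq₀ hq₀Sg' (hcop.dvd_of_dvd_mul_right h)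

/-! ### The interface of R2 with the `p`-step, the invariant -/

section

variable (𝒪 : Type) [CommRing 𝒪] [IsDomain 𝒪] [IsDiscreteValuationRing 𝒪]
  [IsAdicComplete (maximalIdeal 𝒪) 𝒪]

/-- **The interface of R2 = ETA′ with the `p`-step** (ETA-P): `S59R2Data` together with the
depletion `nextP x` at `p` of a state of level prime to `p`; `ψ p` is the `T_p`-eigenvalue of the
base form. -/
structure S59R2DataP (p : ℕ) (ψ : ℕ → 𝒪) extends S59R2Data 𝒪 p ψ where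
  /-- the depletion at `p` -/
  nextP : X → X
  lev_nextP : ∀ x : X, lev (nextP x) = lev x * p
  /-- ETA-P : `J_{N p}(x') ≤ ((p + 1)² − ψ(p)²) · J_N(x)` -/
  stepP : ∀ x : X, ¬ p ∣ lev x → Good x →
    Good (nextP x) ∧ J (nextP x) ≤ Ideal.span {((p : 𝒪) + 1) ^ 2 - ψ p ^ 2} * J x

variable {𝒪}

/-- **The invariant** of a stage `s` for the set `Σ` (the twin of `s59tops_inv` with the levels
`s59pstp_level`). -/
def s59pstp_inv {p : ℕ} {ψ : ℕ → 𝒪} (R2 : S59R2Data 𝒪 p ψ) (ρ₀ : GaloisRepAdic 𝒪)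
    (Smin : Finset ℕ) (N0 : ℕ) {ρbar : ResidualGaloisRep (ResidueField 𝒪)}
    {𝒟 : ∀ ⦃A : Type⦄ [CommRing A] [IsLocalRing A] [Algebra 𝒪 A], GaloisRepAdic A → Prop}
    (Sg : Finset ℕ) (s : S59Stage 𝒪 ρbar 𝒟) : Prop :=
  s.N = s59pstp_level N0 p Sg ∧ s.S = (↑(Smin ∪ Sg) : Set ℕ) ∧
  (∀ (ℓ : ℕ) (hℓ : ℓ.Prime) (hℓN : ¬ ℓ ∣ s.N) (hℓS : ℓ ∉ s.S),
    s.πT (s.H.π (CuspForm.heckeAlgebra.T hℓ hℓN hℓS)) = ψ ℓ) ∧
  (∃ h : IsLocalHom ((s.πT.comp s.γ : s.D.R →ₐ[𝒪] 𝒪) : s.D.R →+* 𝒪),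
    (s.D.ρ.baseChangeAlong ((s.πT.comp s.γ : s.D.R →ₐ[𝒪] 𝒪) : s.D.R →+* 𝒪) h).IsEquiv ρ₀) ∧
  ∃ x : R2.X, R2.lev x = s.N ∧ R2.Good x ∧ s.etaL = R2.J x

/-- two stages with the invariant have the same specialisation -/
theorem s59pstp_same {p : ℕ} {ψ : ℕ → 𝒪} (R2 : S59R2Data 𝒪 p ψ) (ρ₀ : GaloisRepAdic 𝒪)
    (Smin : Finset ℕ) (N0 : ℕ) {ρbar : ResidualGaloisRep (ResidueField 𝒪)}
    {𝒟 𝒟' : ∀ ⦃A : Type⦄ [CommRing A] [IsLocalRing A] [Algebra 𝒪 A], GaloisRepAdic A → Prop}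
    {Sg Sg' : Finset ℕ} {s : S59Stage 𝒪 ρbar 𝒟} {s' : S59Stage 𝒪 ρbar 𝒟'}
    (hs : s59pstp_inv R2 ρ₀ Smin N0 Sg s) (hs' : s59pstp_inv R2 ρ₀ Smin N0 Sg' s') :
    s59selSame 𝒪 s.D s'.D (s.πT.comp s.γ) (s'.πT.comp s'.γ) := by
  obtain ⟨-, -, -, ⟨hloc, hρ₀⟩, -⟩ := hs
  obtain ⟨-, -, -, ⟨hloc', hρ₀'⟩, -⟩ := hs'
  exact ⟨hloc, hloc', GaloisRepAdic_isEquiv_trans hρ₀' (GaloisRepAdic_isEquiv_symm hρ₀)⟩

end

/-! ### The unit root passes through equivalences -/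

section UnitRoot

variable {A : Type} [CommRing A] [IsLocalRing A]

theorem s59pstp_unitRoot_of_isEquiv {ρ ρ' : GaloisRepAdic A} (h : ρ.IsEquiv ρ') (p : ℕ) (α : A)
    (hα : s59psUnitRoot ρ' p α) : s59psUnitRoot ρ p α := by
  obtain ⟨e⟩ := h
  intro P hP
  obtain ⟨L, ⟨b, hb⟩, hD, hI, hF⟩ := hα P hP
  have key : ∀ (σ : S59G) (v : ρ.V),
      e.toLinearEquiv (ρ.ρ σ v) = ρ'.ρ σ (e.toLinearEquiv v) :=
    fun σ v => e.map_apply σ v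
  refine ⟨L.comap e.toLinearEquiv.toLinearMap, ⟨b.map e.toLinearEquiv.symm, ?_⟩,
    fun σ hσ v hv => ?_, fun σ hσ v => ?_, fun φ hφ v => ?_⟩
  · ext v
    rw [Submodule.mem_comap, hb, Submodule.mem_span_singleton, Submodule.mem_span_singleton]
    constructor
    · rintro ⟨a, ha⟩
      refine ⟨a, ?_⟩
      apply e.toLinearEquiv.injective
      rw [map_smul, Module.Basis.map_apply, LinearEquiv.apply_symm_apply]
      exact ha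
    · rintro ⟨a, ha⟩
      refine ⟨a, ?_⟩
      rw [← ha, map_smul, Module.Basis.map_apply]
      show a • b 0 = a • e.toLinearEquiv (e.toLinearEquiv.symm (b 0))
      rw [LinearEquiv.apply_symm_apply]
  · rw [Submodule.mem_comap] at hv ⊢
    show e.toLinearEquiv _ ∈ L
    rw [key]
    exact hD σ hσ _ hv
  · rw [Submodule.mem_comap]
    show e.toLinearEquiv _ ∈ L
    rw [map_sub, key]
    exact hI σ hσ _
  · rw [Submodule.mem_comap]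
    show e.toLinearEquiv _ ∈ L
    rw [map_sub, map_smul, key]
    exact hF φ hφ _

end UnitRoot

/-! ### A stage from a good state -/

section Build

variable {𝒪 : Type} [CommRing 𝒪] [IsDomain 𝒪] [IsDiscreteValuationRing 𝒪]
  [IsAdicComplete (maximalIdeal 𝒪) 𝒪] [Finite (ResidueField 𝒪)] [CharZero 𝒪]

/-- **A stage with the invariant from a good state `x'` of R2 of level `level Σ'`**, for every
`Σ' ⊆ SW` (`p ∈ Σ'` or not): HGD ✓ at the level of `x'`; the type of `H.ρ` is HGD-ORD-P ✓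
(`s59pshop_main`) when `p ∈ Σ'` and HGD-ORD + HGD-PEU (`hHgd`) when `p ∉ Σ'`, with S34 ✓ at the
primes of `Smin`; DEF-COND (`hD`) + S54 ✓ give `γ`; R2 `char`, `gen`; CAR gives `ρ₀`. -/
theorem s59pstp_build (p : ℕ) [Fact p.Prime] (ρbar : ResidualGaloisRep (ResidueField 𝒪))
    (S Smin SW : Finset ℕ) (hTW : TWHyp 𝒪 p ρbar S Smin)
    (hSW : ∀ q ∈ SW, q.Prime ∧ (q ≠ p → q ∉ Smin))
    (N0 : ℕ) (hN0 : ∀ ℓ : ℕ, ℓ.Prime → (ℓ ∣ N0 ↔ ℓ ∈ Smin ∧ ℓ ≠ p)) (hN0sq : Squarefree N0)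
    (ψ : ℕ → 𝒪) (R2 : S59R2Data 𝒪 p ψ) (ρ₀ : GaloisRepAdic 𝒪)
    -- `ρ̄` is ordinary at `p`
    (hord : (GaloisRepAdic.ofResidualGaloisRep ρbar).IsOrdinaryAt p)
    -- HGD-ORD + HGD-PEU : at a level prime to `p`, `H.ρ` is ordinary and peu ramifié at `p`
    (hHgd : ∀ Q : Finset ℕ, Q ⊆ SW → p ∉ Q → ∀ (N : ℕ) [NeZero N], N = s59pstp_level N0 p Q →
      ∀ (θ : CuspForm.heckeAlgebra N 2 (↑(Smin ∪ Q) : Set ℕ) →+* ResidueField 𝒪)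
        (T : Type) [CommRing T] [IsLocalRing T] [IsNoetherianRing T]
        [IsAdicComplete (maximalIdeal T) T] [Algebra 𝒪 T] [IsLocalHom (algebraMap 𝒪 T)]
        [Module.Finite 𝒪 T] [Module.Free 𝒪 T]
        (H : CuspForm.HeckeGaloisRepDatum N (↑(Smin ∪ Q) : Set ℕ) 𝒪 θ T),
        (∀ y : T, (∀ ψ' : T →ₐ[𝒪] 𝒪, ψ' y = 0) → y = 0) → H.ρ.DetIsCyclotomic p →
        H.ρ.residual.IsEquiv (ρbar.baseChangeAlong (ResidueField.map (algebraMap 𝒪 T))) →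
        H.ρ.IsOrdinaryAt p ∧ s59psPeuTriv H.ρ p)
    -- DEF-COND
    (hD : ∀ Q : Finset ℕ, Q ⊆ SW →
      Nonempty (GaloisRep.DeformationRingData 𝒪 ρbar (s59psCond 𝒪 p Smin Q)))
    -- `det ρ̄ = χ_p mod p`
    (hdet : ∀ (σ : AlgebraicClosure ℚ ≃ₐ[ℚ] AlgebraicClosure ℚ) (a : ℕ),
      (∀ μ : AlgebraicClosure ℚ, μ ^ p = 1 → σ μ = μ ^ a) →
        LinearMap.det (ρbar.ρ σ) = (a : ResidueField 𝒪))
    -- `ψ ℓ ≡ tr ρ̄(Frob_ℓ)`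
    (hψ : ∀ ℓ : ℕ, ℓ.Prime → ℓ ∉ Smin → ¬ ℓ ∣ N0 →
      ∀ P : ValuationSubring (AlgebraicClosure ℚ), P.LiesOverPrime ℓ →
      ∀ τ : AlgebraicClosure ℚ ≃ₐ[ℚ] AlgebraicClosure ℚ, P.IsFrobeniusAt τ ℓ →
        residue 𝒪 (ψ ℓ) = LinearMap.trace (ResidueField 𝒪) ρbar.V (ρbar.ρ τ))
    -- CAR
    (hcar : ∀ (S' : Finset ℕ) (ρ₁ : GaloisRepAdic 𝒪), ρ₁.DetIsCyclotomic p →
      (∀ ℓ : ℕ, ℓ.Prime → ℓ ∉ S' →
        ∀ P : ValuationSubring (AlgebraicClosure ℚ), P.LiesOverPrime ℓ →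
        ∀ φ : AlgebraicClosure ℚ ≃ₐ[ℚ] AlgebraicClosure ℚ, P.IsFrobeniusAt φ ℓ →
          LinearMap.trace 𝒪 ρ₁.V (ρ₁.ρ φ) = ψ ℓ) → ρ₁.IsEquiv ρ₀)
    -- E-BIG
    (hBig : ∀ Q : Finset ℕ, Q ⊆ SW → ∀ (N : ℕ) [NeZero N], N = s59pstp_level N0 p Q →
      ∀ θ : CuspForm.heckeAlgebra N 2 (↑(Smin ∪ Q) : Set ℕ) →+* ResidueField 𝒪,
        s59p_IsBig 𝒪 N (↑(Smin ∪ Q) : Set ℕ) θ)
    (Sg' : Finset ℕ) (hSg' : Sg' ⊆ SW) (x' : R2.X) (hgood' : R2.Good x')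
    (hlev' : R2.lev x' = s59pstp_level N0 p Sg') :
    ∃ s' : S59Stage 𝒪 ρbar (s59psCond 𝒪 p Smin Sg'),
      s59pstp_inv R2 ρ₀ Smin N0 Sg' s' ∧ s'.etaL = R2.J x' := by
  classical
  have hpp : p.Prime := Fact.out
  have hSgp' : ∀ q' ∈ Sg', q'.Prime := fun q' h => (hSW q' (hSg' h)).1
  haveI : NeZero (R2.lev x') := ⟨R2.lev_ne _⟩
  -- the set of primes
  have hpS' : p ∈ Smin ∪ Sg' := Finset.mem_union_left _ hTW.hpSmin
  have hNS' : ∀ ℓ : ℕ, ℓ.Prime → ℓ ∣ R2.lev x' → ℓ ∈ Smin ∪ Sg' := by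
    intro ℓ hℓ hd
    rw [hlev'] at hd
    rcases s59pstp_prime_dvd_level hSgp' hℓ hd with h1 | h1
    · exact Finset.mem_union_left _ ((hN0 ℓ hℓ).1 h1).1
    · exact Finset.mem_union_right _ h1
  -- the eigensystem and the residual data
  obtain ⟨χ, hχ⟩ := R2.char x' hgood' (Smin ∪ Sg') hpS' hNS'
  have hres : S59HgdRes p (R2.lev x') (Smin ∪ Sg') 𝒪 ((residue 𝒪).comp χ) ρbar :=
    { absIrr := hTW.habs
      det := hdet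
      frob := fun ℓ hℓ hℓN hℓS P hP τ hτ => by
        rw [RingHom.comp_apply, hχ ℓ hℓ hℓN hℓS]
        refine hψ ℓ hℓ (fun h => hℓS (Finset.mem_coe.2 (Finset.mem_union_left _ h))) ?_ P hP τ hτ
        intro hd
        exact hℓS (Finset.mem_coe.2 (Finset.mem_union_left _ ((hN0 ℓ hℓ).1 hd).1)) }
  -- HGD
  obtain ⟨T, i1, i2, i3, i4, i5, i6, i7, i8, H, hsep, hdetH, hresH, hunr⟩ :=
    s59hgd_main p hTW.hp2 (R2.lev x') (Smin ∪ Sg') hpS' hNS' 𝒪 hTW.hp𝒪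
      ((residue 𝒪).comp χ) ⟨χ, fun t => rfl⟩ ρbar hres
  -- the type of `H.ρ`
  have hordH : H.ρ.IsOrdinaryAt p := by
    by_cases hp : p ∈ Sg'
    · have hN : p ∣ R2.lev x' ∧ ¬ p ^ 2 ∣ R2.lev x' := by
        rw [hlev']
        exact s59pstp_p_exact_level hpp hN0 hSgp' hp
      exact s59pshop_main hpp hTW.hp2 hTW.hp𝒪 hN hNS' H ρbar hord hresH
    · exact (hHgd Sg' hSg' hp (R2.lev x') hlev' _ T H hsep hdetH hresH).1
  have hpeuH : p ∉ Sg' → s59psPeuTriv H.ρ p := fun hp =>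
    (hHgd Sg' hSg' hp (R2.lev x') hlev' _ T H hsep hdetH hresH).2
  have htype : s59psCond 𝒪 p Smin Sg' H.ρ := by
    refine ⟨⟨hdetH, hordH, ?_⟩, hpeuH, ?_⟩
    · intro ℓ hℓ hℓS
      refine hunr ℓ hℓ (fun hd => ?_)
      rcases (Nat.Prime.dvd_mul hℓ).1 hd with h1 | h1
      · exact hℓS (hNS' ℓ hℓ h1)
      · rw [(Nat.prime_dvd_prime_iff_eq hℓ hpp).1 h1] at hℓS
        exact hℓS hpS'
    · intro q₀ hq₀ hq₀p hne
      have hq₀Sg : q₀ ∉ Sg' := fun h => (hSW q₀ (hSg' h)).2 hne hq₀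
      have hex := s59pstp_smin_exact_level hpp hN0 hN0sq hSgp' hq₀p hq₀ hne hq₀Sg
      rw [← hlev'] at hex
      exact s59leaf_s34 hpp hTW.hp𝒪 hpS' hNS' H q₀ hq₀p hne hex.1 hex.2
  -- DEF-COND and S54
  obtain ⟨D'⟩ := hD Sg' hSg'
  obtain ⟨γ', hγ's, hγ'l, hγ'e⟩ := Fermat.Agent.S54.result D' H
    (fun ℓ hℓ hd => Finset.mem_coe.2 (hNS' ℓ hℓ hd)) htype hresH
  have hγ't : ∀ σ : S59GQ, γ' (LinearMap.trace D'.R D'.ρ.V (D'.ρ.ρ σ)) =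
      LinearMap.trace T H.ρ.V (H.ρ.ρ σ) := s59fin_trace_compat D' H.ρ γ' hγ'l hγ'e
  -- the augmentation
  obtain ⟨πT', hπT'⟩ := H.exists_point χ (fun t => rfl)
  have heig' : ∀ (ℓ : ℕ) (hℓ : ℓ.Prime) (hℓN : ¬ ℓ ∣ R2.lev x')
      (hℓS : ℓ ∉ (↑(Smin ∪ Sg') : Set ℕ)),
      πT' (H.π (CuspForm.heckeAlgebra.T hℓ hℓN hℓS)) = ψ ℓ := fun ℓ hℓ hℓN hℓS => by
    rw [hπT', hχ ℓ hℓ hℓN hℓS]
  have hSsub' : ∀ ℓ : ℕ, ℓ.Prime → ℓ ∈ Smin ∪ Sg' → ℓ = p ∨ ℓ ∣ R2.lev x' := by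
    intro ℓ hℓ hmem
    rw [hlev']
    exact s59pstp_mem_dvd_level hN0 hℓ hmem
  obtain ⟨hne', hgen'⟩ := R2.gen x' hgood' (Smin ∪ Sg') hpS' hNS' hSsub'
    ((residue 𝒪).comp χ) (hBig Sg' hSg' _ hlev' _) T H πT' hsep heig'
  -- the lift `ρ₀`
  have hloc' : IsLocalHom ((πT'.comp γ' : D'.R →ₐ[𝒪] 𝒪) : D'.R →+* 𝒪) :=
    s59selsame_aug_isLocalHom 𝒪 _
  have hρ₀' : (D'.ρ.baseChangeAlong ((πT'.comp γ' : D'.R →ₐ[𝒪] 𝒪) : D'.R →+* 𝒪) hloc').IsEquiv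
      ρ₀ := by
    refine hcar (Smin ∪ Sg') _
      (twbc_detIsCyclotomic _ hloc' D'.ρ p D'.isOfType.1.1) (fun ℓ hℓ hℓS P hP φ hφ => ?_)
    have hℓN : ¬ ℓ ∣ R2.lev x' := fun hd => hℓS (hNS' ℓ hℓ hd)
    have hℓS' : ℓ ∉ (↑(Smin ∪ Sg') : Set ℕ) := fun h => hℓS (Finset.mem_coe.1 h)
    rw [s59fe_trace_baseChangeAlong]
    show πT' (γ' _) = ψ ℓ
    rw [hγ't φ, s59fin_trace_of_charpoly H.ρ.finrank_eq (H.ρ.ρ φ) _ _
      (H.charpoly_frob ℓ hℓ hℓN hℓS' P hP φ hφ), heig' ℓ hℓ hℓN hℓS']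
  -- the new stage
  refine ⟨{ N := R2.lev x', S := (↑(Smin ∪ Sg') : Set ℕ)
            θ := (residue 𝒪).comp χ, T := T, H := H, D := D', γ := γ', πT := πT'
            etaL := R2.J x', γ_surj := hγ's, γ_trace := hγ't, etaT_ne := hne'
            gen := hgen', etaL_ne := R2.J_ne _ hgood' }, ?_, rfl⟩
  exact ⟨hlev', rfl, heig', ⟨hloc', hρ₀'⟩, x', rfl, hgood', rfl⟩

end Build

/-! ### The step -/

section Step

variable {𝒪 : Type} [CommRing 𝒪] [IsDomain 𝒪] [IsDiscreteValuationRing 𝒪]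
  [IsAdicComplete (maximalIdeal 𝒪) 𝒪] [Finite (ResidueField 𝒪)] [CharZero 𝒪]

/-- **THE STEP of Wiles' induction for the conditions of the `p`-step** (`𝒟 Σ = s59psCond 𝒪 p Smin
Σ`, `Σ ⊆ SW ∋ p`, ANY order of the primes):

* `q ≠ p` : SEL-Q ✓ (`s59psc_selQ`) and the `q`-step of R2, constant `c_q = (q − 1)(ψ(q)² − (q+1)²)`;
* `q = p` : SEL-P (`hselP`, ⇐ LOCAL-P), LG-P (`α` the unit root of `ρ₀` at `p`,
  `α² − ψ(p) α + p = 0`), ALG-C ✓ and the `p`-step of R2, constant `c_p = α² − 1`. -/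
theorem s59pstp_step (p : ℕ) [Fact p.Prime] (ρbar : ResidualGaloisRep (ResidueField 𝒪))
    (S Smin SW : Finset ℕ) (hTW : TWHyp 𝒪 p ρbar S Smin)
    (hSW : ∀ q ∈ SW, q.Prime ∧ (q ≠ p → q ∉ Smin))
    (N0 : ℕ) (hN0 : ∀ ℓ : ℕ, ℓ.Prime → (ℓ ∣ N0 ↔ ℓ ∈ Smin ∧ ℓ ≠ p)) (hN0sq : Squarefree N0)
    (ψ : ℕ → 𝒪) (R2 : S59R2DataP 𝒪 p ψ) (ρ₀ : GaloisRepAdic 𝒪)
    -- `ρ̄` is ordinary at `p`
    (hord : (GaloisRepAdic.ofResidualGaloisRep ρbar).IsOrdinaryAt p)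
    -- HGD-ORD + HGD-PEU : at a level prime to `p`, `H.ρ` is ordinary and peu ramifié at `p`
    (hHgd : ∀ Q : Finset ℕ, Q ⊆ SW → p ∉ Q → ∀ (N : ℕ) [NeZero N], N = s59pstp_level N0 p Q →
      ∀ (θ : CuspForm.heckeAlgebra N 2 (↑(Smin ∪ Q) : Set ℕ) →+* ResidueField 𝒪)
        (T : Type) [CommRing T] [IsLocalRing T] [IsNoetherianRing T]
        [IsAdicComplete (maximalIdeal T) T] [Algebra 𝒪 T] [IsLocalHom (algebraMap 𝒪 T)]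
        [Module.Finite 𝒪 T] [Module.Free 𝒪 T]
        (H : CuspForm.HeckeGaloisRepDatum N (↑(Smin ∪ Q) : Set ℕ) 𝒪 θ T),
        (∀ y : T, (∀ ψ' : T →ₐ[𝒪] 𝒪, ψ' y = 0) → y = 0) → H.ρ.DetIsCyclotomic p →
        H.ρ.residual.IsEquiv (ρbar.baseChangeAlong (ResidueField.map (algebraMap 𝒪 T))) →
        H.ρ.IsOrdinaryAt p ∧ s59psPeuTriv H.ρ p)
    -- DEF-COND
    (hD : ∀ Q : Finset ℕ, Q ⊆ SW →
      Nonempty (GaloisRep.DeformationRingData 𝒪 ρbar (s59psCond 𝒪 p Smin Q)))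
    -- `det ρ̄ = χ_p mod p`
    (hdet : ∀ (σ : AlgebraicClosure ℚ ≃ₐ[ℚ] AlgebraicClosure ℚ) (a : ℕ),
      (∀ μ : AlgebraicClosure ℚ, μ ^ p = 1 → σ μ = μ ^ a) →
        LinearMap.det (ρbar.ρ σ) = (a : ResidueField 𝒪))
    -- `ψ ℓ ≡ tr ρ̄(Frob_ℓ)`
    (hψ : ∀ ℓ : ℕ, ℓ.Prime → ℓ ∉ Smin → ¬ ℓ ∣ N0 →
      ∀ P : ValuationSubring (AlgebraicClosure ℚ), P.LiesOverPrime ℓ →
      ∀ τ : AlgebraicClosure ℚ ≃ₐ[ℚ] AlgebraicClosure ℚ, P.IsFrobeniusAt τ ℓ →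
        residue 𝒪 (ψ ℓ) = LinearMap.trace (ResidueField 𝒪) ρbar.V (ρbar.ρ τ))
    -- CAR
    (hcar : ∀ (S' : Finset ℕ) (ρ₁ : GaloisRepAdic 𝒪), ρ₁.DetIsCyclotomic p →
      (∀ ℓ : ℕ, ℓ.Prime → ℓ ∉ S' →
        ∀ P : ValuationSubring (AlgebraicClosure ℚ), P.LiesOverPrime ℓ →
        ∀ φ : AlgebraicClosure ℚ ≃ₐ[ℚ] AlgebraicClosure ℚ, P.IsFrobeniusAt φ ℓ →
          LinearMap.trace 𝒪 ρ₁.V (ρ₁.ρ φ) = ψ ℓ) → ρ₁.IsEquiv ρ₀)
    -- E-BIG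
    (hBig : ∀ Q : Finset ℕ, Q ⊆ SW → ∀ (N : ℕ) [NeZero N], N = s59pstp_level N0 p Q →
      ∀ θ : CuspForm.heckeAlgebra N 2 (↑(Smin ∪ Q) : Set ℕ) →+* ResidueField 𝒪,
        s59p_IsBig 𝒪 N (↑(Smin ∪ Q) : Set ℕ) θ)
    -- SEL-P (⇐ LOCAL-P)
    (hselP : s59ps_StmtSelP 𝒪)
    -- LG-P : the unit root of Frobenius at `p` of `ρ₀`
    (α : 𝒪) (hαu : IsUnit α) (hαeq : α ^ 2 - ψ p * α + (p : 𝒪) = 0)
    (hα : s59psUnitRoot ρ₀ p α)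
    (Sg : Finset ℕ) (q : ℕ) (hSg : Sg ⊆ SW) (hqW : q ∈ SW) (hqSg : q ∉ Sg)
    (s : S59Stage 𝒪 ρbar (s59psCond 𝒪 p Smin Sg))
    (hs : s59pstp_inv R2.toS59R2Data ρ₀ Smin N0 Sg s) :
    ∃ (s' : S59Stage 𝒪 ρbar (s59psCond 𝒪 p Smin (insert q Sg))) (c : 𝒪),
      s59pstp_inv R2.toS59R2Data ρ₀ Smin N0 (insert q Sg) s' ∧
      s'.lPhi ≤ s.lPhi + Module.length 𝒪 (𝒪 ⧸ Ideal.span {c}) ∧
      s'.etaL ≤ Ideal.span {c} * s.etaL := by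
  classical
  have hs0 := hs
  obtain ⟨hN, hS, heig, ⟨hloc, hρ₀⟩, x, hx, hgood, hJ⟩ := hs
  have hpp : p.Prime := Fact.out
  have hqp : q.Prime := (hSW q hqW).1
  have hSgp : ∀ q' ∈ Sg, q'.Prime := fun q' h => (hSW q' (hSg h)).1
  have hSg' : insert q Sg ⊆ SW := Finset.insert_subset hqW hSg
  by_cases hqeq : q = p
  · -- the `p`-step
    subst hqeq
    have hpN : ¬ q ∣ R2.lev x := by
      rw [hx, hN]
      exact s59pstp_p_not_dvd_level hpp hN0 hSgp hqSg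
    obtain ⟨hgood', hJle⟩ := R2.stepP x hpN hgood
    have hlev' : R2.lev (R2.nextP x) = s59pstp_level N0 q (insert q Sg) := by
      rw [R2.lev_nextP x, hx, hN, s59pstp_level_insert_p N0 q hqSg]
    obtain ⟨s', hs', hJ'⟩ := s59pstp_build q ρbar S Smin SW hTW hSW N0 hN0 hN0sq ψ
      R2.toS59R2Data ρ₀ hord hHgd hD hdet hψ hcar hBig (insert q Sg) hSg' (R2.nextP x) hgood' hlev'
    have hsame := s59pstp_same R2.toS59R2Data ρ₀ Smin N0 hs0 hs'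
    have hsel := hselP q ρbar S Smin hTW Sg hqSg s.D s'.D (s.πT.comp s.γ) (s'.πT.comp s'.γ) α
      hsame (fun hx' => s59pstp_unitRoot_of_isEquiv hρ₀ q α hα)
    refine ⟨s', α ^ 2 - 1, hs', hsel, ?_⟩
    rw [hJ', hJ, s59psac_span' (q : 𝒪) α (ψ q) hTW.hp𝒪 hαu hαeq]
    exact hJle
  · -- a `q`-step, `q ≠ p`
    have hqSmin : q ∉ Smin := (hSW q hqW).2 hqeq
    have hqN : ¬ q ∣ s.N := by
      rw [hN]
      intro h
      rcases s59pstp_prime_dvd_level hSgp hqp h with h1 | h1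
      · exact hqSmin ((hN0 q hqp).1 h1).1
      · exact hqSg h1
    have hqS : q ∉ s.S := by
      rw [hS]
      intro h
      rcases Finset.mem_union.1 (Finset.mem_coe.1 h) with h1 | h1
      · exact hqSmin h1
      · exact hqSg h1
    obtain ⟨hgood', hJle⟩ := R2.step x q hqp (hx ▸ hqN) hqeq hgood
    have hlev' : R2.lev (R2.next q x) = s59pstp_level N0 p (insert q Sg) := by
      rw [R2.lev_next q x hqp, hx, hN, s59pstp_level_insert N0 p hqSg hqeq]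
    obtain ⟨s', hs', hJ'⟩ := s59pstp_build p ρbar S Smin SW hTW hSW N0 hN0 hN0sq ψ
      R2.toS59R2Data ρ₀ hord hHgd hD hdet hψ hcar hBig (insert q Sg) hSg' (R2.next q x) hgood'
      hlev'
    have hsame := s59pstp_same R2.toS59R2Data ρ₀ Smin N0 hs0 hs'
    have htr : s59selTrace 𝒪 s.D (s.πT.comp s.γ) q (ψ q) := by
      intro P hP φ hφ
      rw [AlgHom.comp_apply, s.γ_trace φ, s59fin_trace_of_charpoly s.H.ρ.finrank_eq (s.H.ρ.ρ φ) _ _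
        (s.H.charpoly_frob q hqp hqN hqS P hP φ hφ), heig q hqp hqN hqS]
    have hsel := s59psc_selQ 𝒪 p ρbar S Smin hTW Sg q hqp hqSmin hqSg s.D s'.D
      (s.πT.comp s.γ) (s'.πT.comp s'.γ) (ψ q) hsame htr
    refine ⟨s', s59p_cq 𝒪 q (ψ q), hs', hsel, ?_⟩
    rw [hJ', hJ]
    exact hJle

end Step

end Fermat.Agent.S59

end

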