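/-
S59, wall M5 (P-STEP), **THE TERM `R2 : S59R2DataP 𝒪 p ψ`** (helper76, from helper72's
`S59/Eta/AsmFinalP.lean`): the interface of R2 with the `p`-step (`S59/PStep/StepP.lean`).

* `s59asmR2P p hp2 hp𝒪 ψ ϖ hϖ W hΔ hirr S₀ hψW : S59R2DataP 𝒪 p ψ` : states `S59asmSt 𝒪`,
  `Good = s59asmGoodP p ψ ϖ` (a primitive `ψ`-eigenvector which is, while `p ∤ M`, a
  `T_p`-eigenvector with the eigenvalue `ψ p`), `J = s59asmEta p ψ`, `next = s59asmNext ψ`,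
  `nextP = s59asmNextP (ψ p) p`;
* `s59asmR2P_base` : (E-BASE) in the shape of `s59pstc_StmtOwedC` / `s59pstd_StmtOwedC2`, from a
  character `χ₀` of the Hecke algebra of level `N₀` away from the primes of `N₀` (`T_p` included).
-/
import Fermat.Agent.S59.PStep.StepP
import Fermat.Agent.S59.Eta.AsmFinalP

set_option autoImplicit false
set_option linter.unusedSectionVars false
set_option linter.unusedVariables false
set_option linter.style.haveILetI false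
set_option linter.style.longLine false

noncomputable section

namespace Fermat.Agent.S59

open TensorProduct CongruenceSubgroup Fermat.Agent.S41 Fermat.Agent.S41.PD IsLocalRing

section Inst

variable {𝒪 : Type} [CommRing 𝒪] [IsDomain 𝒪] [IsDiscreteValuationRing 𝒪]
  [IsAdicComplete (maximalIdeal 𝒪) 𝒪] [CharZero 𝒪] (p : ℕ) [Fact p.Prime]

/-- **the term of R2 with the `p`-step** -/
def s59asmR2P (hp2 : p ≠ 2) (hp𝒪 : (p : 𝒪) ∈ maximalIdeal 𝒪) (ψ : ℕ → 𝒪) (ϖ : 𝒪)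
    (hϖ : Irreducible ϖ)
    (W : WeierstrassCurve ℤ) (hΔ : W.Δ ≠ 0) (hirr : W.ModRepIsIrreducible p) (S₀ : Finset ℕ)
    (hψW : s59asmr_CongW p ψ W S₀) : S59R2DataP 𝒪 p ψ where
  X := S59asmSt 𝒪
  lev := fun s => s.M
  Good := s59asmGoodP p ψ ϖ
  J := s59asmEta p ψ
  next := s59asmNext ψ
  lev_ne := fun s => s.hM
  lev_next := fun q s hq => s59asmr_lev_next ψ q s hq
  J_ne := fun s hs => s59asmrP_J_ne p ψ ϖ s hs
  step := fun s q hq hqM hqp hs =>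
    s59asmrP_step p hp2 hp𝒪 ψ hϖ W hΔ hirr S₀ hψW s q hq hqM hqp hs
  char := fun s _ hs S hpS hNS => s59asmrP_char p ψ ϖ s hs S hpS hNS
  gen := fun s _ hs S hpS hNS hSsub θ hbig T _ _ _ _ _ _ _ _ H πT hsep heig =>
    s59asmrP_gen p ψ hϖ s hs S hpS hNS hSsub θ hbig T H πT hsep heig
  nextP := s59asmNextP (ψ p) p
  lev_nextP := fun s => s59asmNextP_M (ψ p) p (Fact.out : p.Prime).ne_zero s
  stepP := fun s hpM hs => s59asmrP_stepP p hp2 hp𝒪 ψ hϖ W hΔ hirr S₀ hψW s hpM hs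

/-- **E-BASE** in the shape of `s59pstc_StmtOwedC` : a good state of level `N₀` (a
`T_p`-eigenvector with the eigenvalue `ψ p`) from a character `χ₀` of the Hecke algebra of level
`N₀` away from the primes of `N₀`. -/
theorem s59asmR2P_base (hp2 : p ≠ 2) (hp𝒪 : (p : 𝒪) ∈ maximalIdeal 𝒪) (ψ : ℕ → 𝒪) (ϖ : 𝒪)
    (hϖ : Irreducible ϖ)
    (W : WeierstrassCurve ℤ) (hΔ : W.Δ ≠ 0) (hirr : W.ModRepIsIrreducible p) (S₀ : Finset ℕ)
    (hψW : s59asmr_CongW p ψ W S₀)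
    (N0 : ℕ) [NeZero N0] (S' : Set ℕ) (hS' : ∀ q : ℕ, q.Prime → q ∣ N0 → q ∈ S')
    (hS'sub : ∀ ℓ : ℕ, ℓ.Prime → ℓ ∈ S' → ℓ ∣ N0)
    (χ₀ : CuspForm.heckeAlgebra N0 2 S' →+* 𝒪)
    (hχ : ∀ (ℓ : ℕ) (hℓ : ℓ.Prime) (hℓN : ¬ ℓ ∣ N0) (hℓS : ℓ ∉ S'),
      χ₀ (CuspForm.heckeAlgebra.T hℓ hℓN hℓS) = ψ ℓ) :
    ∃ x₀ : (s59asmR2P p hp2 hp𝒪 ψ ϖ hϖ W hΔ hirr S₀ hψW).X,
      (s59asmR2P p hp2 hp𝒪 ψ ϖ hϖ W hΔ hirr S₀ hψW).lev x₀ = N0 ∧
        (s59asmR2P p hp2 hp𝒪 ψ ϖ hϖ W hΔ hirr S₀ hψW).Good x₀ :=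
  s59asmrP_base p ψ hϖ N0 S' hS' hS'sub χ₀ hχ

end Inst

end Fermat.Agent.S59

end
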