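/-
S59, wall M5 = P-STEP, leaf **HGD-PEU** (helper94; assigned by the deputy helper5, 05:10Z).
Ledger: NOTES/S59-M5.md.

`ρ` over a complete noetherian local `𝒪`-algebra `T` whose `𝒪`-points separate the elements
(`hsep`, true for the Hecke ring of `S59/HGD`), `det ρ = χ`, `ρ` ordinary at the odd prime `p`.
If for every `𝒪`-point `ψ` of `T` the unit root `α` of Frobenius at `p` of `ρ_ψ = ρ ⊗_ψ 𝒪`
satisfies `α² ≠ 1` (LG-P + PET + ALG-C), then `ρ` is PEU RAMIFIÉ at `p`: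

* `s59pshp_trace_formula` : `(det f₀ − 1) z = det f₀ · tr g − tr (f₀ g)` for `f₀`, `g` stabilising a
  line `L = A b₀`, `f₀` trivial on `V ⧸ L`, `g` acting on `V ⧸ L` through `z`;
* `s59pshp_scalar_bc`     : hence the scalar `z` of `g` on `V ⧸ L` commutes with base change, for
  ANY ordinary lines `L` of `ρ` and `L'` of `ρ ⊗_φ B` (no uniqueness of the line is needed);
* `s59pshp_sigma_unit`    : `det ρ (σ₀) − 1` is a unit, `σ₀` in the inertia group, `χ (σ₀) ≡ 2`;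
* `s59pshp_kill_of_unitRoot` : `(z² − 1) b₀ = 0` and `s59psUnitRoot ρ_ψ p α` give
  `(α² − 1) ψ b₀ = 0`;
* `s59pshp_triv_of_ram`   : `s59psRamX ρ X = (0)` ⇒ `ρ` is trivial on `X`;
* **`s59pshp_peuTriv`**   : LOCAL-RING (`s59ps_StmtLocalRing`, helper42 ⇐ KUM-H) + `hsep` +
  unit roots ⇒ `s59psPeuTriv ρ p`.
-/
import Fermat.Agent.S59.PStep.PlanKum
import Fermat.Agent.S59.DefCond.OrdTop
import Fermat.Agent.Common.FrobExists

set_option autoImplicit false
set_option linter.unusedSectionVars false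
set_option linter.unusedVariables false
set_option linter.style.longLine false
set_option linter.style.haveILetI false

noncomputable section

namespace Fermat.Agent.S59

open IsLocalRing
open scoped TensorProduct

/-- `ℚ̄` -/
local notation "Qbar" => AlgebraicClosure ℚ

/-! ### The trace formula for the scalar on the quotient -/

section Alg

variable {A : Type} [CommRing A] {V : Type} [AddCommGroup V] [Module A V]

/-- the second coordinate of an element of the line `A b₀` vanishes -/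
theorem s59pshp_repr_line (b : Module.Basis (Fin 2) A V) {w : V}
    (hw : w ∈ (A ∙ b 0 : Submodule A V)) : b.repr w 1 = 0 := by
  obtain ⟨a, rfl⟩ := Submodule.mem_span_singleton.1 hw
  rw [map_smul, Finsupp.smul_apply, Module.Basis.repr_self, Finsupp.single_apply,
    if_neg (by decide), smul_zero]

/-- the second row of the matrix of an endomorphism stabilising the line `A b₀` and acting on the
quotient through `z` -/
theorem s59pshp_shape (b : Module.Basis (Fin 2) A V) (f : Module.End A V) (z : A)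
    (hL : f (b 0) ∈ (A ∙ b 0 : Submodule A V))
    (hz : f (b 1) - z • b 1 ∈ (A ∙ b 0 : Submodule A V)) :
    LinearMap.toMatrix b b f 1 0 = 0 ∧ LinearMap.toMatrix b b f 1 1 = z := by
  constructor
  · rw [LinearMap.toMatrix_apply]
    exact s59pshp_repr_line b hL
  · rw [LinearMap.toMatrix_apply]
    have h := s59pshp_repr_line b hz
    rw [map_sub, Finsupp.sub_apply, map_smul, Finsupp.smul_apply, Module.Basis.repr_self,
      Finsupp.single_apply, if_pos rfl, smul_eq_mul, mul_one, sub_eq_zero] at h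
    exact h

/-- **The trace formula**: `(det f₀ − 1) z = det f₀ · tr g − tr (f₀ g)`. -/
theorem s59pshp_trace_formula (b : Module.Basis (Fin 2) A V) (f0 g : Module.End A V) (z : A)
    (h0L : f0 (b 0) ∈ (A ∙ b 0 : Submodule A V))
    (h0 : f0 (b 1) - b 1 ∈ (A ∙ b 0 : Submodule A V))
    (hgL : g (b 0) ∈ (A ∙ b 0 : Submodule A V))
    (hz : g (b 1) - z • b 1 ∈ (A ∙ b 0 : Submodule A V)) :
    (LinearMap.det f0 - 1) * z =
      LinearMap.det f0 * LinearMap.trace A V g - LinearMap.trace A V (f0 * g) := by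
  have h0' : f0 (b 1) - (1 : A) • b 1 ∈ (A ∙ b 0 : Submodule A V) := by
    rw [one_smul]
    exact h0
  have e0 := s59pshp_shape b f0 1 h0L h0'
  have eg := s59pshp_shape b g z hgL hz
  rw [← LinearMap.det_toMatrix b, LinearMap.trace_eq_matrix_trace A b,
    LinearMap.trace_eq_matrix_trace A b, LinearMap.toMatrix_mul, Matrix.det_fin_two,
    Matrix.trace_fin_two, Matrix.trace_fin_two, Matrix.mul_apply, Matrix.mul_apply,
    Fin.sum_univ_two, Fin.sum_univ_two, e0.1, e0.2, eg.1, eg.2]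
  ring

/-- the trace formula for a line given as in `IsOrdinaryAt` -/
theorem s59pshp_trace_formula' (L : Submodule A V)
    (hL : ∃ b : Module.Basis (Fin 2) A V, L = A ∙ b 0) (f0 g : Module.End A V) (z : A)
    (h0L : ∀ v ∈ L, f0 v ∈ L) (h0 : ∀ v : V, f0 v - v ∈ L)
    (hgL : ∀ v ∈ L, g v ∈ L) (hz : ∀ v : V, g v - z • v ∈ L) :
    (LinearMap.det f0 - 1) * z =
      LinearMap.det f0 * LinearMap.trace A V g - LinearMap.trace A V (f0 * g) := by
  obtain ⟨b, rfl⟩ := hL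
  have hb0 : b 0 ∈ (A ∙ b 0 : Submodule A V) := Submodule.mem_span_singleton_self _
  exact s59pshp_trace_formula b f0 g z (h0L _ hb0) (h0 _) (hgL _ hb0) (hz _)

/-- an endomorphism of a module with a basis indexed by `Fin 2` all of whose matrix entries
`ℓ (f v − v)` vanish is the identity -/
theorem s59pshp_eq_one_of_dual [Module.Free A V] [Module.Finite A V] (f : Module.End A V)
    (h : ∀ (ℓ : Module.Dual A V) (v : V), ℓ (f v - v) = 0) : f = 1 := by
  refine LinearMap.ext fun v => ?_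
  rw [Module.End.one_apply, ← sub_eq_zero]
  exact (Module.forall_dual_apply_eq_zero_iff A (f v - v)).1 fun ℓ => h ℓ v

end Alg

/-! ### Base change of the scalar on the quotient -/

section BC

variable {A B : Type} [CommRing A] [IsLocalRing A] [CommRing B] [IsLocalRing B]

/-- determinants commute with base change -/
theorem s59pshp_det_bc (φ : A →+* B) (hφ : IsLocalHom φ) (ρ : GaloisRepAdic A) (σ : S59G) :
    LinearMap.det ((ρ.baseChangeAlong φ hφ).ρ σ) = φ (LinearMap.det (ρ.ρ σ)) := by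
  letI : Algebra A B := φ.toAlgebra
  exact LinearMap.det_baseChange (ρ.ρ σ)

/-- traces commute with base change -/
theorem s59pshp_trace_bc (φ : A →+* B) (hφ : IsLocalHom φ) (ρ : GaloisRepAdic A) (σ : S59G) :
    LinearMap.trace B (ρ.baseChangeAlong φ hφ).V ((ρ.baseChangeAlong φ hφ).ρ σ) =
      φ (LinearMap.trace A ρ.V (ρ.ρ σ)) := by
  letI : Algebra A B := φ.toAlgebra
  exact LinearMap.trace_baseChange (ρ.ρ σ) B

/-- **The scalar on the quotient commutes with base change**: `σ₀`, `g` stabilise the line `L` of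
`ρ` and the line `L'` of `ρ ⊗_φ B`, `σ₀` is trivial on both quotients, `det ρ σ₀ − 1` is a unit, and
`g` acts on `V ⧸ L` through `z`, on `V' ⧸ L'` through `α`.  Then `φ z = α`. -/
theorem s59pshp_scalar_bc (φ : A →+* B) (hφ : IsLocalHom φ) (ρ : GaloisRepAdic A) (σ0 g : S59G)
    (hu : IsUnit (LinearMap.det (ρ.ρ σ0) - 1))
    (L : Submodule A ρ.V) (hL : ∃ b : Module.Basis (Fin 2) A ρ.V, L = A ∙ b 0)
    (h0L : ∀ v ∈ L, ρ.ρ σ0 v ∈ L) (h0 : ∀ v : ρ.V, ρ.ρ σ0 v - v ∈ L)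
    (hgL : ∀ v ∈ L, ρ.ρ g v ∈ L) (z : A) (hz : ∀ v : ρ.V, ρ.ρ g v - z • v ∈ L)
    (L' : Submodule B (ρ.baseChangeAlong φ hφ).V)
    (hL' : ∃ b : Module.Basis (Fin 2) B (ρ.baseChangeAlong φ hφ).V, L' = B ∙ b 0)
    (h0L' : ∀ v ∈ L', (ρ.baseChangeAlong φ hφ).ρ σ0 v ∈ L')
    (h0' : ∀ v : (ρ.baseChangeAlong φ hφ).V, (ρ.baseChangeAlong φ hφ).ρ σ0 v - v ∈ L')
    (hgL' : ∀ v ∈ L', (ρ.baseChangeAlong φ hφ).ρ g v ∈ L') (α : B)
    (hα : ∀ v : (ρ.baseChangeAlong φ hφ).V, (ρ.baseChangeAlong φ hφ).ρ g v - α • v ∈ L') :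
    φ z = α := by
  have e1 := s59pshp_trace_formula' L hL (ρ.ρ σ0) (ρ.ρ g) z h0L h0 hgL hz
  have e2 := s59pshp_trace_formula' L' hL' ((ρ.baseChangeAlong φ hφ).ρ σ0)
    ((ρ.baseChangeAlong φ hφ).ρ g) α h0L' h0' hgL' hα
  rw [← map_mul, s59pshp_det_bc, s59pshp_trace_bc, s59pshp_trace_bc] at e2
  rw [← map_mul] at e1
  have e3 := congrArg φ e1
  rw [map_mul, map_sub, map_sub, map_mul, map_one] at e3
  have e4 : (φ (LinearMap.det (ρ.ρ σ0)) - 1) * φ z = (φ (LinearMap.det (ρ.ρ σ0)) - 1) * α := by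
    rw [e3, e2]
  have hu' : IsUnit (φ (LinearMap.det (ρ.ρ σ0)) - 1) := by
    have := hu.map φ
    rwa [map_sub, map_one] at this
  exact hu'.mul_left_cancel e4

end BC

/-! ### The element `σ₀` of the inertia group -/

section Sigma

variable {A : Type} [CommRing A] [IsLocalRing A]

/-- `det ρ (σ₀) − 1` is a unit (`σ₀` in the inertia group at `P`, `χ (σ₀) ≡ 2 mod p`) -/
theorem s59pshp_sigma_unit (ρ : GaloisRepAdic A) (p : ℕ) [Fact p.Prime] (hp2 : p ≠ 2)
    (hdet : ρ.DetIsCyclotomic p) (P : ValuationSubring Qbar) (hP : P.LiesOverPrime p) :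
    IsUnit (LinearMap.det (ρ.ρ (s59dcot_sigma p hp2 P)) - 1) := by
  obtain ⟨hI0, hD0, hc0⟩ := s59dcot_sigma_spec p hp2 P hP
  have h1 := hdet.2 1 (s59dcot_sigma p hp2 P) 2 hc0
  have h2 : LinearMap.det (ρ.ρ (s59dcot_sigma p hp2 P)) - ((2 : ℕ) : A) ∈ maximalIdeal A := by
    obtain ⟨y, hy⟩ := Ideal.mem_span_singleton'.1 h1
    rw [← hy, pow_one]
    exact Ideal.mul_mem_left _ _ hdet.1
  by_contra hnu
  have h3 : LinearMap.det (ρ.ρ (s59dcot_sigma p hp2 P)) - 1 ∈ maximalIdeal A :=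
    (IsLocalRing.mem_maximalIdeal _).2 hnu
  have h4 : (1 : A) ∈ maximalIdeal A := by
    have h5 := Ideal.sub_mem _ h3 h2
    have e : LinearMap.det (ρ.ρ (s59dcot_sigma p hp2 P)) - 1 -
        (LinearMap.det (ρ.ρ (s59dcot_sigma p hp2 P)) - ((2 : ℕ) : A)) = 1 := by
      push_cast
      ring
    rwa [e] at h5
  exact (Ideal.ne_top_iff_one _).1 (IsLocalRing.maximalIdeal.isMaximal A).ne_top h4

/-- `ρ` is trivial on `X` as soon as the ideal `s59psRamX ρ X` vanishes -/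
theorem s59pshp_triv_of_ram (ρ : GaloisRepAdic A) (X : Set S59G) (h : s59psRamX ρ X = ⊥) :
    s59psTriv ρ X := by
  intro σ hσ
  refine s59pshp_eq_one_of_dual (ρ.ρ σ) fun ℓ v => ?_
  have h1 : ℓ (ρ.ρ σ v - v) ∈ s59psRamX ρ X :=
    Ideal.subset_span ⟨σ, hσ, ℓ, v, rfl⟩
  rw [h] at h1
  exact (Ideal.mem_bot).1 h1

end Sigma

/-! ### HGD-PEU -/

section Main

variable {𝒪 : Type} [CommRing 𝒪] [IsLocalRing 𝒪] [IsDomain 𝒪]
  {T : Type} [CommRing T] [IsLocalRing T] [Algebra 𝒪 T]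

/-- an augmentation of a local `𝒪`-algebra is a local homomorphism -/
theorem s59pshp_aug_isLocalHom (ψ : T →ₐ[𝒪] 𝒪) : IsLocalHom (ψ : T →+* 𝒪) := by
  refine IsLocalHom.of_surjective (ψ : T →+* 𝒪) fun a => ⟨algebraMap 𝒪 T a, ?_⟩
  show ψ (algebraMap 𝒪 T a) = a
  rw [AlgHom.commutes]
  rfl

/-- **The Frobenius scalar of `ρ` maps to the unit root of `ρ_ψ`**: if `g` is a Frobenius element
at the place `P` over `p`, `L` an ordinary line of `ρ` at `P` and `g` acts on `V ⧸ L` through `z`,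
then `ψ z = α` for the unit root `α` of `ρ_ψ`. -/
theorem s59pshp_unitRoot_eq (p : ℕ) [Fact p.Prime] (hp2 : p ≠ 2) (ρ : GaloisRepAdic T)
    (hdet : ρ.DetIsCyclotomic p) (ψ : T →+* 𝒪) (hψ : IsLocalHom ψ) (α : 𝒪)
    (hα : s59psUnitRoot (ρ.baseChangeAlong ψ hψ) p α)
    (P : ValuationSubring Qbar) (hP : P.LiesOverPrime p) (L : Submodule T ρ.V)
    (hL : ∃ b : Module.Basis (Fin 2) T ρ.V, L = T ∙ b 0)
    (hD : ∀ σ ∈ P.decompositionSubgroup ℚ, ∀ v ∈ L, ρ.ρ σ v ∈ L)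
    (hI : ∀ σ ∈ P.inertiaSubgroupIn ℚ, ∀ v : ρ.V, ρ.ρ σ v - v ∈ L)
    (g : S59G) (hg : P.IsFrobeniusAt g p) (z : T) (hz : ∀ v : ρ.V, ρ.ρ g v - z • v ∈ L) :
    ψ z = α := by
  obtain ⟨hI0, hD0, -⟩ := s59dcot_sigma_spec p hp2 P hP
  obtain ⟨L', hL', hD', hI', hF'⟩ := hα P hP
  have hgD : g ∈ P.decompositionSubgroup ℚ := hg.mem_decompositionSubgroup
  exact s59pshp_scalar_bc ψ hψ ρ (s59dcot_sigma p hp2 P) g (s59pshp_sigma_unit ρ p hp2 hdet P hP)
    L hL (hD _ hD0) (hI _ hI0) (hD _ hgD) z hz L' hL' (hD' _ hD0) (hI' _ hI0) (hD' _ hgD) α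
    (hF' g hg)

/-- the scalar through which an element stabilising the line `L = A b₀` acts on `V ⧸ L` -/
theorem s59pshp_exists_scalar {A : Type} [CommRing A] {V : Type} [AddCommGroup V] [Module A V]
    (L : Submodule A V) (hL : ∃ b : Module.Basis (Fin 2) A V, L = A ∙ b 0) (f : Module.End A V)
    (hf : ∀ v ∈ L, f v ∈ L) : ∃ z : A, ∀ v : V, f v - z • v ∈ L := by
  obtain ⟨b, rfl⟩ := hL
  have hb0 : b 0 ∈ (A ∙ b 0 : Submodule A V) := Submodule.mem_span_singleton_self _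
  refine ⟨b.repr (f (b 1)) 1, fun v => ?_⟩
  have hv : v = b.repr v 0 • b 0 + b.repr v 1 • b 1 := by
    conv_lhs => rw [← b.sum_repr v]
    rw [Fin.sum_univ_two]
  have h1 : f (b 1) - b.repr (f (b 1)) 1 • b 1 ∈ (A ∙ b 0 : Submodule A V) := by
    have e : f (b 1) = b.repr (f (b 1)) 0 • b 0 + b.repr (f (b 1)) 1 • b 1 := by
      conv_lhs => rw [← b.sum_repr (f (b 1))]
      rw [Fin.sum_univ_two]
    have e' : f (b 1) - b.repr (f (b 1)) 1 • b 1 = b.repr (f (b 1)) 0 • b 0 := by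
      rw [sub_eq_iff_eq_add]
      exact e
    rw [e']
    exact Submodule.smul_mem _ _ hb0
  have h2 : f v - b.repr (f (b 1)) 1 • v =
      b.repr v 0 • (f (b 0) - b.repr (f (b 1)) 1 • b 0) +
        b.repr v 1 • (f (b 1) - b.repr (f (b 1)) 1 • b 1) := by
    conv_lhs => rw [hv]
    rw [map_add, map_smul, map_smul, smul_add, smul_sub, smul_sub, smul_comm (b.repr (f (b 1)) 1),
      smul_comm (b.repr (f (b 1)) 1)]
    abel
  rw [h2]
  exact Submodule.add_mem _
    (Submodule.smul_mem _ _ (Submodule.sub_mem _ (hf _ hb0) (Submodule.smul_mem _ _ hb0)))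
    (Submodule.smul_mem _ _ h1)

variable [IsNoetherianRing T] [IsAdicComplete (maximalIdeal T) T]

/-- **HGD-PEU**: `ρ` over `T` (complete noetherian local, its `𝒪`-points separate the elements),
`det ρ = χ`, ordinary at the odd prime `p`; if for every `𝒪`-point `ψ` of `T` the unit root `α` of
`ρ_ψ` at `p` satisfies `α² ≠ 1`, then `ρ` is peu ramifié at `p`. -/
theorem s59pshp_peuTriv (hLR : s59ps_StmtLocalRing) (p : ℕ) [Fact p.Prime] (hp2 : p ≠ 2)
    (ρ : GaloisRepAdic T) (hdet : ρ.DetIsCyclotomic p) (hord : ρ.IsOrdinaryAt p)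
    (hsep : ∀ y : T, (∀ ψ : T →ₐ[𝒪] 𝒪, ψ y = 0) → y = 0)
    (hur : ∀ (ψ : T →ₐ[𝒪] 𝒪) (hψ : IsLocalHom (ψ : T →+* 𝒪)), ∃ α : 𝒪,
      s59psUnitRoot (ρ.baseChangeAlong (ψ : T →+* 𝒪) hψ) p α ∧ α ^ 2 - 1 ≠ 0) :
    s59psPeuTriv ρ p := by
  obtain ⟨b₀, hram, hkill⟩ := hLR p hp2 T ρ hdet hord
  have hb₀ : b₀ = 0 := by
    refine hsep b₀ fun ψ => ?_
    have hψ : IsLocalHom (ψ : T →+* 𝒪) := s59pshp_aug_isLocalHom ψ
    obtain ⟨α, hα, hne⟩ := hur ψ hψ
    obtain ⟨P, hP⟩ := Fermat.Agent.Common.exists_liesOverPrime p (Fact.out : p.Prime)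
    obtain ⟨g, hg⟩ := Fermat.Agent.Common.exists_isFrobeniusAt_of_liesOverPrime p
      (Fact.out : p.Prime) P hP
    obtain ⟨L, hL, hD, hI⟩ := hord P hP
    have hgD : g ∈ P.decompositionSubgroup ℚ := hg.mem_decompositionSubgroup
    obtain ⟨z, hz⟩ := s59pshp_exists_scalar L hL (ρ.ρ g) (hD g hgD)
    have h1 := hkill P hP L hL hD hI g hgD z hz
    have h2 : (ψ : T →+* 𝒪) z = α :=
      s59pshp_unitRoot_eq p hp2 ρ hdet (ψ : T →+* 𝒪) hψ α hα P hP L hL hD hI g hg z hz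
    have h3 := congrArg (ψ : T →+* 𝒪) h1
    rw [map_mul, map_sub, map_pow, map_one, map_zero, h2] at h3
    rcases mul_eq_zero.1 h3 with h4 | h4
    · exact absurd h4 hne
    · exact h4
  refine s59pshp_triv_of_ram ρ _ ?_
  rw [hram, hb₀]
  exact Ideal.span_singleton_eq_bot.2 rfl

end Main

end Fermat.Agent.S59

end
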