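/-
S59, wall M5 = P-STEP, leaf KUM-H, clause (cyc) (helper10).

`P ⊂ ℚ̄` a valuation subring over the prime `p`, `I` its inertia group, `K = ℚ̄^I`,
`H = s59psPeu P p` the peu ramifié subgroup (all levels), `I_n = s59psIn P p n`.

* `s59pskh_fix_of_fix_root` (★): `σ ∈ H` fixing ONE `π` with `π ^ pⁿ = p` fixes EVERY `y` with
  `y ^ pⁿ ∈ K`  (`K^× = U · p^ℤ`, `UNIP.beta0_valuation_eq_zpow`).
* `s59pskh_zero_of_fix_root` : KUM-n ⇒ `h σ = 0` for such a `σ`.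
* `s59pskh_cyc : s59ps_StmtKum → s59pskh_StmtCyc` : the clause (cyc) of KUM-H: there is `t ∈ H`
  (depending on `P`, `p` only) with `h σ ∈ ℕ • h t` for all `σ ∈ H`, all `n`, `B`, `h`.
  (`t` = an element of `H` moving a `p^{n₁}`-th root of `p`, `n₁` minimal; `t = 1` if there is
  none.)
* `s59pskh_kumH_of : s59pskh_StmtCyc → s59pskh_StmtRel → s59ps_StmtKumH`.
-/
import Fermat.Agent.S59.PStep.PlanKum
import Fermat.Agent.UNIP.Beta0Ext

set_option autoImplicit false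
set_option linter.unusedSectionVars false
set_option linter.unusedVariables false
set_option linter.style.longLine false

noncomputable section

namespace Fermat.Agent.S59

open Fermat.Agent.UNIP

/-- `ℚ̄` -/
local notation "Qbar" => AlgebraicClosure ℚ

/-- The clause (cyc) of KUM-H. -/
def s59pskh_StmtCyc : Prop :=
  ∀ (p : ℕ) [Fact p.Prime], p ≠ 2 → ∀ P : ValuationSubring Qbar, P.LiesOverPrime p →
  ∃ t ∈ s59psPeu P p, ∀ (n : ℕ) (B : Type) [AddCommGroup B] (h : S59G → B),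
    S59psKumHyp P p n h → ∀ σ ∈ s59psPeu P p, ∃ m : ℕ, h σ = m • h t

/-- The clause (rel) of KUM-H. -/
def s59pskh_StmtRel : Prop :=
  ∀ (p : ℕ) [Fact p.Prime], p ≠ 2 → ∀ P : ValuationSubring Qbar, P.LiesOverPrime p →
  ∀ (n : ℕ) (B : Type) [AddCommGroup B] (h : S59G → B),
    S59psKumHyp P p n h →
    ∀ g ∈ P.decompositionSubgroup ℚ, ∀ a : ℕ, (∀ ζ : Qbar, ζ ^ p ^ n = 1 → g ζ = ζ ^ a) →
      ∀ σ ∈ s59psPeu P p, h (g * σ * g⁻¹) = a • h σ

/-- (cyc) + (rel) ⇒ KUM-H -/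
theorem s59pskh_kumH_of (hc : s59pskh_StmtCyc) (hr : s59pskh_StmtRel) : s59ps_StmtKumH := by
  intro p _ hp2 P hP
  obtain ⟨t, ht, hcyc⟩ := hc p hp2 P hP
  exact ⟨t, ht, fun n B _ h hyp => ⟨hcyc n B h hyp, hr p hp2 P hP n B h hyp⟩⟩

section Fix

variable {P : ValuationSubring Qbar} {p : ℕ}

theorem s59pskh_root_ne_zero (hp : p.Prime) {n : ℕ} {π : Qbar} (hπ : π ^ p ^ n = (p : Qbar)) :
    π ≠ 0 := by
  intro h
  rw [h, zero_pow (pow_ne_zero _ hp.ne_zero)] at hπ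
  exact hp.ne_zero (by exact_mod_cast hπ.symm)

/-- `σ ∈ H` fixes the `p`-power roots of unity. -/
theorem s59pskh_fix_zeta {σ : S59G} (hσ : σ ∈ s59psPeu P p) (n : ℕ) {ζ : Qbar}
    (hζ : ζ ^ p ^ n = 1) : σ ζ = ζ :=
  (s59psPeu_le_In P p n hσ).2 ζ hζ

/-- (★) `σ ∈ H` fixing one `pⁿ`-th root of `p` fixes every `y` with `y ^ pⁿ ∈ K`. -/
theorem s59pskh_fix_of_fix_root (hp : p.Prime) (hP : P.LiesOverPrime p) (n : ℕ)
    {σ : S59G} (hσ : σ ∈ s59psPeu P p) {π : Qbar} (hπ : π ^ p ^ n = (p : Qbar))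
    (hσπ : σ π = π) (y : Qbar)
    (hy : ∀ τ ∈ P.inertiaSubgroupIn ℚ, τ (y ^ p ^ n) = y ^ p ^ n) : σ y = y := by
  by_cases hy0 : y = 0
  · rw [hy0, map_zero]
  have hz : y ^ p ^ n ∈ beta0Field P := mem_beta0Field.2 hy
  have hz0 : y ^ p ^ n ≠ 0 := pow_ne_zero _ hy0
  obtain ⟨k, hk⟩ := beta0_valuation_eq_zpow hp hP hz hz0
  have hπ0 : π ≠ 0 := s59pskh_root_ne_zero hp hπ
  have hp0 : (p : Qbar) ≠ 0 := by exact_mod_cast hp.ne_zero
  have hwpow : (y / π ^ k) ^ p ^ n = y ^ p ^ n / (p : Qbar) ^ k := by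
    rw [div_pow, ← zpow_natCast (π ^ k), ← zpow_mul, mul_comm, zpow_mul, zpow_natCast, hπ]
  have hvp0 : P.valuation (p : Qbar) ≠ 0 := by
    rw [Ne, map_eq_zero]
    exact hp0
  have hval : P.valuation ((y / π ^ k) ^ p ^ n) = 1 := by
    rw [hwpow, map_div₀, hk, map_zpow₀, div_self (zpow_ne_zero _ hvp0)]
  obtain ⟨hσI, hσy⟩ := hσ
  have hw : σ (y / π ^ k) = y / π ^ k := by
    refine hσy n (y / π ^ k) ?_ ?_ ?_
    · rw [← ValuationSubring.valuation_le_one_iff, hval]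
    · rw [← ValuationSubring.valuation_le_one_iff, map_inv₀, hval, inv_one]
    · intro τ hτ
      rw [hwpow, map_div₀, hy τ hτ, map_zpow₀, map_natCast]
  have hyw : y = y / π ^ k * π ^ k := by
    rw [div_mul_cancel₀ _ (zpow_ne_zero _ hπ0)]
  calc σ y = σ (y / π ^ k * π ^ k) := by rw [← hyw]
    _ = σ (y / π ^ k) * (σ π) ^ k := by rw [map_mul, map_zpow₀]
    _ = y := by rw [hw, hσπ, ← hyw]

/-- KUM-n ⇒ `h σ = 0` for `σ ∈ H` fixing a `pⁿ`-th root of `p`. -/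
theorem s59pskh_zero_of_fix_root (hKum : s59ps_StmtKum) [Fact p.Prime] (hp2 : p ≠ 2)
    (hP : P.LiesOverPrime p) (n : ℕ) {B : Type} [AddCommGroup B] (h : S59G → B)
    (hyp : S59psKumHyp P p n h) {σ : S59G} (hσ : σ ∈ s59psPeu P p) {π : Qbar}
    (hπ : π ^ p ^ n = (p : Qbar)) (hσπ : σ π = π) : h σ = 0 :=
  hKum p hp2 P hP n B h hyp σ (s59psPeu_le_In P p n hσ)
    (fun y hy => s59pskh_fix_of_fix_root Fact.out hP n hσ hπ hσπ y hy)

/-- the Kummer symbol does not depend on the root -/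
theorem s59pskh_symbol_indep (hp : p.Prime) {σ : S59G} (hσ : σ ∈ s59psPeu P p) (n : ℕ)
    {π π' : Qbar} (hπ : π ^ p ^ n = (p : Qbar)) (hπ' : π' ^ p ^ n = (p : Qbar)) :
    σ π' / π' = σ π / π := by
  have hπ0 : π ≠ 0 := s59pskh_root_ne_zero hp hπ
  have hπ'0 : π' ≠ 0 := s59pskh_root_ne_zero hp hπ'
  have hp0 : (p : Qbar) ≠ 0 := by exact_mod_cast hp.ne_zero
  have hζ : (π' / π) ^ p ^ n = 1 := by
    rw [div_pow, hπ, hπ', div_self hp0]
  have h1 := s59pskh_fix_zeta hσ n hζ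
  rw [map_div₀] at h1
  have hσπ0 : σ π ≠ 0 := by
    rw [Ne, map_eq_zero_iff _ σ.injective]
    exact hπ0
  field_simp at h1 ⊢
  linear_combination h1

/-- `σ ∈ H` fixing one `pⁿ`-th root of `p` fixes all of them. -/
theorem s59pskh_fix_all (hp : p.Prime) {σ : S59G} (hσ : σ ∈ s59psPeu P p) (n : ℕ)
    {π π' : Qbar} (hπ : π ^ p ^ n = (p : Qbar)) (hπ' : π' ^ p ^ n = (p : Qbar))
    (hσπ : σ π = π) : σ π' = π' := by
  have hπ0 : π ≠ 0 := s59pskh_root_ne_zero hp hπ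
  have hπ'0 : π' ≠ 0 := s59pskh_root_ne_zero hp hπ'
  have h := s59pskh_symbol_indep hp hσ n hπ hπ'
  rw [hσπ, div_self hπ0, div_eq_one_iff_eq hπ'0] at h
  exact h

end Fix

section Cyc

variable {P : ValuationSubring Qbar} {p : ℕ}

/-- `h 1 = 0` -/
theorem s59pskh_h_one {n : ℕ} {B : Type} [AddCommGroup B] {h : S59G → B}
    (hyp : S59psKumHyp P p n h) : h 1 = 0 := by
  have h1 := hyp.add 1 (one_mem _) 1 (one_mem _)
  rw [mul_one] at h1
  have h2 : h 1 + 0 = h 1 + h 1 := by rw [add_zero]; exact h1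
  exact (add_left_cancel h2).symm

/-- `h (t ^ m) = m • h t` on `I_n` -/
theorem s59pskh_h_pow {n : ℕ} {B : Type} [AddCommGroup B] {h : S59G → B}
    (hyp : S59psKumHyp P p n h) {t : S59G} (ht : t ∈ s59psIn P p n) (m : ℕ) :
    h (t ^ m) = m • h t := by
  induction m with
  | zero => rw [pow_zero, zero_smul]; exact s59pskh_h_one hyp
  | succ m ih => rw [pow_succ, hyp.add _ (pow_mem ht m) _ ht, ih, succ_nsmul]

/-- the action of a power on a root -/
theorem s59pskh_pow_apply {t : S59G} {ξ π : Qbar} (hξ : t ξ = ξ) (hπ : t π = ξ * π) (m : ℕ) :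
    (t ^ m) π = ξ ^ m * π := by
  induction m with
  | zero => simp
  | succ m ih =>
    rw [pow_succ', AlgEquiv.mul_apply, ih, map_mul, map_pow, hξ, hπ]
    ring

/-- **KUM-H, clause (cyc)**, from KUM-n. -/
theorem s59pskh_cyc (hKum : s59ps_StmtKum) : s59pskh_StmtCyc := by
  intro p hpf hp2 P hP
  have hp : p.Prime := Fact.out
  have hp0 : (p : Qbar) ≠ 0 := by exact_mod_cast hp.ne_zero
  classical
  by_cases hex : ∃ n : ℕ, ∃ t ∈ s59psPeu P p, ∃ π : Qbar, π ^ p ^ n = (p : Qbar) ∧ t π ≠ π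
  swap
  · -- no element of `H` moves a `p`-power root of `p`
    refine ⟨1, one_mem _, fun n B _ h hyp σ hσ => ⟨0, ?_⟩⟩
    rw [zero_smul]
    obtain ⟨π, hπ⟩ := IsAlgClosed.exists_pow_nat_eq (p : Qbar) (pow_pos hp.pos n)
    refine s59pskh_zero_of_fix_root hKum hp2 hP n h hyp hσ hπ ?_
    by_contra hne
    exact hex ⟨n, σ, hσ, π, hπ, hne⟩
  · obtain ⟨t, ht, π₁, hπ₁, htπ₁⟩ := Nat.find_spec hex
    have hmin : ∀ n < Nat.find hex, ∀ σ ∈ s59psPeu P p, ∀ π : Qbar,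
        π ^ p ^ n = (p : Qbar) → σ π = π := by
      intro n hn σ hσ π hπ
      by_contra hne
      exact Nat.find_min hex hn ⟨σ, hσ, π, hπ, hne⟩
    have hn₁pos : 0 < Nat.find hex := by
      rcases Nat.eq_zero_or_pos (Nat.find hex) with h0 | h0
      · exfalso
        rw [h0, pow_zero, pow_one] at hπ₁
        apply htπ₁
        rw [hπ₁, map_natCast]
      · exact h0
    generalize Nat.find hex = n₁ at hπ₁ hmin hn₁pos
    refine ⟨t, ht, fun n B _ h hyp σ hσ => ?_⟩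
    obtain ⟨π, hπ⟩ := IsAlgClosed.exists_pow_nat_eq (p : Qbar) (pow_pos hp.pos n)
    have hπ0 := s59pskh_root_ne_zero hp hπ
    rcases lt_or_ge n n₁ with hlt | hge
    · exact ⟨0, by
        rw [zero_smul]
        exact s59pskh_zero_of_fix_root hKum hp2 hP n h hyp hσ hπ (hmin n hlt σ hσ π hπ)⟩
    · obtain ⟨d, hd⟩ : ∃ d, n = n₁ + d := ⟨n - n₁, by omega⟩
      have htπ : t π = t π / π * π := by rw [div_mul_cancel₀ _ hπ0]
      have hσπ : σ π = σ π / π * π := by rw [div_mul_cancel₀ _ hπ0]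
      generalize t π / π = ξ at htπ
      generalize σ π / π = η at hσπ
      have hπ₀ : (π ^ p ^ (d + 1)) ^ p ^ (n₁ - 1) = (p : Qbar) := by
        rw [← pow_mul, ← pow_add, show d + 1 + (n₁ - 1) = n by omega, hπ]
      have hπ₁' : (π ^ p ^ d) ^ p ^ n₁ = (p : Qbar) := by
        rw [← pow_mul, ← pow_add, show d + n₁ = n by omega, hπ]
      have hξ1 : ξ ^ p ^ (d + 1) = 1 := by
        have h1 := hmin (n₁ - 1) (by omega) t ht _ hπ₀
        rw [map_pow, htπ, mul_pow] at h1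
        exact mul_right_cancel₀ (pow_ne_zero (p ^ (d + 1)) hπ0) (by rw [h1, one_mul])
      have hη1 : η ^ p ^ (d + 1) = 1 := by
        have h1 := hmin (n₁ - 1) (by omega) σ hσ _ hπ₀
        rw [map_pow, hσπ, mul_pow] at h1
        exact mul_right_cancel₀ (pow_ne_zero (p ^ (d + 1)) hπ0) (by rw [h1, one_mul])
      have hξ2 : ¬ ξ ^ p ^ d = 1 := by
        intro h1
        apply htπ₁
        refine s59pskh_fix_all hp ht n₁ hπ₁' hπ₁ ?_
        rw [map_pow, htπ, mul_pow, h1, one_mul]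
      have hord : orderOf ξ = p ^ (d + 1) := orderOf_eq_prime_pow hξ2 hξ1
      have hprim : IsPrimitiveRoot ξ (p ^ (d + 1)) := hord ▸ IsPrimitiveRoot.orderOf ξ
      have : NeZero (p ^ (d + 1)) := ⟨pow_ne_zero _ hp.ne_zero⟩
      obtain ⟨m, hm, hmη⟩ := hprim.eq_pow_of_pow_eq_one hη1
      refine ⟨m, ?_⟩
      have htm : t ^ m ∈ s59psPeu P p := pow_mem ht m
      have hρ : σ * (t ^ m)⁻¹ ∈ s59psPeu P p := mul_mem hσ (inv_mem htm)
      have hξfix : t ξ = ξ := s59pskh_fix_zeta ht (d + 1) hξ1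
      have hξm1 : (ξ ^ m) ^ p ^ (d + 1) = 1 := by
        rw [← pow_mul, mul_comm, pow_mul, hξ1, one_pow]
      have hξm0 : ξ ^ m ≠ 0 := by
        intro h0
        rw [h0, zero_pow (pow_ne_zero _ hp.ne_zero)] at hξm1
        exact zero_ne_one hξm1
      have htmπ : (t ^ m) π = ξ ^ m * π := s59pskh_pow_apply hξfix htπ m
      have hinv : (t ^ m)⁻¹ π = (ξ ^ m)⁻¹ * π := by
        have h1 := congrArg ((t ^ m)⁻¹ : S59G) htmπ
        rw [← AlgEquiv.mul_apply, inv_mul_cancel, AlgEquiv.one_apply, map_mul,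
          s59pskh_fix_zeta (inv_mem htm) (d + 1) hξm1] at h1
        exact (eq_inv_mul_iff_mul_eq₀ hξm0).2 h1.symm
      have hρπ : (σ * (t ^ m)⁻¹) π = π := by
        rw [AlgEquiv.mul_apply, hinv, map_mul, map_inv₀,
          s59pskh_fix_zeta hσ (d + 1) hξm1, hσπ, ← hmη, ← mul_assoc, inv_mul_cancel₀ hξm0,
          one_mul]
      have h0 := s59pskh_zero_of_fix_root hKum hp2 hP n h hyp hρ hπ hρπ
      have hIn := s59psPeu_le_In P p n
      calc h σ = h (σ * (t ^ m)⁻¹ * t ^ m) := by rw [inv_mul_cancel_right]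
        _ = h (σ * (t ^ m)⁻¹) + h (t ^ m) := hyp.add _ (hIn hρ) _ (hIn htm)
        _ = m • h t := by rw [h0, zero_add, s59pskh_h_pow hyp (hIn ht) m]

end Cyc

end Fermat.Agent.S59
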