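/-
S59, wall M5 = P-STEP, leaf LOCAL-RING ⇐ KUM-H (helper42).  Interface: `S59/PStep/PlanKum.lean`.

`s59pslr_localRing : s59ps_StmtKumH → s59ps_StmtLocalRing`.

`ρ` over a noetherian local ring `A`, `det ρ = χ`, ordinary at `p`; `P` a place over `p`, `L = A b₀`
an ordinary line at `P`, `M = matOfBasis ρ b`.  For `σ` in the decomposition group `M σ` is upper
triangular; on the inertia group the lower right entry is `1`; on the peu ramifié subgroup `H_P`
also `M σ 0 0 = det ρ σ = 1` (Krull), so `M σ = 1 + β σ · E₀₁`, `β σ := M σ 0 1`.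

* `s59pslr_conj_mem_peu` : `τ H_P τ⁻¹ ⊆ H_{τ P}`;
* `s59pslr_ram_eq`       : `s59psRamX ρ (s59psPeuSet p) = (β σ : σ ∈ H_P)` for EVERY `(P, L, b)`;
* `s59pslr_kumHyp`       : `h σ := β σ mod (pⁿ) + 𝔪ᵏ` satisfies `S59psKumHyp P p n`
                           (`β (σ τ) = β σ + c σ β τ`, `β (g σ g⁻¹) = c g β σ + (1 − c σ) β g`);
* `s59pslr_rel`          : (REL) `β (g σ g⁻¹) · z = x · β σ` for `g ∈ D_P`, `M g = [x, y; 0, z]`;
* `s59pslr_kill`         : `(z² − 1) β σ = 0` (KUM-H (rel) + (REL) + Krull);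
* `s59pslr_cyc`          : `β σ ∈ (β t)` (KUM-H (cyc) + Krull);
* `s59pslr_localRing`    : the assembly.
-/
import Fermat.Agent.S59.PStep.PlanKum
import Fermat.Agent.S59.SelLocalTools
import Fermat.Agent.S59.DefCond.CommonDet
import Fermat.Agent.Common.FrobProfinite

set_option autoImplicit false
set_option linter.unusedSectionVars false
set_option linter.unusedVariables false
set_option linter.style.longLine false

noncomputable section

namespace Fermat.Agent.S59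

open IsLocalRing Fermat.Agent.S53
open scoped Pointwise

/-- `ℚ̄` -/
local notation "Qbar" => AlgebraicClosure ℚ

/-! ### Conjugation of the peu ramifié subgroups -/

/-- `τ H_P τ⁻¹ ⊆ H_{τ P}`. -/
theorem s59pslr_conj_mem_peu (P : ValuationSubring Qbar) (p : ℕ) (τ σ : S59G)
    (hσ : σ ∈ s59psPeu P p) : τ * σ * τ⁻¹ ∈ s59psPeu (τ • P) p := by
  obtain ⟨hσI, hσ'⟩ := hσ
  refine ⟨Fermat.Agent.PT.B.conj_mem_inertiaSubgroupIn (K := ℚ) P τ σ hσI,
    fun n y h1 h2 h3 => ?_⟩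
  have e1 : (τ⁻¹ y) ^ p ^ n = τ⁻¹ (y ^ p ^ n) := (map_pow _ _ _).symm
  have hcancel : ∀ u : Qbar, τ (τ⁻¹ u) = u := fun u => by
    rw [← AlgEquiv.mul_apply, mul_inv_cancel, AlgEquiv.one_apply]
  have hcancel' : ∀ u : Qbar, τ⁻¹ (τ u) = u := fun u => by
    rw [← AlgEquiv.mul_apply, inv_mul_cancel, AlgEquiv.one_apply]
  have k : σ (τ⁻¹ y) = τ⁻¹ y := by
    refine hσ' n (τ⁻¹ y) ?_ ?_ ?_
    · rw [e1]
      exact (Fermat.Agent.PT.B.mem_smul_valuationSubring_iff P τ _).1 h1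
    · rw [e1, ← map_inv₀]
      exact (Fermat.Agent.PT.B.mem_smul_valuationSubring_iff P τ _).1 h2
    · intro τ' hτ'
      rw [e1]
      have h4 := h3 (τ * τ' * τ⁻¹)
        (Fermat.Agent.PT.B.conj_mem_inertiaSubgroupIn (K := ℚ) P τ τ' hτ')
      rw [AlgEquiv.mul_apply, AlgEquiv.mul_apply] at h4
      have h5 := congrArg (fun u => τ⁻¹ u) h4
      simp only [hcancel'] at h5
      exact h5
  rw [AlgEquiv.mul_apply, AlgEquiv.mul_apply, k, hcancel]

/-- the inertia group is contained in the decomposition group -/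
theorem s59pslr_inertia_le (P : ValuationSubring Qbar) {σ : S59G}
    (hσ : σ ∈ P.inertiaSubgroupIn ℚ) : σ ∈ P.decompositionSubgroup ℚ :=
  ((Fermat.Agent.PT.B.mem_inertiaSubgroupIn_iff (K := ℚ) P σ).1 hσ).1

/-- the decomposition group normalises the inertia group -/
theorem s59pslr_conj_inertia (P : ValuationSubring Qbar) {g σ : S59G}
    (hg : g ∈ P.decompositionSubgroup ℚ) (hσ : σ ∈ P.inertiaSubgroupIn ℚ) :
    g * σ * g⁻¹ ∈ P.inertiaSubgroupIn ℚ := by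
  have h := Fermat.Agent.PT.B.conj_mem_inertiaSubgroupIn (K := ℚ) P g σ hσ
  have hD : g • P = P := MulAction.mem_stabilizer_iff.mp hg
  rwa [hD] at h

/-- the decomposition group normalises the peu ramifié subgroup -/
theorem s59pslr_conj_peu (P : ValuationSubring Qbar) (p : ℕ) {g σ : S59G}
    (hg : g ∈ P.decompositionSubgroup ℚ) (hσ : σ ∈ s59psPeu P p) :
    g * σ * g⁻¹ ∈ s59psPeu P p := by
  have h := s59pslr_conj_mem_peu P p g σ hσ
  have hD : g • P = P := MulAction.mem_stabilizer_iff.mp hg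
  rwa [hD] at h

/-! ### Krull -/

section Krull

variable {A : Type} [CommRing A] [IsLocalRing A] [IsNoetherianRing A]

/-- ideals of a noetherian local ring are closed -/
theorem s59pslr_krull (I : Ideal A) (a : A)
    (h : ∀ n : ℕ, ∃ c ∈ I, a - c ∈ maximalIdeal A ^ n) : a ∈ I := by
  have h1 : (Ideal.Quotient.mk I a : A ⧸ I) ∈
      (⨅ n : ℕ, (maximalIdeal A ^ n) • (⊤ : Submodule A (A ⧸ I))) := by
    rw [Submodule.mem_iInf]
    intro n
    obtain ⟨c, hc, hac⟩ := h n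
    have e : (Ideal.Quotient.mk I a : A ⧸ I) = (a - c) • (Ideal.Quotient.mk I 1 : A ⧸ I) := by
      rw [Algebra.smul_def, Ideal.Quotient.algebraMap_eq, map_one, mul_one, map_sub,
        Ideal.Quotient.eq_zero_iff_mem.2 hc, sub_zero]
    rw [e]
    exact Submodule.smul_mem_smul hac Submodule.mem_top
  rw [Ideal.iInf_pow_smul_eq_bot_of_isLocalRing _ (Ideal.IsMaximal.ne_top inferInstance)] at h1
  exact Ideal.Quotient.eq_zero_iff_mem.1 ((Submodule.mem_bot _).1 h1)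

/-- Krull's intersection theorem -/
theorem s59pslr_krull_zero (a : A) (h : ∀ n : ℕ, a ∈ maximalIdeal A ^ n) : a = 0 := by
  have h3 : a ∈ ⨅ n, maximalIdeal A ^ n := (Ideal.mem_iInf).mpr h
  rw [Ideal.iInf_pow_eq_bot_of_isLocalRing _ (Ideal.IsMaximal.ne_top inferInstance)] at h3
  exact h3

end Krull

/-! ### Matrices in an ordinary basis -/

section Mat

variable {A : Type} [CommRing A] [IsLocalRing A]

/-- the entries of the matrix of `ρ σ` -/
theorem s59pslr_entry (ρ : GaloisRepAdic A) (b : Module.Basis (Fin 2) A ρ.V) (σ : S59G)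
    (i j : Fin 2) : matOfBasis ρ b σ i j = b.repr (ρ.ρ σ (b j)) i := by
  rw [matOfBasis_apply, LinearMap.toMatrix_apply]

omit [IsLocalRing A] in
/-- the second coordinate of an element of the line `A b₀` vanishes -/
theorem s59pslr_repr_line {V : Type} [AddCommGroup V] [Module A V]
    (b : Module.Basis (Fin 2) A V) {w : V} (hw : w ∈ (A ∙ b 0 : Submodule A V)) :
    b.repr w 1 = 0 := by
  obtain ⟨a, rfl⟩ := Submodule.mem_span_singleton.1 hw
  rw [map_smul, Finsupp.smul_apply, Module.Basis.repr_self, Finsupp.single_apply,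
    if_neg (by decide), smul_zero]

/-- the shape of `M g`, `g` stabilising the line and acting on the quotient through `z` -/
theorem s59pslr_shape (ρ : GaloisRepAdic A) (b : Module.Basis (Fin 2) A ρ.V)
    (g : S59G) (z : A) (hL : ρ.ρ g (b 0) ∈ (A ∙ b 0 : Submodule A ρ.V))
    (hz : ρ.ρ g (b 1) - z • b 1 ∈ (A ∙ b 0 : Submodule A ρ.V)) :
    matOfBasis ρ b g 1 0 = 0 ∧ matOfBasis ρ b g 1 1 = z := by
  constructor
  · rw [s59pslr_entry]
    exact s59pslr_repr_line b hL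
  · rw [s59pslr_entry]
    have h := s59pslr_repr_line b hz
    rw [map_sub, Finsupp.sub_apply, map_smul, Finsupp.smul_apply, Module.Basis.repr_self,
      Finsupp.single_apply, if_pos rfl, smul_eq_mul, mul_one, sub_eq_zero] at h
    exact h

/-- the determinant of an upper triangular `M g` -/
theorem s59pslr_det (ρ : GaloisRepAdic A) (b : Module.Basis (Fin 2) A ρ.V)
    (g : S59G) (h10 : matOfBasis ρ b g 1 0 = 0) :
    LinearMap.det (ρ.ρ g) = matOfBasis ρ b g 0 0 * matOfBasis ρ b g 1 1 := by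
  rw [← s59sellt_det ρ b g, Matrix.det_fin_two, h10, mul_zero, sub_zero]

omit [IsLocalRing A] in
/-- the `(0, 1)` entry of `S' G = G S` -/
theorem s59pslr_conj_entry (S' G S : Matrix (Fin 2) (Fin 2) A) (h : S' * G = G * S) :
    S' 0 0 * G 0 1 + S' 0 1 * G 1 1 = G 0 0 * S 0 1 + G 0 1 * S 1 1 := by
  have h1 := congrFun (congrFun h 0) 1
  rwa [Matrix.mul_apply, Matrix.mul_apply, Fin.sum_univ_two, Fin.sum_univ_two] at h1

omit [IsLocalRing A] in
/-- the `(0, 1)` entry of a product -/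
theorem s59pslr_mul_entry (S T : Matrix (Fin 2) (Fin 2) A) :
    (S * T) 0 1 = S 0 0 * T 0 1 + S 0 1 * T 1 1 := by
  rw [Matrix.mul_apply, Fin.sum_univ_two]

/-- `M (g σ g⁻¹) · M g = M g · M σ` -/
theorem s59pslr_conj_mul (ρ : GaloisRepAdic A) (b : Module.Basis (Fin 2) A ρ.V) (g σ : S59G) :
    matOfBasis ρ b (g * σ * g⁻¹) * matOfBasis ρ b g = matOfBasis ρ b g * matOfBasis ρ b σ := by
  rw [← map_mul, ← map_mul]
  congr 1
  group

/-- `det ρ (g σ g⁻¹) = det ρ σ` -/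
theorem s59pslr_det_conj (ρ : GaloisRepAdic A) (g σ : S59G) :
    LinearMap.det (ρ.ρ (g * σ * g⁻¹)) = LinearMap.det (ρ.ρ σ) := by
  have h1 : LinearMap.det (ρ.ρ g) * LinearMap.det (ρ.ρ g⁻¹) = 1 := by
    rw [← map_mul, ← map_mul, mul_inv_cancel, map_one, map_one]
  rw [map_mul, map_mul, map_mul, map_mul]
  calc LinearMap.det (ρ.ρ g) * LinearMap.det (ρ.ρ σ) * LinearMap.det (ρ.ρ g⁻¹)
      = LinearMap.det (ρ.ρ σ) * (LinearMap.det (ρ.ρ g) * LinearMap.det (ρ.ρ g⁻¹)) := by ring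
    _ = LinearMap.det (ρ.ρ σ) := by rw [h1, mul_one]

/-- `det ρ g` is a unit -/
theorem s59pslr_det_mul_inv (ρ : GaloisRepAdic A) (g : S59G) :
    LinearMap.det (ρ.ρ g⁻¹) * LinearMap.det (ρ.ρ g) = 1 := by
  rw [← map_mul, ← map_mul, inv_mul_cancel, map_one, map_one]

end Mat

/-! ### The ordinary datum at a place -/

section Ord

variable {A : Type} [CommRing A] [IsLocalRing A]

/-- An ordinary datum of `ρ` at the place `P`: a basis `b` whose first vector spans a line stable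
under the decomposition group, on whose quotient the inertia group acts trivially. -/
structure S59pslrOrd (ρ : GaloisRepAdic A) (P : ValuationSubring Qbar)
    (b : Module.Basis (Fin 2) A ρ.V) : Prop where
  stab : ∀ σ ∈ P.decompositionSubgroup ℚ, ∀ v ∈ (A ∙ b 0 : Submodule A ρ.V),
    ρ.ρ σ v ∈ (A ∙ b 0 : Submodule A ρ.V)
  inert : ∀ σ ∈ P.inertiaSubgroupIn ℚ, ∀ v : ρ.V, ρ.ρ σ v - v ∈ (A ∙ b 0 : Submodule A ρ.V)

variable {ρ : GaloisRepAdic A} {P : ValuationSubring Qbar} {b : Module.Basis (Fin 2) A ρ.V}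

theorem S59pslrOrd.dec (h : S59pslrOrd ρ P b) {g : S59G} (hg : g ∈ P.decompositionSubgroup ℚ)
    (z : A) (hz : ∀ v : ρ.V, ρ.ρ g v - z • v ∈ (A ∙ b 0 : Submodule A ρ.V)) :
    matOfBasis ρ b g 1 0 = 0 ∧ matOfBasis ρ b g 1 1 = z :=
  s59pslr_shape ρ b g z (h.stab g hg _ (Submodule.mem_span_singleton_self _)) (hz _)

theorem S59pslrOrd.dec10 (h : S59pslrOrd ρ P b) {g : S59G}
    (hg : g ∈ P.decompositionSubgroup ℚ) : matOfBasis ρ b g 1 0 = 0 := by
  rw [s59pslr_entry]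
  exact s59pslr_repr_line b (h.stab g hg _ (Submodule.mem_span_singleton_self _))

theorem S59pslrOrd.inertia (h : S59pslrOrd ρ P b) {σ : S59G}
    (hσ : σ ∈ P.inertiaSubgroupIn ℚ) :
    matOfBasis ρ b σ 1 0 = 0 ∧ matOfBasis ρ b σ 1 1 = 1 :=
  h.dec (s59pslr_inertia_le P hσ) 1 (fun v => by rw [one_smul]; exact h.inert σ hσ v)

theorem S59pslrOrd.det_inertia (h : S59pslrOrd ρ P b) {σ : S59G}
    (hσ : σ ∈ P.inertiaSubgroupIn ℚ) : LinearMap.det (ρ.ρ σ) = matOfBasis ρ b σ 0 0 := by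
  rw [s59pslr_det ρ b σ (h.inertia hσ).1, (h.inertia hσ).2, mul_one]

end Ord

section Peu

variable {A : Type} [CommRing A] [IsLocalRing A] [IsNoetherianRing A]
variable {ρ : GaloisRepAdic A} {P : ValuationSubring Qbar} {b : Module.Basis (Fin 2) A ρ.V}

/-- `det ρ = 1` on the peu ramifié subgroup -/
theorem s59pslr_det_peu (p : ℕ) (hdet : ρ.DetIsCyclotomic p) {σ : S59G}
    (hσ : σ ∈ s59psPeu P p) : LinearMap.det (ρ.ρ σ) = 1 := by
  have := s59sellt_det_eq p ρ hdet σ 1 (fun n μ hμ => by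
    rw [pow_one]
    exact (s59psPeu_le_In P p n hσ).2 μ hμ)
  rw [this, Nat.cast_one]

/-- on the peu ramifié subgroup `M σ = 1 + β σ E₀₁` -/
theorem S59pslrOrd.peu (h : S59pslrOrd ρ P b) (p : ℕ) (hdet : ρ.DetIsCyclotomic p) {σ : S59G}
    (hσ : σ ∈ s59psPeu P p) :
    matOfBasis ρ b σ 0 0 = 1 ∧ matOfBasis ρ b σ 1 0 = 0 ∧ matOfBasis ρ b σ 1 1 = 1 := by
  have hI := s59psPeu_le P p hσ
  refine ⟨?_, (h.inertia hI).1, (h.inertia hI).2⟩
  rw [← h.det_inertia hI]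
  exact s59pslr_det_peu p hdet hσ

/-- the entries of `M σ − 1`, `σ ∈ H_P`, lie in every ideal containing `β σ` -/
theorem S59pslrOrd.peu_sub_one (h : S59pslrOrd ρ P b) (p : ℕ) (hdet : ρ.DetIsCyclotomic p)
    {σ : S59G} (hσ : σ ∈ s59psPeu P p) (J : Ideal A) (hJ : matOfBasis ρ b σ 0 1 ∈ J)
    (i j : Fin 2) : (matOfBasis ρ b σ - 1) i j ∈ J := by
  obtain ⟨h00, h10, h11⟩ := h.peu p hdet hσ
  rw [Matrix.sub_apply]
  fin_cases i <;> fin_cases j
  · show matOfBasis ρ b σ 0 0 - (1 : Matrix (Fin 2) (Fin 2) A) 0 0 ∈ J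
    rw [h00, Matrix.one_apply_eq, sub_self]
    exact J.zero_mem
  · show matOfBasis ρ b σ 0 1 - (1 : Matrix (Fin 2) (Fin 2) A) 0 1 ∈ J
    rw [Matrix.one_apply_ne (by decide), sub_zero]
    exact hJ
  · show matOfBasis ρ b σ 1 0 - (1 : Matrix (Fin 2) (Fin 2) A) 1 0 ∈ J
    rw [h10, Matrix.one_apply_ne (by decide), sub_zero]
    exact J.zero_mem
  · show matOfBasis ρ b σ 1 1 - (1 : Matrix (Fin 2) (Fin 2) A) 1 1 ∈ J
    rw [h11, Matrix.one_apply_eq, sub_self]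
    exact J.zero_mem

/-- `β σ ∈ s59psRamX ρ (s59psPeuSet p)` for `σ ∈ H_P` -/
theorem s59pslr_entry_mem (p : ℕ) (hP : P.LiesOverPrime p) {σ : S59G}
    (hσ : σ ∈ s59psPeu P p) : matOfBasis ρ b σ 0 1 ∈ s59psRamX ρ (s59psPeuSet p) := by
  refine Ideal.subset_span ⟨σ, ⟨P, hP, hσ⟩, b.coord 0, b 1, ?_⟩
  rw [map_sub, Module.Basis.coord_apply, Module.Basis.coord_apply, Module.Basis.repr_self,
    Finsupp.single_apply, if_neg (by decide), sub_zero, s59pslr_entry]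

/-- **the peu-ramification ideal is generated by the `β σ`, `σ ∈ H_P`**, for ONE place `P` and
ONE ordinary basis at `P`: upper bound. -/
theorem S59pslrOrd.ram_le (h : S59pslrOrd ρ P b) (p : ℕ) (hp : p.Prime)
    (hP : P.LiesOverPrime p) (hdet : ρ.DetIsCyclotomic p) (J : Ideal A)
    (hJ : ∀ σ ∈ s59psPeu P p, matOfBasis ρ b σ 0 1 ∈ J) :
    s59psRamX ρ (s59psPeuSet p) ≤ J := by
  rw [s59psRamX, Ideal.span_le]
  rintro r ⟨σ', ⟨P', hP', hσ'⟩, ℓ, v, rfl⟩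
  obtain ⟨τ, hτ⟩ := Fermat.Agent.TW.S.sconjp_exists_smul_eq p hp P' P hP' hP
  have hσ : τ * σ' * τ⁻¹ ∈ s59psPeu P p := by
    have := s59pslr_conj_mem_peu P' p τ σ' hσ'
    rwa [hτ] at this
  set M := matOfBasis ρ b with hMdef
  have hM : M σ' - 1 = M τ⁻¹ * (M (τ * σ' * τ⁻¹) - 1) * M τ := by
    have e1 : M τ⁻¹ * M τ = 1 := by rw [← map_mul, inv_mul_cancel, map_one]
    have e2 : M τ⁻¹ * M (τ * σ' * τ⁻¹) * M τ = M σ' := by
      rw [← map_mul, ← map_mul]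
      congr 1
      group
    rw [mul_sub, sub_mul, mul_one, e1, e2]
  have hent : ∀ i j, (M σ' - 1) i j ∈ J := by
    intro i j
    rw [hM]
    exact matrix_mul_mem_ideal_right _
      (fun i j => matrix_mul_mem_ideal_left _
        (fun i j => h.peu_sub_one p hdet hσ J (hJ _ hσ) i j) i j) i j
  have hf : ∀ i j, LinearMap.toMatrix b b (ρ.ρ σ' - 1) i j ∈ J := by
    intro i j
    have := hent i j
    rwa [hMdef, matOfBasis_apply, ← LinearMap.toMatrix_one b, ← map_sub] at this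
  have := s59sellt_dual_mem ρ.V b J (ρ.ρ σ' - 1) hf ℓ v
  simpa [LinearMap.sub_apply] using this

end Peu

/-! ### The Kummer hypotheses for `β mod (pⁿ) + 𝔪ᵏ` -/

section Kum

variable {A : Type} [CommRing A] [IsLocalRing A]

/-- the ideal `(pⁿ) + 𝔪ᵏ` -/
def s59pslrJ (A : Type) [CommRing A] [IsLocalRing A] (p n k : ℕ) : Ideal A :=
  Ideal.span {((p ^ n : ℕ) : A)} ⊔ maximalIdeal A ^ k

/-- `h σ := β σ mod (pⁿ) + 𝔪ᵏ` -/
def s59pslrH (ρ : GaloisRepAdic A) (b : Module.Basis (Fin 2) A ρ.V) (p n k : ℕ) (σ : S59G) :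
    A ⧸ s59pslrJ A p n k :=
  Ideal.Quotient.mk _ (matOfBasis ρ b σ 0 1)

theorem s59pslrJ_le (p n : ℕ) (hp : (p : A) ∈ maximalIdeal A) :
    s59pslrJ A p n n ≤ maximalIdeal A ^ n := by
  refine sup_le ?_ le_rfl
  rw [Ideal.span_singleton_le_iff_mem, Nat.cast_pow]
  exact Ideal.pow_mem_pow hp n

variable {ρ : GaloisRepAdic A} {P : ValuationSubring Qbar} {b : Module.Basis (Fin 2) A ρ.V}

/-- `h σ := β σ mod (pⁿ) + 𝔪ᵏ` satisfies the hypotheses (add), (cont), (eq) of KUM. -/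
theorem s59pslr_kumHyp (h : S59pslrOrd ρ P b) (p : ℕ) (hdet : ρ.DetIsCyclotomic p) (n k : ℕ) :
    S59psKumHyp P p n (s59pslrH ρ b p n k) where
  kill := by
    intro x
    obtain ⟨a, rfl⟩ := Ideal.Quotient.mk_surjective x
    rw [← map_nsmul, Ideal.Quotient.eq_zero_iff_mem, nsmul_eq_mul]
    exact Ideal.mul_mem_right _ _ (Ideal.mem_sup_left (Ideal.subset_span rfl))
  add := by
    intro σ hσ τ hτ
    have h1 : matOfBasis ρ b (σ * τ) 0 1 = matOfBasis ρ b σ 0 0 * matOfBasis ρ b τ 0 1 +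
        matOfBasis ρ b σ 0 1 * matOfBasis ρ b τ 1 1 := by
      rw [map_mul, s59pslr_mul_entry]
    have h2 := (h.inertia hτ.1).2
    have h3 : matOfBasis ρ b σ 0 0 - 1 ∈ Ideal.span {((p ^ n : ℕ) : A)} := by
      rw [← h.det_inertia hσ.1]
      have := hdet.2 n σ 1 (fun μ hμ => by rw [pow_one]; exact hσ.2 μ hμ)
      rwa [Nat.cast_one] at this
    show Ideal.Quotient.mk _ _ = Ideal.Quotient.mk _ _ + Ideal.Quotient.mk _ _
    rw [← map_add, Ideal.Quotient.eq, h1, h2, mul_one]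
    have e : matOfBasis ρ b σ 0 0 * matOfBasis ρ b τ 0 1 + matOfBasis ρ b σ 0 1 -
        (matOfBasis ρ b σ 0 1 + matOfBasis ρ b τ 0 1) =
        (matOfBasis ρ b σ 0 0 - 1) * matOfBasis ρ b τ 0 1 := by ring
    rw [e]
    exact Ideal.mul_mem_right _ _ (Ideal.mem_sup_left h3)
  cont := by
    obtain ⟨F, hF, hFM⟩ := matOfBasis_cont ρ b k
    refine ⟨F, hF, fun σ _ hσF => ?_⟩
    have h1 := hFM σ (fun x hx => (IntermediateField.mem_fixingSubgroup_iff F σ).1 hσF x hx) 0 1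
    rw [Matrix.sub_apply, Matrix.one_apply_ne (by decide), sub_zero] at h1
    show Ideal.Quotient.mk _ _ = 0
    rw [Ideal.Quotient.eq_zero_iff_mem]
    exact Ideal.mem_sup_right h1
  eq := by
    intro g hg a ha σ hσ
    have hgD := s59pslr_inertia_le P hg
    have hσ' : g * σ * g⁻¹ ∈ P.inertiaSubgroupIn ℚ := s59pslr_conj_inertia P hgD hσ.1
    have h1 := s59pslr_conj_entry _ _ _ (s59pslr_conj_mul ρ b g σ)
    rw [(h.inertia hg).2, (h.inertia hσ.1).2, mul_one, mul_one] at h1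
    have h2 : matOfBasis ρ b (g * σ * g⁻¹) 0 0 - 1 ∈ Ideal.span {((p ^ n : ℕ) : A)} := by
      rw [← h.det_inertia hσ', s59pslr_det_conj]
      have := hdet.2 n σ 1 (fun μ hμ => by rw [pow_one]; exact hσ.2 μ hμ)
      rwa [Nat.cast_one] at this
    have h3 : matOfBasis ρ b g 0 0 - (a : A) ∈ Ideal.span {((p ^ n : ℕ) : A)} := by
      rw [← h.det_inertia hg]
      exact hdet.2 n g a ha
    show Ideal.Quotient.mk _ _ = a • Ideal.Quotient.mk _ _
    rw [← map_nsmul, Ideal.Quotient.eq, nsmul_eq_mul]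
    have e : matOfBasis ρ b (g * σ * g⁻¹) 0 1 - (a : A) * matOfBasis ρ b σ 0 1 =
        (matOfBasis ρ b g 0 0 - (a : A)) * matOfBasis ρ b σ 0 1 -
          (matOfBasis ρ b (g * σ * g⁻¹) 0 0 - 1) * matOfBasis ρ b g 0 1 := by
      linear_combination h1
    rw [e]
    exact Ideal.sub_mem _ (Ideal.mul_mem_right _ _ (Ideal.mem_sup_left h3))
      (Ideal.mul_mem_right _ _ (Ideal.mem_sup_left h2))

theorem s59pslrH_sub_mem {p n k : ℕ} {σ τ : S59G} {m : ℕ}
    (h : s59pslrH ρ b p n k σ = m • s59pslrH ρ b p n k τ) :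
    matOfBasis ρ b σ 0 1 - (m : A) * matOfBasis ρ b τ 0 1 ∈ s59pslrJ A p n k := by
  unfold s59pslrH at h
  rwa [← map_nsmul, Ideal.Quotient.eq, nsmul_eq_mul] at h

end Kum

/-! ### (REL), the annihilator `z² − 1`, cyclicity -/

section Main

variable {A : Type} [CommRing A] [IsLocalRing A] [IsNoetherianRing A]
variable {ρ : GaloisRepAdic A} {P : ValuationSubring Qbar} {b : Module.Basis (Fin 2) A ρ.V}

/-- **(REL)** `β (g σ g⁻¹) · z = x · β σ` for `σ ∈ H_P`, `g ∈ D_P`, `M g = [x, y; 0, z]`. -/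
theorem s59pslr_rel (h : S59pslrOrd ρ P b) (p : ℕ) (hdet : ρ.DetIsCyclotomic p)
    {g : S59G} (hg : g ∈ P.decompositionSubgroup ℚ) {σ : S59G} (hσ : σ ∈ s59psPeu P p) :
    matOfBasis ρ b (g * σ * g⁻¹) 0 1 * matOfBasis ρ b g 1 1 =
      matOfBasis ρ b g 0 0 * matOfBasis ρ b σ 0 1 := by
  have hσ' := s59pslr_conj_peu P p hg hσ
  obtain ⟨-, -, s11⟩ := h.peu p hdet hσ
  obtain ⟨s'00, -, -⟩ := h.peu p hdet hσ'
  have hrel := s59pslr_conj_entry _ _ _ (s59pslr_conj_mul ρ b g σ)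
  rw [s'00, s11, one_mul, mul_one] at hrel
  linear_combination hrel

/-- **the annihilator**: `(z² − 1) β σ = 0` for `σ ∈ H_P` and `g ∈ D_P` acting on `V ⧸ L`
through `z`. -/
theorem s59pslr_kill (hK : s59ps_StmtKumH) (p : ℕ) [Fact p.Prime] (hp2 : p ≠ 2)
    (hP : P.LiesOverPrime p) (h : S59pslrOrd ρ P b) (hdet : ρ.DetIsCyclotomic p)
    {g : S59G} (hg : g ∈ P.decompositionSubgroup ℚ) (z : A)
    (hz : ∀ v : ρ.V, ρ.ρ g v - z • v ∈ (A ∙ b 0 : Submodule A ρ.V))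
    {σ : S59G} (hσ : σ ∈ s59psPeu P p) : (z ^ 2 - 1) * matOfBasis ρ b σ 0 1 = 0 := by
  obtain ⟨t, ht, hcr⟩ := hK p hp2 P hP
  obtain ⟨g10, g11⟩ := h.dec hg z hz
  have hrel := s59pslr_rel h p hdet hg hσ
  rw [g11] at hrel
  have hd : LinearMap.det (ρ.ρ g) = matOfBasis ρ b g 0 0 * z := by
    rw [s59pslr_det ρ b g g10, g11]
  have hunit := s59pslr_det_mul_inv ρ g
  apply s59pslr_krull_zero
  intro n
  have hp : p.Prime := Fact.out
  have : NeZero (p ^ n) := ⟨pow_ne_zero n hp.ne_zero⟩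
  obtain ⟨a, ha⟩ := s59dcc_exists_exp (p ^ n) g
  have h1 := (hcr n _ (s59pslrH ρ b p n n) (s59pslr_kumHyp h p hdet n n)).2 g hg a ha σ hσ
  have h2 := s59pslrH_sub_mem h1
  have h3 : LinearMap.det (ρ.ρ g) - (a : A) ∈ s59pslrJ A p n n :=
    Ideal.mem_sup_left (hdet.2 n g a ha)
  have key : (z ^ 2 - 1) * matOfBasis ρ b σ 0 1 =
      LinearMap.det (ρ.ρ g⁻¹) * (z ^ 2 * ((LinearMap.det (ρ.ρ g) - (a : A)) *
        matOfBasis ρ b σ 0 1 - (matOfBasis ρ b (g * σ * g⁻¹) 0 1 -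
          (a : A) * matOfBasis ρ b σ 0 1))) := by
    linear_combination (matOfBasis ρ b σ 0 1 - z ^ 2 * matOfBasis ρ b σ 0 1) * hunit -
      (matOfBasis ρ b σ 0 1 * LinearMap.det (ρ.ρ g⁻¹)) * hd +
      (LinearMap.det (ρ.ρ g⁻¹) * z) * hrel
  rw [key]
  refine s59pslrJ_le p n hdet.1 ?_
  exact Ideal.mul_mem_left _ _ (Ideal.mul_mem_left _ _
    (Ideal.sub_mem _ (Ideal.mul_mem_right _ _ h3) h2))

/-- **cyclicity**: there is `t ∈ H_P` with `β σ ∈ (β t)` for all `σ ∈ H_P`. -/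
theorem s59pslr_cyc (hK : s59ps_StmtKumH) (p : ℕ) [Fact p.Prime] (hp2 : p ≠ 2)
    (hP : P.LiesOverPrime p) (h : S59pslrOrd ρ P b) (hdet : ρ.DetIsCyclotomic p) :
    ∃ t ∈ s59psPeu P p, ∀ σ ∈ s59psPeu P p,
      matOfBasis ρ b σ 0 1 ∈ Ideal.span {matOfBasis ρ b t 0 1} := by
  obtain ⟨t, ht, hcr⟩ := hK p hp2 P hP
  refine ⟨t, ht, fun σ hσ => s59pslr_krull _ _ fun n => ?_⟩
  obtain ⟨m, hm⟩ := (hcr n _ (s59pslrH ρ b p n n) (s59pslr_kumHyp h p hdet n n)).1 σ hσ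
  exact ⟨(m : A) * matOfBasis ρ b t 0 1, Ideal.mul_mem_left _ _ (Ideal.subset_span rfl),
    s59pslrJ_le p n hdet.1 (s59pslrH_sub_mem hm)⟩

/-- an ordinary datum from the prelude's `IsOrdinaryAt` data -/
theorem s59pslr_ord_of (L : Submodule A ρ.V) (hb : L = (A ∙ b 0 : Submodule A ρ.V))
    (hD : ∀ σ ∈ P.decompositionSubgroup ℚ, ∀ v ∈ L, ρ.ρ σ v ∈ L)
    (hI : ∀ σ ∈ P.inertiaSubgroupIn ℚ, ∀ v : ρ.V, ρ.ρ σ v - v ∈ L) : S59pslrOrd ρ P b := by
  subst hb
  exact ⟨hD, hI⟩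

/-- **LOCAL-RING from KUM-H.** -/
theorem s59pslr_localRing (hK : s59ps_StmtKumH) : s59ps_StmtLocalRing := by
  intro p _ hp2 A _ _ _ _ ρ hdet hord
  have hp : p.Prime := Fact.out
  obtain ⟨P₀, hP₀⟩ := Fermat.Agent.Common.exists_liesOverPrime p hp
  obtain ⟨L₀, ⟨b, hb⟩, hD₀, hI₀⟩ := hord P₀ hP₀
  have h₀ : S59pslrOrd ρ P₀ b := s59pslr_ord_of L₀ hb hD₀ hI₀
  obtain ⟨t, ht, hcyc⟩ := s59pslr_cyc hK p hp2 hP₀ h₀ hdet
  have hmem : matOfBasis ρ b t 0 1 ∈ s59psRamX ρ (s59psPeuSet p) :=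
    s59pslr_entry_mem p hP₀ ht
  refine ⟨matOfBasis ρ b t 0 1, le_antisymm (h₀.ram_le p hp hP₀ hdet _ hcyc) ?_, ?_⟩
  · rw [Ideal.span_singleton_le_iff_mem]
    exact hmem
  · intro P hP L hL hD hI g hg z hz
    obtain ⟨b', hb'⟩ := hL
    have h' : S59pslrOrd ρ P b' := s59pslr_ord_of L hb' hD hI
    have hz' : ∀ v : ρ.V, ρ.ρ g v - z • v ∈ (A ∙ b' 0 : Submodule A ρ.V) := fun v => by
      rw [← hb']
      exact hz v
    -- the annihilator of `z² − 1` contains the peu-ramification ideal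
    have hle : s59psRamX ρ (s59psPeuSet p) ≤
        (Ideal.span {z ^ 2 - 1} : Ideal A).annihilator.comap (RingHom.id A) := by
      refine h'.ram_le p hp hP hdet _ fun σ hσ => ?_
      rw [Ideal.mem_comap, RingHom.id_apply, Submodule.mem_annihilator_span_singleton,
        smul_eq_mul, mul_comm]
      exact s59pslr_kill hK p hp2 hP h' hdet hg z hz' hσ
    have h1 := hle hmem
    rw [Ideal.mem_comap, RingHom.id_apply, Submodule.mem_annihilator_span_singleton,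
      smul_eq_mul, mul_comm] at h1
    exact h1

end Main

end Fermat.Agent.S59

end
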