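/-
S59, wall M5 = P-STEP: KUM-H and LOCAL-RING, UNCONDITIONAL (assembly, helper10).

* `s59pskf_cyc       : s59pskh_StmtCyc`      (clause (cyc), `KumH10.lean` ∘ KUM-n of helper5)
* `s59pskf_rel       : s59pskh_StmtRel`      (clause (rel), helper43's `s59st_kumRel_of_kum`)
* `s59pskf_kumH      : s59ps_StmtKumH`       (**KUM-H**)
* `s59pskf_localRing : s59ps_StmtLocalRing`  (**LOCAL-RING**, helper42's `s59pslr_localRing`)
-/
import Fermat.Agent.S59.PStep.KumH10
import Fermat.Agent.S59.PStep.Kum
import Fermat.Agent.S59.Strict.KumRel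
import Fermat.Agent.S59.PStep.LocRing

set_option autoImplicit false
set_option linter.unusedSectionVars false
set_option linter.unusedVariables false
set_option linter.style.longLine false

noncomputable section

namespace Fermat.Agent.S59

/-- clause (cyc) of KUM-H, unconditional -/
theorem s59pskf_cyc : s59pskh_StmtCyc := s59pskh_cyc s59psk_kum

/-- clause (rel) of KUM-H, unconditional -/
theorem s59pskf_rel : s59pskh_StmtRel := s59st_kumRel_of_kum s59psk_kum

/-- **KUM-H**, unconditional. -/
theorem s59pskf_kumH : s59ps_StmtKumH := s59pskh_kumH_of s59pskf_cyc s59pskf_rel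

/-- **LOCAL-RING**, unconditional. -/
theorem s59pskf_localRing : s59ps_StmtLocalRing := s59pslr_localRing s59pskf_kumH

end Fermat.Agent.S59
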