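/-
S59, wall M5 = P-STEP, leaf LOCAL-P ⇐ LOCAL-RING (helper42).  Interfaces: `S59/PStep/Plan.lean`
(`s59ps_StmtLocalP`), `S59/PStep/PlanKum.lean` (`s59ps_StmtLocalRing`).

`s59pslp_localP : s59ps_StmtLocalRing → s59ps_StmtLocalP 𝒪`, hence with `s59pslr_localRing`
`s59pslp_localP_of_kumH : s59ps_StmtKumH → s59ps_StmtLocalP 𝒪`.

By LOCAL-RING the peu-ramification ideal is `(b₀)` and `(z² − 1) b₀ = 0` for `z = M φ 1 1`, `φ` a
Frobenius at a place `P` over `p`, `M` the matrix of `ρ` in an ordinary basis at `P`.  The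
specialisation `ρ_x` is peu ramifié, so `b₀ ∈ ker x` and `Φ_X = 𝒪 · [b₀]` is cyclic, killed by
`x(z)² − 1`.  Finally `x(z) = α`: the ordinary line of `ρ_x` is UNIQUE (an element `g₀` of the
inertia group inverts `μ_p`, so `det ρ(g₀) − 1` is a unit), hence it is the base change of the
ordinary line of `ρ`, and `x(z)` is the eigenvalue of Frobenius on the unramified quotient.
-/
import Fermat.Agent.S59.PStep.LocRing
import Fermat.Agent.S59.PStep.Core
import Fermat.Agent.S59.SelAug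
import Fermat.Agent.S33.DetCyclo
import Fermat.Agent.Common.FrobExists

set_option autoImplicit false
set_option linter.unusedSectionVars false
set_option linter.unusedVariables false
set_option linter.style.longLine false
set_option linter.style.haveILetI false

noncomputable section

namespace Fermat.Agent.S59

open IsLocalRing Fermat.Agent.S53
open scoped TensorProduct

/-- `ℚ̄` -/
local notation "Qbar" => AlgebraicClosure ℚ

/-! ### Mathlib-level tools -/

/-- a cyclic module killed by `c` has length `≤ length (R ⧸ c)` -/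
theorem s59pslp_length_cyclic {R M : Type*} [CommRing R] [AddCommGroup M] [Module R M] (c : R)
    (y : M) (h : c • y = 0) :
    Module.length R (Submodule.span R {y}) ≤ Module.length R (R ⧸ Ideal.span {c}) := by
  have hker : Ideal.span {c} ≤ LinearMap.ker (LinearMap.toSpanSingleton R M y) := by
    rw [Ideal.span_le, Set.singleton_subset_iff]
    show LinearMap.toSpanSingleton R M y c = 0
    rw [LinearMap.toSpanSingleton_apply]
    exact h
  have hrange : LinearMap.range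
      (Submodule.liftQ (Ideal.span {c}) (LinearMap.toSpanSingleton R M y) hker) =
        Submodule.span R {y} := by
    rw [Submodule.range_liftQ, LinearMap.range_toSpanSingleton]
  rw [← hrange]
  exact Module.length_le_of_surjective _
    (LinearMap.surjective_rangeRestrict
      (Submodule.liftQ (Ideal.span {c}) (LinearMap.toSpanSingleton R M y) hker))

section Unit

variable {A : Type} [CommRing A] [IsLocalRing A]

/-- `2` is a unit of a local ring of odd residue characteristic -/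
theorem s59pslp_two_isUnit {p : ℕ} (hp : p.Prime) (hp2 : p ≠ 2)
    (hpA : (p : A) ∈ maximalIdeal A) : IsUnit (2 : A) := by
  by_contra h2
  have h2m : (2 : A) ∈ maximalIdeal A := (mem_maximalIdeal _).2 h2
  obtain ⟨k, hk⟩ := hp.odd_of_ne_two hp2
  have h1 : (1 : A) ∈ maximalIdeal A := by
    have e : (1 : A) = (p : A) - 2 * (k : A) := by
      rw [hk]
      push_cast
      ring
    rw [e]
    exact Ideal.sub_mem _ hpA (Ideal.mul_mem_right _ _ h2m)
  exact (Ideal.ne_top_iff_one _).1 (Ideal.IsMaximal.ne_top inferInstance) h1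

/-- for `p` odd some element `g₀` of the inertia group of a place over `p` has
`det ρ(g₀) − 1` a unit (`det ρ(g₀) ≡ −1`). -/
theorem s59pslp_exists_inertia {p : ℕ} (hp : p.Prime) (hp2 : p ≠ 2) (ρ : GaloisRepAdic A)
    (hdet : ρ.DetIsCyclotomic p) (P : ValuationSubring Qbar) (hP : P.LiesOverPrime p) :
    ∃ σ ∈ P.inertiaSubgroupIn ℚ, IsUnit (LinearMap.det (ρ.ρ σ) - 1) := by
  obtain ⟨σ, hσ, hinv⟩ := Fermat.Agent.S33.exists_inertia_inv_root hp P hP
  refine ⟨σ, hσ, ?_⟩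
  obtain ⟨hpA, hcyc⟩ := hdet
  have h2 := hcyc 1 σ (p - 1) (fun μ hμ => by
    rw [pow_one] at hμ
    rw [hinv μ hμ]
    apply inv_eq_of_mul_eq_one_right
    rw [← pow_succ', Nat.sub_add_cancel hp.pos, hμ])
  have h3 : LinearMap.det (ρ.ρ σ) + 1 ∈ maximalIdeal A := by
    have h4 : Ideal.span {((p ^ 1 : ℕ) : A)} ≤ maximalIdeal A := by
      rw [Ideal.span_singleton_le_iff_mem, pow_one]
      exact hpA
    have h5 := h4 h2
    have e : LinearMap.det (ρ.ρ σ) + 1 =
        (LinearMap.det (ρ.ρ σ) - ((p - 1 : ℕ) : A)) + (p : A) := by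
      rw [Nat.cast_sub hp.pos]
      push_cast
      ring
    rw [e]
    exact Ideal.add_mem _ h5 hpA
  by_contra hu
  have hm : LinearMap.det (ρ.ρ σ) - 1 ∈ maximalIdeal A := (mem_maximalIdeal _).2 hu
  have h2m : (2 : A) ∈ maximalIdeal A := by
    have e : (2 : A) = (LinearMap.det (ρ.ρ σ) + 1) - (LinearMap.det (ρ.ρ σ) - 1) := by ring
    rw [e]
    exact Ideal.sub_mem _ h3 hm
  exact (mem_maximalIdeal _).1 h2m (s59pslp_two_isUnit hp hp2 hpA)

end Unit

/-! ### The scalar of Frobenius on the unramified quotient -/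

section Scalar

variable {A : Type} [CommRing A] [IsLocalRing A]
variable {ρ : GaloisRepAdic A} {P : ValuationSubring Qbar} {b : Module.Basis (Fin 2) A ρ.V}

omit [IsLocalRing A] in
/-- an element whose second coordinate vanishes lies on the line `A b₀` -/
theorem s59pslp_mem_line {V : Type} [AddCommGroup V] [Module A V]
    (b : Module.Basis (Fin 2) A V) {w : V} (hw : b.repr w 1 = 0) :
    w ∈ (A ∙ b 0 : Submodule A V) := by
  have h1 : w = ∑ i, b.repr w i • b i := (b.sum_repr w).symm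
  rw [Fin.sum_univ_two, hw, zero_smul, add_zero] at h1
  rw [h1]
  exact Submodule.smul_mem _ _ (Submodule.mem_span_singleton_self _)

/-- `g` in the decomposition group acts on `V ⧸ L` through the scalar `M g 1 1` -/
theorem S59pslrOrd.scalar (h : S59pslrOrd ρ P b) {g : S59G}
    (hg : g ∈ P.decompositionSubgroup ℚ) (v : ρ.V) :
    ρ.ρ g v - matOfBasis ρ b g 1 1 • v ∈ (A ∙ b 0 : Submodule A ρ.V) := by
  apply s59pslp_mem_line
  have h2 := congrFun (LinearMap.toMatrix_mulVec_repr b b (ρ.ρ g) v) 1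
  rw [Matrix.mulVec, dotProduct, Fin.sum_univ_two] at h2
  have h10 := h.dec10 hg
  rw [matOfBasis_apply] at h10
  rw [h10, zero_mul, zero_add] at h2
  rw [map_sub, Finsupp.sub_apply, map_smul, Finsupp.smul_apply, smul_eq_mul, ← h2,
    matOfBasis_apply, sub_self]

end Scalar

section UnitRoot

variable {𝒪 : Type} [CommRing 𝒪] [IsLocalRing 𝒪]
variable {A : Type} [CommRing A] [IsLocalRing A]

/-- **the unit root is the image of the scalar of Frobenius**, in `W = 𝒪 ⊗[A] V`: if `Lx` is an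
ordinary line of the base change (inertia acts trivially on `W ⧸ Lx`) and `φ` acts on `W ⧸ Lx`
through `α`, then `α` is the image of `M φ 1 1`. -/
theorem s59pslp_unitRoot_core [Algebra A 𝒪] (ρ : GaloisRepAdic A)
    {p : ℕ} (hp : p.Prime) (hp2 : p ≠ 2) (hdet : ρ.DetIsCyclotomic p)
    (P : ValuationSubring Qbar) (hP : P.LiesOverPrime p) (b : Module.Basis (Fin 2) A ρ.V)
    (h : S59pslrOrd ρ P b) (α : 𝒪)
    (Lx : Submodule 𝒪 (𝒪 ⊗[A] ρ.V)) (bx : Module.Basis (Fin 2) 𝒪 (𝒪 ⊗[A] ρ.V))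
    (hbx : Lx = 𝒪 ∙ bx 0)
    (hIx : ∀ σ ∈ P.inertiaSubgroupIn ℚ, ∀ v : 𝒪 ⊗[A] ρ.V,
      (ρ.ρ σ).baseChange 𝒪 v - v ∈ Lx)
    (φ : S59G) (hFx : ∀ v : 𝒪 ⊗[A] ρ.V, (ρ.ρ φ).baseChange 𝒪 v - α • v ∈ Lx) :
    algebraMap A 𝒪 (matOfBasis ρ b φ 1 1) = α := by
  classical
  set B : Module.Basis (Fin 2) 𝒪 (𝒪 ⊗[A] ρ.V) := Algebra.TensorProduct.basis 𝒪 b with hB
  -- the matrix of `ρ_x σ` in the basis `B`
  have hmat : ∀ (σ : S59G) (i j : Fin 2),
      B.repr ((ρ.ρ σ).baseChange 𝒪 (B j)) i = algebraMap A 𝒪 (matOfBasis ρ b σ i j) := by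
    intro σ i j
    have h2 := LinearMap.toMatrix_baseChange (A := 𝒪) (ρ.ρ σ) b b
    have h3 := congrFun (congrFun h2 i) j
    rw [LinearMap.toMatrix_apply] at h3
    rw [h3, Matrix.map_apply, matOfBasis_apply]
  -- `g₀`
  obtain ⟨g₀, hg₀, hu⟩ := s59pslp_exists_inertia hp hp2 ρ hdet P hP
  have hB0 : B 0 ∈ Lx := by
    have h1 : (ρ.ρ g₀).baseChange 𝒪 (B 0) - B 0 ∈ Lx := hIx g₀ hg₀ (B 0)
    have h2 : (ρ.ρ g₀).baseChange 𝒪 (B 0) =
        algebraMap A 𝒪 (matOfBasis ρ b g₀ 0 0) • B 0 := by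
      apply B.repr.injective
      ext i
      fin_cases i
      · show B.repr ((ρ.ρ g₀).baseChange 𝒪 (B 0)) 0 =
          B.repr (algebraMap A 𝒪 (matOfBasis ρ b g₀ 0 0) • B 0) 0
        rw [hmat, map_smul, Finsupp.smul_apply, Module.Basis.repr_self, Finsupp.single_apply,
          if_pos rfl, smul_eq_mul, mul_one]
      · show B.repr ((ρ.ρ g₀).baseChange 𝒪 (B 0)) 1 =
          B.repr (algebraMap A 𝒪 (matOfBasis ρ b g₀ 0 0) • B 0) 1
        rw [hmat, (h.inertia hg₀).1, map_zero, map_smul, Finsupp.smul_apply,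
          Module.Basis.repr_self, Finsupp.single_apply, if_neg (by decide), smul_zero]
    rw [h2] at h1
    have hu' : IsUnit (algebraMap A 𝒪 (matOfBasis ρ b g₀ 0 0) - 1) := by
      have := hu.map (algebraMap A 𝒪)
      rwa [map_sub, map_one, h.det_inertia hg₀] at this
    generalize algebraMap A 𝒪 (matOfBasis ρ b g₀ 0 0) = c at h1 hu'
    have e3 : (c - 1) • B 0 = c • B 0 - B 0 :=
      (sub_smul c 1 (B 0)).trans (congrArg (fun t => c • B 0 - t) (one_smul 𝒪 (B 0)))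
    have h3 : (c - 1) • B 0 ∈ Lx := e3 ▸ h1
    obtain ⟨u, hu''⟩ := hu'
    have h4 := Lx.smul_mem ((u⁻¹ : 𝒪ˣ) : 𝒪) h3
    have e5 : ((u⁻¹ : 𝒪ˣ) : 𝒪) * (c - 1) = 1 := by
      rw [← hu'', Units.inv_mul]
    have e4 : ((u⁻¹ : 𝒪ˣ) : 𝒪) • (c - 1) • B 0 = B 0 :=
      (smul_smul _ _ _).trans ((congrArg (fun t : 𝒪 => t • B 0) e5).trans (one_smul 𝒪 (B 0)))
    exact e4 ▸ h4
  -- the second `B`-coordinate vanishes on `Lx`
  have hcoord : ∀ v ∈ Lx, B.repr v 1 = 0 := by
    intro v hv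
    rw [hbx] at hv hB0
    obtain ⟨a, rfl⟩ := Submodule.mem_span_singleton.1 hv
    obtain ⟨u, hu1⟩ := Submodule.mem_span_singleton.1 hB0
    have e0 : u * B.repr (bx 0) 0 = 1 := by
      have := congrArg (fun w => B.repr w 0) hu1
      simpa using this
    have e1 : u * B.repr (bx 0) 1 = 0 := by
      have := congrArg (fun w => B.repr w 1) hu1
      simpa using this
    have e2 : B.repr (bx 0) 1 = 0 := by
      calc B.repr (bx 0) 1 = (u * B.repr (bx 0) 0) * B.repr (bx 0) 1 := by rw [e0, one_mul]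
        _ = B.repr (bx 0) 0 * (u * B.repr (bx 0) 1) := by ring
        _ = 0 := by rw [e1, mul_zero]
    rw [map_smul, Finsupp.smul_apply, e2, smul_zero]
  -- Frobenius
  have h5 : B.repr ((ρ.ρ φ).baseChange 𝒪 (B 1) - α • B 1) 1 = 0 := hcoord _ (hFx (B 1))
  rw [map_sub, Finsupp.sub_apply, hmat, map_smul, Finsupp.smul_apply, Module.Basis.repr_self,
    Finsupp.single_apply, if_pos rfl, smul_eq_mul, mul_one, sub_eq_zero] at h5
  exact h5

/-- **the unit root is the image of the scalar of Frobenius**: `x (M φ 1 1) = α`. -/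
theorem s59pslp_unitRoot_eq (ρ : GaloisRepAdic A) (x : A →+* 𝒪) (hx : IsLocalHom x)
    {p : ℕ} (hp : p.Prime) (hp2 : p ≠ 2) (hdet : ρ.DetIsCyclotomic p)
    (P : ValuationSubring Qbar) (hP : P.LiesOverPrime p) (b : Module.Basis (Fin 2) A ρ.V)
    (h : S59pslrOrd ρ P b) (α : 𝒪) (hur : s59psUnitRoot (ρ.baseChangeAlong x hx) p α)
    (φ : S59G) (hφ : P.IsFrobeniusAt φ p) :
    x (matOfBasis ρ b φ 1 1) = α := by
  letI : Algebra A 𝒪 := x.toAlgebra
  obtain ⟨Lx, ⟨bx, hbx⟩, hDx, hIx, hFx⟩ := hur P hP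
  exact s59pslp_unitRoot_core ρ hp hp2 hdet P hP b h α Lx bx hbx hIx φ (hFx φ hφ)

end UnitRoot

/-! ### LOCAL-P -/

section Main

variable (𝒪 : Type) [CommRing 𝒪] [IsDomain 𝒪] [IsDiscreteValuationRing 𝒪]
  [IsAdicComplete (maximalIdeal 𝒪) 𝒪] [Finite (ResidueField 𝒪)]

/-- **LOCAL-P from LOCAL-RING.** -/
theorem s59pslp_localP (hLR : s59ps_StmtLocalRing) : s59ps_StmtLocalP 𝒪 := by
  intro p _ hp2 hp𝒪 A _ _ _ _ _ ρ hdet hord x hx α hpeu hur hc
  have hp : p.Prime := Fact.out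
  obtain ⟨b₀, hJ, hkill⟩ := hLR p hp2 A ρ hdet hord
  have hle : s59psRamX ρ (s59psPeuSet p) ≤ RingHom.ker (x : A →+* 𝒪) :=
    (s59psc_triv_iff' ρ _ (x : A →+* 𝒪) hx).1 hpeu
  have hb₀ : b₀ ∈ RingHom.ker (x : A →+* 𝒪) :=
    hle (by rw [hJ]; exact Ideal.subset_span rfl)
  obtain ⟨P, hP⟩ := Fermat.Agent.Common.exists_liesOverPrime p hp
  obtain ⟨L, ⟨b, hb⟩, hD, hI⟩ := hord P hP
  have h : S59pslrOrd ρ P b := s59pslr_ord_of L hb hD hI
  obtain ⟨φ, hφ⟩ := Fermat.Agent.Common.exists_isFrobeniusAt_of_liesOverPrime p hp P hP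
  have hφD := hφ.mem_decompositionSubgroup
  have hzv : ∀ v : ρ.V, ρ.ρ φ v - matOfBasis ρ b φ 1 1 • v ∈ L := fun v => by
    rw [hb]
    exact h.scalar hφD v
  have hk := hkill P hP L ⟨b, hb⟩ hD hI φ hφD _ hzv
  have hxz : x (matOfBasis ρ b φ 1 1) = α :=
    s59pslp_unitRoot_eq ρ (x : A →+* 𝒪) hx hp hp2 hdet P hP b h α hur φ hφ
  -- `Φ_X` is spanned by the class of `b₀`
  have hphi : s59selPhiN 𝒪 x (s59psRamX ρ (s59psPeuSet p)) =
      Submodule.span 𝒪 {(RingHom.ker (x : A →+* 𝒪)).toCotangent ⟨b₀, hb₀⟩} := by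
    rw [hJ, s59selaug_phiN_span x {b₀} (by rintro _ rfl; exact hb₀)]
    congr 1
    ext y
    constructor
    · rintro ⟨s, hs, hsb, rfl⟩
      have hs' : s = b₀ := hsb
      subst hs'
      rfl
    · rintro rfl
      exact ⟨b₀, hb₀, rfl, rfl⟩
  rw [hphi]
  refine s59pslp_length_cyclic (α ^ 2 - 1) _ ?_
  have h1 := s59selaug_toCotangent_mul_left x (matOfBasis ρ b φ 1 1 ^ 2 - 1) hb₀
  rw [map_sub, map_pow, map_one, hxz] at h1
  rw [← h1]
  have h0 : (⟨(matOfBasis ρ b φ 1 1 ^ 2 - 1) * b₀, Ideal.mul_mem_left _ _ hb₀⟩ :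
      RingHom.ker (x : A →+* 𝒪)) = 0 := Subtype.ext hk
  rw [h0, map_zero]

/-- **LOCAL-P from KUM-H.** -/
theorem s59pslp_localP_of_kumH (hK : s59ps_StmtKumH) : s59ps_StmtLocalP 𝒪 :=
  s59pslp_localP 𝒪 (s59pslr_localRing hK)

/-- **SEL-P from KUM-H** (with CORE-X ✓). -/
theorem s59pslp_selP_of_kumH (hK : s59ps_StmtKumH) : s59ps_StmtSelP 𝒪 :=
  s59psc_selP 𝒪 (s59pslp_localP_of_kumH 𝒪 hK)

end Main

end Fermat.Agent.S59

end
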