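/-
S59, wall M5 = P-STEP: LOCAL-P and SEL-P, UNCONDITIONAL (assembly, helper42).

* `s59pslpf_localP : s59ps_StmtLocalP 𝒪`  (**LOCAL-P**: `s59pslp_localP` ∘ helper10's
  `s59pskf_localRing`);
* `s59pslpf_selP   : s59ps_StmtSelP 𝒪`    (**SEL-P**, the Selmer inequality of the `p`-step:
  helper5's `s59psc_selP` ∘ LOCAL-P).
-/
import Fermat.Agent.S59.PStep.LocP
import Fermat.Agent.S59.PStep.KumHFinalH10

set_option autoImplicit false
set_option linter.unusedSectionVars false

noncomputable section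

namespace Fermat.Agent.S59

open IsLocalRing

section Main

variable (𝒪 : Type) [CommRing 𝒪] [IsDomain 𝒪] [IsDiscreteValuationRing 𝒪]
  [IsAdicComplete (maximalIdeal 𝒪) 𝒪] [Finite (ResidueField 𝒪)]

/-- **LOCAL-P**, unconditional. -/
theorem s59pslpf_localP : s59ps_StmtLocalP 𝒪 := s59pslp_localP 𝒪 s59pskf_localRing

/-- **SEL-P**, unconditional: the Selmer inequality of the `p`-step. -/
theorem s59pslpf_selP : s59ps_StmtSelP 𝒪 := s59psc_selP 𝒪 (s59pslpf_localP 𝒪)

end Main

end Fermat.Agent.S59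

end
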