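/-
S59, wall M5 (P-STEP), piece **STAGES for case (c)** (helper76): CASE (c) ASSEMBLED — the twin of
`TopGood` / `TopBase` (case (a)) and `TopOrd` (case (b)) for the conditions `𝒟 Σ = s59psCond 𝒪 p
Smin Σ` of the `p`-step, `SW = insert p Σ_W`.

Case (c): `W` multiplicative at `p`, `ρ̄` peu ramifié at `p`; the base level `N₀` is PRIME TO `p`
(`hN0 : ∀ ℓ prime, ℓ ∣ N0 ↔ ℓ ∈ Smin ∧ ℓ ≠ p`, `N0` squarefree), the last level is
`N₀ · ∏_{q ∈ Σ_W} q² · p`.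

* `s59pstc_level_empty`, `s59pstc_level_SW` : the levels at `∅` and at `SW`;
* `s59pstc_levelOK` : END, the level conditions of `s59fin_lift` (from `s59topo_levelOK` at
  `N₀ p`);
* `s59pstc_StmtOwedC c` : EVERYTHING owed in case (c) for the pairs `(W, p)` with `c W p`, as ONE
  Prop (BASE split into (E-BASE) + (R1 = MIN′));
* **`s59pstc_stages : (∀ W p, c W p → (p : ℤ) ∣ W.Δ) → s59pstc_StmtOwedC c →
  s59topw_StmtStagesAt c`**  (FIN-P ✓ + `s59pstp_step` + `s59pstp_build` + END).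
-/
import Fermat.Agent.S59.PStep.StepP
import Fermat.Agent.S59.PStep.FinP
import Fermat.Agent.S59.TopOrd

set_option autoImplicit false
set_option linter.style.haveILetI false
set_option linter.unusedSectionVars false
set_option linter.unusedVariables false
set_option linter.style.longLine false

noncomputable section

namespace Fermat.Agent.S59

open IsLocalRing Polynomial Fermat.Agent.TW Fermat.Agent.S53

/-! ### The levels at `∅` and at `SW` -/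

theorem s59pstc_level_empty (N0 p : ℕ) : s59pstp_level N0 p ∅ = N0 := by
  classical
  unfold s59pstp_level s59tops_level
  rw [Finset.erase_empty, Finset.prod_empty, if_neg (Finset.notMem_empty p), mul_one, mul_one]

theorem s59pstc_level_insert_p (N0 p : ℕ) {Sg : Finset ℕ} (hp : p ∉ Sg) :
    s59pstp_level N0 p (insert p Sg) = s59tops_level (N0 * p) Sg := by
  classical
  rw [s59pstp_level_insert_p N0 p hp, s59pstp_level_of_notMem N0 p hp]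
  unfold s59tops_level
  ring

section End

variable (W : WeierstrassCurve ℤ) (hΔ : W.Δ ≠ 0) (p : ℕ) [hp : Fact p.Prime]

/-- **END, the level** (case (c)): the conditions of `s59fin_lift` at `N₀ ∏_{q ∈ Σ_W} q² · p`. -/
theorem s59pstc_levelOK (N0 : ℕ)
    (hN0 : ∀ ℓ : ℕ, ℓ.Prime → (ℓ ∣ N0 ↔ ℓ ∈ s59feSmin W hΔ p ∧ ℓ ≠ p)) (hN0sq : Squarefree N0)
    (N : ℕ) (S : Set ℕ) (hN : N = s59pstp_level N0 p (s59psfinSW W hΔ p))
    (hS : S = (↑(s59feSmin W hΔ p ∪ s59psfinSW W hΔ p) : Set ℕ)) :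
    s59topw_LevelOK p W N S := by
  classical
  have hpp : p.Prime := hp.out
  have hdisj := Finset.disjoint_left.1 (s59fe_disjoint W hΔ p)
  have hpSg : p ∉ s59feSigma W hΔ p := fun h => hdisj (s59fe_p_mem_Smin W hΔ p) h
  have hpN0 : ¬ p ∣ N0 := fun h => ((hN0 p hpp).1 h).2 rfl
  refine s59topo_levelOK W hΔ p (N0 * p) (fun ℓ hℓ => ?_) ?_ N S ?_ ?_
  · constructor
    · intro h
      rcases (Nat.Prime.dvd_mul hℓ).1 h with h1 | h1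
      · exact ((hN0 ℓ hℓ).1 h1).1
      · rw [(Nat.prime_dvd_prime_iff_eq hℓ hpp).1 h1]
        exact s59fe_p_mem_Smin W hΔ p
    · intro h
      by_cases hne : ℓ = p
      · rw [hne]
        exact Dvd.intro_left _ rfl
      · exact Dvd.dvd.mul_right ((hN0 ℓ hℓ).2 ⟨h, hne⟩) _
  · exact (Nat.squarefree_mul ((Nat.Prime.coprime_iff_not_dvd hpp).2 hpN0).symm).2
      ⟨hN0sq, hpp.squarefree⟩
  · rw [hN]
    exact s59pstc_level_insert_p N0 p hpSg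
  · rw [hS, s59psfin_union_SW]

end End

/-! ### What is owed in case (c), and (STAGES) -/

/-- **EVERYTHING that is still owed in case (c)** (`W` multiplicative at `p`, `ρ̄` peu ramifié at
`p`, `𝒟 = s59psCond`), for the pairs `(W, p)` with `c W p`, as one Prop; BASE is split into
(E-BASE) and (R1 = MIN′). -/
def s59pstc_StmtOwedC (c : WeierstrassCurve ℤ → ℕ → Prop) : Prop :=
  ∀ (p : ℕ) [Fact p.Prime], (p = 3 ∨ p = 5) → ∀ (W : WeierstrassCurve ℤ) (hΔ : W.Δ ≠ 0),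
    W.IsSemistableModel → W.ModRepIsIrreducible p → c W p →
    ∀ (M₀ : ℕ) [NeZero M₀], W.IsResiduallyModularOfLevel p M₀ → ¬ p ^ 2 ∣ M₀ →
    (∀ q : ℕ, q.Prime → q ≠ p → ¬ q ^ 3 ∣ M₀) →
    ∃ (𝒪 : Type) (_ : CommRing 𝒪) (_ : IsDomain 𝒪) (_ : IsDiscreteValuationRing 𝒪)
      (_ : IsAdicComplete (maximalIdeal 𝒪) 𝒪) (_ : CharZero 𝒪) (_ : Finite (ResidueField 𝒪))
      (φ : ℤ_[p] →+* 𝒪) (hφ : IsLocalHom φ) (N0 : ℕ) (ψ : ℕ → 𝒪) (R2 : S59R2DataP 𝒪 p ψ)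
      (ρ₀ : GaloisRepAdic 𝒪),
      -- `𝔽_{p²} ⊆ k`
      (∀ (ι : ZMod p →+* ResidueField 𝒪) (f : (ZMod p)[X]), f.Monic → f.natDegree = 2 →
        ∃ α β : ResidueField 𝒪, f.map ι = (X - C α) * (X - C β)) ∧
      -- the base level (MINLEV + LOWER-P), prime to `p`
      (∀ ℓ : ℕ, ℓ.Prime → (ℓ ∣ N0 ↔ ℓ ∈ s59feSmin W hΔ p ∧ ℓ ≠ p)) ∧ Squarefree N0 ∧
      -- (HGD-ORD + HGD-PEU) at the levels prime to `p`
      (∀ Q : Finset ℕ, Q ⊆ s59psfinSW W hΔ p → p ∉ Q → ∀ (N : ℕ) [NeZero N],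
        N = s59pstp_level N0 p Q →
        ∀ (θ : CuspForm.heckeAlgebra N 2 (↑(s59feSmin W hΔ p ∪ Q) : Set ℕ) →+* ResidueField 𝒪)
          (T : Type) [CommRing T] [IsLocalRing T] [IsNoetherianRing T]
          [IsAdicComplete (maximalIdeal T) T] [Algebra 𝒪 T] [IsLocalHom (algebraMap 𝒪 T)]
          [Module.Finite 𝒪 T] [Module.Free 𝒪 T]
          (H : CuspForm.HeckeGaloisRepDatum N (↑(s59feSmin W hΔ p ∪ Q) : Set ℕ) 𝒪 θ T),
          (∀ y : T, (∀ ψ' : T →ₐ[𝒪] 𝒪, ψ' y = 0) → y = 0) → H.ρ.DetIsCyclotomic p →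
          H.ρ.residual.IsEquiv
            ((s59feBar W hΔ p φ hφ).baseChangeAlong (ResidueField.map (algebraMap 𝒪 T))) →
          H.ρ.IsOrdinaryAt p ∧ s59psPeuTriv H.ρ p) ∧
      -- (DEF-COND)
      (∀ Q : Finset ℕ, Q ⊆ s59psfinSW W hΔ p →
        Nonempty (GaloisRep.DeformationRingData 𝒪 (s59feBar W hΔ p φ hφ)
          (s59psCond 𝒪 p (s59feSmin W hΔ p) Q))) ∧
      -- `ψ ℓ ≡ tr ρ̄(Frob_ℓ)`
      (∀ ℓ : ℕ, ℓ.Prime → ℓ ∉ s59feSmin W hΔ p → ¬ ℓ ∣ N0 →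
        ∀ P : ValuationSubring (AlgebraicClosure ℚ), P.LiesOverPrime ℓ →
        ∀ τ : AlgebraicClosure ℚ ≃ₐ[ℚ] AlgebraicClosure ℚ, P.IsFrobeniusAt τ ℓ →
          residue 𝒪 (ψ ℓ) = LinearMap.trace (ResidueField 𝒪) (s59feBar W hΔ p φ hφ).V
            ((s59feBar W hΔ p φ hφ).ρ τ)) ∧
      -- (CAR)
      (∀ (S' : Finset ℕ) (ρ₁ : GaloisRepAdic 𝒪), ρ₁.DetIsCyclotomic p →
        (∀ ℓ : ℕ, ℓ.Prime → ℓ ∉ S' →
          ∀ P : ValuationSubring (AlgebraicClosure ℚ), P.LiesOverPrime ℓ →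
          ∀ φ' : AlgebraicClosure ℚ ≃ₐ[ℚ] AlgebraicClosure ℚ, P.IsFrobeniusAt φ' ℓ →
            LinearMap.trace 𝒪 ρ₁.V (ρ₁.ρ φ') = ψ ℓ) → ρ₁.IsEquiv ρ₀) ∧
      -- (E-BIG)
      (∀ Q : Finset ℕ, Q ⊆ s59psfinSW W hΔ p → ∀ (N : ℕ) [NeZero N],
        N = s59pstp_level N0 p Q →
        ∀ θ : CuspForm.heckeAlgebra N 2 (↑(s59feSmin W hΔ p ∪ Q) : Set ℕ) →+* ResidueField 𝒪,
          s59p_IsBig 𝒪 N (↑(s59feSmin W hΔ p ∪ Q) : Set ℕ) θ) ∧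
      -- (SEL-P) ⇐ LOCAL-P
      s59ps_StmtSelP 𝒪 ∧
      -- (LG-P) : the unit root of Frobenius at `p` of the base lift
      (∃ α : 𝒪, IsUnit α ∧ α ^ 2 - ψ p * α + (p : 𝒪) = 0 ∧ s59psUnitRoot ρ₀ p α) ∧
      -- (E-BASE)
      (∃ x₀ : R2.X, R2.lev x₀ = N0 ∧ R2.Good x₀) ∧
      -- (R1 = MIN′)
      ∀ s₀ : S59Stage 𝒪 (s59feBar W hΔ p φ hφ) (s59psCond 𝒪 p (s59feSmin W hΔ p) ∅),
        s59pstp_inv R2.toS59R2Data ρ₀ (s59feSmin W hΔ p) N0 ∅ s₀ →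
        s₀.lPhi ≤ Module.length 𝒪 (𝒪 ⧸ s₀.etaL)

/-- **CASE (c) ASSEMBLED**: (STAGES) for the pairs `(W, p)` with `c W p` (`W` bad at `p`) from
what is owed. -/
theorem s59pstc_stages (c : WeierstrassCurve ℤ → ℕ → Prop)
    (hc : ∀ W p, c W p → (p : ℤ) ∣ W.Δ) (h : s59pstc_StmtOwedC c) :
    s59topw_StmtStagesAt c := by
  intro p _ hp W hΔ hW hirr hcW M₀ _ hres hM₀ hM₀3
  obtain ⟨𝒪, i1, i2, i3, i4, i5, i6, φ, hφ, N0, ψ, R2, ρ₀, hK, hN0, hN0sq, hHgd, hD, hψ,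
    hcar, hBig, hselP, ⟨α, hαu, hαeq, hα⟩, ⟨x₀, hx₀, hg₀⟩, hR1⟩ :=
    h p hp W hΔ hW hirr hcW M₀ hres hM₀ hM₀3
  have hbad : (p : ℤ) ∣ W.Δ := hc W p hcW
  have hTW : TWHyp 𝒪 p (s59feBar W hΔ p φ hφ) (s59feSmin W hΔ p ∪ s59feSigma W hΔ p)
      (s59feSmin W hΔ p) := s59fe_twHyp_union W hΔ p φ hφ hp hK hW hirr
  have hSW : ∀ q ∈ s59psfinSW W hΔ p, q.Prime ∧ (q ≠ p → q ∉ s59feSmin W hΔ p) := fun q hq =>
    ⟨s59psfin_SW_prime W hΔ p hq, fun hne => s59psfin_SW_not_mem W hΔ p hq hne⟩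
  have hord : (GaloisRepAdic.ofResidualGaloisRep (s59feBar W hΔ p φ hφ)).IsOrdinaryAt p :=
    s59pshop_feBar_of_semistable W hΔ p φ hφ hW hp hbad
  have hlev0 : R2.lev x₀ = s59pstp_level N0 p ∅ := by
    rw [hx₀, s59pstc_level_empty]
  obtain ⟨s₀, hs₀, -⟩ := s59pstp_build p (s59feBar W hΔ p φ hφ) _ (s59feSmin W hΔ p)
    (s59psfinSW W hΔ p) hTW hSW N0 hN0 hN0sq ψ R2.toS59R2Data ρ₀ hord hHgd hD (s59topg_hdet hTW)
    hψ hcar hBig ∅ (Finset.empty_subset _) x₀ hg₀ hlev0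
  refine ⟨𝒪, i1, i2, i3, i4, i5, φ, hφ, fun Sg => s59psCond 𝒪 p (s59feSmin W hΔ p) Sg,
    fun Sg s => s59pstp_inv R2.toS59R2Data ρ₀ (s59feSmin W hΔ p) N0 Sg s, s59psfinSW W hΔ p,
    ⟨s₀, hs₀, hR1 s₀ hs₀⟩, ?_, ?_⟩
  · intro Sg q hSg hqW hqSg s hs
    exact s59pstp_step p (s59feBar W hΔ p φ hφ) _ (s59feSmin W hΔ p) (s59psfinSW W hΔ p)
      hTW hSW N0 hN0 hN0sq ψ R2 ρ₀ hord hHgd hD (s59topg_hdet hTW) hψ hcar hBig hselP α hαu hαeq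
      hα Sg q hSg hqW hqSg s hs
  · intro s hs
    exact ⟨s59psfin_cond W hΔ p φ hφ hW hp hbad,
      s59pstc_levelOK W hΔ p N0 hN0 hN0sq s.N s.S hs.1 hs.2.1⟩

end Fermat.Agent.S59

end
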