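/-
S59, wall M5 (P-STEP), **CASE (c), the owed list REDUCED** (helper76): `s59pstc_StmtOwedC`
(`S59/PStep/StagesC.lean`) with the leaves that are PROVED plugged in:

* SEL-P ✓ (`s59pslpf_selP`, helper42/helper5/helper10);
* HGD-ORD ✓ (`s59pstd_hgdOrd` : S32 ✓ + `S33.isOrdinaryAt_of_isFlatAt` ✓, the ordinary half at the
  levels prime to `p`);
* HGD-PEU ✓ (`s59pshp_peuTriv`, helper94, with LOCAL-RING ✓ `s59pskf_localRing`), which leaves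
  **(UR)** `s59pstd_StmtUR` : at every `𝒪`-point `ψ'` of the Hecke ring of a level prime to `p`
  the unit root `α` of `ρ_{ψ'}` at `p` has `α² ≠ 1`  (⇐ LG-P + E-PET ✓ + ALG-C ✓).

* `s59pstd_hHgd : (UR) → hHgd` (the hypothesis of `s59pstp_step` / `s59pstp_build`);
* `s59pstd_StmtOwedC2 c` : what is owed in case (c) after that;
* **`s59pstd_stages : (∀ W p, c W p → (p : ℤ) ∣ W.Δ) → s59pstd_StmtOwedC2 c →
  s59topw_StmtStagesAt c`**.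
-/
import Fermat.Agent.S59.PStep.StagesC
import Fermat.Agent.S59.PStep.HgdPeu
import Fermat.Agent.S59.PStep.LocPFinal
import Fermat.Agent.S33.FlatOrdFinal

set_option autoImplicit false
set_option linter.style.haveILetI false
set_option linter.unusedSectionVars false
set_option linter.unusedVariables false
set_option linter.style.longLine false

noncomputable section

namespace Fermat.Agent.S59

open IsLocalRing Polynomial Fermat.Agent.TW Fermat.Agent.S53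

section Hgd

variable {𝒪 : Type} [CommRing 𝒪] [IsDomain 𝒪] [IsDiscreteValuationRing 𝒪]
  [IsAdicComplete (maximalIdeal 𝒪) 𝒪] [Finite (ResidueField 𝒪)] [CharZero 𝒪]

/-- **HGD-ORD** (the ordinary half): a Hecke–Galois datum of a level `N` PRIME TO the odd prime
`p`, residually equivalent to `ρ̄`, `ρ̄` ordinary at `p`, is ordinary at `p` (flat by S32 ✓, then
`S33.isOrdinaryAt_of_isFlatAt` ✓). -/
theorem s59pstd_hgdOrd {p : ℕ} {N : ℕ} [NeZero N] {S : Finset ℕ}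
    {θ : CuspForm.heckeAlgebra N 2 (↑S : Set ℕ) →+* ResidueField 𝒪}
    {T : Type} [CommRing T] [IsLocalRing T] [IsNoetherianRing T]
    [IsAdicComplete (maximalIdeal T) T] [Algebra 𝒪 T] [IsLocalHom (algebraMap 𝒪 T)]
    [Module.Finite 𝒪 T] [Module.Free 𝒪 T]
    (hp : p.Prime) (hp2 : p ≠ 2) (hp𝒪 : (p : 𝒪) ∈ maximalIdeal 𝒪) (hpN : ¬ p ∣ N) (hpS : p ∈ S)
    (hNS : ∀ q : ℕ, q.Prime → q ∣ N → q ∈ S)
    (H : CuspForm.HeckeGaloisRepDatum N (↑S : Set ℕ) 𝒪 θ T)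
    (ρbar : ResidualGaloisRep (ResidueField 𝒪))
    (hord : (GaloisRepAdic.ofResidualGaloisRep ρbar).IsOrdinaryAt p)
    (hdetH : H.ρ.DetIsCyclotomic p)
    (hres : H.ρ.residual.IsEquiv (ρbar.baseChangeAlong (ResidueField.map (algebraMap 𝒪 T)))) :
    H.ρ.IsOrdinaryAt p :=
  Fermat.Agent.S33.isOrdinaryAt_of_isFlatAt H.ρ hp hp2 hdetH
    (s59pshop_isEquiv hres p (s59pshop_baseChangeAlong _ ρbar p hord))
    (s59leaf_s32 hp hp2 hp𝒪 hpN hpS hNS H)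

/-- **(UR)**: at every `𝒪`-point of the Hecke ring of a level `level Q` prime to `p` (`p ∉ Q`),
the unit root `α` of Frobenius at `p` satisfies `α² ≠ 1`  (⇐ LG-P + E-PET ✓ + ALG-C ✓). -/
def s59pstd_StmtUR (𝒪 : Type) [CommRing 𝒪] [IsDomain 𝒪] [IsDiscreteValuationRing 𝒪]
    [IsAdicComplete (maximalIdeal 𝒪) 𝒪] (p : ℕ) (Smin SW : Finset ℕ) (N0 : ℕ)
    (ρbar : ResidualGaloisRep (ResidueField 𝒪)) : Prop :=
  ∀ Q : Finset ℕ, Q ⊆ SW → p ∉ Q → ∀ (N : ℕ) [NeZero N], N = s59pstp_level N0 p Q →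
    ∀ (θ : CuspForm.heckeAlgebra N 2 (↑(Smin ∪ Q) : Set ℕ) →+* ResidueField 𝒪)
      (T : Type) [CommRing T] [IsLocalRing T] [IsNoetherianRing T]
      [IsAdicComplete (maximalIdeal T) T] [Algebra 𝒪 T] [IsLocalHom (algebraMap 𝒪 T)]
      [Module.Finite 𝒪 T] [Module.Free 𝒪 T]
      (H : CuspForm.HeckeGaloisRepDatum N (↑(Smin ∪ Q) : Set ℕ) 𝒪 θ T),
      (∀ y : T, (∀ ψ' : T →ₐ[𝒪] 𝒪, ψ' y = 0) → y = 0) → H.ρ.DetIsCyclotomic p →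
      H.ρ.residual.IsEquiv (ρbar.baseChangeAlong (ResidueField.map (algebraMap 𝒪 T))) →
      H.ρ.IsOrdinaryAt p →
      ∀ (ψ' : T →ₐ[𝒪] 𝒪) (hψ' : IsLocalHom (ψ' : T →+* 𝒪)), ∃ α : 𝒪,
        s59psUnitRoot (H.ρ.baseChangeAlong (ψ' : T →+* 𝒪) hψ') p α ∧ α ^ 2 - 1 ≠ 0

/-- **HGD-ORD + HGD-PEU from (UR)**: the hypothesis `hHgd` of `s59pstp_step`. -/
theorem s59pstd_hHgd (p : ℕ) [Fact p.Prime] (ρbar : ResidualGaloisRep (ResidueField 𝒪))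
    (S Smin SW : Finset ℕ) (hTW : TWHyp 𝒪 p ρbar S Smin)
    (hSW : ∀ q ∈ SW, q.Prime ∧ (q ≠ p → q ∉ Smin))
    (N0 : ℕ) (hN0 : ∀ ℓ : ℕ, ℓ.Prime → (ℓ ∣ N0 ↔ ℓ ∈ Smin ∧ ℓ ≠ p))
    (hord : (GaloisRepAdic.ofResidualGaloisRep ρbar).IsOrdinaryAt p)
    (hUR : s59pstd_StmtUR 𝒪 p Smin SW N0 ρbar) :
    ∀ Q : Finset ℕ, Q ⊆ SW → p ∉ Q → ∀ (N : ℕ) [NeZero N], N = s59pstp_level N0 p Q →
      ∀ (θ : CuspForm.heckeAlgebra N 2 (↑(Smin ∪ Q) : Set ℕ) →+* ResidueField 𝒪)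
        (T : Type) [CommRing T] [IsLocalRing T] [IsNoetherianRing T]
        [IsAdicComplete (maximalIdeal T) T] [Algebra 𝒪 T] [IsLocalHom (algebraMap 𝒪 T)]
        [Module.Finite 𝒪 T] [Module.Free 𝒪 T]
        (H : CuspForm.HeckeGaloisRepDatum N (↑(Smin ∪ Q) : Set ℕ) 𝒪 θ T),
        (∀ y : T, (∀ ψ' : T →ₐ[𝒪] 𝒪, ψ' y = 0) → y = 0) → H.ρ.DetIsCyclotomic p →
        H.ρ.residual.IsEquiv (ρbar.baseChangeAlong (ResidueField.map (algebraMap 𝒪 T))) →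
        H.ρ.IsOrdinaryAt p ∧ s59psPeuTriv H.ρ p := by
  intro Q hQ hpQ N _ hN θ T _ _ _ _ _ _ _ _ H hsep hdetH hresH
  have hpp : p.Prime := Fact.out
  have hQp : ∀ q ∈ Q, q.Prime := fun q h => (hSW q (hQ h)).1
  have hpN : ¬ p ∣ N := by
    rw [hN]
    exact s59pstp_p_not_dvd_level hpp hN0 hQp hpQ
  have hpS : p ∈ Smin ∪ Q := Finset.mem_union_left _ hTW.hpSmin
  have hNS : ∀ ℓ : ℕ, ℓ.Prime → ℓ ∣ N → ℓ ∈ Smin ∪ Q := by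
    intro ℓ hℓ hd
    rw [hN] at hd
    rcases s59pstp_prime_dvd_level hQp hℓ hd with h1 | h1
    · exact Finset.mem_union_left _ ((hN0 ℓ hℓ).1 h1).1
    · exact Finset.mem_union_right _ h1
  have hordH : H.ρ.IsOrdinaryAt p :=
    s59pstd_hgdOrd hpp hTW.hp2 hTW.hp𝒪 hpN hpS hNS H ρbar hord hdetH hresH
  exact ⟨hordH, s59pshp_peuTriv s59pskf_localRing p hTW.hp2 H.ρ hdetH hordH hsep
    (hUR Q hQ hpQ N hN θ T H hsep hdetH hresH hordH)⟩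

end Hgd

/-! ### What is owed in case (c), reduced -/

/-- **What is still owed in case (c)** after SEL-P ✓, HGD-ORD ✓, HGD-PEU ✓ (LOCAL-RING ✓). -/
def s59pstd_StmtOwedC2 (c : WeierstrassCurve ℤ → ℕ → Prop) : Prop :=
  ∀ (p : ℕ) [Fact p.Prime], (p = 3 ∨ p = 5) → ∀ (W : WeierstrassCurve ℤ) (hΔ : W.Δ ≠ 0),
    W.IsSemistableModel → W.ModRepIsIrreducible p → c W p →
    ∀ (M₀ : ℕ) [NeZero M₀], W.IsResiduallyModularOfLevel p M₀ → ¬ p ^ 2 ∣ M₀ →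
    (∀ q : ℕ, q.Prime → q ≠ p → ¬ q ^ 3 ∣ M₀) →
    ∃ (𝒪 : Type) (_ : CommRing 𝒪) (_ : IsDomain 𝒪) (_ : IsDiscreteValuationRing 𝒪)
      (_ : IsAdicComplete (maximalIdeal 𝒪) 𝒪) (_ : CharZero 𝒪) (_ : Finite (ResidueField 𝒪))
      (φ : ℤ_[p] →+* 𝒪) (hφ : IsLocalHom φ) (N0 : ℕ) (ψ : ℕ → 𝒪) (R2 : S59R2DataP 𝒪 p ψ)
      (ρ₀ : GaloisRepAdic 𝒪),
      -- `𝔽_{p²} ⊆ k`
      (∀ (ι : ZMod p →+* ResidueField 𝒪) (f : (ZMod p)[X]), f.Monic → f.natDegree = 2 →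
        ∃ α β : ResidueField 𝒪, f.map ι = (X - C α) * (X - C β)) ∧
      -- the base level (MINLEV + LOWER-P), prime to `p`
      (∀ ℓ : ℕ, ℓ.Prime → (ℓ ∣ N0 ↔ ℓ ∈ s59feSmin W hΔ p ∧ ℓ ≠ p)) ∧ Squarefree N0 ∧
      -- (UR) ⇐ LG-P + E-PET + ALG-C
      s59pstd_StmtUR 𝒪 p (s59feSmin W hΔ p) (s59psfinSW W hΔ p) N0 (s59feBar W hΔ p φ hφ) ∧
      -- (DEF-COND)
      (∀ Q : Finset ℕ, Q ⊆ s59psfinSW W hΔ p →
        Nonempty (GaloisRep.DeformationRingData 𝒪 (s59feBar W hΔ p φ hφ)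
          (s59psCond 𝒪 p (s59feSmin W hΔ p) Q))) ∧
      -- `ψ ℓ ≡ tr ρ̄(Frob_ℓ)`
      (∀ ℓ : ℕ, ℓ.Prime → ℓ ∉ s59feSmin W hΔ p → ¬ ℓ ∣ N0 →
        ∀ P : ValuationSubring (AlgebraicClosure ℚ), P.LiesOverPrime ℓ →
        ∀ τ : AlgebraicClosure ℚ ≃ₐ[ℚ] AlgebraicClosure ℚ, P.IsFrobeniusAt τ ℓ →
          residue 𝒪 (ψ ℓ) = LinearMap.trace (ResidueField 𝒪) (s59feBar W hΔ p φ hφ).V
            ((s59feBar W hΔ p φ hφ).ρ τ)) ∧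
      -- (CAR)
      (∀ (S' : Finset ℕ) (ρ₁ : GaloisRepAdic 𝒪), ρ₁.DetIsCyclotomic p →
        (∀ ℓ : ℕ, ℓ.Prime → ℓ ∉ S' →
          ∀ P : ValuationSubring (AlgebraicClosure ℚ), P.LiesOverPrime ℓ →
          ∀ φ' : AlgebraicClosure ℚ ≃ₐ[ℚ] AlgebraicClosure ℚ, P.IsFrobeniusAt φ' ℓ →
            LinearMap.trace 𝒪 ρ₁.V (ρ₁.ρ φ') = ψ ℓ) → ρ₁.IsEquiv ρ₀) ∧
      -- (E-BIG)
      (∀ Q : Finset ℕ, Q ⊆ s59psfinSW W hΔ p → ∀ (N : ℕ) [NeZero N],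
        N = s59pstp_level N0 p Q →
        ∀ θ : CuspForm.heckeAlgebra N 2 (↑(s59feSmin W hΔ p ∪ Q) : Set ℕ) →+* ResidueField 𝒪,
          s59p_IsBig 𝒪 N (↑(s59feSmin W hΔ p ∪ Q) : Set ℕ) θ) ∧
      -- (LG-P) : the unit root of Frobenius at `p` of the base lift
      (∃ α : 𝒪, IsUnit α ∧ α ^ 2 - ψ p * α + (p : 𝒪) = 0 ∧ s59psUnitRoot ρ₀ p α) ∧
      -- (E-BASE)
      (∃ x₀ : R2.X, R2.lev x₀ = N0 ∧ R2.Good x₀) ∧
      -- (R1 = MIN′)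
      ∀ s₀ : S59Stage 𝒪 (s59feBar W hΔ p φ hφ) (s59psCond 𝒪 p (s59feSmin W hΔ p) ∅),
        s59pstp_inv R2.toS59R2Data ρ₀ (s59feSmin W hΔ p) N0 ∅ s₀ →
        s₀.lPhi ≤ Module.length 𝒪 (𝒪 ⧸ s₀.etaL)

/-- the reduced list gives the full list -/
theorem s59pstd_owedC (c : WeierstrassCurve ℤ → ℕ → Prop)
    (hc : ∀ W p, c W p → (p : ℤ) ∣ W.Δ) (h : s59pstd_StmtOwedC2 c) : s59pstc_StmtOwedC c := by
  intro p _ hp W hΔ hW hirr hcW M₀ _ hres hM₀ hM₀3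
  obtain ⟨𝒪, i1, i2, i3, i4, i5, i6, φ, hφ, N0, ψ, R2, ρ₀, hK, hN0, hN0sq, hUR, hD, hψ,
    hcar, hBig, hLG, hbase, hR1⟩ := h p hp W hΔ hW hirr hcW M₀ hres hM₀ hM₀3
  have hbad : (p : ℤ) ∣ W.Δ := hc W p hcW
  have hTW : TWHyp 𝒪 p (s59feBar W hΔ p φ hφ) (s59feSmin W hΔ p ∪ s59feSigma W hΔ p)
      (s59feSmin W hΔ p) := s59fe_twHyp_union W hΔ p φ hφ hp hK hW hirr
  have hSW : ∀ q ∈ s59psfinSW W hΔ p, q.Prime ∧ (q ≠ p → q ∉ s59feSmin W hΔ p) := fun q hq =>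
    ⟨s59psfin_SW_prime W hΔ p hq, fun hne => s59psfin_SW_not_mem W hΔ p hq hne⟩
  have hord : (GaloisRepAdic.ofResidualGaloisRep (s59feBar W hΔ p φ hφ)).IsOrdinaryAt p :=
    s59pshop_feBar_of_semistable W hΔ p φ hφ hW hp hbad
  exact ⟨𝒪, i1, i2, i3, i4, i5, i6, φ, hφ, N0, ψ, R2, ρ₀, hK, hN0, hN0sq,
    s59pstd_hHgd p (s59feBar W hΔ p φ hφ) _ (s59feSmin W hΔ p) (s59psfinSW W hΔ p) hTW hSW N0
      hN0 hord hUR,
    hD, hψ, hcar, hBig, s59pslpf_selP 𝒪, hLG, hbase, hR1⟩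

/-- **CASE (c) ASSEMBLED, reduced list.** -/
theorem s59pstd_stages (c : WeierstrassCurve ℤ → ℕ → Prop)
    (hc : ∀ W p, c W p → (p : ℤ) ∣ W.Δ) (h : s59pstd_StmtOwedC2 c) :
    s59topw_StmtStagesAt c :=
  s59pstc_stages c hc (s59pstd_owedC c hc h)

end Fermat.Agent.S59

end
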