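/-
S59, wall M5 = P-STEP, leaf **LG-P**, part (LG3) = THE ALGEBRA (helper56).  Ledger: NOTES/S59-M5.md.
Mathlib only.

`V` a module over a domain `𝒪` with operators `ρ σ` (`σ ∈ G`, plain functions), `I ⊆ G` ("inertia
at `P`"), `φ ∈ G` ("a Frobenius at `P`"), `L = 𝒪 b₀ ⊆ V` the ordinary line:
`ρ σ v − v ∈ L` (`σ ∈ I`), `ρ φ v − α v ∈ L` (so `φ` acts on `V ⧸ L` through the unit root `α`),
and `ρ` is RAMIFIED (some `σ ∈ I` acts non trivially).
`s : V → Y` an `𝒪`-linear "specialisation" (`Y` = the étale / special-fibre side), `s ≠ 0`,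
constant on the orbits of `I`, with `s (ρ φ v) = F (s v)`, and the Eichler–Shimura relation
`F² − a F + c = 0` on the image of `s` (`c = p`, `a` = the eigenvalue of `T_p`); the image of `s`
is torsion-free.  THEN `α² − a α + c = 0`.

* `s59pslg_kills_line` : `s` kills the line `L`;
* `s59pslg_eigen`      : `F (s v) = α • s v`;
* `s59pslg_alg`        : **(LG3)** `α ^ 2 - a * α + c = 0`.
-/
import Mathlib

set_option autoImplicit false
set_option linter.unusedVariables false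
set_option linter.unusedSectionVars false

namespace Fermat.Agent.S59

section LGAlg

variable {𝒪 : Type*} [CommRing 𝒪] [IsDomain 𝒪]
  {V : Type*} [AddCommGroup V] [Module 𝒪 V] {Y : Type*} [AddCommGroup Y] [Module 𝒪 Y]
  {G : Type*} (ρ : G → V →ₗ[𝒪] V) (I : Set G) (φ : G)
  (L : Submodule 𝒪 V) (b₀ : V) (α : 𝒪)
  (s : V →ₗ[𝒪] Y) (F : Y →ₗ[𝒪] Y)

/-- `s` kills the ordinary line: the line is generated by `b₀`, inertia moves some vector, and
`s` is constant on the orbits of inertia. -/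
theorem s59pslg_kills_line (hL : L = Submodule.span 𝒪 {b₀})
    (hI : ∀ σ ∈ I, ∀ v : V, ρ σ v - v ∈ L) (hram : ∃ σ ∈ I, ∃ v : V, ρ σ v ≠ v)
    (hsI : ∀ σ ∈ I, ∀ v : V, s (ρ σ v) = s v)
    (hY : ∀ (c : 𝒪) (v : V), c • s v = 0 → c = 0 ∨ s v = 0) :
    ∀ w ∈ L, s w = 0 := by
  obtain ⟨σ, hσ, v, hv⟩ := hram
  have h1 : ρ σ v - v ∈ Submodule.span 𝒪 {b₀} := hL ▸ hI σ hσ v
  obtain ⟨c, hc⟩ := Submodule.mem_span_singleton.mp h1
  have hc0 : c ≠ 0 := by
    rintro rfl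
    rw [zero_smul] at hc
    exact hv (sub_eq_zero.mp hc.symm)
  have hsb : s b₀ = 0 := by
    have h2 : c • s b₀ = 0 := by
      rw [← map_smul, hc, map_sub, hsI σ hσ v, sub_self]
    rcases hY c b₀ h2 with h | h
    · exact absurd h hc0
    · exact h
  intro w hw
  rw [hL] at hw
  obtain ⟨d, rfl⟩ := Submodule.mem_span_singleton.mp hw
  rw [map_smul, hsb, smul_zero]

/-- Frobenius acts on the image of `s` through `α` -/
theorem s59pslg_eigen (hsL : ∀ w ∈ L, s w = 0) (hφ : ∀ v : V, ρ φ v - α • v ∈ L)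
    (hF : ∀ v : V, s (ρ φ v) = F (s v)) (v : V) : F (s v) = α • s v := by
  have h := hsL _ (hφ v)
  rw [map_sub, map_smul, sub_eq_zero] at h
  rw [← hF v, h]

/-- **(LG3)**: the unit root `α` of Frobenius on the unramified quotient is a root of
`X² − a X + c`. -/
theorem s59pslg_alg (hL : L = Submodule.span 𝒪 {b₀})
    (hI : ∀ σ ∈ I, ∀ v : V, ρ σ v - v ∈ L) (hram : ∃ σ ∈ I, ∃ v : V, ρ σ v ≠ v)
    (hφ : ∀ v : V, ρ φ v - α • v ∈ L)
    (hs : ∃ v : V, s v ≠ 0) (hsI : ∀ σ ∈ I, ∀ v : V, s (ρ σ v) = s v)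
    (hY : ∀ (c : 𝒪) (v : V), c • s v = 0 → c = 0 ∨ s v = 0)
    (hF : ∀ v : V, s (ρ φ v) = F (s v))
    (a c : 𝒪) (hrel : ∀ v : V, F (F (s v)) - a • F (s v) + c • s v = 0) :
    α ^ 2 - a * α + c = 0 := by
  have hsL := s59pslg_kills_line ρ I L b₀ s hL hI hram hsI hY
  have he := s59pslg_eigen ρ φ L α s F hsL hφ hF
  obtain ⟨v, hv⟩ := hs
  have h1 := hrel v
  rw [he v, map_smul, he v, smul_smul, smul_smul, ← sub_smul, ← add_smul] at h1
  rcases hY _ v h1 with h | h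
  · rw [← h]; ring
  · exact absurd h hv

end LGAlg

end Fermat.Agent.S59
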