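/-
S59, wall M5 = P-STEP, leaf **LG-P** (local–global compatibility at `p`, `p ∤ N`): THE EXACT
STATEMENT in the shapes of R2 / HGD, the GEOMETRIC INTERFACE, and (LG3) (helper56).
Ledger: NOTES/S59-M5.md (helper5, 05:10Z).

* `s59ps_StmtLGP 𝒪`   : **LG-P.**  `H` a Hecke–Galois datum of level `N` away from `S` (`p ∈ S`,
  `p ∤ N`), `det H.ρ = χ`, `πT : T → 𝒪` an augmentation, `x ≠ 0` in `𝒪 ⊗ Lpar N` an eigenvector
  with the eigenvalues of `πT` (`T_ℓ x = πT (H.π T_ℓ) • x`, `ℓ ∉ S`, `ℓ ∤ N`) and `T_p x = a • x`.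
  Then every unit root `α` of Frobenius at `p` of `ρ_π = H.ρ ⊗_{πT} 𝒪`
  (`s59psUnitRoot ρ_π p α`) satisfies `α² − a α + p = 0`.
* `s59ps_StmtLGGeo 𝒪` : **LG-GEO** = what geometry must deliver ((LG1) Eichler–Shimura at `ℓ = p`
  from S37 with an auxiliary torsion prime, (LG2) non-degeneracy, transport by Carayol): for ONE
  place `P` over `p` and ONE Frobenius `φ` at `P`, an `𝒪`-linear map `s : V_π → Y`, `s ≠ 0`, with
  torsion-free image, constant on the orbits of the inertia group of `P`, `s (φ v) = F (s v)`,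
  and `F² − a F + p = 0` on the image of `s`.
* `s59pslg_lgp_of_geo : LG-GEO → LG-P`  (**(LG3)**, PROVED here; the algebra is
  `s59pslg_alg`, `S59/PStep/LGAlg.lean`; the ramification of `ρ_π` at `p` comes from `det = χ`,
  `s59pshp_sigma_unit`).
-/
import Fermat.Agent.S59.PStep.HgdPeu
import Fermat.Agent.S59.PStep.LGAlg
import Fermat.Agent.S59.Eta.BCLin

set_option autoImplicit false
set_option linter.unusedSectionVars false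
set_option linter.unusedVariables false
set_option linter.style.longLine false
set_option linter.style.haveILetI false

noncomputable section

namespace Fermat.Agent.S59

open IsLocalRing Fermat.Agent.S41
open scoped TensorProduct

/-- `ℚ̄` -/
local notation "Qbar" => AlgebraicClosure ℚ

section Stmt

variable (𝒪 : Type) [CommRing 𝒪] [IsDomain 𝒪] [IsDiscreteValuationRing 𝒪]
  [IsAdicComplete (maximalIdeal 𝒪) 𝒪]

/-- **LG-P** (local–global compatibility at `p ∤ N`): the unit root `α` of Frobenius at `p` of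
`ρ_π` is a root of `X² − a X + p`, `a` the `T_p`-eigenvalue. -/
def s59ps_StmtLGP : Prop :=
  ∀ (p : ℕ) [Fact p.Prime], p ≠ 2 → (p : 𝒪) ∈ maximalIdeal 𝒪 →
  ∀ (N : ℕ) [NeZero N] (hpN : ¬ p ∣ N) (S : Finset ℕ), p ∈ S →
    (∀ ℓ : ℕ, ℓ.Prime → ℓ ∣ N → ℓ ∈ S) →
  ∀ (θ : CuspForm.heckeAlgebra N 2 (↑S : Set ℕ) →+* ResidueField 𝒪)
    (T : Type) [CommRing T] [IsLocalRing T] [IsNoetherianRing T]
    [IsAdicComplete (maximalIdeal T) T] [Algebra 𝒪 T] [IsLocalHom (algebraMap 𝒪 T)]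
    [Module.Finite 𝒪 T] [Module.Free 𝒪 T]
    (H : CuspForm.HeckeGaloisRepDatum N (↑S : Set ℕ) 𝒪 θ T), H.ρ.DetIsCyclotomic p →
  ∀ (πT : T →ₐ[𝒪] 𝒪) (hπ : IsLocalHom (πT : T →+* 𝒪)) (x : 𝒪 ⊗[ℤ] ↥(Lpar N)), x ≠ 0 →
    (∀ (ℓ : ℕ) (hℓ : ℓ.Prime) (hℓN : ¬ ℓ ∣ N) (hℓS : ℓ ∉ (↑S : Set ℕ)),
      (@s59bcTcZ N _ ℓ ⟨hℓ⟩ hℓN).baseChange 𝒪 x =
        πT (H.π (CuspForm.heckeAlgebra.T hℓ hℓN hℓS)) • x) →
  ∀ a : 𝒪, (s59bcTcZ N p hpN).baseChange 𝒪 x = a • x →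
  ∀ α : 𝒪, s59psUnitRoot (H.ρ.baseChangeAlong (πT : T →+* 𝒪) hπ) p α →
    α ^ 2 - a * α + (p : 𝒪) = 0

/-- **LG-GEO**: the geometric input of LG-P (same data as LG-P): a specialisation `s` of `ρ_π` at
one place `P` over `p`. -/
def s59ps_StmtLGGeo : Prop :=
  ∀ (p : ℕ) [Fact p.Prime], p ≠ 2 → (p : 𝒪) ∈ maximalIdeal 𝒪 →
  ∀ (N : ℕ) [NeZero N] (hpN : ¬ p ∣ N) (S : Finset ℕ), p ∈ S →
    (∀ ℓ : ℕ, ℓ.Prime → ℓ ∣ N → ℓ ∈ S) →
  ∀ (θ : CuspForm.heckeAlgebra N 2 (↑S : Set ℕ) →+* ResidueField 𝒪)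
    (T : Type) [CommRing T] [IsLocalRing T] [IsNoetherianRing T]
    [IsAdicComplete (maximalIdeal T) T] [Algebra 𝒪 T] [IsLocalHom (algebraMap 𝒪 T)]
    [Module.Finite 𝒪 T] [Module.Free 𝒪 T]
    (H : CuspForm.HeckeGaloisRepDatum N (↑S : Set ℕ) 𝒪 θ T), H.ρ.DetIsCyclotomic p →
  ∀ (πT : T →ₐ[𝒪] 𝒪) (hπ : IsLocalHom (πT : T →+* 𝒪)) (x : 𝒪 ⊗[ℤ] ↥(Lpar N)), x ≠ 0 →
    (∀ (ℓ : ℕ) (hℓ : ℓ.Prime) (hℓN : ¬ ℓ ∣ N) (hℓS : ℓ ∉ (↑S : Set ℕ)),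
      (@s59bcTcZ N _ ℓ ⟨hℓ⟩ hℓN).baseChange 𝒪 x =
        πT (H.π (CuspForm.heckeAlgebra.T hℓ hℓN hℓS)) • x) →
  ∀ a : 𝒪, (s59bcTcZ N p hpN).baseChange 𝒪 x = a • x →
    (H.ρ.baseChangeAlong (πT : T →+* 𝒪) hπ).IsOrdinaryAt p →
    ∃ (P : ValuationSubring Qbar) (_ : P.LiesOverPrime p) (φ : S59G) (_ : P.IsFrobeniusAt φ p)
      (Y : Type) (_ : AddCommGroup Y) (_ : Module 𝒪 Y)
      (s : (H.ρ.baseChangeAlong (πT : T →+* 𝒪) hπ).V →ₗ[𝒪] Y) (F : Y →ₗ[𝒪] Y),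
      (∃ v, s v ≠ 0) ∧ (∀ (c : 𝒪) v, c • s v = 0 → c = 0 ∨ s v = 0) ∧
      (∀ σ ∈ P.inertiaSubgroupIn ℚ, ∀ v,
        s ((H.ρ.baseChangeAlong (πT : T →+* 𝒪) hπ).ρ σ v) = s v) ∧
      (∀ v, s ((H.ρ.baseChangeAlong (πT : T →+* 𝒪) hπ).ρ φ v) = F (s v)) ∧
      ∀ v, F (F (s v)) - a • F (s v) + (p : 𝒪) • s v = 0

end Stmt

section Proof

variable {𝒪 : Type} [CommRing 𝒪] [IsDomain 𝒪] [IsDiscreteValuationRing 𝒪]
  [IsAdicComplete (maximalIdeal 𝒪) 𝒪]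

/-- a representation with cyclotomic determinant is ramified at every place over `p` (`p` odd):
some element of inertia moves some vector. -/
theorem s59pslg_ramified {A : Type} [CommRing A] [IsLocalRing A] (ρ : GaloisRepAdic A) (p : ℕ)
    [Fact p.Prime] (hp2 : p ≠ 2) (hdet : ρ.DetIsCyclotomic p) (P : ValuationSubring Qbar)
    (hP : P.LiesOverPrime p) :
    ∃ σ ∈ P.inertiaSubgroupIn ℚ, ∃ v : ρ.V, ρ.ρ σ v ≠ v := by
  obtain ⟨hI0, -, -⟩ := s59dcot_sigma_spec p hp2 P hP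
  refine ⟨s59dcot_sigma p hp2 P, hI0, ?_⟩
  by_contra hcon
  push Not at hcon
  have h1 : ρ.ρ (s59dcot_sigma p hp2 P) = 1 := LinearMap.ext fun v => hcon v
  have hu := s59pshp_sigma_unit ρ p hp2 hdet P hP
  rw [h1, map_one, sub_self] at hu
  exact not_isUnit_zero hu

/-- a unit root gives an ordinary representation -/
theorem s59pslg_ord_of_unitRoot {A : Type} [CommRing A] [IsLocalRing A] (ρ : GaloisRepAdic A)
    (p : ℕ) (α : A) (h : s59psUnitRoot ρ p α) : ρ.IsOrdinaryAt p := by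
  intro P hP
  obtain ⟨L, hL, hD, hI, -⟩ := h P hP
  exact ⟨L, hL, hD, hI⟩

/-- **(LG3): LG-GEO ⇒ LG-P.** -/
theorem s59pslg_lgp_of_geo (h : s59ps_StmtLGGeo 𝒪) : s59ps_StmtLGP 𝒪 := by
  intro p _ hp2 hp𝒪 N _ hpN S hpS hNS θ T _ _ _ _ _ _ _ _ H hdet πT hπ x hx hxe a hxa α hα
  have hord := s59pslg_ord_of_unitRoot _ p α hα
  obtain ⟨P, hP, φ, hφ, Y, iY1, iY2, s, F, hs, hY, hsI, hsF, hrel⟩ :=
    h p hp2 hp𝒪 N hpN S hpS hNS θ T H hdet πT hπ x hx hxe a hxa hord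
  obtain ⟨L, ⟨b, hL⟩, hD, hI, hF⟩ := hα P hP
  -- `ρ_π` has cyclotomic determinant, hence is ramified at `P`
  have hram : ∃ σ ∈ P.inertiaSubgroupIn ℚ,
      ∃ v : (H.ρ.baseChangeAlong (πT : T →+* 𝒪) hπ).V,
        (H.ρ.baseChangeAlong (πT : T →+* 𝒪) hπ).ρ σ v ≠ v := by
    obtain ⟨hI0, -, -⟩ := s59dcot_sigma_spec p hp2 P hP
    refine ⟨s59dcot_sigma p hp2 P, hI0, ?_⟩
    by_contra hcon
    push Not at hcon
    have h1 : (H.ρ.baseChangeAlong (πT : T →+* 𝒪) hπ).ρ (s59dcot_sigma p hp2 P) = 1 :=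
      LinearMap.ext fun v => hcon v
    have hu := (s59pshp_sigma_unit H.ρ p hp2 hdet P hP).map (πT : T →+* 𝒪)
    rw [map_sub, map_one, ← s59pshp_det_bc (πT : T →+* 𝒪) hπ H.ρ, h1, map_one, sub_self] at hu
    exact not_isUnit_zero hu
  exact s59pslg_alg (fun σ => (H.ρ.baseChangeAlong (πT : T →+* 𝒪) hπ).ρ σ)
    (P.inertiaSubgroupIn ℚ : Set S59G) φ L (b 0) α s F hL hI hram (hF φ hφ) hs hsI hY hsF
    a (p : 𝒪) hrel

end Proof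

end Fermat.Agent.S59
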