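/-
S59, wall M5 (P-STEP), leaf **UR-EXISTS** (helper76): an ORDINARY representation has a unit root.

`ρ` over a commutative ring `A`, ordinary at the prime `p`.  Then there is ONE `α ∈ Aˣ` such that
for EVERY place `P` over `p` there is an ordinary line `L` at `P` on whose quotient `V ⧸ L` EVERY
Frobenius element at `P` acts through `α`:  `∃ α, IsUnit α ∧ s59psUnitRoot ρ p α`.

* `s59psue_frob_of_sub_pow` : `σ ∈ D_A`, `σ x ≡ x^q mod 𝔪_A` on `A` ⇒ `σ` is a Frobenius at `A`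
  (the converse of `Cheb.sub_pow_mem_nonunits_of_isFrobeniusAt`);
* `s59psue_frob_conj` : `τ σ τ⁻¹` is a Frobenius at `τ • A`;
* `s59psue_frob_mul_inv` : two Frobenius elements at `A` differ by inertia;
* **`s59psue_exists`** : the unit root exists;
* `s59psue_exists_bc` : the same for `ρ ⊗_x B`.

Used to wire LG-P (`s59ps_StmtLGP`, "every unit root is a root of `X² − a X + p`") into
`s59pstp_step` (`hα`) and into (UR) (`s59pstd_StmtUR`).
-/
import Fermat.Agent.S59.PStep.LgpAlg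
import Fermat.Agent.TW.S.ConjPlaces
import Fermat.Agent.PT.B.NormalClosure
import Fermat.Agent.Cheb.Glue
import Fermat.Agent.Common.FrobExists

set_option autoImplicit false
set_option linter.unusedSectionVars false
set_option linter.unusedVariables false
set_option linter.style.longLine false
set_option linter.style.haveILetI false

noncomputable section

namespace Fermat.Agent.S59

open IsLocalRing
open scoped Pointwise

/-- `ℚ̄` -/
local notation "Qbar" => AlgebraicClosure ℚ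

section Frob

variable {K L : Type*} [Field K] [Field L] [Algebra K L]

/-- an element of the decomposition group which is `x ↦ x ^ q` modulo the maximal ideal is a
Frobenius element -/
theorem s59psue_frob_of_sub_pow (A : ValuationSubring L) (σ : L ≃ₐ[K] L) (q : ℕ)
    (hσ : σ ∈ A.decompositionSubgroup K) (h : ∀ x ∈ A, σ x - x ^ q ∈ A.nonunits) :
    A.IsFrobeniusAt σ q := by
  refine ⟨hσ, fun x => ?_⟩
  obtain ⟨a, rfl⟩ := IsLocalRing.residue_surjective x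
  rw [← IsLocalRing.ResidueField.residue_smul, ← map_pow, ← sub_eq_zero, ← map_sub,
    IsLocalRing.residue_eq_zero_iff, ← ValuationSubring.coe_mem_nonunits_iff]
  exact h a a.2

/-- the conjugate of a Frobenius element at `A` is a Frobenius element at the conjugate place -/
theorem s59psue_frob_conj (A : ValuationSubring L) (τ σ : L ≃ₐ[K] L) (q : ℕ)
    (h : A.IsFrobeniusAt σ q) : (τ • A).IsFrobeniusAt (τ * σ * τ⁻¹) q := by
  have hσD : σ ∈ A.decompositionSubgroup K := h.mem_decompositionSubgroup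
  refine s59psue_frob_of_sub_pow _ _ q ?_ fun x hx => ?_
  · have hD : σ • A = A := MulAction.mem_stabilizer_iff.mp hσD
    show τ * σ * τ⁻¹ ∈ MulAction.stabilizer (L ≃ₐ[K] L) (τ • A)
    rw [MulAction.mem_stabilizer_iff, mul_smul, mul_smul, inv_smul_smul, hD]
  · rw [Fermat.Agent.PT.B.mem_smul_valuationSubring_iff] at hx
    rw [Fermat.Agent.PT.B.mem_nonunits_smul_valuationSubring_iff]
    have h1 := Fermat.Agent.Cheb.sub_pow_mem_nonunits_of_isFrobeniusAt A σ q h (τ⁻¹ x) hx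
    have e : τ⁻¹ ((τ * σ * τ⁻¹) x - x ^ q) = σ (τ⁻¹ x) - (τ⁻¹ x) ^ q := by
      rw [map_sub, map_pow]
      congr 1
      show τ⁻¹ (τ (σ (τ⁻¹ x))) = σ (τ⁻¹ x)
      exact AlgEquiv.symm_apply_apply τ _
    rw [e]
    exact h1

/-- two Frobenius elements at `A` differ by an element of the inertia group -/
theorem s59psue_frob_mul_inv (A : ValuationSubring L) (q : ℕ) {σ φ : L ≃ₐ[K] L}
    (hσ : A.IsFrobeniusAt σ q) (hφ : A.IsFrobeniusAt φ q) :
    σ * φ⁻¹ ∈ A.inertiaSubgroupIn K := by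
  rw [Fermat.Agent.PT.B.mem_inertiaSubgroupIn_iff]
  have hσd := hσ.mem_decompositionSubgroup
  have hφd := hφ.mem_decompositionSubgroup
  have hφi : φ⁻¹ ∈ A.decompositionSubgroup K := (A.decompositionSubgroup K).inv_mem hφd
  refine ⟨(A.decompositionSubgroup K).mul_mem hσd hφi, fun x hx => ?_⟩
  -- `y = φ⁻¹ x ∈ A`
  have hy : φ⁻¹ x ∈ A := by
    have hD : φ⁻¹ • A = A := MulAction.mem_stabilizer_iff.mp hφi
    have h1 : φ⁻¹ x ∈ φ⁻¹ • A := by
      rw [Fermat.Agent.PT.B.mem_smul_valuationSubring_iff, inv_inv]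
      show φ (φ⁻¹ x) ∈ A
      have e : φ (φ⁻¹ x) = x := AlgEquiv.apply_symm_apply φ x
      rw [e]
      exact hx
    rwa [hD] at h1
  have h1 := Fermat.Agent.Cheb.sub_pow_mem_nonunits_of_isFrobeniusAt A σ q hσ (φ⁻¹ x) hy
  have h2 := Fermat.Agent.Cheb.sub_pow_mem_nonunits_of_isFrobeniusAt A φ q hφ (φ⁻¹ x) hy
  have e : (σ * φ⁻¹) x - x = (σ (φ⁻¹ x) - (φ⁻¹ x) ^ q) - (φ (φ⁻¹ x) - (φ⁻¹ x) ^ q) := by
    have e1 : φ (φ⁻¹ x) = x := AlgEquiv.apply_symm_apply φ x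
    rw [e1]
    show σ (φ⁻¹ x) - x = _
    ring
  rw [e]
  -- the non-units are closed under subtraction
  have hsub : ∀ a b : L, a ∈ A.nonunits → b ∈ A.nonunits → a - b ∈ A.nonunits := by
    intro a b ha hb
    rw [ValuationSubring.mem_nonunits_iff_exists_mem_maximalIdeal] at ha hb ⊢
    obtain ⟨ha1, ha2⟩ := ha
    obtain ⟨hb1, hb2⟩ := hb
    exact ⟨A.sub_mem ha1 hb1, (IsLocalRing.maximalIdeal A).sub_mem ha2 hb2⟩
  exact hsub _ _ h1 h2

end Frob

section Exists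

variable {A : Type} [CommRing A] [IsLocalRing A]

/-- `ρ(τ) ρ(τ⁻¹) = 1` -/
theorem s59psue_mul_inv (ρ : GaloisRepAdic A) (τ : S59G) (v : ρ.V) :
    ρ.ρ τ (ρ.ρ τ⁻¹ v) = v := by
  rw [← Module.End.mul_apply, ← map_mul, mul_inv_cancel, map_one, Module.End.one_apply]

/-- `ρ(τ⁻¹) ρ(τ) = 1` -/
theorem s59psue_inv_mul (ρ : GaloisRepAdic A) (τ : S59G) (v : ρ.V) :
    ρ.ρ τ⁻¹ (ρ.ρ τ v) = v := by
  rw [← Module.End.mul_apply, ← map_mul, inv_mul_cancel, map_one, Module.End.one_apply]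

/-- `ρ(τ)` as a linear equivalence -/
def s59psueEquiv (ρ : GaloisRepAdic A) (τ : S59G) : ρ.V ≃ₗ[A] ρ.V :=
  LinearEquiv.ofLinearMap (ρ.ρ τ) (ρ.ρ τ⁻¹)
    (LinearMap.ext fun v => s59psue_mul_inv ρ τ v)
    (LinearMap.ext fun v => s59psue_inv_mul ρ τ v)

theorem s59psueEquiv_apply (ρ : GaloisRepAdic A) (τ : S59G) (v : ρ.V) :
    s59psueEquiv ρ τ v = ρ.ρ τ v := rfl

theorem s59psueEquiv_symm_apply (ρ : GaloisRepAdic A) (τ : S59G) (v : ρ.V) :
    (s59psueEquiv ρ τ).symm v = ρ.ρ τ⁻¹ v := rfl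

/-- **UR-EXISTS**: an ordinary representation has a unit root of Frobenius at `p`, the same for
all places over `p` and all Frobenius elements. -/
theorem s59psue_exists (ρ : GaloisRepAdic A) (p : ℕ) (hp : p.Prime) (hord : ρ.IsOrdinaryAt p) :
    ∃ α : A, IsUnit α ∧ s59psUnitRoot ρ p α := by
  obtain ⟨P₀, hP₀⟩ := Fermat.Agent.Common.exists_liesOverPrime p hp
  obtain ⟨φ₀, hφ₀⟩ := Fermat.Agent.Common.exists_isFrobeniusAt_of_liesOverPrime p hp P₀ hP₀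
  obtain ⟨L₀, ⟨b₀, hb₀⟩, hD₀, hI₀⟩ := hord P₀ hP₀
  subst hb₀
  have hφ₀D : φ₀ ∈ P₀.decompositionSubgroup ℚ := hφ₀.mem_decompositionSubgroup
  set α : A := s59pslgScalar ρ b₀ φ₀ with hα
  have hαu : IsUnit α := s59pslg_scalar_unit ρ b₀ hD₀ hφ₀D
  -- `φ₀` acts through `α`
  have hα₀ : ∀ v : ρ.V, ρ.ρ φ₀ v - α • v ∈ (A ∙ b₀ 0 : Submodule A ρ.V) := by
    intro v
    rw [s59pslg_mem_line_iff, map_sub, map_smul, Finsupp.sub_apply, Finsupp.smul_apply,
      s59pslg_coord_apply b₀ (ρ.ρ φ₀) (hD₀ φ₀ hφ₀D) v, smul_eq_mul]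
    exact sub_self _
  -- every Frobenius at `P₀` acts through `α`
  have hall₀ : ∀ φ : S59G, P₀.IsFrobeniusAt φ p →
      ∀ v : ρ.V, ρ.ρ φ v - α • v ∈ (A ∙ b₀ 0 : Submodule A ρ.V) := by
    intro φ hφ v
    have hi : φ * φ₀⁻¹ ∈ P₀.inertiaSubgroupIn ℚ := s59psue_frob_mul_inv P₀ p hφ hφ₀
    have e : ρ.ρ φ v = ρ.ρ (φ * φ₀⁻¹) (ρ.ρ φ₀ v) := by
      rw [← Module.End.mul_apply, ← map_mul, inv_mul_cancel_right]
    have e' : ρ.ρ φ v - α • v =
        (ρ.ρ (φ * φ₀⁻¹) (ρ.ρ φ₀ v) - ρ.ρ φ₀ v) + (ρ.ρ φ₀ v - α • v) := by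
      rw [e]
      abel
    rw [e']
    exact Submodule.add_mem _ (hI₀ _ hi _) (hα₀ v)
  refine ⟨α, hαu, fun P hP => ?_⟩
  obtain ⟨τ, hτ⟩ := Fermat.Agent.TW.S.sconjp_exists_smul_eq p hp P₀ P hP₀ hP
  subst hτ
  -- conjugation back to `P₀`
  have hDc : ∀ σ ∈ (τ • P₀).decompositionSubgroup ℚ, τ⁻¹ * σ * τ ∈ P₀.decompositionSubgroup ℚ := by
    intro σ hσ
    have h1 : σ • (τ • P₀) = τ • P₀ := MulAction.mem_stabilizer_iff.mp hσ
    show τ⁻¹ * σ * τ ∈ MulAction.stabilizer S59G P₀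
    rw [MulAction.mem_stabilizer_iff, mul_smul, mul_smul, h1, inv_smul_smul]
  have hIc : ∀ σ ∈ (τ • P₀).inertiaSubgroupIn ℚ, τ⁻¹ * σ * τ ∈ P₀.inertiaSubgroupIn ℚ := by
    intro σ hσ
    have h1 := Fermat.Agent.PT.B.conj_mem_inertiaSubgroupIn (K := ℚ) (τ • P₀) τ⁻¹ σ hσ
    rwa [inv_inv, inv_smul_smul] at h1
  have hFc : ∀ φ : S59G, (τ • P₀).IsFrobeniusAt φ p → P₀.IsFrobeniusAt (τ⁻¹ * φ * τ) p := by
    intro φ hφ
    have h1 := s59psue_frob_conj (τ • P₀) τ⁻¹ φ p hφ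
    rwa [inv_inv, inv_smul_smul] at h1
  have key : ∀ (σ : S59G) (v : ρ.V), ρ.ρ τ⁻¹ (ρ.ρ σ v) = ρ.ρ (τ⁻¹ * σ * τ) (ρ.ρ τ⁻¹ v) := by
    intro σ v
    rw [← Module.End.mul_apply, ← Module.End.mul_apply, ← map_mul, ← map_mul,
      mul_inv_cancel_right]
  refine ⟨(A ∙ b₀ 0 : Submodule A ρ.V).comap (ρ.ρ τ⁻¹), ⟨b₀.map (s59psueEquiv ρ τ), ?_⟩,
    fun σ hσ v hv => ?_, fun σ hσ v => ?_, fun φ hφ v => ?_⟩
  · ext v
    rw [Submodule.mem_comap, Submodule.mem_span_singleton, Submodule.mem_span_singleton]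
    constructor
    · rintro ⟨a, ha⟩
      refine ⟨a, ?_⟩
      rw [Module.Basis.map_apply, s59psueEquiv_apply, ← map_smul, ha, s59psue_mul_inv]
    · rintro ⟨a, ha⟩
      refine ⟨a, ?_⟩
      rw [← ha, map_smul, Module.Basis.map_apply, s59psueEquiv_apply, s59psue_inv_mul]
  · rw [Submodule.mem_comap] at hv ⊢
    rw [key]
    exact hD₀ _ (hDc σ hσ) _ hv
  · rw [Submodule.mem_comap, map_sub, key]
    exact hI₀ _ (hIc σ hσ) _
  · rw [Submodule.mem_comap, map_sub, map_smul, key]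
    exact hall₀ _ (hFc φ hφ) _

/-- **UR-EXISTS** for a specialisation `ρ ⊗_φ B` of an ordinary `ρ`. -/
theorem s59psue_exists_bc {B : Type} [CommRing B] [IsLocalRing B] (φ : A →+* B)
    (hφ : IsLocalHom φ) (ρ : GaloisRepAdic A) (p : ℕ) (hp : p.Prime) (hord : ρ.IsOrdinaryAt p) :
    ∃ α : B, IsUnit α ∧ s59psUnitRoot (ρ.baseChangeAlong φ hφ) p α :=
  s59psue_exists _ p hp (Fermat.Agent.TW.twbc_isOrdinaryAt φ hφ ρ p hord)

/-- the hypotheses (LG-P) of `s59pstp_step` from "ordinary" and "every unit root is a root of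
`X² − a X + p`" (the conclusion of `s59ps_StmtLGP`). -/
theorem s59psue_lgp (ρ : GaloisRepAdic A) (p : ℕ) (hp : p.Prime) (a : A)
    (hord : ρ.IsOrdinaryAt p)
    (hLG : ∀ α : A, s59psUnitRoot ρ p α → α ^ 2 - a * α + (p : A) = 0) :
    ∃ α : A, IsUnit α ∧ α ^ 2 - a * α + (p : A) = 0 ∧ s59psUnitRoot ρ p α := by
  obtain ⟨α, hαu, hα⟩ := s59psue_exists ρ p hp hord
  exact ⟨α, hαu, hLG α hα, hα⟩

end Exists

end Fermat.Agent.S59

end
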