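/-
S59, wall M5 (P-STEP), **(UR) WIRED** (helper76): the hypothesis (UR) `s59pstd_StmtUR` of case (c)
(`S59/PStep/StagesC2.lean`: at every `𝒪`-point of the Hecke ring of a level prime to `p` the unit
root `α` of Frobenius at `p` has `α² ≠ 1`) from

* LG-P  (`s59ps_StmtLGP 𝒪`, helper56's shape: every unit root is a root of `X² − a X + p`),
* E-EIGP (`s59psuw_StmtEigP`: every `𝒪`-point of the Hecke ring is realised by an eigenvector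
  `x ≠ 0` of `𝒪 ⊗ Hom_par(Γ₀(N), ℤ)` which is a `T_p`-eigenvector),
* UR-EXISTS ✓ (`s59psue_exists_bc`), E-PET ✓ (`s59etpi_pet`), ALG-C ✓ (`s59psac_ne_zero_iff`).

* `s59psuw_point` : ONE `𝒪`-point;
* **`s59psuw_ur : LG-P → E-EIGP → (UR)`**;
* `s59psuw_lgp_base` : the hypotheses (LG-P) `α, hαu, hαeq, hα` of `s59pstp_step` for a lift `ρ₀`
  equivalent to a specialisation `H.ρ ⊗_{πT} 𝒪`.
-/
import Fermat.Agent.S59.PStep.StagesC2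
import Fermat.Agent.S59.PStep.LGP
import Fermat.Agent.S59.PStep.UrExists
import Fermat.Agent.S59.Eta.PStepInj

set_option autoImplicit false
set_option linter.style.haveILetI false
set_option linter.unusedSectionVars false
set_option linter.unusedVariables false
set_option linter.style.longLine false

noncomputable section

namespace Fermat.Agent.S59

open IsLocalRing Fermat.Agent.TW Fermat.Agent.S41 Fermat.Agent.S53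
open scoped TensorProduct

section Point

variable {𝒪 : Type} [CommRing 𝒪] [IsDomain 𝒪] [IsDiscreteValuationRing 𝒪]
  [IsAdicComplete (maximalIdeal 𝒪) 𝒪] [CharZero 𝒪]

/-- **(UR) at one `𝒪`-point** realised by a `T_p`-eigenvector. -/
theorem s59psuw_point (hLGP : s59ps_StmtLGP 𝒪) (p : ℕ) [Fact p.Prime] (hp2 : p ≠ 2)
    (hp𝒪 : (p : 𝒪) ∈ maximalIdeal 𝒪) (N : ℕ) [NeZero N] (hpN : ¬ p ∣ N) (S : Finset ℕ)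
    (hpS : p ∈ S) (hNS : ∀ ℓ : ℕ, ℓ.Prime → ℓ ∣ N → ℓ ∈ S)
    (θ : CuspForm.heckeAlgebra N 2 (↑S : Set ℕ) →+* ResidueField 𝒪)
    (T : Type) [CommRing T] [IsLocalRing T] [IsNoetherianRing T]
    [IsAdicComplete (maximalIdeal T) T] [Algebra 𝒪 T] [IsLocalHom (algebraMap 𝒪 T)]
    [Module.Finite 𝒪 T] [Module.Free 𝒪 T]
    (H : CuspForm.HeckeGaloisRepDatum N (↑S : Set ℕ) 𝒪 θ T) (hdetH : H.ρ.DetIsCyclotomic p)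
    (hordH : H.ρ.IsOrdinaryAt p)
    (πT : T →ₐ[𝒪] 𝒪) (hπ : IsLocalHom (πT : T →+* 𝒪)) (x : 𝒪 ⊗[ℤ] ↥(Lpar N)) (hx : x ≠ 0)
    (heig : ∀ (ℓ : ℕ) (hℓ : ℓ.Prime) (hℓN : ¬ ℓ ∣ N) (hℓS : ℓ ∉ (↑S : Set ℕ)),
      (@s59bcTcZ N _ ℓ ⟨hℓ⟩ hℓN).baseChange 𝒪 x =
        πT (H.π (CuspForm.heckeAlgebra.T hℓ hℓN hℓS)) • x)
    (a : 𝒪) (hTp : (s59bcTcZ N p hpN).baseChange 𝒪 x = a • x) :
    ∃ α : 𝒪, IsUnit α ∧ α ^ 2 - a * α + (p : 𝒪) = 0 ∧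
      s59psUnitRoot (H.ρ.baseChangeAlong (πT : T →+* 𝒪) hπ) p α ∧ α ^ 2 - 1 ≠ 0 := by
  have hpp : p.Prime := Fact.out
  haveI : NeZero p := ⟨hpp.ne_zero⟩
  obtain ⟨α, hαu, hα⟩ := s59psue_exists_bc (πT : T →+* 𝒪) hπ H.ρ p hpp hordH
  have hq : α ^ 2 - a * α + (p : 𝒪) = 0 :=
    hLGP p hp2 hp𝒪 N hpN S hpS hNS θ T H hdetH πT hπ x hx heig a hTp α hα
  refine ⟨α, hαu, hq, hα, ?_⟩
  rw [s59psac_ne_zero_iff (p : 𝒪) α a hp𝒪 hαu hq]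
  intro h0
  apply hx
  apply s59etpi_pet 𝒪 N p hpN x
  rw [hTp, map_smul, hTp, smul_smul, ← pow_two]
  have h1 : a ^ 2 = ((p : 𝒪) + 1) ^ 2 := sub_eq_zero.1 h0
  rw [h1]

end Point

section UR

variable {𝒪 : Type} [CommRing 𝒪] [IsDomain 𝒪] [IsDiscreteValuationRing 𝒪]
  [IsAdicComplete (maximalIdeal 𝒪) 𝒪] [Finite (ResidueField 𝒪)] [CharZero 𝒪]

/-- **E-EIGP** (at the levels `level Q`, `p ∉ Q`, of case (c)): every `𝒪`-point `ψ'` of the Hecke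
ring of a datum is realised by a nonzero eigenvector `x ∈ 𝒪 ⊗ Hom_par(Γ₀(N), ℤ)` which is also an
eigenvector of `T_p`. -/
def s59psuw_StmtEigP (𝒪 : Type) [CommRing 𝒪] [IsDomain 𝒪] [IsDiscreteValuationRing 𝒪]
    [IsAdicComplete (maximalIdeal 𝒪) 𝒪] (p : ℕ) [Fact p.Prime] (Smin SW : Finset ℕ) (N0 : ℕ)
    (ρbar : ResidualGaloisRep (ResidueField 𝒪)) : Prop :=
  ∀ Q : Finset ℕ, Q ⊆ SW → p ∉ Q → ∀ (N : ℕ) [NeZero N], N = s59pstp_level N0 p Q →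
    ∀ (hpN : ¬ p ∣ N)
      (θ : CuspForm.heckeAlgebra N 2 (↑(Smin ∪ Q) : Set ℕ) →+* ResidueField 𝒪)
      (T : Type) [CommRing T] [IsLocalRing T] [IsNoetherianRing T]
      [IsAdicComplete (maximalIdeal T) T] [Algebra 𝒪 T] [IsLocalHom (algebraMap 𝒪 T)]
      [Module.Finite 𝒪 T] [Module.Free 𝒪 T]
      (H : CuspForm.HeckeGaloisRepDatum N (↑(Smin ∪ Q) : Set ℕ) 𝒪 θ T),
      (∀ y : T, (∀ ψ' : T →ₐ[𝒪] 𝒪, ψ' y = 0) → y = 0) → H.ρ.DetIsCyclotomic p →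
      H.ρ.residual.IsEquiv (ρbar.baseChangeAlong (ResidueField.map (algebraMap 𝒪 T))) →
      ∀ ψ' : T →ₐ[𝒪] 𝒪, ∃ (x : 𝒪 ⊗[ℤ] ↥(Lpar N)) (a : 𝒪), x ≠ 0 ∧
        (∀ (ℓ : ℕ) (hℓ : ℓ.Prime) (hℓN : ¬ ℓ ∣ N) (hℓS : ℓ ∉ (↑(Smin ∪ Q) : Set ℕ)),
          (@s59bcTcZ N _ ℓ ⟨hℓ⟩ hℓN).baseChange 𝒪 x =
            ψ' (H.π (CuspForm.heckeAlgebra.T hℓ hℓN hℓS)) • x) ∧
        (s59bcTcZ N p hpN).baseChange 𝒪 x = a • x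

/-- **(UR) from LG-P and E-EIGP.** -/
theorem s59psuw_ur (hLGP : s59ps_StmtLGP 𝒪) (p : ℕ) [Fact p.Prime]
    (ρbar : ResidualGaloisRep (ResidueField 𝒪))
    (S Smin SW : Finset ℕ) (hTW : TWHyp 𝒪 p ρbar S Smin)
    (hSW : ∀ q ∈ SW, q.Prime ∧ (q ≠ p → q ∉ Smin))
    (N0 : ℕ) (hN0 : ∀ ℓ : ℕ, ℓ.Prime → (ℓ ∣ N0 ↔ ℓ ∈ Smin ∧ ℓ ≠ p))
    (hEig : s59psuw_StmtEigP 𝒪 p Smin SW N0 ρbar) :
    s59pstd_StmtUR 𝒪 p Smin SW N0 ρbar := by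
  intro Q hQ hpQ N _ hN θ T _ _ _ _ _ _ _ _ H hsep hdetH hresH hordH ψ' hψ'
  have hpp : p.Prime := Fact.out
  have hQp : ∀ q ∈ Q, q.Prime := fun q h => (hSW q (hQ h)).1
  have hpN : ¬ p ∣ N := by
    rw [hN]
    exact s59pstp_p_not_dvd_level hpp hN0 hQp hpQ
  have hpS : p ∈ Smin ∪ Q := Finset.mem_union_left _ hTW.hpSmin
  have hNS : ∀ ℓ : ℕ, ℓ.Prime → ℓ ∣ N → ℓ ∈ Smin ∪ Q := by
    intro ℓ hℓ hd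
    rw [hN] at hd
    rcases s59pstp_prime_dvd_level hQp hℓ hd with h1 | h1
    · exact Finset.mem_union_left _ ((hN0 ℓ hℓ).1 h1).1
    · exact Finset.mem_union_right _ h1
  obtain ⟨x, a, hx, heig, hTp⟩ := hEig Q hQ hpQ N hN hpN θ T H hsep hdetH hresH ψ'
  obtain ⟨α, -, -, hα, hne⟩ := s59psuw_point hLGP p hTW.hp2 hTW.hp𝒪 N hpN (Smin ∪ Q) hpS hNS θ T H
    hdetH hordH ψ' hψ' x hx heig a hTp
  exact ⟨α, hα, hne⟩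

end UR

/-! ### (LG-P) for the base lift `ρ₀` -/

section Base

variable {𝒪 : Type} [CommRing 𝒪] [IsDomain 𝒪] [IsDiscreteValuationRing 𝒪]
  [IsAdicComplete (maximalIdeal 𝒪) 𝒪] [Finite (ResidueField 𝒪)] [CharZero 𝒪]

/-- **The hypotheses (LG-P) of `s59pstp_step`** (`α`, `hαu`, `hαeq`, `hα`, and `α² ≠ 1`) for the
base lift `ρ₀`, from LG-P at the base level `N₀` (prime to `p`): `χ` the eigensystem of the base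
form on the Hecke algebra of level `N₀` away from `Smin`, `x₀ ≠ 0` its eigenvector with
`T_p x₀ = ψ p • x₀` (E-BASE with `T_p`), HGD ✓, HGD-ORD ✓, CAR (`hcar`). -/
theorem s59psuw_lgp_base (hLGP : s59ps_StmtLGP 𝒪) (p : ℕ) [Fact p.Prime]
    (ρbar : ResidualGaloisRep (ResidueField 𝒪))
    (S Smin : Finset ℕ) (hTW : TWHyp 𝒪 p ρbar S Smin)
    (N0 : ℕ) [NeZero N0] (hN0 : ∀ ℓ : ℕ, ℓ.Prime → (ℓ ∣ N0 ↔ ℓ ∈ Smin ∧ ℓ ≠ p))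
    (ψ : ℕ → 𝒪) (ρ₀ : GaloisRepAdic 𝒪)
    (hord : (GaloisRepAdic.ofResidualGaloisRep ρbar).IsOrdinaryAt p)
    (hdet : ∀ (σ : AlgebraicClosure ℚ ≃ₐ[ℚ] AlgebraicClosure ℚ) (a : ℕ),
      (∀ μ : AlgebraicClosure ℚ, μ ^ p = 1 → σ μ = μ ^ a) →
        LinearMap.det (ρbar.ρ σ) = (a : ResidueField 𝒪))
    (hψ : ∀ ℓ : ℕ, ℓ.Prime → ℓ ∉ Smin → ¬ ℓ ∣ N0 →
      ∀ P : ValuationSubring (AlgebraicClosure ℚ), P.LiesOverPrime ℓ →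
      ∀ τ : AlgebraicClosure ℚ ≃ₐ[ℚ] AlgebraicClosure ℚ, P.IsFrobeniusAt τ ℓ →
        residue 𝒪 (ψ ℓ) = LinearMap.trace (ResidueField 𝒪) ρbar.V (ρbar.ρ τ))
    (hcar : ∀ (S' : Finset ℕ) (ρ₁ : GaloisRepAdic 𝒪), ρ₁.DetIsCyclotomic p →
      (∀ ℓ : ℕ, ℓ.Prime → ℓ ∉ S' →
        ∀ P : ValuationSubring (AlgebraicClosure ℚ), P.LiesOverPrime ℓ →
        ∀ φ : AlgebraicClosure ℚ ≃ₐ[ℚ] AlgebraicClosure ℚ, P.IsFrobeniusAt φ ℓ →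
          LinearMap.trace 𝒪 ρ₁.V (ρ₁.ρ φ) = ψ ℓ) → ρ₁.IsEquiv ρ₀)
    (χ : CuspForm.heckeAlgebra N0 2 (↑Smin : Set ℕ) →+* 𝒪)
    (hχ : ∀ (ℓ : ℕ) (hℓ : ℓ.Prime) (hℓN : ¬ ℓ ∣ N0) (hℓS : ℓ ∉ (↑Smin : Set ℕ)),
      χ (CuspForm.heckeAlgebra.T hℓ hℓN hℓS) = ψ ℓ)
    (hpN : ¬ p ∣ N0) (x₀ : 𝒪 ⊗[ℤ] ↥(Lpar N0)) (hx₀ : x₀ ≠ 0)
    (hx₀eig : ∀ (ℓ : ℕ) (hℓ : ℓ.Prime) (hℓN : ¬ ℓ ∣ N0), ℓ ∉ (↑Smin : Set ℕ) →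
      (@s59bcTcZ N0 _ ℓ ⟨hℓ⟩ hℓN).baseChange 𝒪 x₀ = ψ ℓ • x₀)
    (hx₀p : (s59bcTcZ N0 p hpN).baseChange 𝒪 x₀ = ψ p • x₀) :
    ∃ α : 𝒪, IsUnit α ∧ α ^ 2 - ψ p * α + (p : 𝒪) = 0 ∧ s59psUnitRoot ρ₀ p α ∧
      α ^ 2 - 1 ≠ 0 := by
  classical
  have hpp : p.Prime := Fact.out
  have hpS : p ∈ Smin := hTW.hpSmin
  have hNS : ∀ ℓ : ℕ, ℓ.Prime → ℓ ∣ N0 → ℓ ∈ Smin := fun ℓ hℓ hd => ((hN0 ℓ hℓ).1 hd).1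
  have hres : S59HgdRes p N0 Smin 𝒪 ((residue 𝒪).comp χ) ρbar :=
    { absIrr := hTW.habs
      det := hdet
      frob := fun ℓ hℓ hℓN hℓS P hP τ hτ => by
        rw [RingHom.comp_apply, hχ ℓ hℓ hℓN hℓS]
        exact hψ ℓ hℓ (fun h => hℓS (Finset.mem_coe.2 h)) hℓN P hP τ hτ }
  obtain ⟨T, i1, i2, i3, i4, i5, i6, i7, i8, H, hsep, hdetH, hresH, hunr⟩ :=
    s59hgd_main p hTW.hp2 N0 Smin hpS hNS 𝒪 hTW.hp𝒪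
      ((residue 𝒪).comp χ) ⟨χ, fun t => rfl⟩ ρbar hres
  have hordH : H.ρ.IsOrdinaryAt p :=
    s59pstd_hgdOrd hpp hTW.hp2 hTW.hp𝒪 hpN hpS hNS H ρbar hord hdetH hresH
  obtain ⟨πT, hπT⟩ := H.exists_point χ (fun t => rfl)
  have hπ : IsLocalHom (πT : T →+* 𝒪) := s59pshp_aug_isLocalHom πT
  have heig : ∀ (ℓ : ℕ) (hℓ : ℓ.Prime) (hℓN : ¬ ℓ ∣ N0) (hℓS : ℓ ∉ (↑Smin : Set ℕ)),
      πT (H.π (CuspForm.heckeAlgebra.T hℓ hℓN hℓS)) = ψ ℓ := fun ℓ hℓ hℓN hℓS => by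
    rw [hπT, hχ ℓ hℓ hℓN hℓS]
  obtain ⟨α, hαu, hαeq, hα, hne⟩ := s59psuw_point hLGP p hTW.hp2 hTW.hp𝒪 N0 hpN Smin hpS hNS _ T H
    hdetH hordH πT hπ x₀ hx₀
    (fun ℓ hℓ hℓN hℓS => by rw [heig ℓ hℓ hℓN hℓS]; exact hx₀eig ℓ hℓ hℓN hℓS) (ψ p) hx₀p
  -- CAR : `H.ρ ⊗_{πT} 𝒪 ≅ ρ₀`
  have hρ₀ : (H.ρ.baseChangeAlong (πT : T →+* 𝒪) hπ).IsEquiv ρ₀ := by
    refine hcar Smin _ (twbc_detIsCyclotomic _ hπ H.ρ p hdetH) (fun ℓ hℓ hℓS P hP φ hφ => ?_)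
    have hℓN : ¬ ℓ ∣ N0 := fun hd => hℓS (hNS ℓ hℓ hd)
    have hℓS' : ℓ ∉ (↑Smin : Set ℕ) := fun h => hℓS (Finset.mem_coe.1 h)
    rw [s59fe_trace_baseChangeAlong]
    show πT _ = ψ ℓ
    rw [s59fin_trace_of_charpoly H.ρ.finrank_eq (H.ρ.ρ φ) _ _
      (H.charpoly_frob ℓ hℓ hℓN hℓS' P hP φ hφ), heig ℓ hℓ hℓN hℓS']
  exact ⟨α, hαu, hαeq,
    s59pstp_unitRoot_of_isEquiv (GaloisRepAdic_isEquiv_symm hρ₀) p α hα, hne⟩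

end Base

end Fermat.Agent.S59

end
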