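/-
S59, case (c) (`W` multiplicative at `p`, `ρ̄` peu ramifié at `p`): **ASSEMBLY of the landed
pieces** (helper76) — the twin of helper67's `S59/TopAsmA.lean` (case (a)).

`s59pste_owed_c` : `s59pstd_StmtOwedC2 c` (S59/PStep/StagesC2.lean) from

* a1 ✓ `s59pste_big_exists` (E-BIG for the levels of case (c), with `T_p`: helper56's
  `s59big_exists_fam_padic`), a3 ✓ `s59teig_exists_psi` (with `T_p`), a7 ✓
  `s59tres_hψ_of_resMod`, a8 ✓ `s59tcar_exists`, R2 ✓ `s59asmR2P` + E-BASE ✓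
  `s59asmr_base_Tp`, DEF-COND ✓ `s59dcfinp_hD`, E-EIGP ✓ `s59eigp_exists_datum`, (UR) ✓
  `s59psuw_ur`, LG-P at the base ✓ `s59psuw_lgp_base` — wired on ONE coefficient ring `𝒪`,
* S29 ✓ and S22 ✓ as Props,
* and the OPEN inputs, as explicit Props:
    `s59pste_StmtMinLevC c` (MINLEV-C = a2; ✓ modulo M1, M2 ∪ M3 by helper30's
                            `s59lppt_minlev_bar`),
    LG-P `∀ 𝒪 [CharZero 𝒪] [Finite (ResidueField 𝒪)], s59ps_StmtLGP 𝒪` (the wall of M5),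
    `s59pste_StmtR1C c`     (R1 = MIN′ = BASE-P for the concrete R2).

`s59pste_stages` : (STAGES) for the pairs `(W, p)` with `c W p`.
-/
import Fermat.Agent.S59.PStep.StagesC2
import Fermat.Agent.S59.PStep.UrWire
import Fermat.Agent.S59.PStep.R2P
import Fermat.Agent.S59.Eta.EigP
import Fermat.Agent.S59.DefCond.FinalP
import Fermat.Agent.S59.TopAsmA
import Fermat.Agent.S59.TopR2

set_option autoImplicit false
set_option linter.style.haveILetI false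
set_option linter.unusedSectionVars false
set_option linter.unusedVariables false
set_option linter.style.longLine false

noncomputable section

namespace Fermat.Agent.S59

open IsLocalRing Polynomial Fermat.Agent.TW Fermat.Agent.S53 Fermat.Agent.S41
open scoped TensorProduct

/-! ### a1 : the coefficient ring of case (c) -/

/-- the levels of case (c), indexed by `Option (powerset SW) × Bool` -/
def s59psteN (N0 p : ℕ) (SW : Finset ℕ) : Option ↥(SW.powerset) × Bool → ℕ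
  | (none, _) => N0
  | (some i, _) => s59pstp_level N0 p i.1

/-- the sets of primes of case (c): `true` = without `p` (so that `T_p` is in the algebra) -/
def s59psteS (p : ℕ) (Smin SW : Finset ℕ) : Option ↥(SW.powerset) × Bool → Set ℕ
  | (none, false) => (↑Smin : Set ℕ)
  | (none, true) => (↑Smin : Set ℕ) \ {p}
  | (some i, false) => (↑(Smin ∪ i.1) : Set ℕ)
  | (some i, true) => (↑(Smin ∪ i.1) : Set ℕ) \ {p}

theorem s59pste_level_ne_zero {N0 p : ℕ} (hN0 : N0 ≠ 0) (hp : p ≠ 0) {Q : Finset ℕ}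
    (hQ : ∀ q ∈ Q, q ≠ 0) : s59pstp_level N0 p Q ≠ 0 := by
  classical
  unfold s59pstp_level s59tops_level
  refine mul_ne_zero (mul_ne_zero hN0 (Finset.prod_ne_zero_iff.mpr fun q hq => ?_)) ?_
  · have hq' : q ≠ 0 := hQ q (Finset.mem_of_mem_erase hq)
    exact mul_ne_zero hq' hq'
  · by_cases h : p ∈ Q
    · rw [if_pos h]; exact hp
    · rw [if_neg h]; exact one_ne_zero

/-- **a1 (E-BIG wiring) for case (c)**: STRONG bigness at every level `level Q`, `Q ⊆ SW`, away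
from `Smin ∪ Q` AND away from `(Smin ∪ Q) ∖ {p}`, and at the base level. -/
theorem s59pste_big_exists (p : ℕ) [Fact p.Prime]
    (hfin : ∀ (N : ℕ) [NeZero N] (S : Set ℕ), Module.Finite ℤ (CuspForm.heckeAlgebra N 2 S))
    (N0 : ℕ) [NeZero N0] (Smin SW : Finset ℕ) (hSW : ∀ q ∈ SW, q ≠ 0) :
    ∃ (𝒪 : Type) (_ : CommRing 𝒪) (_ : IsDomain 𝒪) (_ : IsDiscreteValuationRing 𝒪)
      (_ : IsAdicComplete (maximalIdeal 𝒪) 𝒪) (_ : CharZero 𝒪) (_ : Finite (ResidueField 𝒪))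
      (φ : ℤ_[p] →+* 𝒪) (_ : IsLocalHom φ),
      Function.Injective φ ∧ (p : 𝒪) ∈ maximalIdeal 𝒪 ∧
      (∀ (ι : ZMod p →+* ResidueField 𝒪) (f : (ZMod p)[X]), f.Monic → f.natDegree = 2 →
        ∃ α β : ResidueField 𝒪, f.map ι = (X - C α) * (X - C β)) ∧
      (∀ Q : Finset ℕ, Q ⊆ SW → ∀ (N : ℕ) [NeZero N], N = s59pstp_level N0 p Q →
        ∀ θ : CuspForm.heckeAlgebra N 2 (↑(Smin ∪ Q) : Set ℕ) →+* ResidueField 𝒪,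
          s59p_IsBig 𝒪 N (↑(Smin ∪ Q) : Set ℕ) θ) ∧
      (∀ Q : Finset ℕ, Q ⊆ SW → ∀ (N : ℕ) [NeZero N], N = s59pstp_level N0 p Q →
        ∀ (B : Type) [CommRing B] [IsDomain B] [Algebra 𝒪 B]
          (χ : CuspForm.heckeAlgebra N 2 ((↑(Smin ∪ Q) : Set ℕ) \ {p}) →+* B)
          (t : CuspForm.heckeAlgebra N 2 ((↑(Smin ∪ Q) : Set ℕ) \ {p})),
          χ t ∈ Set.range (algebraMap 𝒪 B)) ∧
      ∀ (B : Type) [CommRing B] [IsDomain B] [Algebra 𝒪 B]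
        (χ : CuspForm.heckeAlgebra N0 2 ((↑Smin : Set ℕ) \ {p}) →+* B)
        (t : CuspForm.heckeAlgebra N0 2 ((↑Smin : Set ℕ) \ {p})),
        χ t ∈ Set.range (algebraMap 𝒪 B) := by
  classical
  have hN0 : N0 ≠ 0 := NeZero.ne N0
  have hp0 : p ≠ 0 := (Fact.out : p.Prime).ne_zero
  have hne : ∀ i : Option ↥(SW.powerset) × Bool, s59psteN N0 p SW i ≠ 0 := by
    rintro ⟨_ | i, b⟩
    · exact hN0
    · exact s59pste_level_ne_zero hN0 hp0 fun q hq => hSW q ((Finset.mem_powerset.mp i.2) hq)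
  haveI : ∀ i : Option ↥(SW.powerset) × Bool, NeZero (s59psteN N0 p SW i) := fun i => ⟨hne i⟩
  haveI : ∀ i : Option ↥(SW.powerset) × Bool,
      Module.Finite ℤ (CuspForm.heckeAlgebra (s59psteN N0 p SW i) 2 (s59psteS p Smin SW i)) :=
    fun i => hfin _ _
  obtain ⟨𝒪, i1, i2, i3, i4, i5, i6, φ, i8, hinj, hp, hsp, hbig⟩ :=
    s59big_exists_fam_padic p
      (fun i : Option ↥(SW.powerset) × Bool =>
        CuspForm.heckeAlgebra (s59psteN N0 p SW i) 2 (s59psteS p Smin SW i))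
      (s59tbigP p) (s59tbigP_monic p)
  have hstrong : ∀ Q : Finset ℕ, Q ⊆ SW → ∀ (N : ℕ) [NeZero N], N = s59pstp_level N0 p Q →
      ∀ (B : Type) [CommRing B] [IsDomain B] [Algebra 𝒪 B]
        (χ : CuspForm.heckeAlgebra N 2 (↑(Smin ∪ Q) : Set ℕ) →+* B)
        (t : CuspForm.heckeAlgebra N 2 (↑(Smin ∪ Q) : Set ℕ)),
        χ t ∈ Set.range (algebraMap 𝒪 B) := by
    intro Q hQ N _ hN B _ _ _ χ t
    subst hN
    exact hbig (some ⟨Q, Finset.mem_powerset.mpr hQ⟩, false) B χ t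
  refine ⟨𝒪, i1, i2, i3, i4, i6, i5, φ, i8, hinj, hp, ?_, ?_, ?_, ?_⟩
  · intro ι f hf hd
    exact s59tbig_hK p 𝒪 hsp ι f hf hd
  · intro Q hQ N _ hN θ
    exact s59big_isBig_of_range 𝒪 N _ (hstrong Q hQ N hN) θ
  · intro Q hQ N _ hN B _ _ _ χ t
    subst hN
    exact hbig (some ⟨Q, Finset.mem_powerset.mpr hQ⟩, true) B χ t
  · intro B _ _ _ χ t
    exact hbig (none, true) B χ t

/-! ### the open inputs, as Props -/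

/-- **MINLEV-C = a2 for case (c)**: `ρ̄_{W,p}` is modular of the base level `N₀ = ∏ (Smin ∖ p)`
(✓ modulo M1, M2 ∪ M3: helper30's `s59lppt_minlev_bar`). -/
def s59pste_StmtMinLevC (c : WeierstrassCurve ℤ → ℕ → Prop) : Prop :=
  ∀ (p : ℕ) [Fact p.Prime], (p = 3 ∨ p = 5) → ∀ (W : WeierstrassCurve ℤ) (hΔ : W.Δ ≠ 0),
    W.IsSemistableModel → W.ModRepIsIrreducible p → c W p →
    ∀ (M₀ : ℕ) [NeZero M₀], W.IsResiduallyModularOfLevel p M₀ → ¬ p ^ 2 ∣ M₀ →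
    (∀ q : ℕ, q.Prime → q ≠ p → ¬ q ^ 3 ∣ M₀) →
    W.IsResiduallyModularOfLevel p (s59topmN0 W hΔ p)

/-- **R1 = MIN′ = BASE-P for the concrete R2** (`s59asmR2P`): the numerical inequality at the
minimal stage, for the data produced by a1, a3, a7, a8 (all their properties are hypotheses). -/
def s59pste_StmtR1C (c : WeierstrassCurve ℤ → ℕ → Prop) : Prop :=
  ∀ (p : ℕ) [Fact p.Prime], (p = 3 ∨ p = 5) → ∀ (W : WeierstrassCurve ℤ) (hΔ : W.Δ ≠ 0),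
    W.IsSemistableModel → ∀ (hirr : W.ModRepIsIrreducible p), c W p →
    W.IsResiduallyModularOfLevel p (s59topmN0 W hΔ p) →
    ∀ (𝒪 : Type) [CommRing 𝒪] [IsDomain 𝒪] [IsDiscreteValuationRing 𝒪]
      [IsAdicComplete (maximalIdeal 𝒪) 𝒪] [CharZero 𝒪] [Finite (ResidueField 𝒪)]
      (φ : ℤ_[p] →+* 𝒪) (hφ : IsLocalHom φ) [NeZero (s59topmN0 W hΔ p)],
      Function.Injective φ →
      TWHyp 𝒪 p (s59feBar W hΔ p φ hφ) (s59feSmin W hΔ p ∪ s59feSigma W hΔ p)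
        (s59feSmin W hΔ p) →
      -- E-BIG
      (∀ Q : Finset ℕ, Q ⊆ s59psfinSW W hΔ p → ∀ (N : ℕ) [NeZero N],
        N = s59pstp_level (s59topmN0 W hΔ p) p Q →
        ∀ θ : CuspForm.heckeAlgebra N 2 (↑(s59feSmin W hΔ p ∪ Q) : Set ℕ) →+* ResidueField 𝒪,
          s59p_IsBig 𝒪 N (↑(s59feSmin W hΔ p ∪ Q) : Set ℕ) θ) →
      -- the eigensystem `ψ` of the base form (with `T_p`)
      ∀ (hp2 : p ≠ 2) (hp𝒪 : (p : 𝒪) ∈ maximalIdeal 𝒪) (ψ : ℕ → 𝒪) (ϖ : 𝒪) (hϖ : Irreducible ϖ)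
        (hψW : s59asmr_CongW p ψ W (s59feSmin W hΔ p ∪ (s59topmN0 W hΔ p).primeFactors))
        (χ₀ : CuspForm.heckeAlgebra (s59topmN0 W hΔ p) 2
          ((↑(s59feSmin W hΔ p) : Set ℕ) \ {p}) →+* 𝒪),
        (∀ (ℓ : ℕ) (hℓ : ℓ.Prime) (hℓN : ¬ ℓ ∣ s59topmN0 W hΔ p)
          (hℓS : ℓ ∉ (↑(s59feSmin W hΔ p) : Set ℕ) \ {p}),
          χ₀ (CuspForm.heckeAlgebra.T hℓ hℓN hℓS) = ψ ℓ) →
        (∀ ℓ : ℕ, ℓ.Prime → ℓ ∉ s59feSmin W hΔ p → ¬ ℓ ∣ s59topmN0 W hΔ p →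
          ∀ P : ValuationSubring (AlgebraicClosure ℚ), P.LiesOverPrime ℓ →
          ∀ τ : AlgebraicClosure ℚ ≃ₐ[ℚ] AlgebraicClosure ℚ, P.IsFrobeniusAt τ ℓ →
            residue 𝒪 (ψ ℓ) = LinearMap.trace (ResidueField 𝒪) (s59feBar W hΔ p φ hφ).V
              ((s59feBar W hΔ p φ hφ).ρ τ)) →
      -- the base lift
      ∀ ρ₀ : GaloisRepAdic 𝒪, ρ₀.residual.IsAbsolutelyIrreducible → ρ₀.DetIsCyclotomic p →
        (∀ ℓ : ℕ, ℓ.Prime → ℓ ∉ s59feSmin W hΔ p →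
          ∀ P : ValuationSubring (AlgebraicClosure ℚ), P.LiesOverPrime ℓ →
          ∀ φ' : AlgebraicClosure ℚ ≃ₐ[ℚ] AlgebraicClosure ℚ, P.IsFrobeniusAt φ' ℓ →
            LinearMap.trace 𝒪 ρ₀.V (ρ₀.ρ φ') = ψ ℓ) →
        (∀ q : ℕ, q.Prime → ¬ q ∣ s59topmN0 W hΔ p * p → ρ₀.IsUnramifiedAt q) →
        (∀ (S' : Finset ℕ) (ρ₁ : GaloisRepAdic 𝒪), ρ₁.DetIsCyclotomic p →
          (∀ ℓ : ℕ, ℓ.Prime → ℓ ∉ S' →
            ∀ P : ValuationSubring (AlgebraicClosure ℚ), P.LiesOverPrime ℓ →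
            ∀ φ' : AlgebraicClosure ℚ ≃ₐ[ℚ] AlgebraicClosure ℚ, P.IsFrobeniusAt φ' ℓ →
              LinearMap.trace 𝒪 ρ₁.V (ρ₁.ρ φ') = ψ ℓ) → ρ₁.IsEquiv ρ₀) →
        -- LG-P at the base, with `α² ≠ 1`
        (∃ α : 𝒪, IsUnit α ∧ α ^ 2 - ψ p * α + (p : 𝒪) = 0 ∧ s59psUnitRoot ρ₀ p α ∧
          α ^ 2 - 1 ≠ 0) →
        ∀ s₀ : S59Stage 𝒪 (s59feBar W hΔ p φ hφ) (s59psCond 𝒪 p (s59feSmin W hΔ p) ∅),
          s59pstp_inv (s59asmR2P p hp2 hp𝒪 ψ ϖ hϖ W hΔ hirr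
              (s59feSmin W hΔ p ∪ (s59topmN0 W hΔ p).primeFactors) hψW).toS59R2Data ρ₀
            (s59feSmin W hΔ p) (s59topmN0 W hΔ p) ∅ s₀ →
          s₀.lPhi ≤ Module.length 𝒪 (𝒪 ⧸ s₀.etaL)

/-! ### the assembly -/

/-- **Case (c), assembled**: what is owed in case (c) (`s59pstd_StmtOwedC2 c`) from S29 ✓, S22 ✓,
MINLEV-C, LG-P and R1-C.  `hc` : `W` is bad at `p`; `hcpeu` : `ρ̄_{W,p}` is peu ramifié at `p`. -/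
theorem s59pste_owed_c (c : WeierstrassCurve ℤ → ℕ → Prop)
    (hc : ∀ W p, c W p → (p : ℤ) ∣ W.Δ)
    (hcpeu : ∀ (p : ℕ) [Fact p.Prime] (W : WeierstrassCurve ℤ) (hΔ : W.Δ ≠ 0), c W p →
      ∀ (𝒪 : Type) [CommRing 𝒪] [IsDomain 𝒪] [IsDiscreteValuationRing 𝒪]
        [IsAdicComplete (maximalIdeal 𝒪) 𝒪] [Finite (ResidueField 𝒪)]
        (φ : ℤ_[p] →+* 𝒪) (hφ : IsLocalHom φ),
        s59psPeuTriv (GaloisRepAdic.ofResidualGaloisRep (s59feBar W hΔ p φ hφ)) p)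
    (hS29 : s59tres_StmtS29)
    (hfin : ∀ (N : ℕ) [NeZero N] (S : Set ℕ), Module.Finite ℤ (CuspForm.heckeAlgebra N 2 S))
    (hMin : s59pste_StmtMinLevC c)
    (hLGP : ∀ (𝒪 : Type) [CommRing 𝒪] [IsDomain 𝒪] [IsDiscreteValuationRing 𝒪]
      [IsAdicComplete (maximalIdeal 𝒪) 𝒪] [CharZero 𝒪] [Finite (ResidueField 𝒪)],
      s59ps_StmtLGP 𝒪)
    (hR1 : s59pste_StmtR1C c) :
    s59pstd_StmtOwedC2 c := by
  intro p _ hp W hΔ hW hirr hcW M₀ _ hres hM₀ hM₀3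
  classical
  have hpp : p.Prime := Fact.out
  have hbad : (p : ℤ) ∣ W.Δ := hc W p hcW
  -- the base level
  have hN0ne : s59topmN0 W hΔ p ≠ 0 := s59topm_N0_ne_zero W hΔ p
  haveI : NeZero (s59topmN0 W hΔ p) := ⟨hN0ne⟩
  have hN0 : ∀ ℓ : ℕ, ℓ.Prime → (ℓ ∣ s59topmN0 W hΔ p ↔ ℓ ∈ s59feSmin W hΔ p ∧ ℓ ≠ p) :=
    fun ℓ hℓ => s59topm_N0_dvd_iff W hΔ p ℓ hℓ
  have hNS : ∀ q : ℕ, q.Prime → q ∣ s59topmN0 W hΔ p → q ∈ s59feSmin W hΔ p :=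
    fun q hq hd => ((hN0 q hq).1 hd).1
  have hpN0 : ¬ p ∣ s59topmN0 W hΔ p := fun hd => ((hN0 p hpp).1 hd).2 rfl
  have hpSmin : p ∈ s59feSmin W hΔ p := s59fe_p_mem_Smin W hΔ p
  have hSW : ∀ q ∈ s59psfinSW W hΔ p, q.Prime ∧ (q ≠ p → q ∉ s59feSmin W hΔ p) := fun q hq =>
    ⟨s59psfin_SW_prime W hΔ p hq, fun hne => s59psfin_SW_not_mem W hΔ p hq hne⟩
  -- the primes of `N₀` = `Smin ∖ {p}`
  have hS' : ∀ q : ℕ, q.Prime → q ∣ s59topmN0 W hΔ p →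
      q ∈ (↑(s59feSmin W hΔ p) : Set ℕ) \ {p} := fun q hq hd =>
    ⟨Finset.mem_coe.2 ((hN0 q hq).1 hd).1, fun h => ((hN0 q hq).1 hd).2 h⟩
  have hS'sub : ∀ ℓ : ℕ, ℓ.Prime → ℓ ∈ (↑(s59feSmin W hΔ p) : Set ℕ) \ {p} →
      ℓ ∣ s59topmN0 W hΔ p := fun ℓ hℓ h =>
    (hN0 ℓ hℓ).2 ⟨Finset.mem_coe.1 h.1, fun h' => h.2 h'⟩
  -- a2
  have hres0 : W.IsResiduallyModularOfLevel p (s59topmN0 W hΔ p) :=
    hMin p hp W hΔ hW hirr hcW M₀ hres hM₀ hM₀3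
  -- a1
  obtain ⟨𝒪, i1, i2, i3, i4, i5, i6, φ, hφ, hinj, hp𝒪, hK, hBig, hBigP, hStrong0P⟩ :=
    s59pste_big_exists p hfin (s59topmN0 W hΔ p) (s59feSmin W hΔ p) (s59psfinSW W hΔ p)
      (fun q hq => (s59psfin_SW_prime W hΔ p hq).ne_zero)
  have hTW : TWHyp 𝒪 p (s59feBar W hΔ p φ hφ) (s59feSmin W hΔ p ∪ s59feSigma W hΔ p)
      (s59feSmin W hΔ p) := s59fe_twHyp_union W hΔ p φ hφ hp hK hW hirr
  have hord : (GaloisRepAdic.ofResidualGaloisRep (s59feBar W hΔ p φ hφ)).IsOrdinaryAt p :=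
    s59pshop_feBar_of_semistable W hΔ p φ hφ hW hp hbad
  have hpeu : s59psPeuTriv (GaloisRepAdic.ofResidualGaloisRep (s59feBar W hΔ p φ hφ)) p :=
    hcpeu p W hΔ hcW 𝒪 φ hφ
  -- a7, first half: the base form
  obtain ⟨f, 𝔪, hf, h𝔪, hp𝔪, hcong, hψ_of⟩ :=
    s59tres_hψ_of_resMod W hΔ p φ hφ hS29 (s59feSmin W hΔ p) hpSmin (s59topmN0 W hΔ p) hN0ne
      hres0
  -- a3, with `T_p`
  obtain ⟨χ₀', ψ, hχ₀', hψ0'⟩ := s59teig_exists_psi p hp𝒪 (s59topmN0 W hΔ p)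
    ((↑(s59feSmin W hΔ p) : Set ℕ) \ {p}) hS' hStrong0P f hf 𝔪 h𝔪 hp𝔪
  have hψ0 : ∀ ℓ : ℕ, ℓ.Prime → ¬ ℓ ∣ s59topmN0 W hΔ p → ℓ ∉ s59feSmin W hΔ p →
      ∀ (a : integralClosure ℤ ℂ) (n : ℤ), (a : ℂ) = ModularFormClass.qCoeff f ℓ →
      a - (n : integralClosure ℤ ℂ) ∈ 𝔪 → residue 𝒪 (ψ ℓ) = (n : ResidueField 𝒪) :=
    fun ℓ hℓ hℓN hℓS a n ha hn =>
      hψ0' ℓ hℓ hℓN (fun h => hℓS (Finset.mem_coe.1 h.1)) a n ha hn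
  -- a7
  have hψ := hψ_of ψ hψ0
  -- R2
  obtain ⟨ϖ, hϖ⟩ := IsDiscreteValuationRing.exists_irreducible 𝒪
  have hψW : s59asmr_CongW p ψ W (s59feSmin W hΔ p ∪ (s59topmN0 W hΔ p).primeFactors) :=
    s59asmR2_congW p W (s59feSmin W hΔ p) (s59topmN0 W hΔ p) hN0ne f 𝔪 hcong ψ hψ0
  -- E-BASE, with `T_p`
  obtain ⟨x₀, hg, hall⟩ := s59asmr_base_Tp p ψ hϖ (s59topmN0 W hΔ p)
    ((↑(s59feSmin W hΔ p) : Set ℕ) \ {p}) hS' hS'sub χ₀' hχ₀'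
  have hgP : s59asmGoodP p ψ ϖ (⟨s59topmN0 W hΔ p, hN0ne, x₀⟩ : S59asmSt 𝒪) :=
    ⟨hg, fun hpM => hall p hpM⟩
  -- the eigensystem away from `Smin`
  obtain ⟨χ₀, hχ₀⟩ : ∃ χ : CuspForm.heckeAlgebra (s59topmN0 W hΔ p) 2
      (↑(s59feSmin W hΔ p) : Set ℕ) →+* 𝒪,
      ∀ (ℓ : ℕ) (hℓ : ℓ.Prime) (hℓN : ¬ ℓ ∣ s59topmN0 W hΔ p)
        (hℓS : ℓ ∉ (↑(s59feSmin W hΔ p) : Set ℕ)),
        χ (CuspForm.heckeAlgebra.T hℓ hℓN hℓS) = ψ ℓ :=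
    @s59asmrP_char 𝒪 _ _ p _ ψ ϖ (⟨s59topmN0 W hΔ p, hN0ne, x₀⟩ : S59asmSt 𝒪) ⟨hN0ne⟩ hgP
      (s59feSmin W hΔ p) hpSmin hNS
  -- a8
  obtain ⟨ρ₀, habs₀, hdet₀, htr₀, hunr₀, hcar⟩ := s59tcar_exists p hTW.hp2 hTW.hp𝒪
    (s59feBar W hΔ p φ hφ) hTW.habs (s59feSmin W hΔ p) hpSmin (s59topmN0 W hΔ p) hNS ψ χ₀ hχ₀
    (s59topg_hdet hTW) hψ
  -- DEF-COND
  have hD := s59dcfinp_hD W hΔ p φ hφ hp hK hW hirr hbad hpeu
  -- E-EIGP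
  have hEig : s59psuw_StmtEigP 𝒪 p (s59feSmin W hΔ p) (s59psfinSW W hΔ p) (s59topmN0 W hΔ p)
      (s59feBar W hΔ p φ hφ) := by
    intro Q hQ hpQ N _ hN hpN θ T _ _ _ _ _ _ _ _ H hsep hdetH hresH ψ'
    have hQp : ∀ q ∈ Q, q.Prime := fun q h => (hSW q (hQ h)).1
    have hSN : ∀ q : ℕ, q.Prime → q ∣ N → q ∈ (↑(s59feSmin W hΔ p ∪ Q) : Set ℕ) := by
      intro ℓ hℓ hd
      rw [hN] at hd
      rcases s59pstp_prime_dvd_level hQp hℓ hd with h1 | h1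
      · exact Finset.mem_coe.2 (Finset.mem_union_left _ ((hN0 ℓ hℓ).1 h1).1)
      · exact Finset.mem_coe.2 (Finset.mem_union_right _ h1)
    obtain ⟨x, a, hprim, hx, hTp⟩ := s59eigp_exists_datum (s59feSmin W hΔ p ∪ Q) hSN p hpN
      (hBigP Q hQ N hN) H ψ' hϖ
    refine ⟨x, a, fun h0 => hprim 0 (by rw [h0, smul_zero]), fun ℓ hℓ hℓN hℓS => ?_, hTp⟩
    exact @hx ℓ ⟨hℓ⟩ hℓN hℓS
  -- (UR)
  have hUR : s59pstd_StmtUR 𝒪 p (s59feSmin W hΔ p) (s59psfinSW W hΔ p) (s59topmN0 W hΔ p)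
      (s59feBar W hΔ p φ hφ) :=
    s59psuw_ur (hLGP 𝒪) p (s59feBar W hΔ p φ hφ) _ (s59feSmin W hΔ p) (s59psfinSW W hΔ p) hTW
      hSW (s59topmN0 W hΔ p) hN0 hEig
  -- LG-P at the base
  obtain ⟨α, hαu, hαeq, hα, hαne⟩ := s59psuw_lgp_base (hLGP 𝒪) p (s59feBar W hΔ p φ hφ) _
    (s59feSmin W hΔ p) hTW (s59topmN0 W hΔ p) hN0 ψ ρ₀ hord (s59topg_hdet hTW) hψ hcar χ₀ hχ₀
    hpN0 x₀ (s59asmGood.ne_zero hg)
    (fun ℓ hℓ hℓN _ => @hall ℓ ⟨hℓ⟩ hℓN) (hall p hpN0)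
  -- R1
  have hR1' := hR1 p hp W hΔ hW hirr hcW hres0 𝒪 φ hφ hinj hTW hBig hTW.hp2 hTW.hp𝒪 ψ ϖ hϖ hψW
    χ₀' hχ₀' hψ ρ₀ habs₀ hdet₀ htr₀ hunr₀ hcar ⟨α, hαu, hαeq, hα, hαne⟩
  exact ⟨𝒪, i1, i2, i3, i4, i5, i6, φ, hφ, s59topmN0 W hΔ p, ψ,
    s59asmR2P p hTW.hp2 hTW.hp𝒪 ψ ϖ hϖ W hΔ hirr
      (s59feSmin W hΔ p ∪ (s59topmN0 W hΔ p).primeFactors) hψW, ρ₀, hK, hN0,
    s59topm_N0_squarefree W hΔ p, hUR, hD, hψ, hcar, hBig, ⟨α, hαu, hαeq, hα⟩,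
    ⟨(⟨s59topmN0 W hΔ p, hN0ne, x₀⟩ : S59asmSt 𝒪), rfl, hgP⟩, hR1'⟩

/-- **(STAGES) for case (c)** from S29 ✓, S22 ✓, MINLEV-C, LG-P and R1-C. -/
theorem s59pste_stages (c : WeierstrassCurve ℤ → ℕ → Prop)
    (hc : ∀ W p, c W p → (p : ℤ) ∣ W.Δ)
    (hcpeu : ∀ (p : ℕ) [Fact p.Prime] (W : WeierstrassCurve ℤ) (hΔ : W.Δ ≠ 0), c W p →
      ∀ (𝒪 : Type) [CommRing 𝒪] [IsDomain 𝒪] [IsDiscreteValuationRing 𝒪]
        [IsAdicComplete (maximalIdeal 𝒪) 𝒪] [Finite (ResidueField 𝒪)]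
        (φ : ℤ_[p] →+* 𝒪) (hφ : IsLocalHom φ),
        s59psPeuTriv (GaloisRepAdic.ofResidualGaloisRep (s59feBar W hΔ p φ hφ)) p)
    (hS29 : s59tres_StmtS29)
    (hfin : ∀ (N : ℕ) [NeZero N] (S : Set ℕ), Module.Finite ℤ (CuspForm.heckeAlgebra N 2 S))
    (hMin : s59pste_StmtMinLevC c)
    (hLGP : ∀ (𝒪 : Type) [CommRing 𝒪] [IsDomain 𝒪] [IsDiscreteValuationRing 𝒪]
      [IsAdicComplete (maximalIdeal 𝒪) 𝒪] [CharZero 𝒪] [Finite (ResidueField 𝒪)],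
      s59ps_StmtLGP 𝒪)
    (hR1 : s59pste_StmtR1C c) :
    s59topw_StmtStagesAt c :=
  s59pstd_stages c hc (s59pste_owed_c c hc hcpeu hS29 hfin hMin hLGP hR1)

end Fermat.Agent.S59

end
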