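/-
S59, wall M5 (P-STEP), leaf BASE-P, part 1 (helper68): the LOCAL shape of the ordinary peu ramifié
classes and the conditions (E1), (E2) of TW-W for them.

`ρ̄ : G_ℚ → GL₂(k)`, `det ρ̄ = χ̄`, `p` odd, `L̄ ⊂ V̄` an ordinary line at `padicPlace p`.
A local cocycle `z : G_p → ad⁰ ρ̄` has the ORDINARY PEU SHAPE (`S59psbShape`) if
  (lev)  it is a level cocycle,
  (bor)  `z(τ) L̄ ⊆ L̄` for all `τ ∈ G_p`                      (values in the Borel `B⁰`),
  (unr)  `z(τ) V̄ ⊆ L̄` for `τ` in inertia                     (the diagonal part is unramified),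
  (peu)  `z(τ) = 0` for `τ` in the peu ramifié subgroup `s59psbPeuQ p` of `G_p`.
These cocycles form an `𝔽_p`-subspace `s59psbCocycles`; `s59psbH1` is its image in `H¹(G_p, ad⁰)`.

PROVED here (no Kummer theory):
* `s59psb_exists_scalar` : some `τ` in inertia acts on `L̄` by a scalar `a ≠ 1`;
* `s59psb_pet1`          : `PEt1 p ρbar`;
* `s59psb_pet2`          : `PEt2 p ρbar z` for every `z` with (unr).
-/
import Fermat.Agent.S59.PStep.Plan
import Fermat.Agent.TW.W.Bridge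
import Fermat.Agent.TW.S.Line
import Fermat.Agent.TW.L.FrobExists

set_option autoImplicit false
set_option linter.unusedSectionVars false
set_option linter.unusedVariables false
set_option linter.style.longLine false

noncomputable section

namespace Fermat.Agent.S59

open CategoryTheory groupCohomology IsLocalRing
open Fermat.Agent.PT Fermat.Agent.PT.B Fermat.Agent.TW.L Fermat.Agent.TW.S Fermat.Agent.TW.W
  Fermat.Agent.S53 ExtCitation

section Shape

variable {k : Type} [Field k] (p : ℕ) [Fact p.Prime] [CharP k p] (ρbar : ResidualGaloisRep k)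

/-- The peu ramifié subgroup of `G_{ℚ_p}`: the elements whose image in `G_ℚ` lies in the peu
ramifié subgroup of the place `padicPlace p`. -/
def s59psbPeuQ : Subgroup (GQq p) :=
  (s59psPeu (padicPlace p) p).comap (localGaloisToGlobal p)

lemma s59psb_mem_peuQ (τ : GQq p) :
    τ ∈ s59psbPeuQ p ↔ localGaloisToGlobal p τ ∈ s59psPeu (padicPlace p) p := Iff.rfl

lemma s59psb_peuQ_le : s59psbPeuQ p ≤ inertiaQ p := fun τ hτ =>
  (mem_inertiaQ p τ).2 (s59psPeu_le _ _ ((s59psb_mem_peuQ p τ).1 hτ))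

/-- **The ordinary peu ramifié shape** of a function `z : G_p → ad⁰` (without the level
condition). -/
structure S59psbShape (Lbar : Submodule k ρbar.V) (z : GQq p → (ad0Rep p ρbar).V) : Prop where
  bor : ∀ τ : GQq p, ∀ v ∈ Lbar, ad0Val p ρbar (z τ) v ∈ Lbar
  unr : ∀ τ ∈ inertiaQ p, ∀ v : ρbar.V, ad0Val p ρbar (z τ) v ∈ Lbar
  peu : ∀ τ ∈ s59psbPeuQ p, z τ = 0

variable {p ρbar} in
lemma S59psbShape.add {Lbar : Submodule k ρbar.V} {z z' : GQq p → (ad0Rep p ρbar).V}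
    (h : S59psbShape p ρbar Lbar z) (h' : S59psbShape p ρbar Lbar z') :
    S59psbShape p ρbar Lbar (z + z') := by
  refine ⟨fun τ v hv => ?_, fun τ hτ v => ?_, fun τ hτ => ?_⟩
  · rw [Pi.add_apply, map_add, LinearMap.add_apply]
    exact Lbar.add_mem (h.bor τ v hv) (h'.bor τ v hv)
  · rw [Pi.add_apply, map_add, LinearMap.add_apply]
    exact Lbar.add_mem (h.unr τ hτ v) (h'.unr τ hτ v)
  · rw [Pi.add_apply, h.peu τ hτ, h'.peu τ hτ, add_zero]

variable {p ρbar} in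
lemma S59psbShape.zero (Lbar : Submodule k ρbar.V) :
    S59psbShape p ρbar Lbar (fun _ => (0 : (ad0Rep p ρbar).V)) := by
  refine ⟨fun τ v hv => ?_, fun τ hτ v => ?_, fun τ hτ => rfl⟩
  · rw [map_zero, LinearMap.zero_apply]; exact Lbar.zero_mem
  · rw [map_zero, LinearMap.zero_apply]; exact Lbar.zero_mem

variable {p ρbar} in
lemma S59psbShape.nsmul {Lbar : Submodule k ρbar.V} {z : GQq p → (ad0Rep p ρbar).V}
    (h : S59psbShape p ρbar Lbar z) (n : ℕ) :
    S59psbShape p ρbar Lbar (fun τ => n • z τ) := by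
  refine ⟨fun τ v hv => ?_, fun τ hτ v => ?_, fun τ hτ => ?_⟩
  · rw [map_nsmul, LinearMap.smul_apply]
    exact Lbar.nsmul_mem (h.bor τ v hv) _
  · rw [map_nsmul, LinearMap.smul_apply]
    exact Lbar.nsmul_mem (h.unr τ hτ v) _
  · rw [h.peu τ hτ, smul_zero]

/-- The level cocycles of `G_{ℚ_p}` of ordinary peu ramifié shape. -/
def s59psbCocycles (Lbar : Submodule k ρbar.V) :
    Submodule (ZMod p) (cocycles₁ (locRep p (ad0Rep p ρbar))) where
  carrier := {c | IsLevel₁ (towerLoc p) (c : GQq p → (ad0Rep p ρbar).V) ∧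
    S59psbShape p ρbar Lbar (c : GQq p → (ad0Rep p ρbar).V)}
  add_mem' := by
    rintro c c' ⟨h1, h2⟩ ⟨h1', h2'⟩
    exact ⟨h1.add h1', h2.add h2'⟩
  zero_mem' := ⟨isLevel₁_const (towerLoc p) (0 : (ad0Rep p ρbar).V), S59psbShape.zero Lbar⟩
  smul_mem' := by
    rintro a c ⟨h1, h2⟩
    refine ⟨(h1.comp (a • ·) :), ?_⟩
    have ha : ∀ x : (ad0Rep p ρbar).V, a • x = a.val • x := by
      intro x
      conv_lhs => rw [← ZMod.natCast_zmod_val a]
      exact Nat.cast_smul_eq_nsmul (ZMod p) a.val x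
    have h3 := h2.nsmul a.val
    have e : ((a • c : cocycles₁ (locRep p (ad0Rep p ρbar))) : GQq p → (ad0Rep p ρbar).V) =
        fun τ => a.val • (c : GQq p → (ad0Rep p ρbar).V) τ := by
      funext τ
      exact ha _
    rw [e]
    exact h3

/-- **The ordinary peu ramifié local condition** `L_p^{ord, peu} ⊆ H¹(G_p, ad⁰)`. -/
def s59psbH1 (Lbar : Submodule k ρbar.V) :
    Submodule (ZMod p) (H1 (locRep p (ad0Rep p ρbar))) :=
  (s59psbCocycles p ρbar Lbar).map (H1π (locRep p (ad0Rep p ρbar))).hom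

lemma s59psb_mem_H1 (Lbar : Submodule k ρbar.V) (x : H1 (locRep p (ad0Rep p ρbar))) :
    x ∈ s59psbH1 p ρbar Lbar ↔ ∃ c : cocycles₁ (locRep p (ad0Rep p ρbar)),
      IsLevel₁ (towerLoc p) (c : GQq p → (ad0Rep p ρbar).V) ∧
      S59psbShape p ρbar Lbar (c : GQq p → (ad0Rep p ρbar).V) ∧
      (H1π (locRep p (ad0Rep p ρbar))).hom c = x := by
  simp only [s59psbH1, Submodule.mem_map]
  constructor
  · rintro ⟨c, ⟨h1, h2⟩, h3⟩
    exact ⟨c, h1, h2, h3⟩
  · rintro ⟨c, h1, h2, h3⟩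
    exact ⟨c, ⟨h1, h2⟩, h3⟩

lemma s59psbH1_le_levH1 (Lbar : Submodule k ρbar.V) :
    s59psbH1 p ρbar Lbar ≤ levH1 (towerLoc p) (locRep p (ad0Rep p ρbar)) := by
  intro x hx
  obtain ⟨c, hc1, -, hc3⟩ := (s59psb_mem_H1 p ρbar Lbar x).1 hx
  exact (mem_levH1_iff _ _ x).2 ⟨c, hc1, hc3⟩

end Shape

/-! ### Inertia acts on the ordinary line through a nontrivial character -/

section Scalar

variable {k : Type} [Field k] (p : ℕ) [Fact p.Prime] [CharP k p] (ρbar : ResidualGaloisRep k)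

/-- `(1 + N) ^ n = 1 + n N` when `N² = 0` -/
theorem s59psb_one_add_pow {R : Type} [Ring R] (N : R) (hN : N * N = 0) (n : ℕ) :
    (1 + N) ^ n = 1 + n • N := by
  induction n with
  | zero => simp
  | succ n ih =>
    rw [pow_succ, ih, add_mul, one_mul, mul_add, mul_one, smul_mul_assoc, hN, smul_zero,
      add_zero, succ_nsmul]
    abel

/-- a unipotent `f` (`(f - 1)² = 0`) has `f ^ n = 1 + n (f - 1)` -/
theorem s59psb_pow_unip {V : Type} [AddCommGroup V] [Module k V] (f : Module.End k V)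
    (hf : (f - 1) * (f - 1) = 0) (n : ℕ) : f ^ n = 1 + n • (f - 1) := by
  have h := s59psb_one_add_pow (f - 1) hf n
  rwa [add_sub_cancel] at h

/-- a unipotent `f` (`(f - 1)² = 0`) in characteristic `p` has `f ^ p = 1` -/
theorem s59psb_pow_p_eq_one {V : Type} [AddCommGroup V] [Module k V] (f : Module.End k V)
    (hf : (f - 1) * (f - 1) = 0) : f ^ p = 1 := by
  rw [s59psb_pow_unip f hf p, ← Nat.cast_smul_eq_nsmul k p (f - 1), CharP.cast_eq_zero k p,
    zero_smul, add_zero]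

/-- If `ρ̄(σ)` is unipotent for every `σ` in the inertia group at `padicPlace p`, the mod `p`
cyclotomic character is trivial on inertia; impossible for `p` odd. -/
theorem s59psb_not_all_unip (hp2 : p ≠ 2)
    (hdet : (GaloisRepAdic.ofResidualGaloisRep ρbar).DetIsCyclotomic p) :
    ¬ ∀ σ ∈ (padicPlace p).inertiaSubgroupIn ℚ, (ρbar.ρ σ - 1) * (ρbar.ρ σ - 1) = 0 := by
  intro hall
  have hp : p.Prime := Fact.out
  obtain ⟨σ, hσI, hσ⟩ := stmtCycloRam p hp2
  apply hσ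
  have h1 : ρbar.ρ (σ ^ p) = 1 := by
    rw [map_pow]
    exact s59psb_pow_p_eq_one p _ (hall σ hσI)
  have h2 : cycloChar p (σ ^ p) = 1 := sline_cycloChar_eq_one p k ρbar hdet _ h1
  rw [map_pow] at h2
  -- `x ^ p = 1` and `x ^ (p - 1) = 1` in `(ZMod p)ˣ`
  have h3 : (cycloChar p σ) ^ (p - 1) = 1 := ZMod.units_pow_card_sub_one_eq_one p _
  have h4 : (cycloChar p σ) ^ p = (cycloChar p σ) ^ (p - 1) * cycloChar p σ := by
    rw [← pow_succ]
    congr 1
    have := hp.one_le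
    omega
  rw [h4, h3, one_mul] at h2
  exact h2

/-- **Inertia acts on the ordinary line by a nontrivial character**: some `τ` in the inertia
subgroup of `G_p` acts on `L̄` by a scalar `a ≠ 1`. -/
theorem s59psb_exists_scalar (hp2 : p ≠ 2)
    (hdet : (GaloisRepAdic.ofResidualGaloisRep ρbar).DetIsCyclotomic p)
    (Lbar : Submodule k ρbar.V) (hL : IsOrdLine p ρbar Lbar) :
    ∃ τ ∈ inertiaQ p, ∃ a : k, a ≠ 1 ∧ ∀ v ∈ Lbar, rhoLoc p ρbar τ v = a • v := by
  classical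
  by_contra hno
  apply s59psb_not_all_unip p ρbar hp2 hdet
  intro σ hσ
  obtain ⟨τ, hτ, rfl⟩ := wbr_inertia_lift p σ hσ
  have hdec : localGaloisToGlobal p τ ∈ (padicPlace p).decompositionSubgroup ℚ := by
    obtain ⟨x, -, hx⟩ := Subgroup.mem_map.1 hσ
    rw [← hx]
    exact x.2
  -- a generator of the line
  obtain ⟨v₀, hv₀⟩ := finrank_eq_one_iff'.1 hL.1
  obtain ⟨hv₀0, hv₀span⟩ := hv₀
  -- `τ` acts on the line by a scalar
  obtain ⟨a, ha⟩ := hv₀span ⟨ρbar.ρ (localGaloisToGlobal p τ) v₀, hL.2.1 _ hdec _ v₀.2⟩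
  have ha' : ρbar.ρ (localGaloisToGlobal p τ) (v₀ : ρbar.V) = a • (v₀ : ρbar.V) := by
    have := congrArg Subtype.val ha
    simpa using this.symm
  have hscal : ∀ v ∈ Lbar, rhoLoc p ρbar τ v = a • v := by
    intro v hv
    obtain ⟨c, hc⟩ := hv₀span ⟨v, hv⟩
    have hc' : v = c • (v₀ : ρbar.V) := by
      have := congrArg Subtype.val hc
      simpa using this.symm
    unfold rhoLoc
    rw [hc', map_smul, ha', smul_comm]
  have ha1 : a = 1 := by
    by_contra hne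
    exact hno ⟨τ, hτ, a, hne, hscal⟩
  apply LinearMap.ext
  intro v
  rw [Module.End.mul_apply, LinearMap.zero_apply, LinearMap.sub_apply, Module.End.one_apply,
    LinearMap.sub_apply, Module.End.one_apply]
  have h1 : ρbar.ρ (localGaloisToGlobal p τ) v - v ∈ Lbar := hL.2.2 _ hσ v
  have h2 := hscal _ h1
  unfold rhoLoc at h2
  rw [h2, ha1, one_smul, sub_self]

/-- `I_aug V̄ ⊆ L̄` -/
theorem s59psb_iAugBar_le (Lbar : Submodule k ρbar.V) (hL : IsOrdLine p ρbar Lbar) :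
    ∀ v ∈ iAugBar p ρbar, v ∈ Lbar := by
  intro v hv
  refine AddSubgroup.closure_induction (p := fun v _ => v ∈ Lbar) ?_ ?_ ?_ ?_ hv
  · rintro x ⟨σ, hσ, w, rfl⟩
    exact hL.2.2 _ ((mem_inertiaQ p σ).1 hσ) w
  · exact Lbar.zero_mem
  · intro x y _ _ hx hy
    exact Lbar.add_mem hx hy
  · intro x _ hx
    exact Lbar.neg_mem hx

/-- `L̄ ⊆ I_aug V̄` -/
theorem s59psb_le_iAugBar (hp2 : p ≠ 2)
    (hdet : (GaloisRepAdic.ofResidualGaloisRep ρbar).DetIsCyclotomic p)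
    (Lbar : Submodule k ρbar.V) (hL : IsOrdLine p ρbar Lbar) :
    ∀ w ∈ Lbar, w ∈ iAugBar p ρbar := by
  intro w hw
  obtain ⟨τ, hτ, a, ha, hscal⟩ := s59psb_exists_scalar p ρbar hp2 hdet Lbar hL
  have ha0 : a - 1 ≠ 0 := sub_ne_zero.2 ha
  have h1 : w = rhoLoc p ρbar τ ((a - 1)⁻¹ • w) - (a - 1)⁻¹ • w := by
    rw [hscal _ (Lbar.smul_mem _ hw), smul_smul, ← sub_smul, ← sub_one_mul,
      mul_inv_cancel₀ ha0, one_smul]
  exact AddSubgroup.subset_closure ⟨τ, hτ, (a - 1)⁻¹ • w, h1⟩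

/-- **(E1)** for an ordinary `ρ̄` with cyclotomic determinant, `p` odd. -/
theorem s59psb_pet1 (hp2 : p ≠ 2)
    (hdet : (GaloisRepAdic.ofResidualGaloisRep ρbar).DetIsCyclotomic p)
    (Lbar : Submodule k ρbar.V) (hL : IsOrdLine p ρbar Lbar) : PEt1 p ρbar := by
  intro v hv hfix
  have hvL := s59psb_iAugBar_le p ρbar Lbar hL v hv
  obtain ⟨τ, hτ, a, ha, hscal⟩ := s59psb_exists_scalar p ρbar hp2 hdet Lbar hL
  have h1 := hscal v hvL
  rw [hfix τ hτ] at h1
  have h2 : (1 - a) • v = 0 := by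
    rw [sub_smul, one_smul, ← h1, sub_self]
  rcases smul_eq_zero.1 h2 with h3 | h3
  · exact absurd (sub_eq_zero.1 h3).symm ha
  · exact h3

/-- **(E2)** for every `z` whose values on inertia have image in `L̄`. -/
theorem s59psb_pet2 (hp2 : p ≠ 2)
    (hdet : (GaloisRepAdic.ofResidualGaloisRep ρbar).DetIsCyclotomic p)
    (Lbar : Submodule k ρbar.V) (hL : IsOrdLine p ρbar Lbar)
    (z : GQq p → Module.End k ρbar.V)
    (hz : ∀ τ ∈ inertiaQ p, ∀ v : ρbar.V, z τ v ∈ Lbar) : PEt2 p ρbar z := by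
  intro w hw
  apply s59psb_le_iAugBar p ρbar hp2 hdet Lbar hL
  have key : ∀ x ∈ iAugVc p ρbar z, x.1 ∈ Lbar ∧ x.2 ∈ Lbar := by
    intro x hx
    refine AddSubgroup.closure_induction (p := fun x _ => x.1 ∈ Lbar ∧ x.2 ∈ Lbar) ?_ ?_ ?_ ?_ hx
    · rintro x ⟨σ, hσ, y, rfl⟩
      have hσ' := (mem_inertiaQ p σ).1 hσ
      refine ⟨?_, ?_⟩
      · show rhoLoc p ρbar σ y.1 - y.1 ∈ Lbar
        exact hL.2.2 _ hσ' y.1
      · show rhoLoc p ρbar σ y.2 + z σ (rhoLoc p ρbar σ y.1) - y.2 ∈ Lbar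
        have h1 : rhoLoc p ρbar σ y.2 - y.2 ∈ Lbar := hL.2.2 _ hσ' y.2
        have h2 := hz σ hσ (rhoLoc p ρbar σ y.1)
        have e : rhoLoc p ρbar σ y.2 + z σ (rhoLoc p ρbar σ y.1) - y.2 =
            (rhoLoc p ρbar σ y.2 - y.2) + z σ (rhoLoc p ρbar σ y.1) := by abel
        rw [e]
        exact Lbar.add_mem h1 h2
    · exact ⟨Lbar.zero_mem, Lbar.zero_mem⟩
    · intro x y _ _ hx hy
      exact ⟨Lbar.add_mem hx.1 hy.1, Lbar.add_mem hx.2 hy.2⟩
    · intro x _ hx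
      exact ⟨Lbar.neg_mem hx.1, Lbar.neg_mem hx.2⟩
  exact (key _ hw).2

/-- **(E2)** for a cocycle of ordinary peu ramifié shape. -/
theorem s59psb_pet2_shape (hp2 : p ≠ 2)
    (hdet : (GaloisRepAdic.ofResidualGaloisRep ρbar).DetIsCyclotomic p)
    (Lbar : Submodule k ρbar.V) (hL : IsOrdLine p ρbar Lbar)
    (z : GQq p → (ad0Rep p ρbar).V) (hz : S59psbShape p ρbar Lbar z) :
    PEt2 p ρbar (fun τ => ad0Val p ρbar (z τ)) :=
  s59psb_pet2 p ρbar hp2 hdet Lbar hL _ hz.unr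

end Scalar

end Fermat.Agent.S59

end
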