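/-
S59, wall M5 (P-STEP), leaf BASE-P, part 4 (helper68): PLEV-P, the COCYCLE ALGEBRA on inertia.

`L ⊂ V` a line in a plane, `𝒩 = Hom(V/L, L) = s59psbN L ⊂ End V`.
`R : G → GL(V)`, `Z : G → End V` with `Z (g h) = R g · Z h · R g⁻¹ + Z g`.
If `g` acts on `L` by the scalar `a = m` and trivially on `V/L`, `Z g, Z g⁻¹ ∈ 𝒩`, `R σ - 1 ∈ 𝒩`,
`Z σ ∈ 𝒩`, then
  `R (g σ g⁻¹) = R (σ ^ m)`  and  `Z (g σ g⁻¹) = Z (σ ^ m)`       (`s59psb_abs_conj`).
Also: the determinant and the trace of an endomorphism adapted to a line.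
-/
import Fermat.Agent.S59.PStep.BasePLoc
import Fermat.Agent.TW.L.AdOrd
import Fermat.Agent.TW.S.OrdScalar

set_option autoImplicit false
set_option linter.unusedSectionVars false
set_option linter.unusedVariables false
set_option linter.style.longLine false

noncomputable section

namespace Fermat.Agent.S59

section N

variable {k : Type} [Field k] {V : Type} [AddCommGroup V] [Module k V] (L : Submodule k V)

/-- `𝒩 = Hom(V/L, L)`: the endomorphisms with image in `L` which kill `L`. -/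
def s59psbN : Submodule k (Module.End k V) where
  carrier := {f | (∀ v : V, f v ∈ L) ∧ ∀ v ∈ L, f v = 0}
  add_mem' := by
    rintro f f' ⟨h1, h2⟩ ⟨h1', h2'⟩
    refine ⟨fun v => ?_, fun v hv => ?_⟩
    · rw [LinearMap.add_apply]; exact L.add_mem (h1 v) (h1' v)
    · rw [LinearMap.add_apply, h2 v hv, h2' v hv, add_zero]
  zero_mem' := ⟨fun v => by rw [LinearMap.zero_apply]; exact L.zero_mem, fun v _ => rfl⟩
  smul_mem' := by
    rintro a f ⟨h1, h2⟩
    refine ⟨fun v => ?_, fun v hv => ?_⟩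
    · rw [LinearMap.smul_apply]; exact L.smul_mem a (h1 v)
    · rw [LinearMap.smul_apply, h2 v hv, smul_zero]

variable {L}

lemma s59psb_mem_N {f : Module.End k V} :
    f ∈ s59psbN L ↔ (∀ v : V, f v ∈ L) ∧ ∀ v ∈ L, f v = 0 := Iff.rfl

lemma s59psbN_mul {f f' : Module.End k V} (hf : f ∈ s59psbN L) (hf' : f' ∈ s59psbN L) :
    f * f' = 0 := by
  apply LinearMap.ext
  intro v
  rw [Module.End.mul_apply, LinearMap.zero_apply]
  exact hf.2 _ (hf'.1 v)

/-- `R f = a f` if `R` acts on `L` by `a` -/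
lemma s59psb_mul_N {R f : Module.End k V} {a : k} (hR : ∀ v ∈ L, R v = a • v)
    (hf : f ∈ s59psbN L) : R * f = a • f := by
  apply LinearMap.ext
  intro v
  rw [Module.End.mul_apply, LinearMap.smul_apply]
  exact hR _ (hf.1 v)

/-- `f R = f` if `R` acts trivially on `V/L` -/
lemma s59psb_N_mul {R f : Module.End k V} (hR : ∀ v : V, R v - v ∈ L)
    (hf : f ∈ s59psbN L) : f * R = f := by
  apply LinearMap.ext
  intro v
  rw [Module.End.mul_apply]
  have h1 : R v = (R v - v) + v := by abel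
  rw [h1, map_add, hf.2 _ (hR v), zero_add]

/-- conjugation by `R` on `𝒩` is multiplication by `a` -/
lemma s59psb_conj_N {R R' f : Module.End k V} {a : k} (hRR' : R * R' = 1)
    (hR : ∀ v ∈ L, R v = a • v) (hR1 : ∀ v : V, R v - v ∈ L) (hf : f ∈ s59psbN L) :
    R * f * R' = a • f := by
  have h1 : f * R' = f := by
    calc f * R' = (f * R) * R' := by rw [s59psb_N_mul hR1 hf]
      _ = f * (R * R') := by rw [mul_assoc]
      _ = f := by rw [hRR', mul_one]
  rw [mul_assoc, h1, s59psb_mul_N hR hf]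

end N

/-! ### Determinant and trace of an endomorphism adapted to a line -/

section DetTr

variable {k : Type} [Field k] {V : Type} [AddCommGroup V] [Module k V]

/-- the line is spanned by the first vector of an adapted basis -/
lemma s59psb_adapted (L : Submodule k V) (b : Module.Basis (Fin 2) k V)
    (hb : ∀ v : V, v ∈ L ↔ b.repr v 1 = 0) :
    b 0 ∈ L ∧ ∀ v ∈ L, ∃ c : k, v = c • b 0 := by
  constructor
  · rw [hb]
    simp [Module.Basis.repr_self]
  · intro v hv
    refine ⟨b.repr v 0, ?_⟩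
    have h1 := (hb v).1 hv
    have h2 : v = ∑ i, b.repr v i • b i := (b.sum_repr v).symm
    rw [Fin.sum_univ_two, h1, zero_smul, add_zero] at h2
    exact h2

/-- the determinant of an endomorphism acting on `L` by `a` and trivially on `V/L` -/
theorem s59psb_det (hV : Module.finrank k V = 2) (L : Submodule k V)
    (hL : Module.finrank k L = 1) (f : Module.End k V) (a : k)
    (hf : ∀ v ∈ L, f v = a • v) (hf1 : ∀ v : V, f v - v ∈ L) : LinearMap.det f = a := by
  obtain ⟨b, hb⟩ := Fermat.Agent.TW.L.gord_exists_basis hV L hL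
  obtain ⟨hb0, hbL⟩ := s59psb_adapted L b hb
  have h1 := Fermat.Agent.TW.S.sord_det_eq_mul b f a 1 (hf _ hb0) (by
    obtain ⟨c, hc⟩ := hbL _ (hf1 (b 1))
    exact ⟨c, by rw [one_smul]; exact hc⟩)
  rw [h1, mul_one]

/-- an endomorphism with image in the line `L` and trace `0` kills `L` -/
theorem s59psb_kills_of_trace (hV : Module.finrank k V = 2) (L : Submodule k V)
    (hL : Module.finrank k L = 1) (f : Module.End k V)
    (hf : ∀ v : V, f v ∈ L) (htr : LinearMap.trace k V f = 0) : f ∈ s59psbN L := by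
  obtain ⟨b, hb⟩ := Fermat.Agent.TW.L.gord_exists_basis hV L hL
  obtain ⟨hb0, hbL⟩ := s59psb_adapted L b hb
  refine ⟨hf, ?_⟩
  obtain ⟨a, ha⟩ := hbL _ (hf (b 0))
  obtain ⟨c, hc⟩ := hbL _ (hf (b 1))
  have h1 : LinearMap.trace k V f = a := by
    rw [LinearMap.trace_eq_matrix_trace k b f, Matrix.trace_fin_two, LinearMap.toMatrix_apply,
      LinearMap.toMatrix_apply, ha, hc]
    simp [Module.Basis.repr_self]
  have ha0 : a = 0 := by rw [← h1, htr]
  intro v hv
  obtain ⟨d, hd⟩ := hbL v hv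
  rw [hd, map_smul, ha, ha0, zero_smul, smul_zero]

end DetTr

/-! ### The cocycle algebra -/

section Abs

variable {G : Type} [Group G] {k : Type} [Field k] {V : Type} [AddCommGroup V] [Module k V]
  (L : Submodule k V) (R : G →* Module.End k V) (Z : G → Module.End k V)
  (hZ : ∀ g h : G, Z (g * h) = R g * Z h * R g⁻¹ + Z g)

include hZ in
lemma s59psb_Z_one : Z 1 = 0 := by
  have h := hZ 1 1
  rw [mul_one, inv_one, map_one, one_mul, mul_one] at h
  exact left_eq_add.mp h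

lemma s59psb_R_mul_inv (g : G) : R g * R g⁻¹ = 1 := by
  rw [← map_mul, mul_inv_cancel, map_one]

include hZ in
/-- `Z (σ ^ j) = j Z σ` for unipotent `σ` with `Z σ ∈ 𝒩` -/
lemma s59psb_Z_pow (σ : G) (hσ : R σ - 1 ∈ s59psbN L) (hZσ : Z σ ∈ s59psbN L) (j : ℕ) :
    Z (σ ^ j) = j • Z σ := by
  have hR1 : ∀ v : V, R σ v - v ∈ L := fun v => hσ.1 v
  have hRL : ∀ v ∈ L, R σ v = (1 : k) • v := by
    intro v hv
    have := hσ.2 v hv
    rw [LinearMap.sub_apply, Module.End.one_apply, sub_eq_zero] at this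
    rw [this, one_smul]
  induction j with
  | zero => rw [pow_zero, zero_smul]; exact s59psb_Z_one R Z hZ
  | succ j ih =>
    rw [pow_succ', hZ, ih]
    have h1 : (j • Z σ) ∈ s59psbN L := (s59psbN L).nsmul_mem hZσ j
    rw [s59psb_conj_N (s59psb_R_mul_inv R σ) hRL hR1 h1, one_smul, succ_nsmul]

include hZ in
/-- **The conjugation formula.** -/
theorem s59psb_abs_conj (g σ : G) (m : ℕ)
    (hgL : ∀ v ∈ L, R g v = (m : k) • v) (hg1 : ∀ v : V, R g v - v ∈ L)
    (hZg' : Z g⁻¹ ∈ s59psbN L)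
    (hσ : R σ - 1 ∈ s59psbN L) (hZσ : Z σ ∈ s59psbN L) :
    R (g * σ * g⁻¹) = R (σ ^ m) ∧ Z (g * σ * g⁻¹) = Z (σ ^ m) := by
  have hσR1 : ∀ v : V, R σ v - v ∈ L := fun v => hσ.1 v
  have hσRL : ∀ v ∈ L, R σ v = (1 : k) • v := by
    intro v hv
    have := hσ.2 v hv
    rw [LinearMap.sub_apply, Module.End.one_apply, sub_eq_zero] at this
    rw [this, one_smul]
  have hnn : (R σ - 1) * (R σ - 1) = 0 := s59psbN_mul hσ hσ
  constructor
  · -- `R`
    have e1 : R (g * σ * g⁻¹) = 1 + (m : k) • (R σ - 1) := by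
      rw [map_mul, map_mul]
      have h1 : R σ = 1 + (R σ - 1) := by abel
      conv_lhs => rw [h1]
      rw [mul_add, mul_one, add_mul, s59psb_R_mul_inv, s59psb_conj_N (s59psb_R_mul_inv R g) hgL hg1 hσ]
    have e2 : R (σ ^ m) = 1 + (m : k) • (R σ - 1) := by
      rw [map_pow]
      have h1 : R σ = 1 + (R σ - 1) := by abel
      conv_lhs => rw [h1]
      rw [s59psb_one_add_pow _ hnn, Nat.cast_smul_eq_nsmul]
    rw [e1, e2]
  · -- `Z`
    have h0 : R g * Z g⁻¹ * R g⁻¹ + Z g = 0 := by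
      rw [← hZ, mul_inv_cancel]
      exact s59psb_Z_one R Z hZ
    have h1 : Z (σ * g⁻¹) = Z g⁻¹ + Z σ := by
      rw [hZ, s59psb_conj_N (s59psb_R_mul_inv R σ) hσRL hσR1 hZg', one_smul]
    have h2 : Z (g * σ * g⁻¹) = (m : k) • Z σ := by
      rw [mul_assoc, hZ, h1, mul_add, add_mul,
        s59psb_conj_N (s59psb_R_mul_inv R g) hgL hg1 hZσ]
      calc R g * Z g⁻¹ * R g⁻¹ + (m : k) • Z σ + Z g
          = (R g * Z g⁻¹ * R g⁻¹ + Z g) + (m : k) • Z σ := by abel
        _ = (m : k) • Z σ := by rw [h0, zero_add]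
    rw [h2, s59psb_Z_pow L R Z hZ σ hσ hZσ m, Nat.cast_smul_eq_nsmul]

include hZ in
/-- if `R a = R b` and `Z a = Z b` then `R (a b⁻¹) = 1` and `Z (a b⁻¹) = 0` -/
theorem s59psb_abs_quot (a b : G) (hR : R a = R b) (hZab : Z a = Z b) :
    R (a * b⁻¹) = 1 ∧ Z (a * b⁻¹) = 0 := by
  have h1 : R (a * b⁻¹) = 1 := by
    rw [map_mul, hR, s59psb_R_mul_inv]
  refine ⟨h1, ?_⟩
  have h2 : Z a = R (a * b⁻¹) * Z b * R (a * b⁻¹)⁻¹ + Z (a * b⁻¹) := by
    rw [← hZ, inv_mul_cancel_right]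
  have h3 : R (a * b⁻¹)⁻¹ = 1 := by
    have := s59psb_R_mul_inv R (a * b⁻¹)
    rwa [h1, one_mul] at this
  rw [h1, h3, one_mul, mul_one, hZab] at h2
  exact (left_eq_add.mp h2)

end Abs

end Fermat.Agent.S59

end
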