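/-
S59, wall M5 (P-STEP), leaf BASE-P, part 2 (helper68): THE ASSEMBLY.

Taylor–Wiles primes for the NON-STRICT ordinary, PEU RAMIFIÉ conditions
`s59psCond 𝒪 p Smin Q` (`p ∉ Q`) — the third twin of S56 (after `twOrd` and `twFlat`), needed for
the base `R_∅ = T_∅` of Wiles' induction in case (c) (`W` multiplicative at `p`, `ρ̄` flat).

  `s59psb_twp : s59psb_StmtPLev → s59psb_StmtOrdPeu → (S56 for s59psCond)`          (PROVED here)

with the two remaining leaves (Props, stated here):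
* `s59psb_StmtPLev`   (PLEV-P, Kummer theory): a level cocycle of ordinary peu ramifié shape
                      satisfies `TW.W.PLev` (Fontaine's bound in Kummer form);
* `s59psb_StmtOrdPeu` (S-ORD-P, linear algebra over `k[ε]`, twin of `TW.S.StmtOrd`): the cocycle of
                      an ordinary peu ramifié deformation is, on `G_p`, cohomologous to a cocycle
                      of ordinary peu ramifié shape.

Everything else is on main: `TW.W.stmtCount` (the count, pure Galois theory), `(E1)`, `(E2)`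
(`s59psb_pet1`, `s59psb_pet2_shape`, BasePLoc.lean), `TW.S.sasm_main` (generic S-asm),
`TW.Core.casm_sel_card` (generic count of the Selmer group), `TW.s56_half_of_core`.
-/
import Fermat.Agent.S59.PStep.BasePLoc
import Fermat.Agent.TW.W.Final
import Fermat.Agent.TW.Core.Final2
import Fermat.Agent.TW.E.Asm
import Fermat.Agent.TW.E.AddFinal
import Fermat.Agent.TW.E.K0Final
import Fermat.Agent.TW.E.PDepthTower
import Fermat.Agent.TW.E.CycFinal
import Fermat.Agent.TW.S.ResOrd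
import Fermat.Agent.TW.S.Unr
import Fermat.Agent.TW.S.Frame

set_option autoImplicit false
set_option linter.unusedSectionVars false
set_option linter.unusedVariables false
set_option linter.style.longLine false
set_option linter.style.haveILetI false

noncomputable section

namespace Fermat.Agent.S59

open CategoryTheory groupCohomology IsLocalRing Module Polynomial
open Fermat.Agent.PT Fermat.Agent.PT.B Fermat.Agent.TW Fermat.Agent.TW.L Fermat.Agent.TW.S
  Fermat.Agent.TW.W Fermat.Agent.TW.Core Fermat.Agent.S53 ExtCitation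

/-! ### The two leaves -/

/-- **PLEV-P** (Kummer theory at `p`): a level cocycle of ordinary peu ramifié shape satisfies
(LEV).  (`ρ̄` ordinary with line `L̄`, peu ramifié, `det ρ̄ = χ̄`, `p` odd.) -/
def s59psb_StmtPLev : Prop :=
  ∀ (p : ℕ) [Fact p.Prime], p ≠ 2 → ∀ (k : Type) [Field k] [CharP k p] [Finite k]
    (ρbar : ResidualGaloisRep k),
    (GaloisRepAdic.ofResidualGaloisRep ρbar).DetIsCyclotomic p →
    ∀ Lbar : Submodule k ρbar.V, IsOrdLine p ρbar Lbar →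
    (∀ σ ∈ s59psPeu (padicPlace p) p, ρbar.ρ σ = 1) →
    ∀ z : cocycles₁ (locRep p (ad0Rep p ρbar)),
      IsLevel₁ (towerLoc p) (z : GQq p → (ad0Rep p ρbar).V) →
      S59psbShape p ρbar Lbar (z : GQq p → (ad0Rep p ρbar).V) →
      PLev p ρbar (fun τ => ad0Val p ρbar ((z : GQq p → (ad0Rep p ρbar).V) τ))

/-- **S-ORD-P** (twin of `TW.S.StmtOrd` for the non-strict ordinary peu ramifié condition): the
cocycle of an ordinary, peu ramifié deformation of `ρ̄` to `k[ε]` with cyclotomic determinant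
becomes, after subtracting ONE coboundary, a function of ordinary peu ramifié shape on `G_p`.
(Move the ordinary line of the deformation to the constant line `L̄ ⊕ ε L̄` by `1 + ε X`.) -/
def s59psb_StmtOrdPeu : Prop :=
  ∀ (𝒪 : Type) [CommRing 𝒪] [IsLocalRing 𝒪] (p : ℕ) [Fact p.Prime] [CharP (ResidueField 𝒪) p]
    (ρbar : ResidualGaloisRep (ResidueField 𝒪)) (D : RigidDatum 𝒪 ρbar)
    (ρ : GaloisRepAdic (DualNumber (ResidueField 𝒪))) (c : cocycles₁ (ad0Rep p ρbar))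
    (Lbar : Submodule (ResidueField 𝒪) ρbar.V), p ≠ 2 →
    IsCocOf p D ρ (fun σ => (ad0Incl p ρbar).hom ((c : GQ → (ad0Rep p ρbar).V) σ)) →
    ρ.DetIsCyclotomic p → ρ.IsOrdinaryAt p → s59psPeuTriv ρ p → IsOrdLine p ρbar Lbar →
    ∃ x : (ad0Rep p ρbar).V, S59psbShape p ρbar Lbar
      (fun τ : GQq p => (c : GQ → (ad0Rep p ρbar).V) (localGaloisToGlobal p τ) -
        ((ad0Rep p ρbar).ρ (localGaloisToGlobal p τ) x - x))

/-! ### The count -/

/-- **The local bound for the ordinary peu ramifié condition**: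
`dim_{𝔽_p} L_p^{ord, peu} ≤ f + h⁰(G_p, ad⁰ ρ̄)`. -/
theorem s59psb_count (hPLev : s59psb_StmtPLev) (p : ℕ) [Fact p.Prime] (hp2 : p ≠ 2)
    (k : Type) [Field k] [CharP k p] [Algebra (ZMod p) k] [Finite k]
    (ρbar : ResidualGaloisRep k)
    (hdet : (GaloisRepAdic.ofResidualGaloisRep ρbar).DetIsCyclotomic p)
    (hsplit : ∀ σ : GQ, ∃ α β : k, LinearMap.charpoly (ρbar.ρ σ) = (X - C α) * (X - C β))
    (Lbar : Submodule k ρbar.V) (hL : IsOrdLine p ρbar Lbar)
    (hpeu : ∀ σ ∈ s59psPeu (padicPlace p) p, ρbar.ρ σ = 1) :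
    Module.Finite (ZMod p) (s59psbH1 p ρbar Lbar) ∧
      Module.finrank (ZMod p) (s59psbH1 p ρbar Lbar) ≤
        Module.finrank (ZMod p) k +
          Module.finrank (ZMod p) (locRep p (ad0Rep p ρbar)).ρ.invariants := by
  have h := stmtCount p hp2 k ρbar hdet hsplit
    (s59psbH1 p ρbar Lbar : Set (H1 (locRep p (ad0Rep p ρbar))))
    (fun x hx y hy => (s59psbH1 p ρbar Lbar).add_mem hx hy) (fun x hx => ?_)
  · have e : Submodule.span (ZMod p)
        (s59psbH1 p ρbar Lbar : Set (H1 (locRep p (ad0Rep p ρbar)))) = s59psbH1 p ρbar Lbar :=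
      Submodule.span_eq _
    rw [e] at h
    exact h
  · obtain ⟨z, hz1, hz2, hz3⟩ := (s59psb_mem_H1 p ρbar Lbar x).1 hx
    exact ⟨z, hz3, hz1, hPLev p hp2 k ρbar hdet Lbar hL hpeu z hz1 hz2,
      s59psb_pet1 p ρbar hp2 hdet Lbar hL, s59psb_pet2_shape p ρbar hp2 hdet Lbar hL _ hz2⟩

/-! ### Reduction of the deformation -/

section Res

variable {𝒪 : Type} [CommRing 𝒪] [IsLocalRing 𝒪] (p : ℕ) [Fact p.Prime]
  [CharP (ResidueField 𝒪) p] (ρbar : ResidualGaloisRep (ResidueField 𝒪))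

/-- an ordinary deformation has an ordinary residual representation -/
theorem s59psb_resOrd (ρ : GaloisRepAdic (DualNumber (ResidueField 𝒪)))
    (hres : letI : Algebra (ResidueField 𝒪) (ResidueField (DualNumber (ResidueField 𝒪))) :=
      dnResAlg 𝒪
     ρ.residual.IsEquiv (ρbar.baseChange (ResidueField (DualNumber (ResidueField 𝒪)))))
    (hord : ρ.IsOrdinaryAt p) :
    ∃ Lbar : Submodule (ResidueField 𝒪) ρbar.V, IsOrdLine p ρbar Lbar := by
  letI := dnResAlg 𝒪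
  obtain ⟨L, ⟨b, hb⟩, hD, hI⟩ := hord (padicPlace p) (lfrobex_liesOverPrime p)
  obtain ⟨e⟩ := hres
  exact sres_core (sres_dnRes_surjective 𝒪) ρ ρbar e (padicPlace p) L b hb hD hI

/-- a peu ramifié deformation has a peu ramifié residual representation -/
theorem s59psb_resPeu (D : RigidDatum 𝒪 ρbar) (ρ : GaloisRepAdic (DualNumber (ResidueField 𝒪)))
    (hres : letI : Algebra (ResidueField 𝒪) (ResidueField (DualNumber (ResidueField 𝒪))) :=
      dnResAlg 𝒪
     ρ.residual.IsEquiv (ρbar.baseChange (ResidueField (DualNumber (ResidueField 𝒪)))))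
    (hpeu : s59psPeuTriv ρ p) :
    ∀ σ ∈ s59psPeu (padicPlace p) p, ρbar.ρ σ = 1 := by
  intro σ hσ
  obtain ⟨c, hc⟩ := stmtFrame 𝒪 p ρbar D ρ hres
  exact (stmtUnr 𝒪 p ρbar D ρ c hc σ
    (hpeu σ ⟨padicPlace p, lfrobex_liesOverPrime p, hσ⟩)).1

end Res

/-! ### The core statement and the Taylor–Wiles primes -/

section Core

variable {𝒪 : Type} [CommRing 𝒪] [IsDomain 𝒪] [IsDiscreteValuationRing 𝒪]
  [IsAdicComplete (maximalIdeal 𝒪) 𝒪] [Finite (ResidueField 𝒪)]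

/-- the inputs of the count are theorems -/
theorem s59psb_coreInputs : CoreInputs :=
  coreInputs_of core_stmtH2Perm
    (Fermat.Agent.TW.E.stmtAsm Fermat.Agent.TW.E.stmtAdd Fermat.Agent.TW.E.stmtH2Fin
      Fermat.Agent.TW.E.stmtPDepthTower Fermat.Agent.TW.E.stmtCyc Fermat.Agent.TW.E.stmtK0)

/-- **S-asm for `s59psCond`** (`p ∉ Q`): the number of pairwise inequivalent deformations to
`k[ε]` of type `s59psCond 𝒪 p Smin Q` is at most the order of the Selmer group with the ordinary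
peu ramifié condition at `p`. -/
theorem s59psb_selCard (hOP : s59psb_StmtOrdPeu) (p : ℕ) [Fact p.Prime]
    [CharP (ResidueField 𝒪) p] (ρbar : ResidualGaloisRep (ResidueField 𝒪))
    (D : RigidDatum 𝒪 ρbar) (hp2 : p ≠ 2) (Smin Q : Finset ℕ) (hpQ : p ∉ Q)
    (hSmin : ∀ q : ℕ, q.Prime → q ≠ p → (q ∈ Smin ↔ ¬ ρbar.IsUnramifiedAt q))
    (Lbar : Submodule (ResidueField 𝒪) ρbar.V) (hL : IsOrdLine p ρbar Lbar)
    (hfin : Finite ↥(selGroup p ρbar Smin (s59psbH1 p ρbar Lbar) (primesOf (Smin ∪ Q)))) :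
    TwTanCard 𝒪 ρbar (s59psCond 𝒪 p Smin Q)
      (Nat.card ↥(selGroup p ρbar Smin (s59psbH1 p ρbar Lbar) (primesOf (Smin ∪ Q)))) := by
  refine sasm_main p D hp2 Smin Q hSmin (s59psbH1 p ρbar Lbar) (s59psCond 𝒪 p Smin Q)
    (fun ρ h => h.1.1) (fun ρ h => h.1.2.2) (fun ρ h => h.2.2) (fun ρ c hc h => ?_) hfin
  obtain ⟨x, hx⟩ := hOP 𝒪 p ρbar D ρ c Lbar hp2 hc h.1.1 h.1.2.1 (h.2.1 hpQ) hL
  rw [sasm_locRes_H1π, s59psb_mem_H1]
  refine ⟨sasmSubCob (locRep p (ad0Rep p ρbar)) (sasmRes p (ad0Rep p ρbar) c) x, ?_, ?_, ?_⟩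
  · exact sasm_isLevel_subCob (locRep p (ad0Rep p ρbar)) (towerLoc p) _ x
      (sasm_smooth_loc p (ad0Rep p ρbar) (sasm_ad0_smooth p ρbar))
      (sasm_isLevel_res p (ad0Rep p ρbar) c (sasm_coc0_level p D ρ c hc))
  · exact hx
  · exact sasm_H1π_subCob (locRep p (ad0Rep p ρbar)) (sasmRes p (ad0Rep p ρbar) c) x

/-- **TW-Core for the ordinary peu ramifié conditions**: the Taylor–Wiles primes together with
the bound `|k| ^ r` for the number of deformations to `k[ε]` of type `s59psCond 𝒪 p Smin Q`. -/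
theorem s59psb_core (hPLev : s59psb_StmtPLev) (hOP : s59psb_StmtOrdPeu)
    (p : ℕ) [Fact p.Prime] (ρbar : ResidualGaloisRep (ResidueField 𝒪)) (S Smin : Finset ℕ)
    (hyp : TWHyp 𝒪 p ρbar S Smin) :
    ∃ r : ℕ, ∀ n : ℕ, ∃ qv : Fin r → ℕ, IsTWFamily p ρbar S n r qv ∧
      TwTanCard 𝒪 ρbar (s59psCond 𝒪 p Smin (Finset.univ.image qv))
        (Nat.card (ResidueField 𝒪) ^ r) := by
  haveI : CharP (ResidueField 𝒪) p := casm_charP p hyp.hp𝒪
  letI : Algebra (ZMod p) (ResidueField 𝒪) := ZMod.algebra (ResidueField 𝒪) p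
  obtain ⟨D₀⟩ := nonempty_rigidDatum (𝒪 := 𝒪) ρbar hyp.habs
  have hpS : ∀ (r : ℕ) (n : ℕ) (qv : Fin r → ℕ), IsTWFamily p ρbar S n r qv →
      p ∉ Finset.univ.image qv := by
    intro r n qv hfam hmem
    obtain ⟨i, -, hi⟩ := Finset.mem_image.1 hmem
    exact (hfam.2.1 i).2.1 (hi ▸ hyp.hSmin hyp.hpSmin)
  by_cases hex : (∃ Lbar : Submodule (ResidueField 𝒪) ρbar.V, IsOrdLine p ρbar Lbar) ∧
      ∀ σ ∈ s59psPeu (padicPlace p) p, ρbar.ρ σ = 1
  · obtain ⟨⟨Lbar, hLbar⟩, hpeu⟩ := hex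
    obtain ⟨r, hr⟩ := Fermat.Agent.TW.G.stmtKillAll 𝒪 p ρbar S Smin hyp
    refine ⟨r, fun n => ?_⟩
    obtain ⟨qv, hfam, hk⟩ := hr n
    refine ⟨qv, hfam, ?_⟩
    obtain ⟨hfin, hrk⟩ := s59psb_count hPLev p hyp.hp2 (ResidueField 𝒪) ρbar hyp.hdet hyp.hsplit
      Lbar hLbar hpeu
    obtain ⟨hsfin, hscard⟩ := casm_sel_card s59psb_coreInputs p ρbar S Smin hyp n r qv hfam hk
      (s59psbH1 p ρbar Lbar) (s59psbH1_le_levH1 p ρbar Lbar) hfin hrk
    exact casm_twTanCard_mono (s59psb_selCard hOP p ρbar D₀ hyp.hp2 Smin (Finset.univ.image qv)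
      (hpS r n qv hfam) hyp.hmin Lbar hLbar hsfin) hscard
  · refine ⟨0, fun n => ⟨Fin.elim0, ⟨fun i => i.elim0, fun i => i.elim0, fun i => i.elim0⟩,
      casm_twTanCard_of_isEmpty (fun t => hex ?_) _⟩⟩
    obtain ⟨ρ, h𝒟, hresid⟩ := t
    have hp0 : p ∉ Finset.univ.image (Fin.elim0 : Fin 0 → ℕ) := by simp
    exact ⟨s59psb_resOrd p ρbar ρ hresid h𝒟.1.2.1,
      s59psb_resPeu p ρbar D₀ ρ hresid (h𝒟.2.1 hp0)⟩

/-- `s59psCond` passes to the base changes of the universal deformation along `R → k[ε]`. -/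
theorem s59psb_bc (p : ℕ) [Fact p.Prime] (ρbar : ResidualGaloisRep (ResidueField 𝒪))
    (Smin Q : Finset ℕ)
    (DQ : GaloisRep.DeformationRingData 𝒪 ρbar (s59psCond 𝒪 p Smin Q)) : TwTanBC DQ := by
  letI : Algebra 𝒪 (DualNumber (ResidueField 𝒪)) := dnAlg 𝒪
  intro q hq _
  exact s59ps_cond_bc 𝒪 p Smin Q DQ.R (DualNumber (ResidueField 𝒪)) q hq DQ.ρ DQ.isOfType

/-- **BASE-P: Taylor–Wiles primes for the ordinary peu ramifié conditions** (the twin of the
frozen S56 for `s59psCond 𝒪 p Smin Q`): there is `r` such that for every `n` there are `r` distinct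
primes `q ≡ 1 mod p^{n+1}` outside `S` with distinct `ρ̄`-Frobenius eigenvalues for which the
deformation ring of type `s59psCond 𝒪 p Smin Q` is a quotient of `𝒪⟦X₁, …, X_r⟧`. -/
theorem s59psb_twp (hPLev : s59psb_StmtPLev) (hOP : s59psb_StmtOrdPeu)
    (p : ℕ) [Fact p.Prime] (ρbar : ResidualGaloisRep (ResidueField 𝒪)) (S Smin : Finset ℕ)
    (hyp : TWHyp 𝒪 p ρbar S Smin) :
    ∃ r : ℕ, ∀ n : ℕ, ∃ qv : Fin r → ℕ, Function.Injective qv ∧
      (∀ i, (qv i).Prime ∧ qv i ∉ S ∧ p ^ (n + 1) ∣ qv i - 1) ∧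
      (∀ i, ∀ P : ValuationSubring (AlgebraicClosure ℚ), P.LiesOverPrime (qv i) →
        ∀ φ : AlgebraicClosure ℚ ≃ₐ[ℚ] AlgebraicClosure ℚ, P.IsFrobeniusAt φ (qv i) →
          ∃ α β : ResidueField 𝒪, α ≠ β ∧
            LinearMap.charpoly (ρbar.ρ φ) = (X - C α) * (X - C β)) ∧
      ∀ DQ : GaloisRep.DeformationRingData 𝒪 ρbar (s59psCond 𝒪 p Smin (Finset.univ.image qv)),
        ∃ γ : MvPowerSeries (Fin r) 𝒪 →ₐ[𝒪] DQ.R, Function.Surjective γ :=
  s56_half_of_core p hyp.hp2 hyp.hp𝒪 ρbar S (s59psCond 𝒪 p Smin)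
    (fun Q DQ => s59psb_bc p ρbar Smin Q DQ) (s59psb_core hPLev hOP p ρbar S Smin hyp)

end Core

end Fermat.Agent.S59

end
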