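/-
S59, wall M5 (P-STEP), leaf BASE-P, part 5 (helper68): PLEV-P ⇐ KUM-DESC.

`s59psb_plev_of : s59psb_StmtKumDesc → s59psb_StmtPLev`.

KUM-DESC (`s59psb_StmtKumDesc`, PURE local field theory, no representation): `T` good, `α ≠ 0`,
`α^p ∈ T`, such that
  (eq)  `g α / α` is fixed by `I_T = I ∩ G_T` for every `g ∈ I`      (`α` is an `ω`-eigen Kummer class),
  (peu) `α` is fixed by the peu ramifié subgroup `H ∩ G_T`.
Then `α^p ∈ (1 + p 𝒪_T) T^{×p}`.
(Proof: norm trick `β = ∏_{g ∈ I/I_T} g α`, `β^p ∈ K = ℚ̄_p^I`, `α^e = β t`, `p ∤ e`; `K^× = p^ℤ U`;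
the class of `p` is excluded by (peu) ("H moves `p^{1/p}`"); units of `K` are in `(1 + p 𝒪) K^{×p}`;
descent through the unramified `T'/T` by `TW.W.twlf_desc`.)

PROVED here, for a level cocycle `z` of ordinary peu ramifié shape and a character `χ` of `G_T`
vanishing where `V_z` is trivial:
* `s59psb_level_field` : a finite normal `M₁ ⊇ T` with `G_{M₁}` acting trivially on `V_z`;
* `s59psb_det_loc`     : `det ρ̄(g) = m` if `g ζ = ζ^m`;
* `s59psb_chi_conj`    : `χ (g σ g⁻¹) = m χ σ` for `g ∈ I`, `g ζ = ζ^m`, `σ ∈ I ∩ G_T`;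
* the Kummer generator `α` of `χ` (`s59psb_kum_exact`) satisfies (eq) and (peu).
-/
import Fermat.Agent.S59.PStep.BasePAlg
import Fermat.Agent.S59.PStep.BasePKum
import Fermat.Agent.S59.PStep.BasePAsm
import Fermat.Agent.TW.W.GrKum
import Fermat.Agent.TW.L.LocExist
import Fermat.Agent.PT.B.JDisc
import Fermat.Agent.PT.B.LocalLevel
import Fermat.Agent.PT.B.Krasner

set_option autoImplicit false
set_option linter.unusedSectionVars false
set_option linter.unusedVariables false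
set_option linter.style.longLine false
set_option linter.style.haveILetI false

noncomputable section

namespace Fermat.Agent.S59

open CategoryTheory groupCohomology IsLocalRing Module Polynomial
open Fermat.Agent.PT Fermat.Agent.PT.B Fermat.Agent.TW Fermat.Agent.TW.L Fermat.Agent.TW.S
  Fermat.Agent.TW.W Fermat.Agent.S53 ExtCitation

/-- **KUM-DESC** (pure local field theory). -/
def s59psb_StmtKumDesc : Prop :=
  ∀ (p : ℕ) [Fact p.Prime], p ≠ 2 →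
  ∀ T : IntermediateField ℚ_[p] (PadicAlgCl p), IsGoodField p T →
  ∀ α : PadicAlgCl p, α ≠ 0 → α ^ p ∈ T →
    (∀ g ∈ inertiaQ p, ∀ σ ∈ inertiaQ p, σ ∈ T.fixingSubgroup → σ (g α / α) = g α / α) →
    (∀ σ ∈ s59psbPeuQ p, σ ∈ T.fixingSubgroup → σ α = α) →
    ∃ c ∈ T, ∃ t ∈ T, ‖c‖ ≤ 1 ∧ t ≠ 0 ∧ α ^ p = (1 + (p : PadicAlgCl p) * c) * t ^ p

section Main

variable (p : ℕ) [Fact p.Prime] {k : Type} [Field k] [CharP k p] (ρbar : ResidualGaloisRep k)

/-- `ρ̄` on `G_{ℚ_p}` as a monoid homomorphism -/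
def s59psbR : GQq p →* Module.End k ρbar.V := ρbar.ρ.comp (localGaloisToGlobal p)

lemma s59psbR_apply (τ : GQq p) : s59psbR p ρbar τ = rhoLoc p ρbar τ := rfl

/-- the cocycle relation in `End V̄` -/
lemma s59psb_hZ (z : cocycles₁ (locRep p (ad0Rep p ρbar))) (g h : GQq p) :
    ad0Val p ρbar ((z : GQq p → (ad0Rep p ρbar).V) (g * h)) =
      s59psbR p ρbar g * ad0Val p ρbar ((z : GQq p → (ad0Rep p ρbar).V) h) *
        s59psbR p ρbar g⁻¹ + ad0Val p ρbar ((z : GQq p → (ad0Rep p ρbar).V) g) := by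
  have h1 := (mem_cocycles₁_iff (z : GQq p → (ad0Rep p ρbar).V)).1 z.2 g h
  rw [h1, map_add]
  congr 1
  show ad0Val p ρbar ((ad0Rep p ρbar).ρ (localGaloisToGlobal p g) _) = _
  rw [ad0Val_ρ, ← map_inv]
  rfl

/-- **The level field**: a finite normal extension `M₁ ⊇ T` of `ℚ_p` such that `G_{M₁}` acts
trivially on `V_z`. -/
theorem s59psb_level_field (z : cocycles₁ (locRep p (ad0Rep p ρbar)))
    (hlev : IsLevel₁ (towerLoc p) (z : GQq p → (ad0Rep p ρbar).V))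
    (T : IntermediateField ℚ_[p] (PadicAlgCl p)) (hT : FiniteDimensional ℚ_[p] T) :
    ∃ M₁ : IntermediateField ℚ_[p] (PadicAlgCl p), T ≤ M₁ ∧ FiniteDimensional ℚ_[p] M₁ ∧
      Normal ℚ_[p] M₁ ∧
      ∀ σ ∈ M₁.fixingSubgroup, rhoLoc p ρbar σ = 1 ∧ (z : GQq p → (ad0Rep p ρbar).V) σ = 0 := by
  obtain ⟨U, ⟨F, hF, rfl⟩, hU⟩ := hlev
  obtain ⟨Fρ, hFρ, hρ⟩ := ρbar.factorsThroughFiniteLevel
  haveI := hT
  haveI h1 : FiniteDimensional ℚ_[p] (localField p F) := stmtLocalFinite p F hF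
  haveI h2 : FiniteDimensional ℚ_[p] (localField p Fρ) := stmtLocalFinite p Fρ hFρ
  haveI h3 : FiniteDimensional ℚ_[p] ↥(T ⊔ localField p F) :=
    IntermediateField.finiteDimensional_sup T (localField p F)
  haveI h4 : FiniteDimensional ℚ_[p] ↥(T ⊔ localField p F ⊔ localField p Fρ) :=
    IntermediateField.finiteDimensional_sup (T ⊔ localField p F) (localField p Fρ)
  obtain ⟨F'', hF'', hgal, hle⟩ := stmtKrasner p (T ⊔ localField p F ⊔ localField p Fρ) h4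
  haveI hfin : FiniteDimensional ℚ_[p] (localField p F'') := stmtLocalFinite p F'' hF''
  haveI hnor : (localField p F'').fixingSubgroup.Normal := lex_normal p F'' hgal
  haveI hG : IsGalois ℚ_[p] (localField p F'') :=
    (InfiniteGalois.normal_iff_isGalois (localField p F'')).1 inferInstance
  refine ⟨localField p F'', le_trans (le_trans le_sup_left le_sup_left) hle, hfin,
    hG.to_normal, fun σ hσ => ⟨?_, ?_⟩⟩
  · have hσ2 : σ ∈ (localField p Fρ).fixingSubgroup :=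
      IntermediateField.fixingSubgroup_antitone (le_trans le_sup_right hle) hσ
    have hσ3 : localGaloisToGlobal p σ ∈ Fρ.fixingSubgroup := (stmtLocalLevel p Fρ σ).2 hσ2
    exact hρ _ (fun x hx => (IntermediateField.mem_fixingSubgroup_iff Fρ _).1 hσ3 x hx)
  · have hσ2 : σ ∈ (localField p F).fixingSubgroup :=
      IntermediateField.fixingSubgroup_antitone
        (le_trans (le_trans le_sup_right le_sup_left) hle) hσ
    have hσ3 : localGaloisToGlobal p σ ∈ F.fixingSubgroup := (stmtLocalLevel p F σ).2 hσ2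
    have h5 := hU 1 σ hσ3
    rw [one_mul] at h5
    rw [h5]
    exact cocycles₁_map_one z

variable {p ρbar}

/-- the global action on the `p`-th roots of unity, from the local one -/
theorem s59psb_glob_root {ζ : PadicAlgCl p} (hζ1 : ζ ≠ 1) (hζp : ζ ^ p = 1) (g : GQq p) (m : ℕ)
    (hm : g ζ = ζ ^ m) (μ : AlgebraicClosure ℚ) (hμ : μ ^ p ^ 1 = 1) :
    localGaloisToGlobal p g μ = μ ^ m := by
  rw [pow_one] at hμ
  apply (padicEmbedding p).toRingHom.injective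
  show padicEmbedding p (localGaloisToGlobal p g μ) = padicEmbedding p (μ ^ m)
  rw [padicEmbedding_localGaloisToGlobal, map_pow]
  have h1 : (padicEmbedding p μ) ^ p = 1 := by rw [← map_pow, hμ, map_one]
  obtain ⟨j, hj⟩ := wgr_exists_pow hζ1 hζp h1
  rw [hj, map_pow, hm, ← pow_mul, ← pow_mul, mul_comm]

/-- `det ρ̄(g) = m` if `g ζ = ζ^m` -/
theorem s59psb_det_loc (hdet : (GaloisRepAdic.ofResidualGaloisRep ρbar).DetIsCyclotomic p)
    {ζ : PadicAlgCl p} (hζ1 : ζ ≠ 1) (hζp : ζ ^ p = 1) (g : GQq p) (m : ℕ)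
    (hm : g ζ = ζ ^ m) : LinearMap.det (rhoLoc p ρbar g) = (m : k) := by
  have h1 := hdet.2 1 (localGaloisToGlobal p g) m (fun μ hμ => s59psb_glob_root hζ1 hζp g m hm μ hμ)
  rw [pow_one, CharP.cast_eq_zero k p, Ideal.mem_span_singleton, zero_dvd_iff, sub_eq_zero] at h1
  exact h1

/-- an element of inertia acts on `L̄` by the scalar `m`, if it acts on `ζ` by `ζ ↦ ζ^m` -/
theorem s59psb_scalar_loc (hdet : (GaloisRepAdic.ofResidualGaloisRep ρbar).DetIsCyclotomic p)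
    (Lbar : Submodule k ρbar.V) (hL : IsOrdLine p ρbar Lbar)
    {ζ : PadicAlgCl p} (hζ1 : ζ ≠ 1) (hζp : ζ ^ p = 1) (g : GQq p) (hg : g ∈ inertiaQ p) (m : ℕ)
    (hm : g ζ = ζ ^ m) : ∀ v ∈ Lbar, s59psbR p ρbar g v = (m : k) • v := by
  have hgI := (mem_inertiaQ p g).1 hg
  have hdec : localGaloisToGlobal p g ∈ (padicPlace p).decompositionSubgroup ℚ :=
    localGaloisToGlobal_mem_decompositionSubgroup p g
  obtain ⟨v₀, hv₀0, hv₀span⟩ := finrank_eq_one_iff'.1 hL.1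
  obtain ⟨a, ha⟩ := hv₀span ⟨ρbar.ρ (localGaloisToGlobal p g) v₀, hL.2.1 _ hdec _ v₀.2⟩
  have ha' : ρbar.ρ (localGaloisToGlobal p g) (v₀ : ρbar.V) = a • (v₀ : ρbar.V) := by
    have := congrArg Subtype.val ha
    simpa using this.symm
  have hscal : ∀ v ∈ Lbar, rhoLoc p ρbar g v = a • v := by
    intro v hv
    obtain ⟨c, hc⟩ := hv₀span ⟨v, hv⟩
    have hc' : v = c • (v₀ : ρbar.V) := by
      have := congrArg Subtype.val hc
      simpa using this.symm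
    unfold rhoLoc
    rw [hc', map_smul, ha', smul_comm]
  have hd := s59psb_det ρbar.finrank_eq Lbar hL.1 (rhoLoc p ρbar g) a hscal
    (fun v => hL.2.2 _ hgI v)
  rw [s59psb_det_loc hdet hζ1 hζp g m hm] at hd
  intro v hv
  rw [s59psbR_apply, hscal v hv, hd]

/-- `Z τ ∈ 𝒩` for `τ` in inertia -/
theorem s59psb_Z_mem (Lbar : Submodule k ρbar.V) (hL : IsOrdLine p ρbar Lbar)
    (z : GQq p → (ad0Rep p ρbar).V) (hz : S59psbShape p ρbar Lbar z) (τ : GQq p)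
    (hτ : τ ∈ inertiaQ p) : ad0Val p ρbar (z τ) ∈ s59psbN Lbar :=
  s59psb_kills_of_trace ρbar.finrank_eq Lbar hL.1 _ (hz.unr τ hτ) (trace_ad0Val p ρbar _)

/-- `ρ̄(σ) - 1 ∈ 𝒩` for `σ` in inertia fixing `ζ` -/
theorem s59psb_R_mem (hdet : (GaloisRepAdic.ofResidualGaloisRep ρbar).DetIsCyclotomic p)
    (Lbar : Submodule k ρbar.V) (hL : IsOrdLine p ρbar Lbar)
    {ζ : PadicAlgCl p} (hζ1 : ζ ≠ 1) (hζp : ζ ^ p = 1) (σ : GQq p) (hσ : σ ∈ inertiaQ p)
    (hσζ : σ ζ = ζ) : s59psbR p ρbar σ - 1 ∈ s59psbN Lbar := by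
  have h1 := s59psb_scalar_loc hdet Lbar hL hζ1 hζp σ hσ 1 (by rw [pow_one]; exact hσζ)
  refine ⟨fun v => ?_, fun v hv => ?_⟩
  · rw [LinearMap.sub_apply, Module.End.one_apply]
    exact hL.2.2 _ ((mem_inertiaQ p σ).1 hσ) v
  · rw [LinearMap.sub_apply, Module.End.one_apply, h1 v hv, Nat.cast_one, one_smul, sub_self]

/-- `χ (σ ^ m) = m χ σ` -/
theorem s59psb_chi_pow (T : IntermediateField ℚ_[p] (PadicAlgCl p)) (χ : GQq p → ZMod p)
    (hχ : IsHomOn p T χ) (σ : GQq p) (hσ : σ ∈ T.fixingSubgroup) (m : ℕ) :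
    χ (σ ^ m) = (m : ZMod p) * χ σ := by
  have hχ1 : χ 1 = 0 := by
    have := hχ 1 1 (one_mem _) (one_mem _)
    rw [mul_one] at this
    exact left_eq_add.mp this
  induction m with
  | zero => rw [pow_zero, hχ1, Nat.cast_zero, zero_mul]
  | succ m ih =>
    rw [pow_succ, hχ _ _ (pow_mem hσ m) hσ, ih]
    push_cast
    ring

/-- **The conjugation formula for `χ`**: `χ (g σ g⁻¹) = m χ σ` for `g` in inertia acting on `ζ`
by `ζ ↦ ζ^m` and `σ ∈ I ∩ G_T`. -/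
theorem s59psb_chi_conj (hdet : (GaloisRepAdic.ofResidualGaloisRep ρbar).DetIsCyclotomic p)
    (Lbar : Submodule k ρbar.V) (hL : IsOrdLine p ρbar Lbar)
    (z : cocycles₁ (locRep p (ad0Rep p ρbar)))
    (hz : S59psbShape p ρbar Lbar (z : GQq p → (ad0Rep p ρbar).V))
    (T : IntermediateField ℚ_[p] (PadicAlgCl p)) (hTn : T.fixingSubgroup.Normal)
    {ζ : PadicAlgCl p} (hζT : ζ ∈ T) (hζ1 : ζ ≠ 1) (hζp : ζ ^ p = 1)
    (χ : GQq p → ZMod p) (hχ : IsHomOn p T χ)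
    (hvan : ∀ σ ∈ T.fixingSubgroup, rhoLoc p ρbar σ = 1 →
      ad0Val p ρbar ((z : GQq p → (ad0Rep p ρbar).V) σ) = 0 → χ σ = 0)
    (g : GQq p) (hg : g ∈ inertiaQ p) (m : ℕ) (hm : g ζ = ζ ^ m)
    (σ : GQq p) (hσ : σ ∈ inertiaQ p) (hσT : σ ∈ T.fixingSubgroup) :
    χ (g * σ * g⁻¹) = (m : ZMod p) * χ σ := by
  have hσζ : σ ζ = ζ := (IntermediateField.mem_fixingSubgroup_iff T σ).1 hσT ζ hζT
  have hconj := s59psb_abs_conj Lbar (s59psbR p ρbar)
    (fun τ => ad0Val p ρbar ((z : GQq p → (ad0Rep p ρbar).V) τ)) (s59psb_hZ p ρbar z) g σ m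
    (s59psb_scalar_loc hdet Lbar hL hζ1 hζp g hg m hm)
    (fun v => hL.2.2 _ ((mem_inertiaQ p g).1 hg) v)
    (s59psb_Z_mem Lbar hL _ hz g⁻¹ (inv_mem hg))
    (s59psb_R_mem hdet Lbar hL hζ1 hζp σ hσ hσζ)
    (s59psb_Z_mem Lbar hL _ hz σ hσ)
  have hquot := s59psb_abs_quot (s59psbR p ρbar)
    (fun τ => ad0Val p ρbar ((z : GQq p → (ad0Rep p ρbar).V) τ)) (s59psb_hZ p ρbar z)
    (g * σ * g⁻¹) (σ ^ m) hconj.1 hconj.2
  have ha : g * σ * g⁻¹ ∈ T.fixingSubgroup := hTn.conj_mem σ hσT g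
  have hb : σ ^ m ∈ T.fixingSubgroup := pow_mem hσT m
  have hab : g * σ * g⁻¹ * (σ ^ m)⁻¹ ∈ T.fixingSubgroup := mul_mem ha (inv_mem hb)
  have h0 : χ (g * σ * g⁻¹ * (σ ^ m)⁻¹) = 0 := hvan _ hab hquot.1 hquot.2
  have h1 : g * σ * g⁻¹ = (g * σ * g⁻¹ * (σ ^ m)⁻¹) * σ ^ m := by
    rw [inv_mul_cancel_right]
  rw [h1, hχ _ _ hab hb, h0, zero_add, s59psb_chi_pow T χ hχ σ hσT m]

end Main

/-- **PLEV-P from KUM-DESC.** -/
theorem s59psb_plev_of (hKD : s59psb_StmtKumDesc) : s59psb_StmtPLev := by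
  intro p _ hp2 k _ _ _ ρbar hdet Lbar hL hpeu z hlev hz T hT χ hχ hvan τ hτ
  haveI := hT.finite
  haveI := hT.galois
  have hTn : T.fixingSubgroup.Normal :=
    (InfiniteGalois.normal_iff_isGalois T).2 hT.galois
  obtain ⟨ζ, hζT, hζ1, hζp⟩ := hT.zeta
  obtain ⟨M₁, hTM, hfin, hnor, hM⟩ := s59psb_level_field p ρbar z hlev T hT.finite
  have hfix : ∀ σ ∈ M₁.fixingSubgroup, χ σ = 0 := by
    intro σ hσ
    have h1 : σ ∈ T.fixingSubgroup := IntermediateField.fixingSubgroup_antitone hTM hσ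
    obtain ⟨h2, h3⟩ := hM σ hσ
    exact hvan σ h1 h2 (by
      show ad0Val p ρbar ((z : GQq p → (ad0Rep p ρbar).V) σ) = 0
      rw [h3, map_zero])
  obtain ⟨α, hαM, hα0, hαT, hαχ⟩ := s59psb_kum_exact p T M₁ hTM hfin hnor ζ hζT hζ1 hζp χ hχ hfix
  -- (eq)
  have heq : ∀ g ∈ inertiaQ p, ∀ σ ∈ inertiaQ p, σ ∈ T.fixingSubgroup →
      σ (g α / α) = g α / α := by
    intro g hg σ hσ hσT
    -- `g⁻¹ σ g ∈ G_T ∩ I`
    obtain ⟨j, hj⟩ := wgr_exists_pow hζ1 hζp (ξ := g ζ) (by rw [← map_pow, hζp, map_one])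
    have hnI : (inertiaQ p).Normal := wgr_inertiaQ_normal p
    have hσ' : g⁻¹ * σ * g ∈ inertiaQ p := by
      have := hnI.conj_mem σ hσ g⁻¹
      rwa [inv_inv] at this
    have hσT' : g⁻¹ * σ * g ∈ T.fixingSubgroup := by
      have := hTn.conj_mem σ hσT g⁻¹
      rwa [inv_inv] at this
    have hc := s59psb_chi_conj hdet Lbar hL z hz T hTn hζT hζ1 hζp χ hχ hvan g hg j.val hj
      (g⁻¹ * σ * g) hσ' hσT'
    have e1 : g * (g⁻¹ * σ * g) * g⁻¹ = σ := by group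
    rw [e1, ZMod.natCast_zmod_val] at hc
    -- `σ (g α) = ζ^{χ σ} g α`
    have h1 : σ (g α) = g ((g⁻¹ * σ * g) α) := by
      show σ (g α) = g (g⁻¹ (σ (g α)))
      exact (g.apply_symm_apply _).symm
    have h2 : σ (g α) = ζ ^ (χ σ).val * g α := by
      rw [h1, hαχ _ hσT', map_mul, map_pow, hj, ← pow_mul, hc]
      congr 1
      rw [wgr_zeta_pow_eq_iff hζ1 hζp, ← ZMod.natCast_eq_natCast_iff]
      push_cast
      rw [ZMod.natCast_zmod_val, ZMod.natCast_zmod_val, ZMod.natCast_zmod_val]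
    rw [map_div₀, h2, hαχ σ hσT]
    have hζ0 : ζ ^ (χ σ).val ≠ 0 := pow_ne_zero _ (by
      rintro rfl
      rw [zero_pow (Fact.out : p.Prime).ne_zero] at hζp
      exact zero_ne_one hζp)
    field_simp
  -- (peu)
  have hpeuα : ∀ σ ∈ s59psbPeuQ p, σ ∈ T.fixingSubgroup → σ α = α := by
    intro σ hσ hσT
    have h1 : rhoLoc p ρbar σ = 1 := hpeu _ ((s59psb_mem_peuQ p σ).1 hσ)
    have h2 : χ σ = 0 := hvan σ hσT h1 (by
      show ad0Val p ρbar ((z : GQq p → (ad0Rep p ρbar).V) σ) = 0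
      rw [hz.peu σ hσ, map_zero])
    rw [hαχ σ hσT, h2, ZMod.val_zero, pow_zero, one_mul]
  obtain ⟨c, hcT, t, htT, hc1, ht0, hu⟩ := hKD p hp2 T hT α hα0 hαT heq hpeuα
  -- conclusion, as in `TW.W.stmtLev_of`
  have hτT : τ ∈ T.fixingSubgroup := hτ.1
  have hτt : τ t = t := (IntermediateField.mem_fixingSubgroup_iff T τ).1 hτT t htT
  have hβp : (α / t) ^ p = 1 + (p : PadicAlgCl p) * c := by
    rw [div_pow, hu, mul_div_assoc, div_self (pow_ne_zero p ht0), mul_one]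
  have hβT : (α / t) ^ p ∈ T := by
    rw [hβp]
    exact add_mem (one_mem _) (mul_mem (natCast_mem _ p) hcT)
  have hβn : ‖(α / t) ^ p - 1‖ ≤ ‖(p : PadicAlgCl p)‖ := by
    rw [hβp, add_sub_cancel_left, norm_mul]
    calc ‖(p : PadicAlgCl p)‖ * ‖c‖ ≤ ‖(p : PadicAlgCl p)‖ * 1 :=
          mul_le_mul_of_nonneg_left hc1 (norm_nonneg _)
      _ = ‖(p : PadicAlgCl p)‖ := mul_one _
  have hτβ : τ (α / t) = α / t := hτ.2 (α / t) hβT hβn
  have hτα : τ α = α := by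
    have h1 : α = (α / t) * t := by rw [div_mul_cancel₀ _ ht0]
    calc τ α = τ ((α / t) * t) := by rw [← h1]
      _ = τ (α / t) * τ t := map_mul _ _ _
      _ = (α / t) * t := by rw [hτβ, hτt]
      _ = α := h1.symm
  -- `χ τ = 0` from `τ α = α`
  have h3 := hαχ τ hτT
  rw [hτα] at h3
  have h4 : ζ ^ (χ τ).val = 1 := by
    have h5 : (1 : PadicAlgCl p) * α = ζ ^ (χ τ).val * α := by rw [one_mul]; exact h3
    exact (mul_right_cancel₀ hα0 h5).symm
  have h6 : ζ ^ (χ τ).val = ζ ^ (0 : ZMod p).val := by rw [h4, ZMod.val_zero, pow_zero]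
  exact wgr_zeta_pow_val_inj hζ1 hζp _ _ h6

end Fermat.Agent.S59

end
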