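/-
S59, wall M5 (P-STEP), leaf BASE-P, part 7 (helper68): KUM-DESC, step C = the VALUATION step.

`s59psb_StmtKumVal` (KUM-VAL, the Prop owed by helper56's `S59/PStep/KumVal.lean`):
  `T` good, `y ≠ 0`, `y^p` fixed by inertia, `y` fixed by the peu ramifié subgroup `H ∩ G_T`
  ⇒ `‖y‖ ∈ p^ℤ`.
`s59psb_unit_split` : KUM-VAL + the norm trick ⇒ `α = y₁ t₂` with `‖y₁‖ = 1`, `y₁^p` fixed by
  inertia and `t₂` fixed by `I ∩ G_T`.
-/
import Fermat.Agent.S59.PStep.BasePNorm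
import Fermat.Agent.S59.PStep.BasePLoc

set_option autoImplicit false
set_option linter.unusedSectionVars false
set_option linter.unusedVariables false
set_option linter.style.longLine false
set_option linter.style.haveILetI false

noncomputable section

namespace Fermat.Agent.S59

open Fermat.Agent.PT Fermat.Agent.PT.B Fermat.Agent.TW.L Fermat.Agent.TW.W

/-- **KUM-VAL** ("the peu ramifié subgroup moves `p^{1/p}`"). -/
def s59psb_StmtKumVal : Prop :=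
  ∀ (p : ℕ) [Fact p.Prime], p ≠ 2 →
  ∀ T : IntermediateField ℚ_[p] (PadicAlgCl p), IsGoodField p T →
  ∀ y : PadicAlgCl p, y ≠ 0 → (∀ τ ∈ inertiaQ p, τ (y ^ p) = y ^ p) →
    (∀ σ ∈ s59psbPeuQ p, σ ∈ T.fixingSubgroup → σ y = y) →
    ∃ m : ℤ, ‖y‖ = (p : ℝ) ^ m

/-- the norm of `p` in `ℚ̄_p` -/
theorem s59psb_norm_p (p : ℕ) [Fact p.Prime] : ‖(p : PadicAlgCl p)‖ = (p : ℝ)⁻¹ := by
  have h1 : (p : PadicAlgCl p) = algebraMap ℚ_[p] (PadicAlgCl p) (p : ℚ_[p]) := by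
    rw [map_natCast]
  rw [h1, PadicAlgCl.norm_extends, Padic.norm_p]

/-- **Step C**: the unit decomposition of `α`. -/
theorem s59psb_unit_split (hV : s59psb_StmtKumVal) (p : ℕ) [Fact p.Prime] (hp2 : p ≠ 2)
    (T : IntermediateField ℚ_[p] (PadicAlgCl p)) (hT : IsGoodField p T)
    (α : PadicAlgCl p) (hα0 : α ≠ 0) (hαT : α ^ p ∈ T)
    (heq : ∀ g ∈ inertiaQ p, ∀ σ ∈ inertiaQ p, σ ∈ T.fixingSubgroup → σ (g α / α) = g α / α)
    (hpeu : ∀ σ ∈ s59psbPeuQ p, σ ∈ T.fixingSubgroup → σ α = α) :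
    ∃ y t : PadicAlgCl p, ‖y‖ = 1 ∧ t ≠ 0 ∧ α = y * t ∧
      (∀ τ ∈ inertiaQ p, τ (y ^ p) = y ^ p) ∧
      (∀ σ ∈ inertiaQ p, σ ∈ T.fixingSubgroup → σ t = t) := by
  have hp : p.Prime := Fact.out
  obtain ⟨y, t, hy0, ht0, hαyt, hyfix, htfix⟩ := s59psb_norm_trick p T hT α hα0 hαT heq
  have hypeu : ∀ σ ∈ s59psbPeuQ p, σ ∈ T.fixingSubgroup → σ y = y := by
    intro σ hσ hσT
    have h1 : y = α / t := by rw [hαyt, mul_div_cancel_right₀ _ ht0]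
    rw [h1, map_div₀, hpeu σ hσ hσT, htfix σ (s59psb_peuQ_le p hσ) hσT]
  obtain ⟨m, hm⟩ := hV p hp2 T hT y hy0 hyfix hypeu
  have hp0 : (p : PadicAlgCl p) ≠ 0 := by
    intro h
    have := s59psb_norm_p p
    rw [h, norm_zero] at this
    have hpp : (0 : ℝ) < (p : ℝ)⁻¹ := inv_pos.2 (by exact_mod_cast hp.pos)
    linarith
  have hpR : (p : ℝ) ≠ 0 := by exact_mod_cast hp.ne_zero
  have hfixp : ∀ (τ : GQq p) (j : ℤ), τ ((p : PadicAlgCl p) ^ j) = (p : PadicAlgCl p) ^ j := by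
    intro τ j
    rw [map_zpow₀, map_natCast]
  refine ⟨y * (p : PadicAlgCl p) ^ m, t * (p : PadicAlgCl p) ^ (-m), ?_,
    mul_ne_zero ht0 (zpow_ne_zero _ hp0), ?_, ?_, ?_⟩
  · rw [norm_mul, norm_zpow, s59psb_norm_p, hm, inv_zpow, mul_inv_cancel₀ (zpow_ne_zero _ hpR)]
  · rw [hαyt, zpow_neg]
    field_simp
  · intro τ hτ
    rw [mul_pow, map_mul, hyfix τ hτ, map_pow, hfixp]
  · intro σ hσ hσT
    rw [map_mul, htfix σ hσ hσT, hfixp]

end Fermat.Agent.S59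

end
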