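/-
S59, wall M5 (P-STEP), leaf BASE-P, part 8 (helper68): KUM-DESC, step D, part 1.

* `s59psb_fix_mem` : `N ≤ F = ℚ_p·ι(F₀)` (`F₀/ℚ` finite Galois), `F/N` totally ramified (a uniformiser
  of `F` and one of `N` have the same `wv`).  Then every element of `F` fixed by `I ∩ G_N` lies
  in `N`.  (All automorphisms of `F/N` are inertial (`PT.L.stmtRes`), and inertial automorphisms of
  `F` lift to the inertia group (`TW.W.wgr_inertial_lift`).)
* `s59psb_unit_root` : `K` finite with uniformiser `p`, `u ∈ K` a unit ⇒ `u = (1 + p c) β^p` with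
  `c, β ∈ K`, `c` integral (the Frobenius of the residue field is onto, `TW.W.twlf_pow_sub`).
-/
import Fermat.Agent.S59.PStep.BasePVal
import Fermat.Agent.TW.W.GrUnr
import Fermat.Agent.TW.W.LvtUnr
import Fermat.Agent.TW.W.LvtMid
import Fermat.Agent.TW.W.LvtInertia
import Fermat.Agent.TW.W.LevelDesc
import Fermat.Agent.PT.L.Res

set_option autoImplicit false
set_option linter.unusedSectionVars false
set_option linter.unusedVariables false
set_option linter.style.longLine false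
set_option linter.style.haveILetI false

noncomputable section

namespace Fermat.Agent.S59

open Fermat.Agent.PT Fermat.Agent.PT.B Fermat.Agent.PT.L Fermat.Agent.TW.L Fermat.Agent.TW.W

/-- **Elements fixed by `I ∩ G_N` lie in `N`** (`F/N` totally ramified). -/
theorem s59psb_fix_mem (p : ℕ) [Fact p.Prime] (F₀ : QbarField) (hF₀ : FiniteDimensional ℚ F₀)
    (hgal : IsGalois ℚ F₀)
    (N : IntermediateField ℚ_[p] (PadicAlgCl p)) (hNF : N ≤ localField p F₀)
    (πN : N) (πF : localField p F₀) (hπN : IsUnif p πN) (hπF : IsUnif p πF)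
    (hw : wv p πF = wv p πN)
    (x : PadicAlgCl p) (hxF : x ∈ localField p F₀)
    (hx : ∀ τ ∈ inertiaQ p, τ ∈ N.fixingSubgroup → τ x = x) : x ∈ N := by
  haveI hfin : FiniteDimensional ℚ_[p] (localField p F₀) := stmtLocalFinite p F₀ hF₀
  haveI hnor : (localField p F₀).fixingSubgroup.Normal := lex_normal p F₀ hgal
  haveI hG : IsGalois ℚ_[p] (localField p F₀) :=
    (InfiniteGalois.normal_iff_isGalois (localField p F₀)).1 inferInstance
  haveI : Normal ℚ_[p] (localField p F₀) := hG.to_normal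
  letI aNF := twlaAlg p hNF
  haveI := twla_tower p hNF
  haveI : FiniteDimensional ℚ_[p] N :=
    FiniteDimensional.of_injective (IntermediateField.inclusion hNF).toLinearMap
      (IntermediateField.inclusion_injective hNF)
  haveI : FiniteDimensional N (localField p F₀) := FiniteDimensional.right ℚ_[p] N _
  haveI : IsGalois N (localField p F₀) := IsGalois.tower_top_of_isGalois ℚ_[p] N _
  obtain ⟨C, _, _, ρ, hsurj, hker, hcard⟩ := stmtRes p N (localField p F₀)
  have h1 := hcard πN πF hπN hπF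
  have hC : Nat.card C = 1 := by
    have hpos := hπN.2.1
    rw [hw] at h1
    have h2 : ((Nat.card C : ℤ) - 1) * wv p πN = 0 := by linear_combination h1
    rcases mul_eq_zero.1 h2 with h | h
    · omega
    · omega
  have hall : ∀ σ : (localField p F₀) ≃ₐ[N] (localField p F₀), IsInertial p σ := by
    intro σ
    rw [← hker]
    haveI : Subsingleton C := (Nat.card_eq_one_iff_unique.1 hC).1
    exact Subsingleton.elim _ _
  have hbot : (⟨x, hxF⟩ : localField p F₀) ∈ (⊥ : IntermediateField N (localField p F₀)) := by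
    rw [IsGalois.mem_bot_iff_fixed]
    intro σ'
    set σ₀ : (localField p F₀) ≃ₐ[ℚ_[p]] (localField p F₀) := σ'.restrictScalars ℚ_[p] with hσ₀def
    have hσ₀ : IsInertial p σ₀ := hall σ'
    set σ : GQq p := σ₀.liftNormal (PadicAlgCl p) with hσdef
    have hcomm : ∀ y : localField p F₀, σ (y : PadicAlgCl p) = ((σ₀ y : localField p F₀) :
        PadicAlgCl p) := fun y => σ₀.liftNormal_commutes (PadicAlgCl p) y
    obtain ⟨τ, hτI, hτ⟩ := wgr_inertial_lift p F₀ hgal (wgrInertT_of_restrict hcomm hσ₀)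
    have hτN : τ ∈ N.fixingSubgroup := by
      rw [IntermediateField.mem_fixingSubgroup_iff]
      intro n hn
      rw [hτ n (hNF hn)]
      have h2 := hcomm ⟨n, hNF hn⟩
      have h3 : σ₀ ⟨n, hNF hn⟩ = ⟨n, hNF hn⟩ := σ'.commutes ⟨n, hn⟩
      rw [h3] at h2
      exact h2
    have h3 := hx τ hτI hτN
    apply Subtype.ext
    show ((σ₀ ⟨x, hxF⟩ : localField p F₀) : PadicAlgCl p) = x
    rw [← hcomm, ← hτ x hxF, h3]
  obtain ⟨n, hn⟩ := IntermediateField.mem_bot.1 hbot
  have h4 : (n : PadicAlgCl p) = x := congrArg Subtype.val hn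
  rw [← h4]
  exact n.2

/-- **Units of an unramified field are `p`-th powers up to `1 + p 𝒪`.** -/
theorem s59psb_unit_root (p : ℕ) [Fact p.Prime]
    (K : IntermediateField ℚ_[p] (PadicAlgCl p)) [FiniteDimensional ℚ_[p] K]
    (hK : IsUnif p ((p : ℕ) : K)) (u : PadicAlgCl p) (huK : u ∈ K) (hu : ‖u‖ = 1) :
    ∃ c ∈ K, ∃ β ∈ K, ‖c‖ ≤ 1 ∧ β ≠ 0 ∧ u = (1 + (p : PadicAlgCl p) * c) * β ^ p := by
  have hp : p.Prime := Fact.out
  have hbmem : (⟨u, huK⟩ : K) ∈ UE.OV p stmtWAdd K :=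
    (tww_pmd_mem_OV_iff p K.val ⟨u, huK⟩).2 hu.le
  obtain ⟨β, d, hd⟩ := twlf_pow_sub p hK (⟨⟨u, huK⟩, hbmem⟩ : UE.OV p stmtWAdd K)
  have hβ1 : ‖((β : K) : PadicAlgCl p)‖ ≤ 1 := (tww_pmd_mem_OV_iff p K.val (β : K)).1 β.2
  have hd1 : ‖((d : K) : PadicAlgCl p)‖ ≤ 1 := (tww_pmd_mem_OV_iff p K.val (d : K)).1 d.2
  have heq : ((β : K) : PadicAlgCl p) ^ p - u = (p : PadicAlgCl p) * ((d : K) : PadicAlgCl p) := by
    have h1 := congrArg (fun t : UE.OV p stmtWAdd K => (((t : K)) : PadicAlgCl p)) hd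
    exact h1
  have hnp : ‖(p : PadicAlgCl p)‖ < 1 := by
    rw [s59psb_norm_p]
    exact inv_lt_one_of_one_lt₀ (by exact_mod_cast hp.one_lt)
  have hpd : ‖(p : PadicAlgCl p) * ((d : K) : PadicAlgCl p)‖ < 1 := by
    rw [norm_mul]
    calc ‖(p : PadicAlgCl p)‖ * ‖((d : K) : PadicAlgCl p)‖ ≤ ‖(p : PadicAlgCl p)‖ * 1 :=
          mul_le_mul_of_nonneg_left hd1 (norm_nonneg _)
      _ < 1 := by rw [mul_one]; exact hnp
  have hβn : ‖((β : K) : PadicAlgCl p)‖ = 1 := by
    refine le_antisymm hβ1 ?_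
    by_contra hlt
    rw [not_le] at hlt
    have h2 : u = ((β : K) : PadicAlgCl p) ^ p -
        (p : PadicAlgCl p) * ((d : K) : PadicAlgCl p) := by
      rw [← heq]; ring
    have h3 : ‖((β : K) : PadicAlgCl p) ^ p‖ < 1 := by
      rw [norm_pow]
      exact pow_lt_one₀ (norm_nonneg _) hlt hp.ne_zero
    have h4 : ‖u‖ < 1 := by
      rw [h2]
      exact lt_of_le_of_lt (wgr_norm_sub_le p _ _) (max_lt h3 hpd)
    rw [hu] at h4
    exact lt_irrefl _ h4
  have hβ0 : ((β : K) : PadicAlgCl p) ≠ 0 := by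
    intro h
    rw [h, norm_zero] at hβn
    exact zero_ne_one hβn
  have hβp0 : ((β : K) : PadicAlgCl p) ^ p ≠ 0 := pow_ne_zero _ hβ0
  refine ⟨-((d : K) : PadicAlgCl p) / ((β : K) : PadicAlgCl p) ^ p,
    K.div_mem (K.neg_mem (d : K).2) (pow_mem (β : K).2 p), ((β : K) : PadicAlgCl p),
    (β : K).2, ?_, hβ0, ?_⟩
  · rw [norm_div, norm_neg, norm_pow, hβn, one_pow, div_one]
    exact hd1
  · field_simp
    linear_combination -heq

end Fermat.Agent.S59

end
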