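/-
S59, wall M5 (P-STEP), leaf BASE-P, part 9 (helper68): KUM-DESC ⇐ KUM-VAL.

`s59psb_kumDesc_of : s59psb_StmtKumVal → s59psb_StmtKumDesc`, hence
`s59psb_plev_of_val : s59psb_StmtKumVal → s59psb_StmtPLev`.

Proof: `α = y t`, `‖y‖ = 1`, `u = y^p` fixed by inertia, `t` fixed by `I ∩ G_T` (`s59psb_unit_split`).
`F = ℚ_p·ι(F₀) ⊇ T, u, t` (Krasner), `K` its maximal unramified subfield, `N = T K`:
`u ∈ K`, `t ∈ N` (`s59psb_fix_mem`), `u = (1 + p c₀) β^p` in `K` (`s59psb_unit_root`), so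
`α^p = (1 + p c₀) (β t)^p` in `N`; `N/T` is unramified: descent `TW.W.twlf_desc`.
-/
import Fermat.Agent.S59.PStep.BasePUnr
import Fermat.Agent.S59.PStep.BasePLev
import Fermat.Agent.PT.B.Krasner

set_option autoImplicit false
set_option linter.unusedSectionVars false
set_option linter.unusedVariables false
set_option linter.style.longLine false
set_option linter.style.haveILetI false

noncomputable section

namespace Fermat.Agent.S59

open Fermat.Agent.PT Fermat.Agent.PT.B Fermat.Agent.PT.L Fermat.Agent.TW.L Fermat.Agent.TW.W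

/-- **KUM-DESC from KUM-VAL.** -/
theorem s59psb_kumDesc_of (hV : s59psb_StmtKumVal) : s59psb_StmtKumDesc := by
  intro p _ hp2 T hT α hα0 hαT heq hpeu
  have hp : p.Prime := Fact.out
  haveI hTf := hT.finite
  haveI hTg := hT.galois
  haveI hTn : Normal ℚ_[p] T := hT.galois.to_normal
  obtain ⟨ζ, hζT, hζ1, hζp⟩ := hT.zeta
  obtain ⟨y, t, hy1, ht0, hαyt, hyfix, htfix⟩ :=
    s59psb_unit_split hV p hp2 T hT α hα0 hαT heq hpeu
  have hu1 : ‖y ^ p‖ = 1 := by rw [norm_pow, hy1, one_pow]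
  -- the big field
  have hiu : IsIntegral ℚ_[p] (y ^ p) :=
    (Algebra.IsAlgebraic.isAlgebraic (R := ℚ_[p]) (y ^ p)).isIntegral
  have hit : IsIntegral ℚ_[p] t := (Algebra.IsAlgebraic.isAlgebraic (R := ℚ_[p]) t).isIntegral
  haveI h1 : FiniteDimensional ℚ_[p] (IntermediateField.adjoin ℚ_[p] {y ^ p}) :=
    IntermediateField.adjoin.finiteDimensional hiu
  haveI h2 : FiniteDimensional ℚ_[p] (IntermediateField.adjoin ℚ_[p] {t}) :=
    IntermediateField.adjoin.finiteDimensional hit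
  haveI h3 : FiniteDimensional ℚ_[p] ↥(T ⊔ IntermediateField.adjoin ℚ_[p] {y ^ p}) :=
    IntermediateField.finiteDimensional_sup T _
  haveI h4 : FiniteDimensional ℚ_[p]
      ↥(T ⊔ IntermediateField.adjoin ℚ_[p] {y ^ p} ⊔ IntermediateField.adjoin ℚ_[p] {t}) :=
    IntermediateField.finiteDimensional_sup _ _
  obtain ⟨F₀, hF₀, hgal, hle⟩ := stmtKrasner p
    (T ⊔ IntermediateField.adjoin ℚ_[p] {y ^ p} ⊔ IntermediateField.adjoin ℚ_[p] {t}) h4
  haveI hfin : FiniteDimensional ℚ_[p] (localField p F₀) := stmtLocalFinite p F₀ hF₀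
  haveI hnor : (localField p F₀).fixingSubgroup.Normal := lex_normal p F₀ hgal
  haveI hG : IsGalois ℚ_[p] (localField p F₀) :=
    (InfiniteGalois.normal_iff_isGalois (localField p F₀)).1 inferInstance
  haveI hFn : Normal ℚ_[p] (localField p F₀) := hG.to_normal
  have hTF : T ≤ localField p F₀ := le_trans (le_trans le_sup_left le_sup_left) hle
  have huF : y ^ p ∈ localField p F₀ :=
    hle ((le_trans le_sup_right le_sup_left :
      IntermediateField.adjoin ℚ_[p] {y ^ p} ≤ _) (IntermediateField.mem_adjoin_simple_self ℚ_[p] _))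
  have htF : t ∈ localField p F₀ :=
    hle ((le_sup_right : IntermediateField.adjoin ℚ_[p] {t} ≤ _)
      (IntermediateField.mem_adjoin_simple_self ℚ_[p] _))
  -- the maximal unramified subfield
  obtain ⟨K, hKF, hKn, hKu, ⟨πF, hπF, hπFK⟩, -⟩ := stmtLvtInertia p (localField p F₀) hfin hFn
  haveI := hKn
  haveI hKf : FiniteDimensional ℚ_[p] K :=
    FiniteDimensional.of_injective (IntermediateField.inclusion hKF).toLinearMap
      (IntermediateField.inclusion_injective hKF)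
  have huK : y ^ p ∈ K := s59psb_fix_mem p F₀ hF₀ hgal K hKF _ πF hKu hπF hπFK (y ^ p) huF
    (fun τ hτ _ => hyfix τ hτ)
  obtain ⟨c₀, hc₀K, β, hβK, hc₀1, hβ0, hu⟩ := s59psb_unit_root p K hKu (y ^ p) huK hu1
  -- the field `N = T K`
  have hNF : T ⊔ K ≤ localField p F₀ := sup_le hTF hKF
  haveI hNn : Normal ℚ_[p] ↥(T ⊔ K) := IntermediateField.normal_sup ℚ_[p] (PadicAlgCl p) T K
  haveI hNf : FiniteDimensional ℚ_[p] ↥(T ⊔ K) := IntermediateField.finiteDimensional_sup T K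
  obtain ⟨πN, hπN, hπNK⟩ := stmtLvtMid p K (T ⊔ K) (localField p F₀) le_sup_right hNF hfin hNn hFn
    _ πF hKu hπF hπFK
  have htN : t ∈ T ⊔ K := s59psb_fix_mem p F₀ hF₀ hgal (T ⊔ K) hNF πN πF hπN hπF
    (hπFK.trans hπNK.symm) t htF
    (fun τ hτ hτN => htfix τ hτ (IntermediateField.fixingSubgroup_antitone le_sup_left hτN))
  -- descent
  obtain ⟨π, hπT, hπTN⟩ := stmtLvtUnr p T K hTf hTn hKf hKn hKu
  letI aTN := twlaAlg p (le_sup_left : T ≤ T ⊔ K)
  haveI := twla_tower p (le_sup_left : T ≤ T ⊔ K)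
  haveI : FiniteDimensional T ↥(T ⊔ K) := FiniteDimensional.right ℚ_[p] T _
  have hu0 : α ^ p ≠ 0 := pow_ne_zero _ hα0
  have hc₀N : c₀ ∈ T ⊔ K := (le_sup_right : K ≤ T ⊔ K) hc₀K
  have hβtN : β * t ∈ T ⊔ K := mul_mem ((le_sup_right : K ≤ T ⊔ K) hβK) htN
  have hc' : IsInt p (⟨c₀, hc₀N⟩ : ↥(T ⊔ K)) :=
    (wgr_norm_le_one_iff p (T ⊔ K) ⟨c₀, hc₀N⟩).1 hc₀1
  have ht' : (⟨β * t, hβtN⟩ : ↥(T ⊔ K)) ≠ 0 := fun h =>
    mul_ne_zero hβ0 ht0 (congrArg Subtype.val h)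
  have hu' : algebraMap T ↥(T ⊔ K) ⟨α ^ p, hαT⟩ =
      (1 + ((p : ℕ) : ↥(T ⊔ K)) * (⟨c₀, hc₀N⟩ : ↥(T ⊔ K))) *
        (⟨β * t, hβtN⟩ : ↥(T ⊔ K)) ^ p := by
    apply Subtype.ext
    show α ^ p = (1 + (p : PadicAlgCl p) * c₀) * (β * t) ^ p
    rw [hαyt, mul_pow, hu]
    ring
  obtain ⟨c, s, hc, hs, hcs⟩ := twlf_desc p hp2 (T := T) (T' := ↥(T ⊔ K)) (ζ := ⟨ζ, hζT⟩)
    hπT hπTN (fun h => hζ1 (congrArg Subtype.val h)) (Subtype.ext hζp)
    ⟨α ^ p, hαT⟩ (fun h => hu0 (congrArg Subtype.val h)) ⟨_, _, hc', ht', hu'⟩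
  refine ⟨c, c.2, s, s.2, ?_, fun h => hs (Subtype.ext h), ?_⟩
  · exact (tww_pmd_mem_OV_iff p T.val c).1 hc
  · have := congrArg Subtype.val hcs
    exact this

/-- **PLEV-P from KUM-VAL.** -/
theorem s59psb_plev_of_val (hV : s59psb_StmtKumVal) : s59psb_StmtPLev :=
  s59psb_plev_of (s59psb_kumDesc_of hV)

end Fermat.Agent.S59

end
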