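/-
S59, wall M5 (P-STEP), leaf BASE-P / **S-ORD-P** (helper56).  Ledger: NOTES/S59-M5.md; shape:
`s59psb_StmtOrdPeu` (`S59/PStep/BasePAsm.lean`, helper68).

The cocycle `c` of an ORDINARY (non strict), PEU RAMIFIÉ deformation `ρ` of `ρ̄` to `k[ε]` with
cyclotomic determinant becomes, after subtracting ONE coboundary, a function of ordinary peu
ramifié shape (`S59psbShape`) on `G_p`.

Twin of `TW/S/OrdMove.lean` (`stmtOrd_of_red`) WITHOUT strictness: in the coordinates of the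
matrix form `(1 + ε c(σ)) ρ̄(σ)` the ordinary line is generated by `w = w₀ + ε w₁`, `w₀` a
generator of `L̄` (`sord_red`, valid for any ordinary line); `σ` in the decomposition group acts
on `w` through a scalar `x = x₀ + ε x₁ ∈ k[ε]` (NOT in `k`), inertia acts trivially on the
quotient.  With `Y` of trace `0`, `Y w₀ = − w₁`, and `Z = c(σ) − (σ·Y − Y)`:
* `s59psop_bor` : `Z w₀ = (x₀⁻¹ x₁) w₀`            (values in the Borel);
* `s59psop_unr` : `Z u ∈ k w₀` for `σ` in inertia    (the diagonal part is unramified);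
* (peu) `ρ σ = 1 ⇒ ρ̄ σ = 1 ∧ c σ = 0` (`stmtUnr`).
* **`s59psop_main`** : the LITERAL body of `s59psb_StmtOrdPeu`.
-/
import Fermat.Agent.S59.PStep.BasePLoc
import Fermat.Agent.TW.S.OrdMove
import Fermat.Agent.TW.S.OrdRed
import Fermat.Agent.TW.S.OrdGlue
import Fermat.Agent.TW.S.Unr

set_option autoImplicit false
set_option linter.unusedSectionVars false
set_option linter.unusedVariables false
set_option linter.style.longLine false
set_option linter.style.haveILetI false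

noncomputable section

namespace Fermat.Agent.S59

open CategoryTheory groupCohomology IsLocalRing
open Fermat.Agent.PT Fermat.Agent.PT.B Fermat.Agent.TW.L Fermat.Agent.TW.S Fermat.Agent.TW.W
  Fermat.Agent.S53 ExtCitation

section Alg

variable {k : Type} [Field k]

/-- (bor), in coordinates -/
theorem s59psop_bor (P Pinv C Y : M2 k) (hPP' : Pinv * P = 1)
    (w0 w1 : Fin 2 → k) (x0 x1 : k) (hx0 : x0 ≠ 0)
    (H1 : P.mulVec w0 = x0 • w0)
    (H2 : P.mulVec w1 + (C * P).mulVec w0 = x0 • w1 + x1 • w0)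
    (hY : Y.mulVec w0 = -w1) :
    (C - (P * Y * Pinv - Y)).mulVec w0 = (x0⁻¹ * x1) • w0 := by
  have hPinv_w0 : Pinv.mulVec w0 = x0⁻¹ • w0 := by
    have h := congrArg (fun v => Pinv.mulVec v) H1
    simp only [Matrix.mulVec_mulVec, hPP', Matrix.one_mulVec, Matrix.mulVec_smul] at h
    calc Pinv.mulVec w0 = x0⁻¹ • (x0 • Pinv.mulVec w0) := by
          rw [smul_smul, inv_mul_cancel₀ hx0, one_smul]
      _ = x0⁻¹ • w0 := by rw [← h]
  have hC_w0 : x0 • C.mulVec w0 = x0 • w1 + x1 • w0 - P.mulVec w1 := by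
    have h : (C * P).mulVec w0 = x0 • C.mulVec w0 := by
      rw [← Matrix.mulVec_mulVec, H1, Matrix.mulVec_smul]
    rw [← h, ← H2]
    abel
  have e1 : (P * Y * Pinv).mulVec w0 = -(x0⁻¹ • P.mulVec w1) := by
    rw [← Matrix.mulVec_mulVec, hPinv_w0, Matrix.mulVec_smul, ← Matrix.mulVec_mulVec, hY,
      Matrix.mulVec_neg, smul_neg]
  have e2 : C.mulVec w0 = w1 + (x0⁻¹ * x1) • w0 - x0⁻¹ • P.mulVec w1 := by
    calc C.mulVec w0 = x0⁻¹ • (x0 • C.mulVec w0) := by
          rw [smul_smul, inv_mul_cancel₀ hx0, one_smul]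
      _ = x0⁻¹ • (x0 • w1 + x1 • w0 - P.mulVec w1) := by rw [hC_w0]
      _ = w1 + (x0⁻¹ * x1) • w0 - x0⁻¹ • P.mulVec w1 := by
          rw [smul_sub, smul_add, smul_smul, smul_smul, inv_mul_cancel₀ hx0, one_smul]
  rw [Matrix.sub_mulVec, Matrix.sub_mulVec, e1, e2, hY]
  abel

/-- (unr), in coordinates -/
theorem s59psop_unr (P Pinv C Y : M2 k) (hPP : P * Pinv = 1)
    (w0 w1 : Fin 2 → k)
    (H3 : ∀ v0 : Fin 2 → k, ∃ t0 t1 : k,
      P.mulVec v0 - v0 = t0 • w0 ∧ (C * P).mulVec v0 = t0 • w1 + t1 • w0)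
    (hY : Y.mulVec w0 = -w1) :
    ∀ u : Fin 2 → k, ∃ s : k, (C - (P * Y * Pinv - Y)).mulVec u = s • w0 := by
  intro u
  obtain ⟨t0, t1, h3a, h3b⟩ := H3 (Pinv.mulVec u)
  obtain ⟨t0', -, h3a', -⟩ := H3 (Y.mulVec u)
  obtain ⟨t0'', -, h3a'', -⟩ := H3 w1
  have hPu : P.mulVec (Pinv.mulVec u) = u := by
    rw [Matrix.mulVec_mulVec, hPP, Matrix.one_mulVec]
  have hCu : C.mulVec u = t0 • w1 + t1 • w0 := by
    rw [← h3b, ← Matrix.mulVec_mulVec, hPu]
  rw [hPu] at h3a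
  have hPinv_u : Pinv.mulVec u = u - t0 • w0 := by
    rw [← h3a, sub_sub_cancel]
  have hPYu : P.mulVec (Y.mulVec u) = Y.mulVec u + t0' • w0 := by
    rw [← h3a']; abel
  have hPw1 : P.mulVec w1 = w1 + t0'' • w0 := by
    rw [← h3a'']; abel
  have e1 : (P * Y * Pinv).mulVec u =
      Y.mulVec u + t0' • w0 + t0 • w1 + (t0 * t0'') • w0 := by
    rw [← Matrix.mulVec_mulVec, hPinv_u, ← Matrix.mulVec_mulVec,
      Matrix.mulVec_sub, Matrix.mulVec_smul, hY, Matrix.mulVec_sub, Matrix.mulVec_smul,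
      Matrix.mulVec_neg, hPYu, hPw1]
    simp only [smul_add, smul_neg, smul_smul]
    abel
  refine ⟨t1 - t0' - t0 * t0'', ?_⟩
  rw [Matrix.sub_mulVec, Matrix.sub_mulVec, e1, hCu]
  simp only [sub_smul]
  abel

end Alg

section Parts

variable {𝒪 : Type} [CommRing 𝒪] [IsLocalRing 𝒪] (p : ℕ) [Fact p.Prime]
  [CharP (ResidueField 𝒪) p] {ρbar : ResidualGaloisRep (ResidueField 𝒪)}
  (D : RigidDatum 𝒪 ρbar)

/-- the coordinate identities for an element stabilising the line -/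
theorem s59psop_parts_bor (c : GQ → (adRep p ρbar).V) (σ : GQ)
    (w0 w1 : Fin 2 → ResidueField 𝒪) (x : DualNumber (ResidueField 𝒪))
    (hw : (liftMat p D c σ).mulVec (sordVec w0 w1) = x • sordVec w0 w1) :
    (D.ρm σ).mulVec w0 = x.fst • w0 ∧
    (D.ρm σ).mulVec w1 + (adMat p D (c σ) * D.ρm σ).mulVec w0 = x.fst • w1 + x.snd • w0 := by
  refine ⟨?_, ?_⟩
  · funext i
    have h := congrArg TrivSqZeroExt.fst (congrFun hw i)
    rw [sordm_fst_mulVec, dnFst_liftMat] at h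
    simpa [sordm_vec_fst, sordm_vec_snd] using h
  · funext i
    have h := congrArg TrivSqZeroExt.snd (congrFun hw i)
    rw [sordm_snd_mulVec, dnFst_liftMat, dnSnd_liftMat] at h
    simp only [Pi.smul_apply, smul_eq_mul, TrivSqZeroExt.snd_mul, sordm_vec_fst, sordm_vec_snd,
      MulOpposite.smul_eq_mul_unop, MulOpposite.unop_op] at h
    rw [Pi.add_apply, Pi.add_apply, Pi.smul_apply, Pi.smul_apply, smul_eq_mul, smul_eq_mul]
    exact h

/-- the coordinate identities for an element acting trivially on the quotient -/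
theorem s59psop_parts_unr (c : GQ → (adRep p ρbar).V) (σ : GQ)
    (w0 w1 : Fin 2 → ResidueField 𝒪)
    (hv : ∀ v : Fin 2 → DualNumber (ResidueField 𝒪), ∃ t : DualNumber (ResidueField 𝒪),
      (liftMat p D c σ).mulVec v - v = t • sordVec w0 w1) :
    ∀ v0 : Fin 2 → ResidueField 𝒪, ∃ t0 t1 : ResidueField 𝒪,
      (D.ρm σ).mulVec v0 - v0 = t0 • w0 ∧
        (adMat p D (c σ) * D.ρm σ).mulVec v0 = t0 • w1 + t1 • w0 := by
  intro v0
  obtain ⟨t, ht⟩ := hv (fun j => TrivSqZeroExt.inl (v0 j))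
  refine ⟨t.fst, t.snd, ?_, ?_⟩
  · funext i
    have h := congrArg TrivSqZeroExt.fst (congrFun ht i)
    rw [Pi.sub_apply, TrivSqZeroExt.fst_sub, sordm_fst_mulVec, dnFst_liftMat] at h
    simpa [sordm_vec_fst, sordm_vec_snd] using h
  · funext i
    have h := congrArg TrivSqZeroExt.snd (congrFun ht i)
    rw [Pi.sub_apply, TrivSqZeroExt.snd_sub, sordm_snd_mulVec, dnFst_liftMat,
      dnSnd_liftMat] at h
    simp only [TrivSqZeroExt.snd_inl, Pi.smul_apply, smul_eq_mul, TrivSqZeroExt.snd_mul,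
      TrivSqZeroExt.fst_inl, MulOpposite.smul_eq_mul_unop,
      MulOpposite.unop_op, sub_zero, sordm_vec_fst, sordm_vec_snd] at h
    have h0 : (D.ρm σ).mulVec (fun _ : Fin 2 => (0 : ResidueField 𝒪)) i = 0 := by
      simp [Matrix.mulVec, dotProduct]
    rw [h0, zero_add] at h
    rw [h]
    simp only [Pi.add_apply, Pi.smul_apply, smul_eq_mul]

end Parts

/-- **S-ORD-P** (the literal body of `s59psb_StmtOrdPeu`): the cocycle of an ordinary, peu
ramifié deformation of `ρ̄` to `k[ε]` with cyclotomic determinant becomes, after subtracting ONE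
coboundary, a function of ordinary peu ramifié shape on `G_p`. -/
theorem s59psop_main :
    ∀ (𝒪 : Type) [CommRing 𝒪] [IsLocalRing 𝒪] (p : ℕ) [Fact p.Prime]
    [CharP (ResidueField 𝒪) p]
    (ρbar : ResidualGaloisRep (ResidueField 𝒪)) (D : RigidDatum 𝒪 ρbar)
    (ρ : GaloisRepAdic (DualNumber (ResidueField 𝒪))) (c : cocycles₁ (ad0Rep p ρbar))
    (Lbar : Submodule (ResidueField 𝒪) ρbar.V), p ≠ 2 →
    IsCocOf p D ρ (fun σ => (ad0Incl p ρbar).hom ((c : GQ → (ad0Rep p ρbar).V) σ)) →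
    ρ.DetIsCyclotomic p → ρ.IsOrdinaryAt p → s59psPeuTriv ρ p → IsOrdLine p ρbar Lbar →
    ∃ x : (ad0Rep p ρbar).V, S59psbShape p ρbar Lbar
      (fun τ : GQq p => (c : GQ → (ad0Rep p ρbar).V) (localGaloisToGlobal p τ) -
        ((ad0Rep p ρbar).ρ (localGaloisToGlobal p τ) x - x)) := by
  intro 𝒪 _ _ p _ _ ρbar D ρ c Lbar hp2 hcoc hdet hord hpeu hLbar
  obtain ⟨e, he⟩ := isCocOf_conj p D hcoc
  obtain ⟨L, ⟨b, hL⟩, hD, hI⟩ := hord (padicPlace p) (lfrobex_liesOverPrime p)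
  obtain ⟨hne, hmem⟩ := sord_red 𝒪 p ρbar D ρ
    (fun σ => (ad0Incl p ρbar).hom ((c : GQ → (ad0Rep p ρbar).V) σ)) Lbar hp2 hdet hLbar e he
    L b hL hD hI
  have hb0 : b 0 ∈ L := by rw [hL]; exact Submodule.mem_span_singleton_self _
  obtain ⟨w0, hw0def⟩ : ∃ w0 : Fin 2 → ResidueField 𝒪, w0 = fun i => (e (b 0) i).fst := ⟨_, rfl⟩
  obtain ⟨w1, hw1def⟩ : ∃ w1 : Fin 2 → ResidueField 𝒪, w1 = fun i => (e (b 0) i).snd := ⟨_, rfl⟩
  have hw : sordVec w0 w1 = e (b 0) := by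
    rw [hw0def, hw1def]
    exact sordVec_fst_snd _
  have hred : sordRed D (e (b 0)) = D.b.equivFun.symm w0 := by
    rw [sordRed_eq, hw0def]
  rw [hred] at hne hmem
  have hw0 : w0 ≠ 0 := by
    intro h
    apply hne
    rw [h, map_zero]
  obtain ⟨Y, hYtr, hYw⟩ := sordm_exists_Y w0 (-w1) hw0
  obtain ⟨y, hy, hyM⟩ := sordm_exists_ad0 p D Y hYtr
  refine ⟨y, ?_⟩
  -- the matrix of the value
  have hmat : ∀ σ : GQ, LinearMap.toMatrix D.b D.b (ad0Val p ρbar
      ((c : GQ → (ad0Rep p ρbar).V) σ - ((ad0Rep p ρbar).ρ σ y - y))) =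
      adMat p D ((ad0Incl p ρbar).hom ((c : GQ → (ad0Rep p ρbar).V) σ)) -
        (D.ρm σ * Y * D.ρm σ⁻¹ - Y) := by
    intro σ
    simp only [map_sub]
    rw [ad0Val_ρ, LinearMap.toMatrix_mul,
      LinearMap.toMatrix_mul, toMatrix_rho, toMatrix_rho, hy, LinearMap.toMatrix_toLin]
    rfl
  have hval : ∀ (σ : GQ) (v : ρbar.V), ad0Val p ρbar
      ((c : GQ → (ad0Rep p ρbar).V) σ - ((ad0Rep p ρbar).ρ σ y - y)) v =
      D.b.equivFun.symm
        ((adMat p D ((ad0Incl p ρbar).hom ((c : GQ → (ad0Rep p ρbar).V) σ)) -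
          (D.ρm σ * Y * D.ρm σ⁻¹ - Y)).mulVec (D.b.repr v)) := by
    intro σ v
    rw [← hmat σ, Module.Basis.equivFun_symm_apply, ← Matrix.toLin_apply,
      Matrix.toLin_toMatrix]
  refine ⟨fun τ v hvL => ?_, fun τ hτ v => ?_, fun τ hτ => ?_⟩
  · -- (bor)
    have hσD : localGaloisToGlobal p τ ∈ (padicPlace p).decompositionSubgroup ℚ :=
      localGaloisToGlobal_mem_decompositionSubgroup p τ
    obtain ⟨σ, hσdef⟩ : ∃ σ : GQ, σ = localGaloisToGlobal p τ := ⟨_, rfl⟩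
    rw [← hσdef] at hσD
    show ad0Val p ρbar ((c : GQ → (ad0Rep p ρbar).V) (localGaloisToGlobal p τ) -
      ((ad0Rep p ρbar).ρ (localGaloisToGlobal p τ) y - y)) v ∈ Lbar
    rw [← hσdef, hval σ v]
    have h1 := hD σ hσD (b 0) hb0
    rw [hL, Submodule.mem_span_singleton] at h1
    obtain ⟨x, hx⟩ := h1
    have hwx : (liftMat p D (fun σ => (ad0Incl p ρbar).hom
        ((c : GQ → (ad0Rep p ρbar).V) σ)) σ).mulVec (sordVec w0 w1) = x • sordVec w0 w1 := by
      rw [hw, ← sord_glue_conj p D e he, ← hx, map_smul]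
    obtain ⟨H1, H2⟩ := s59psop_parts_bor p D _ σ w0 w1 x hwx
    have hx0 : x.fst ≠ 0 := by
      intro h0
      apply hw0
      rw [h0, zero_smul] at H1
      have h2 := congrArg (fun u => (D.ρm σ⁻¹).mulVec u) H1
      simp only [Matrix.mulVec_mulVec, rhom_inv_mul, Matrix.one_mulVec, Matrix.mulVec_zero]
        at h2
      exact h2
    have hB := s59psop_bor (D.ρm σ) (D.ρm σ⁻¹)
      (adMat p D ((ad0Incl p ρbar).hom ((c : GQ → (ad0Rep p ρbar).V) σ))) Y
      (rhom_inv_mul D σ) w0 w1 x.fst x.snd hx0 H1 H2 hYw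
    -- `v` is a multiple of the generator
    have hfr : Module.finrank (ResidueField 𝒪) Lbar = 1 := hLbar.1
    obtain ⟨a, ha⟩ := (finrank_eq_one_iff_of_nonzero' (⟨D.b.equivFun.symm w0, hmem⟩ : Lbar)
      (fun h => hne (congrArg Subtype.val h))).mp hfr ⟨v, hvL⟩
    have ha' : v = a • D.b.equivFun.symm w0 := by
      have := congrArg Subtype.val ha
      simpa using this.symm
    have hrepr : (D.b.repr v : Fin 2 → ResidueField 𝒪) = a • w0 := by
      rw [ha']
      have : D.b.equivFun (a • D.b.equivFun.symm w0) = a • w0 := by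
        rw [map_smul, LinearEquiv.apply_symm_apply]
      exact this
    rw [hrepr, Matrix.mulVec_smul, hB, map_smul, map_smul]
    exact Lbar.smul_mem _ (Lbar.smul_mem _ hmem)
  · -- (unr)
    have hσI : localGaloisToGlobal p τ ∈ (padicPlace p).inertiaSubgroupIn ℚ :=
      (mem_inertiaQ p τ).1 hτ
    obtain ⟨σ, hσdef⟩ : ∃ σ : GQ, σ = localGaloisToGlobal p τ := ⟨_, rfl⟩
    rw [← hσdef] at hσI
    show ad0Val p ρbar ((c : GQ → (ad0Rep p ρbar).V) (localGaloisToGlobal p τ) -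
      ((ad0Rep p ρbar).ρ (localGaloisToGlobal p τ) y - y)) v ∈ Lbar
    rw [← hσdef, hval σ v]
    have hv : ∀ u : Fin 2 → DualNumber (ResidueField 𝒪), ∃ t : DualNumber (ResidueField 𝒪),
        (liftMat p D (fun σ => (ad0Incl p ρbar).hom
          ((c : GQ → (ad0Rep p ρbar).V) σ)) σ).mulVec u - u = t • sordVec w0 w1 := by
      intro u
      have h1 := hI σ hσI (e.symm u)
      rw [hL, Submodule.mem_span_singleton] at h1
      obtain ⟨t, ht⟩ := h1
      refine ⟨t, ?_⟩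
      have h2 := congrArg e ht
      rw [map_smul, map_sub, sord_glue_conj p D e he, LinearEquiv.apply_symm_apply] at h2
      rw [hw]
      exact h2.symm
    have H3 := s59psop_parts_unr p D _ σ w0 w1 hv
    obtain ⟨s, hs⟩ := s59psop_unr (D.ρm σ) (D.ρm σ⁻¹)
      (adMat p D ((ad0Incl p ρbar).hom ((c : GQ → (ad0Rep p ρbar).V) σ))) Y
      (rhom_mul_inv D σ) w0 w1 H3 hYw (D.b.repr v)
    rw [hs, map_smul]
    exact Lbar.smul_mem _ hmem
  · -- (peu)
    have hσP : localGaloisToGlobal p τ ∈ s59psPeu (padicPlace p) p :=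
      (s59psb_mem_peuQ p τ).1 hτ
    obtain ⟨σ, hσdef⟩ : ∃ σ : GQ, σ = localGaloisToGlobal p τ := ⟨_, rfl⟩
    rw [← hσdef] at hσP
    show (c : GQ → (ad0Rep p ρbar).V) (localGaloisToGlobal p τ) -
      ((ad0Rep p ρbar).ρ (localGaloisToGlobal p τ) y - y) = 0
    rw [← hσdef]
    have h1 : ρ.ρ σ = 1 := hpeu σ ⟨padicPlace p, lfrobex_liesOverPrime p, hσP⟩
    obtain ⟨hr1, hc0⟩ := stmtUnr 𝒪 p ρbar D ρ _ hcoc σ h1
    have hr1' : ρbar.ρ σ⁻¹ = 1 := by
      have h := map_mul ρbar.ρ σ⁻¹ σ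
      rw [inv_mul_cancel, map_one, hr1, mul_one] at h
      exact h.symm
    apply ad0Val_injective p ρbar
    rw [map_sub, map_sub, ad0Val_ρ, hr1, hr1', one_mul, mul_one, sub_self, sub_zero, map_zero]
    have h2 : adVal p ρbar ((ad0Incl p ρbar).hom ((c : GQ → (ad0Rep p ρbar).V) σ)) = 0 := by
      have h3 : (ad0Incl p ρbar).hom ((c : GQ → (ad0Rep p ρbar).V) σ) = 0 := hc0
      rw [h3, map_zero]
    exact h2

end Fermat.Agent.S59
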