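/-
S59, wall M5 (P-STEP), leaf BASE-P, part 10 (helper68): BASE-P ⇐ KUM-VAL.

`s59psb_twp_of_val : s59psb_StmtKumVal → (S56-twin for s59psCond 𝒪 p Smin Q)`:
the Taylor–Wiles primes for the non-strict ordinary, peu ramifié conditions, from
* PLEV-P ⇐ KUM-VAL   (`s59psb_plev_of_val`, BasePDesc.lean),
* S-ORD-P            (`s59psop_main`, helper56, OrdPeu.lean).
The only leaf left is KUM-VAL (`s59psb_StmtKumVal`, BasePVal.lean).
-/
import Fermat.Agent.S59.PStep.BasePDesc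
import Fermat.Agent.S59.PStep.OrdPeu

set_option autoImplicit false
set_option linter.unusedSectionVars false
set_option linter.unusedVariables false
set_option linter.style.longLine false
set_option linter.style.haveILetI false

noncomputable section

namespace Fermat.Agent.S59

open CategoryTheory groupCohomology IsLocalRing Module Polynomial
open Fermat.Agent.PT Fermat.Agent.PT.B Fermat.Agent.TW Fermat.Agent.TW.L Fermat.Agent.TW.S
  Fermat.Agent.TW.W Fermat.Agent.TW.Core Fermat.Agent.S53 ExtCitation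

/-- **S-ORD-P** (helper56). -/
theorem s59psb_ordPeu : s59psb_StmtOrdPeu := s59psop_main

variable {𝒪 : Type} [CommRing 𝒪] [IsDomain 𝒪] [IsDiscreteValuationRing 𝒪]
  [IsAdicComplete (maximalIdeal 𝒪) 𝒪] [Finite (ResidueField 𝒪)]

/-- **BASE-P from KUM-VAL**: Taylor–Wiles primes for `s59psCond 𝒪 p Smin Q`. -/
theorem s59psb_twp_of_val (hV : s59psb_StmtKumVal)
    (p : ℕ) [Fact p.Prime] (ρbar : ResidualGaloisRep (ResidueField 𝒪)) (S Smin : Finset ℕ)
    (hyp : TWHyp 𝒪 p ρbar S Smin) :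
    ∃ r : ℕ, ∀ n : ℕ, ∃ qv : Fin r → ℕ, Function.Injective qv ∧
      (∀ i, (qv i).Prime ∧ qv i ∉ S ∧ p ^ (n + 1) ∣ qv i - 1) ∧
      (∀ i, ∀ P : ValuationSubring (AlgebraicClosure ℚ), P.LiesOverPrime (qv i) →
        ∀ φ : AlgebraicClosure ℚ ≃ₐ[ℚ] AlgebraicClosure ℚ, P.IsFrobeniusAt φ (qv i) →
          ∃ α β : ResidueField 𝒪, α ≠ β ∧
            LinearMap.charpoly (ρbar.ρ φ) = (X - C α) * (X - C β)) ∧
      ∀ DQ : GaloisRep.DeformationRingData 𝒪 ρbar (s59psCond 𝒪 p Smin (Finset.univ.image qv)),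
        ∃ γ : MvPowerSeries (Fin r) 𝒪 →ₐ[𝒪] DQ.R, Function.Surjective γ :=
  s59psb_twp (s59psb_plev_of_val hV) s59psb_ordPeu p ρbar S Smin hyp

end Fermat.Agent.S59

end
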