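/-
S59, wall M5 (P-STEP), leaf BASE-P / KUM-DESC, step C = **KUM-VAL** (helper56).

`s59pskv_main : s59psb_StmtKumVal` : `T` good, `y ≠ 0`, `y^p` fixed by inertia, `y` fixed by the
peu ramifié subgroup `H ∩ G_T`  ⇒  `‖y‖ ∈ p^ℤ`.

Proof.  `‖y‖^p = p^m'` (`TW.W.wgr_unr`).  If `p ∤ m'`, Bezout gives `z = y^(-b) p^a` with
`‖z‖^p = ‖p‖`; with `Π = ι π₀`, `π₀^p = p`, the element `w = z / Π` has norm `1` and `w^p` is fixed
by inertia.
* `s59pskv_locpeu` (LOC-PEU): the local peu ramifié subgroup fixes every such `w`: by TEICH twice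
  (`R38.stmtEPTeich`) `w^p = ι g₀ · (1 + p y')`, `g₀` a global inertia-fixed unit, `y'` inertia-fixed
  with `‖y'‖ ≤ ‖p‖`; a `p`-th root of `g₀` is fixed by definition of `s59psPeu`, a `p`-th root of
  `1 + p y'` is fixed by ROOT (`R38.stmtEPRoot`).
* `s59pskv_pow_mem` : `σ^d ∈ G_T`, `d = [T : ℚ_p]`.
* TRES-∞ (helper30's `s59lppi_tres`): some `t ∈ s59psPeu` moves `π₀`: `t π₀ = ξ π₀`, `ξ ≠ 1`; then
  `t^d ∈ H ∩ G_T` fixes `y`, `z`, `w`, hence `Π`, so `ξ^d = 1`, `ξ^p = 1`, `p ∤ d`: contradiction.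
-/
import Fermat.Agent.S59.PStep.BasePVal
import Fermat.Agent.S59.LowP.PeuInf
import Fermat.Agent.R38.EPTeich
import Fermat.Agent.R38.EPRoot
import Fermat.Agent.TW.W.GrUnr
import Fermat.Agent.TW.L.DecFull

set_option autoImplicit false
set_option linter.unusedSectionVars false
set_option linter.unusedVariables false
set_option linter.style.longLine false
set_option linter.style.haveILetI false

noncomputable section

namespace Fermat.Agent.S59

open Polynomial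
open Fermat.Agent.PT Fermat.Agent.PT.B Fermat.Agent.TW.L Fermat.Agent.TW.W Fermat.Agent.R38

section KumVal

variable (p : ℕ) [Fact p.Prime]

/-- `‖1 + z‖ = 1` for `‖z‖ < 1` -/
theorem s59pskv_norm_one_add {z : PadicAlgCl p} (hz : ‖z‖ < 1) : ‖1 + z‖ = 1 := by
  apply le_antisymm
  · have h := wgr_norm_add_le p 1 z
    rw [norm_one] at h
    exact h.trans (max_le le_rfl hz.le)
  · by_contra h
    have h' : ‖1 + z‖ < 1 := not_le.1 h
    have h1 : (1 : PadicAlgCl p) = (1 + z) - z := by ring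
    have h2 := wgr_norm_sub_le p (1 + z) z
    rw [← h1, norm_one] at h2
    exact absurd h2 (not_le.2 (max_lt h' hz))

/-- an inertia-fixed element of norm `< 1` has norm `≤ ‖p‖` -/
theorem s59pskv_small {x : PadicAlgCl p} (hx : ∀ τ ∈ inertiaQ p, τ x = x) (hx1 : ‖x‖ < 1) :
    ‖x‖ ≤ ‖(p : PadicAlgCl p)‖ := by
  rcases eq_or_ne x 0 with rfl | hx0
  · rw [norm_zero]
    exact norm_nonneg _
  obtain ⟨m, hm⟩ := wgr_unr p hx0 hx
  have hp1 : (1 : ℝ) < p := by exact_mod_cast (Fact.out : p.Prime).one_lt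
  rw [s59psb_norm_p, hm]
  rw [hm] at hx1
  have hm0 : m < 0 := by
    by_contra h
    have h' : 0 ≤ m := not_lt.1 h
    have := one_le_zpow₀ hp1.le h'
    linarith
  have hm1 : m ≤ -1 := by omega
  calc (p : ℝ) ^ m ≤ (p : ℝ) ^ (-1 : ℤ) := zpow_le_zpow_right₀ hp1.le hm1
    _ = (p : ℝ)⁻¹ := zpow_neg_one _

/-- a global element fixed by the global inertia group is fixed by the local one -/
theorem s59pskv_fix_emb {b₀ : AlgebraicClosure ℚ}
    (hb : ∀ g ∈ (padicPlace p).inertiaSubgroupIn ℚ, g b₀ = b₀)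
    (τ : GQq p) (hτ : τ ∈ inertiaQ p) : τ (padicEmbedding p b₀) = padicEmbedding p b₀ := by
  rw [← padicEmbedding_localGaloisToGlobal, hb _ ((mem_inertiaQ p τ).1 hτ)]

/-- **TEICH at depth one**: an inertia-fixed unit `u` is `ι b₀ · (1 + p c)` with `b₀` a global
inertia-fixed unit and `c` integral, inertia-fixed. -/
theorem s59pskv_teich_one {u : PadicAlgCl p} (hu1 : ‖u‖ = 1)
    (huI : ∀ τ ∈ inertiaQ p, τ u = u) :
    ∃ (b₀ : AlgebraicClosure ℚ) (c : PadicAlgCl p), ‖padicEmbedding p b₀‖ = 1 ∧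
      (∀ g ∈ (padicPlace p).inertiaSubgroupIn ℚ, g b₀ = b₀) ∧ ‖c‖ ≤ 1 ∧
      (∀ τ ∈ inertiaQ p, τ c = c) ∧
      u = padicEmbedding p b₀ * (1 + (p : PadicAlgCl p) * c) := by
  have hpp : p.Prime := Fact.out
  obtain ⟨b₀, hb₀n, hb₀I, hb₀c⟩ := stmtEPTeich p u hu1.le
  have hB1 : ‖padicEmbedding p b₀‖ = 1 := by
    apply le_antisymm hb₀n
    by_contra h
    have h' : ‖padicEmbedding p b₀‖ < 1 := not_le.1 h
    have h1 : u = (u - padicEmbedding p b₀) + padicEmbedding p b₀ := by ring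
    have h2 := wgr_norm_add_le p (u - padicEmbedding p b₀) (padicEmbedding p b₀)
    rw [← h1, hu1] at h2
    exact absurd h2 (not_le.2 (max_lt hb₀c h'))
  have hB0 : padicEmbedding p b₀ ≠ 0 := by
    intro h
    rw [h, norm_zero] at hB1
    exact zero_ne_one hB1
  have hpn : ‖(p : PadicAlgCl p)‖ = (p : ℝ)⁻¹ := s59psb_norm_p p
  have hpR : (0 : ℝ) < (p : ℝ) := by exact_mod_cast hpp.pos
  have hp0 : (p : PadicAlgCl p) ≠ 0 := by
    intro h
    rw [h, norm_zero] at hpn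
    have := inv_pos.2 hpR
    linarith
  have hBI : ∀ τ ∈ inertiaQ p, τ (padicEmbedding p b₀) = padicEmbedding p b₀ :=
    fun τ hτ => s59pskv_fix_emb p hb₀I τ hτ
  have hx1I : ∀ τ ∈ inertiaQ p, τ (u - padicEmbedding p b₀) = u - padicEmbedding p b₀ := by
    intro τ hτ
    rw [map_sub, huI τ hτ, hBI τ hτ]
  have hx1 := s59pskv_small p hx1I hb₀c
  refine ⟨b₀, (u - padicEmbedding p b₀) / ((p : PadicAlgCl p) * padicEmbedding p b₀), hB1, hb₀I,
    ?_, ?_, ?_⟩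
  · rw [norm_div, norm_mul, hB1, mul_one]
    exact div_le_one_of_le₀ hx1 (norm_nonneg _)
  · intro τ hτ
    rw [map_div₀, hx1I τ hτ, map_mul, map_natCast, hBI τ hτ]
  · field_simp
    ring

/-- **LOC-PEU**: the local peu ramifié subgroup fixes the `p`-th roots of the inertia-fixed units
of `ℚ̄_p`. -/
theorem s59pskv_locpeu {ζ : PadicAlgCl p} (hζ1 : ζ ≠ 1) (hζp : ζ ^ p = 1)
    {σ : GQq p} (hσ : σ ∈ s59psbPeuQ p)
    {w : PadicAlgCl p} (hw1 : ‖w‖ = 1) (hwI : ∀ τ ∈ inertiaQ p, τ (w ^ p) = w ^ p) :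
    σ w = w := by
  have hpp : p.Prime := Fact.out
  have hσP : localGaloisToGlobal p σ ∈ s59psPeu (padicPlace p) p := (s59psb_mem_peuQ p σ).1 hσ
  have hσI : σ ∈ inertiaQ p := s59psb_peuQ_le p hσ
  have hpn : ‖(p : PadicAlgCl p)‖ = (p : ℝ)⁻¹ := s59psb_norm_p p
  have hpR : (1 : ℝ) < (p : ℝ) := by exact_mod_cast hpp.one_lt
  have hnp : ‖(p : PadicAlgCl p)‖ < 1 := by
    rw [hpn]
    exact inv_lt_one_of_one_lt₀ hpR
  have hp0 : (p : PadicAlgCl p) ≠ 0 := by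
    intro h
    rw [h, norm_zero] at hpn
    have := inv_pos.2 (lt_trans zero_lt_one hpR)
    linarith
  have hu1 : ‖w ^ p‖ = 1 := by rw [norm_pow, hw1, one_pow]
  -- TEICH, twice
  obtain ⟨b₀, c, hB1, hb₀I, hc1, hcI, hu⟩ := s59pskv_teich_one p hu1 hwI
  obtain ⟨c₀, hc₀n, hc₀I, hc₀c⟩ := stmtEPTeich p c hc1
  have hCI : ∀ τ ∈ inertiaQ p, τ (padicEmbedding p c₀) = padicEmbedding p c₀ :=
    fun τ hτ => s59pskv_fix_emb p hc₀I τ hτ
  have hx2I : ∀ τ ∈ inertiaQ p, τ (c - padicEmbedding p c₀) = c - padicEmbedding p c₀ := by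
    intro τ hτ
    rw [map_sub, hcI τ hτ, hCI τ hτ]
  have hx2 := s59pskv_small p hx2I hc₀c
  -- the global unit
  have hpC : ‖(p : PadicAlgCl p) * padicEmbedding p c₀‖ < 1 := by
    rw [norm_mul]
    calc ‖(p : PadicAlgCl p)‖ * ‖padicEmbedding p c₀‖ ≤ ‖(p : PadicAlgCl p)‖ * 1 :=
          mul_le_mul_of_nonneg_left hc₀n (norm_nonneg _)
      _ < 1 := by rw [mul_one]; exact hnp
  have hD1 : ‖1 + (p : PadicAlgCl p) * padicEmbedding p c₀‖ = 1 := s59pskv_norm_one_add p hpC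
  have hD0 : 1 + (p : PadicAlgCl p) * padicEmbedding p c₀ ≠ 0 := by
    intro h
    rw [h, norm_zero] at hD1
    exact zero_ne_one hD1
  obtain ⟨g₀, hg₀def⟩ : ∃ g₀ : AlgebraicClosure ℚ, g₀ = b₀ * (1 + (p : AlgebraicClosure ℚ) * c₀) :=
    ⟨_, rfl⟩
  have hG : padicEmbedding p g₀ =
      padicEmbedding p b₀ * (1 + (p : PadicAlgCl p) * padicEmbedding p c₀) := by
    rw [hg₀def, map_mul, map_add, map_one, map_mul, map_natCast]
  have hG1 : ‖padicEmbedding p g₀‖ = 1 := by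
    rw [hG, norm_mul, hB1, hD1, one_mul]
  have hG0 : padicEmbedding p g₀ ≠ 0 := by
    intro h
    rw [h, norm_zero] at hG1
    exact zero_ne_one hG1
  have hg₀I : ∀ g ∈ (padicPlace p).inertiaSubgroupIn ℚ, g g₀ = g₀ := by
    intro g hg
    rw [hg₀def, map_mul, map_add, map_one, map_mul, map_natCast, hb₀I g hg, hc₀I g hg]
  have hg₀P : g₀ ∈ padicPlace p := (wgr_mem_padicPlace_iff p g₀).2 hG1.le
  have hg₀P' : g₀⁻¹ ∈ padicPlace p := by
    rw [wgr_mem_padicPlace_iff, map_inv₀, norm_inv, hG1, inv_one]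
  -- the small part
  obtain ⟨y', hy'def⟩ : ∃ y' : PadicAlgCl p,
      y' = (c - padicEmbedding p c₀) / (1 + (p : PadicAlgCl p) * padicEmbedding p c₀) := ⟨_, rfl⟩
  have hy'n : ‖y'‖ ≤ ‖(p : PadicAlgCl p)‖ := by
    rw [hy'def, norm_div, hD1, div_one]
    exact hx2
  have hy'I : ∀ τ ∈ inertiaQ p, τ y' = y' := by
    intro τ hτ
    rw [hy'def, map_div₀, hx2I τ hτ, map_add, map_one, map_mul, map_natCast, hCI τ hτ]
  have hsplit : w ^ p = padicEmbedding p g₀ * (1 + (p : PadicAlgCl p) * y') := by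
    rw [hu, hG, hy'def]
    field_simp
    ring
  -- the roots
  obtain ⟨y₀, hy₀⟩ := IsAlgClosed.exists_pow_nat_eq g₀ hpp.pos
  have hY : padicEmbedding p y₀ ^ p = padicEmbedding p g₀ := by
    rw [← map_pow, hy₀]
  have hY0 : padicEmbedding p y₀ ≠ 0 := by
    intro h
    rw [h, zero_pow hpp.ne_zero] at hY
    exact hG0 hY.symm
  have ht : (w / padicEmbedding p y₀) ^ p = 1 + (p : PadicAlgCl p) * y' := by
    rw [div_pow, hY, hsplit, mul_div_cancel_left₀ _ hG0]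
  -- `σ` fixes `ζ`
  have hQne : (X ^ p - 1 : ℚ[X]) ≠ 0 :=
    (monic_X_pow_sub_C (1 : ℚ) hpp.ne_zero).ne_zero
  obtain ⟨ζ₀, hζ₀, hζ₀e⟩ := kras_root_mem_range p (X ^ p - 1 : ℚ[X]) hQne ζ
    (by simp [hζp])
  have hζ₀p : ζ₀ ^ p = 1 := by
    have : ζ₀ ^ p - 1 = 0 := by simpa using hζ₀
    exact sub_eq_zero.1 this
  have hone : (1 : AlgebraicClosure ℚ) ∈ padicPlace p := one_mem _
  have hσζ₀ : localGaloisToGlobal p σ ζ₀ = ζ₀ := by
    refine hσP.2 1 ζ₀ ?_ ?_ ?_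
    · rw [pow_one, hζ₀p]
      exact hone
    · rw [pow_one, hζ₀p, inv_one]
      exact hone
    · intro τ _
      rw [pow_one, hζ₀p, map_one]
  have hσζ : σ ζ = ζ := by
    rw [← hζ₀e, ← padicEmbedding_localGaloisToGlobal, hσζ₀]
  -- ROOT
  have hzn : ‖(p : PadicAlgCl p)‖ ≤ ‖ζ - 1‖ := by
    obtain ⟨hlpow, hlpos, hllt⟩ := r38epr_norm_zeta p hζ1 hζp
    rw [← hlpow]
    have hp2 : 1 ≤ p - 1 := by
      have := hpp.two_le
      omega
    calc ‖ζ - 1‖ ^ (p - 1) ≤ ‖ζ - 1‖ ^ 1 :=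
          pow_le_pow_of_le_one (norm_nonneg _) hllt.le hp2
      _ = ‖ζ - 1‖ := pow_one _
  have hσt : σ (w / padicEmbedding p y₀) = w / padicEmbedding p y₀ :=
    stmtEPRoot p ζ y' (w / padicEmbedding p y₀) σ hζ1 hζp hσI hσζ (hy'I σ hσI)
      (hy'n.trans hzn) ht
  -- the global root
  have hσy₀ : localGaloisToGlobal p σ y₀ = y₀ := by
    refine hσP.2 1 y₀ ?_ ?_ ?_
    · rw [pow_one, hy₀]
      exact hg₀P
    · rw [pow_one, hy₀]
      exact hg₀P'
    · intro τ hτ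
      rw [pow_one, hy₀]
      exact hg₀I τ hτ
  have hσY : σ (padicEmbedding p y₀) = padicEmbedding p y₀ := by
    rw [← padicEmbedding_localGaloisToGlobal, hσy₀]
  have hw : w = (w / padicEmbedding p y₀) * padicEmbedding p y₀ :=
    (div_mul_cancel₀ w hY0).symm
  rw [hw, map_mul, hσt, hσY]

/-- `σ ^ [T : ℚ_p]` fixes the Galois extension `T` -/
theorem s59pskv_pow_mem (T : IntermediateField ℚ_[p] (PadicAlgCl p)) (hT : IsGoodField p T)
    (σ : GQq p) : σ ^ (Module.finrank ℚ_[p] T) ∈ T.fixingSubgroup := by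
  haveI := hT.finite
  haveI := hT.galois
  haveI : Normal ℚ_[p] T := hT.galois.to_normal
  have hres : ∀ (τ : GQq p) (x : T),
      ((AlgEquiv.restrictNormalHom T τ x : T) : PadicAlgCl p) = τ (x : PadicAlgCl p) :=
    fun τ x => AlgEquiv.restrictNormal_commutes τ T x
  have hcard : Nat.card (T ≃ₐ[ℚ_[p]] T) = Module.finrank ℚ_[p] T :=
    IsGalois.card_aut_eq_finrank ℚ_[p] T
  have h1 : (AlgEquiv.restrictNormalHom T σ) ^ (Module.finrank ℚ_[p] T) = 1 := by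
    rw [← hcard]
    exact pow_card_eq_one'
  rw [IntermediateField.mem_fixingSubgroup_iff]
  intro x hx
  have h2 := hres (σ ^ Module.finrank ℚ_[p] T) ⟨x, hx⟩
  rw [map_pow, h1] at h2
  exact h2.symm

/-- the powers of an element `t` with `t π = ξ π`, `t ξ = ξ` -/
theorem s59pskv_pow_apply (t : GQ) {π ξ : AlgebraicClosure ℚ} (htπ : t π = ξ * π)
    (htξ : t ξ = ξ) (k : ℕ) : (t ^ k) π = ξ ^ k * π ∧ (t ^ k) ξ = ξ := by
  induction k with
  | zero => exact ⟨by rw [pow_zero, pow_zero, one_mul]; rfl, by rw [pow_zero]; rfl⟩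
  | succ k ih =>
    obtain ⟨ih1, ih2⟩ := ih
    constructor
    · rw [pow_succ, AlgEquiv.mul_apply, htπ, map_mul, ih1, ih2, pow_succ]
      ring
    · rw [pow_succ, AlgEquiv.mul_apply, htξ, ih2]

/-- **KUM-VAL** -/
theorem s59pskv_main : s59psb_StmtKumVal := by
  intro p _ hp2 T hT y hy0 hyI hyH
  have hpp : p.Prime := Fact.out
  have hp1 : (1 : ℝ) < p := by exact_mod_cast hpp.one_lt
  have hpR : (0 : ℝ) < p := lt_trans zero_lt_one hp1
  have hpR0 : (p : ℝ) ≠ 0 := hpR.ne'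
  have hpn : ‖(p : PadicAlgCl p)‖ = (p : ℝ)⁻¹ := s59psb_norm_p p
  have hp0 : (p : PadicAlgCl p) ≠ 0 := by
    intro h
    rw [h, norm_zero] at hpn
    have := inv_pos.2 hpR
    linarith
  obtain ⟨m', hm'⟩ := wgr_unr p (pow_ne_zero p hy0) hyI
  rw [norm_pow] at hm'
  by_cases hdiv : (p : ℤ) ∣ m'
  · obtain ⟨m, rfl⟩ := hdiv
    refine ⟨m, ?_⟩
    have h3 : ‖y‖ ^ p = ((p : ℝ) ^ m) ^ p := by
      rw [hm', ← zpow_natCast ((p : ℝ) ^ m), ← zpow_mul]
      congr 1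
      ring
    exact (pow_left_inj₀ (norm_nonneg _) (zpow_nonneg hpR.le _) hpp.ne_zero).1 h3
  · exfalso
    -- Bezout
    have hcop : IsCoprime (p : ℤ) m' :=
      (Nat.prime_iff_prime_int.1 hpp).coprime_iff_not_dvd.2 hdiv
    obtain ⟨a, b, hab⟩ := hcop
    -- the element `z` with `‖z‖ ^ p = ‖p‖`
    obtain ⟨z, hzdef⟩ : ∃ z : PadicAlgCl p, z = y ^ (-b) * (p : PadicAlgCl p) ^ a := ⟨_, rfl⟩
    obtain ⟨π₀, hπ₀⟩ := IsAlgClosed.exists_pow_nat_eq (p : AlgebraicClosure ℚ) hpp.pos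
    have hPi : padicEmbedding p π₀ ^ p = (p : PadicAlgCl p) := by
      rw [← map_pow, hπ₀, map_natCast]
    have hPi0 : padicEmbedding p π₀ ≠ 0 := by
      intro h
      rw [h, zero_pow hpp.ne_zero] at hPi
      exact hp0 hPi.symm
    have hz0 : z ≠ 0 := by
      rw [hzdef]
      exact mul_ne_zero (zpow_ne_zero _ hy0) (zpow_ne_zero _ hp0)
    have hzp : z ^ p = (y ^ p) ^ (-b) * ((p : PadicAlgCl p) ^ p) ^ a := by
      rw [hzdef, mul_pow, ← zpow_natCast (y ^ (-b)), ← zpow_mul, ← zpow_natCast ((p : PadicAlgCl p) ^ a),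
        ← zpow_mul, ← zpow_natCast y, ← zpow_mul, ← zpow_natCast (p : PadicAlgCl p), ← zpow_mul,
        mul_comm (-b) (p : ℤ), mul_comm a (p : ℤ)]
    obtain ⟨w, hwdef⟩ : ∃ w : PadicAlgCl p, w = z / padicEmbedding p π₀ := ⟨_, rfl⟩
    have hwp : w ^ p = (y ^ p) ^ (-b) * ((p : PadicAlgCl p) ^ p) ^ a / (p : PadicAlgCl p) := by
      rw [hwdef, div_pow, hzp, hPi]
    have hwpn : ‖w ^ p‖ = 1 := by
      rw [hwp, norm_div, norm_mul, norm_zpow, norm_zpow, norm_pow, norm_pow, hm', hpn,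
        ← zpow_mul, inv_pow, inv_zpow, ← zpow_natCast (p : ℝ) p, ← zpow_mul, ← zpow_neg,
        ← zpow_add₀ hpR0, div_eq_mul_inv, inv_inv, ← zpow_add_one₀ hpR0]
      have : m' * -b + -((p : ℤ) * a) + 1 = 0 := by linarith
      rw [this, zpow_zero]
    have hw1 : ‖w‖ = 1 := by
      rw [norm_pow] at hwpn
      exact (pow_eq_one_iff_of_nonneg (norm_nonneg _) hpp.ne_zero).1 hwpn
    have hw0 : w ≠ 0 := by
      intro h
      rw [h, norm_zero] at hw1
      exact zero_ne_one hw1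
    have hwI : ∀ τ ∈ inertiaQ p, τ (w ^ p) = w ^ p := by
      intro τ hτ
      rw [hwp, map_div₀, map_mul, map_zpow₀, map_zpow₀, hyI τ hτ, map_pow, map_natCast]
    -- TRES-∞
    obtain ⟨t, ht, htπ⟩ := s59lppi_tres p hp2 (padicPlace p) (lfrobex_liesOverPrime p) π₀ hπ₀
    have htI : t ∈ (padicPlace p).inertiaSubgroupIn ℚ := s59psPeu_le _ _ ht
    have htD : t ∈ (padicPlace p).decompositionSubgroup ℚ :=
      ((mem_inertiaSubgroupIn_iff _ _).1 htI).1
    obtain ⟨tl, htl⟩ := stmtDecFull p t htD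
    have htlH : tl ∈ s59psbPeuQ p := (s59psb_mem_peuQ p tl).2 (by rw [htl]; exact ht)
    obtain ⟨d, hddef⟩ : ∃ d : ℕ, d = Module.finrank ℚ_[p] T := ⟨_, rfl⟩
    have hσH : tl ^ d ∈ s59psbPeuQ p := pow_mem htlH d
    have hσT : tl ^ d ∈ T.fixingSubgroup := by
      rw [hddef]
      exact s59pskv_pow_mem p T hT tl
    have hσy : (tl ^ d) y = y := hyH _ hσH hσT
    have hσz : (tl ^ d) z = z := by
      rw [hzdef, map_mul, map_zpow₀, map_zpow₀, map_natCast, hσy]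
    obtain ⟨ζ, hζT, hζ1, hζp⟩ := hT.zeta
    have hσw : (tl ^ d) w = w := s59pskv_locpeu p hζ1 hζp hσH hw1 hwI
    have hPizw : padicEmbedding p π₀ = z / w := by
      rw [hwdef, div_div_cancel₀ hz0]
    have hσPi : (tl ^ d) (padicEmbedding p π₀) = padicEmbedding p π₀ := by
      rw [hPizw, map_div₀, hσz, hσw]
    have htd : (t ^ d) π₀ = π₀ := by
      apply (padicEmbedding p).toRingHom.injective
      show padicEmbedding p ((t ^ d) π₀) = padicEmbedding p π₀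
      rw [← htl, ← map_pow, padicEmbedding_localGaloisToGlobal, hσPi]
    -- the root of unity
    have hπ₀0 : π₀ ≠ 0 := by
      intro h
      apply hPi0
      rw [h, map_zero]
    obtain ⟨ξ, hξdef⟩ : ∃ ξ : AlgebraicClosure ℚ, ξ = t π₀ / π₀ := ⟨_, rfl⟩
    have htπ' : t π₀ = ξ * π₀ := by
      rw [hξdef, div_mul_cancel₀ _ hπ₀0]
    have hξp : ξ ^ p = 1 := by
      rw [hξdef, div_pow, ← map_pow, hπ₀, map_natCast]
      exact div_self (Nat.cast_ne_zero.2 hpp.ne_zero)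
    have hξ1 : ξ ≠ 1 := by
      intro h
      apply htπ
      rw [htπ', h, one_mul]
    have hone : (1 : AlgebraicClosure ℚ) ∈ padicPlace p := one_mem _
    have htξ : t ξ = ξ := by
      refine ht.2 1 ξ ?_ ?_ ?_
      · rw [pow_one, hξp]
        exact hone
      · rw [pow_one, hξp, inv_one]
        exact hone
      · intro τ _
        rw [pow_one, hξp, map_one]
    have h5 := (s59pskv_pow_apply t htπ' htξ d).1
    rw [htd] at h5
    have hξd : ξ ^ d = 1 := by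
      have h6 : (ξ ^ d - 1) * π₀ = 0 := by
        rw [sub_mul, one_mul, ← h5, sub_self]
      rcases mul_eq_zero.1 h6 with h7 | h7
      · exact sub_eq_zero.1 h7
      · exact absurd h7 hπ₀0
    have hcop' : Nat.Coprime p d := by
      rw [hddef]
      exact (Nat.Prime.coprime_iff_not_dvd hpp).2 hT.tame
    have h8 : ξ ^ Nat.gcd p d = 1 := pow_gcd_eq_one.2 ⟨hξp, hξd⟩
    rw [Nat.Coprime.gcd_eq_one hcop', pow_one] at h8
    exact hξ1 h8

end KumVal

end Fermat.Agent.S59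

end
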