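/-
S59, wall M5 (P-STEP), leaf BASE-P, part 11 (helper68): **BASE-P, UNCONDITIONAL**.

`s59psb_twp_main` : the Taylor–Wiles primes (the twin of the frozen S56) for the NON-STRICT ordinary,
PEU RAMIFIÉ conditions `s59psCond 𝒪 p Smin Q`, under `TWHyp 𝒪 p ρbar S Smin`.  No hypothesis Prop is
left:
* the assembly `s59psb_twp`                      (BasePAsm.lean),
* PLEV-P ⇐ KUM-DESC ⇐ KUM-VAL                    (BasePLev / BasePNorm / BasePVal / BasePUnr / BasePDesc),
* KUM-VAL  `s59pskv_main`                         (helper56, KumVal.lean; uses helper30's TRES-∞),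
* S-ORD-P  `s59psop_main`                         (helper56, OrdPeu.lean).
Also `s59psb_plev_main : s59psb_StmtPLev` and `s59psb_kumDesc_main : s59psb_StmtKumDesc`.
-/
import Fermat.Agent.S59.PStep.BasePFinal
import Fermat.Agent.S59.PStep.KumVal

set_option autoImplicit false
set_option linter.unusedSectionVars false
set_option linter.unusedVariables false
set_option linter.style.longLine false
set_option linter.style.haveILetI false

noncomputable section

namespace Fermat.Agent.S59

open CategoryTheory groupCohomology IsLocalRing Module Polynomial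
open Fermat.Agent.PT Fermat.Agent.PT.B Fermat.Agent.TW Fermat.Agent.TW.L Fermat.Agent.TW.S
  Fermat.Agent.TW.W Fermat.Agent.TW.Core Fermat.Agent.S53 ExtCitation

/-- **KUM-DESC**, unconditional. -/
theorem s59psb_kumDesc_main : s59psb_StmtKumDesc := s59psb_kumDesc_of s59pskv_main

/-- **PLEV-P**, unconditional. -/
theorem s59psb_plev_main : s59psb_StmtPLev := s59psb_plev_of_val s59pskv_main

variable {𝒪 : Type} [CommRing 𝒪] [IsDomain 𝒪] [IsDiscreteValuationRing 𝒪]
  [IsAdicComplete (maximalIdeal 𝒪) 𝒪] [Finite (ResidueField 𝒪)]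

/-- **BASE-P, unconditional**: Taylor–Wiles primes for `s59psCond 𝒪 p Smin Q`. -/
theorem s59psb_twp_main
    (p : ℕ) [Fact p.Prime] (ρbar : ResidualGaloisRep (ResidueField 𝒪)) (S Smin : Finset ℕ)
    (hyp : TWHyp 𝒪 p ρbar S Smin) :
    ∃ r : ℕ, ∀ n : ℕ, ∃ qv : Fin r → ℕ, Function.Injective qv ∧
      (∀ i, (qv i).Prime ∧ qv i ∉ S ∧ p ^ (n + 1) ∣ qv i - 1) ∧
      (∀ i, ∀ P : ValuationSubring (AlgebraicClosure ℚ), P.LiesOverPrime (qv i) →
        ∀ φ : AlgebraicClosure ℚ ≃ₐ[ℚ] AlgebraicClosure ℚ, P.IsFrobeniusAt φ (qv i) →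
          ∃ α β : ResidueField 𝒪, α ≠ β ∧
            LinearMap.charpoly (ρbar.ρ φ) = (X - C α) * (X - C β)) ∧
      ∀ DQ : GaloisRep.DeformationRingData 𝒪 ρbar (s59psCond 𝒪 p Smin (Finset.univ.image qv)),
        ∃ γ : MvPowerSeries (Fin r) 𝒪 →ₐ[𝒪] DQ.R, Function.Surjective γ :=
  s59psb_twp_of_val s59pskv_main p ρbar S Smin hyp

end Fermat.Agent.S59

end
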