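/-
S59, wall M5 (P-STEP), leaf BASE-P, part 6 (helper68): KUM-DESC, step B = THE NORM TRICK.

`T/ℚ_p` finite Galois of degree prime to `p`, `I` = inertia, `I_T = I ∩ G_T`, `α ≠ 0`, `α^p ∈ T`,
`g α / α` fixed by `I_T` for all `g ∈ I`.  Then `α = y · t` with `y^p` fixed by `I` and `t` fixed by
`I_T`.   (`β := ∏_{γ ∈ S} ℓ_γ α`, `S` = the image of `I` in `Gal(T/ℚ_p)`, `ℓ_γ ∈ I` lifts;
`β^p = N_S(α^p)` is fixed by `I`, `β / α^e` is fixed by `I_T`, `e = |S|` is prime to `p`.)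
-/
import Fermat.Agent.TW.W.Plan
import Fermat.Agent.TW.W.GrFrob

set_option autoImplicit false
set_option linter.unusedSectionVars false
set_option linter.unusedVariables false
set_option linter.style.longLine false
set_option linter.style.haveILetI false

noncomputable section

namespace Fermat.Agent.S59

open Fermat.Agent.PT Fermat.Agent.PT.B Fermat.Agent.TW.L Fermat.Agent.TW.W

/-- **The norm trick.** -/
theorem s59psb_norm_trick (p : ℕ) [Fact p.Prime]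
    (T : IntermediateField ℚ_[p] (PadicAlgCl p)) (hT : IsGoodField p T)
    (α : PadicAlgCl p) (hα0 : α ≠ 0) (hαT : α ^ p ∈ T)
    (heq : ∀ g ∈ inertiaQ p, ∀ σ ∈ inertiaQ p, σ ∈ T.fixingSubgroup → σ (g α / α) = g α / α) :
    ∃ y t : PadicAlgCl p, y ≠ 0 ∧ t ≠ 0 ∧ α = y * t ∧
      (∀ τ ∈ inertiaQ p, τ (y ^ p) = y ^ p) ∧
      (∀ σ ∈ inertiaQ p, σ ∈ T.fixingSubgroup → σ t = t) := by
  classical
  have hp : p.Prime := Fact.out
  haveI := hT.finite
  haveI := hT.galois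
  haveI : Normal ℚ_[p] T := hT.galois.to_normal
  haveI : Fintype (T ≃ₐ[ℚ_[p]] T) := Fintype.ofFinite _
  set res : GQq p →* (T ≃ₐ[ℚ_[p]] T) :=
    AlgEquiv.restrictNormalHom (F := ℚ_[p]) (K₁ := PadicAlgCl p) T with hresdef
  have hres : ∀ (σ : GQq p) (x : T), ((res σ x : T) : PadicAlgCl p) = σ (x : PadicAlgCl p) :=
    fun σ x => AlgEquiv.restrictNormal_commutes σ T x
  set S : Subgroup (T ≃ₐ[ℚ_[p]] T) := (inertiaQ p).map res with hS
  haveI : Fintype S := Fintype.ofFinite _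
  have hlift : ∀ γ : S, ∃ g ∈ inertiaQ p, res g = (γ : T ≃ₐ[ℚ_[p]] T) := fun γ =>
    Subgroup.mem_map.1 γ.2
  choose ℓ hℓI hℓ using hlift
  set u : T := ⟨α ^ p, hαT⟩ with hu
  have hu0 : (u : PadicAlgCl p) ≠ 0 := pow_ne_zero _ hα0
  -- the product
  set β : PadicAlgCl p := ∏ γ : S, ℓ γ α with hβ
  set t₁ : PadicAlgCl p := ∏ γ : S, (ℓ γ α / α) with ht₁
  set e : ℕ := Fintype.card S with he
  have hβ0 : β ≠ 0 := Finset.prod_ne_zero_iff.2 (fun γ _ => by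
    rw [Ne, map_eq_zero_iff _ (ℓ γ).injective]
    exact hα0)
  have ht₁0 : t₁ ≠ 0 := Finset.prod_ne_zero_iff.2 (fun γ _ => div_ne_zero (by
    rw [Ne, map_eq_zero_iff _ (ℓ γ).injective]
    exact hα0) hα0)
  have hβt : β = t₁ * α ^ e := by
    rw [hβ, ht₁, he, ← Finset.card_univ, ← Finset.prod_const, ← Finset.prod_mul_distrib]
    refine Finset.prod_congr rfl (fun γ _ => ?_)
    rw [div_mul_cancel₀ _ hα0]
  -- `t₁` is fixed by `I_T`
  have ht₁fix : ∀ σ ∈ inertiaQ p, σ ∈ T.fixingSubgroup → σ t₁ = t₁ := by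
    intro σ hσ hσT
    rw [ht₁, map_prod]
    exact Finset.prod_congr rfl (fun γ _ => heq (ℓ γ) (hℓI γ) σ hσ hσT)
  -- `β ^ p` is the norm of `u`
  have hβp : β ^ p = ∏ γ : S, (((γ : T ≃ₐ[ℚ_[p]] T) u : T) : PadicAlgCl p) := by
    rw [hβ, ← Finset.prod_pow]
    refine Finset.prod_congr rfl (fun γ _ => ?_)
    rw [← map_pow, ← hℓ γ, hres]
  have hβpfix : ∀ τ ∈ inertiaQ p, τ (β ^ p) = β ^ p := by
    intro τ hτ
    have hτS : res τ ∈ S := Subgroup.mem_map.2 ⟨τ, hτ, rfl⟩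
    rw [hβp, map_prod]
    have h1 : ∀ γ : S, τ (((γ : T ≃ₐ[ℚ_[p]] T) u : T) : PadicAlgCl p) =
        ((((⟨res τ, hτS⟩ : S) * γ : S) : T ≃ₐ[ℚ_[p]] T) u : T) := by
      intro γ
      rw [← hres]
      rfl
    simp only [h1]
    exact Equiv.prod_comp (Equiv.mulLeft (⟨res τ, hτS⟩ : S))
      (fun γ : S => (((γ : T ≃ₐ[ℚ_[p]] T) u : T) : PadicAlgCl p))
  -- `p ∤ e`
  have hcop : Nat.Coprime e p := by
    rw [Nat.coprime_comm, hp.coprime_iff_not_dvd]
    intro hdvd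
    apply hT.tame
    have h1 : e ∣ Nat.card (T ≃ₐ[ℚ_[p]] T) := by
      rw [he, ← Nat.card_eq_fintype_card]
      exact Subgroup.card_subgroup_dvd_card S
    rw [IsGalois.card_aut_eq_finrank] at h1
    exact dvd_trans hdvd h1
  obtain ⟨e', -, he'⟩ := Nat.exists_mul_mod_eq_one_of_coprime hcop hp.one_lt
  set m : ℕ := e * e' / p with hm
  have hee' : e * e' = 1 + m * p := by
    have := Nat.div_add_mod (e * e') p
    rw [he'] at this
    rw [hm]
    linarith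
  -- the decomposition
  have hαe : α ^ e = β / t₁ := by
    rw [hβt, mul_div_cancel_left₀ _ ht₁0]
  have hkey : α * (u : PadicAlgCl p) ^ m = β ^ e' / t₁ ^ e' := by
    have h1 : α ^ (e * e') = β ^ e' / t₁ ^ e' := by
      rw [pow_mul, hαe, div_pow]
    rw [← h1, hee', pow_add, pow_one, mul_comm m p, pow_mul]
  have hden0 : t₁ ^ e' * (u : PadicAlgCl p) ^ m ≠ 0 :=
    mul_ne_zero (pow_ne_zero _ ht₁0) (pow_ne_zero _ hu0)
  refine ⟨β ^ e', (t₁ ^ e' * (u : PadicAlgCl p) ^ m)⁻¹, pow_ne_zero _ hβ0, inv_ne_zero hden0,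
    ?_, ?_, ?_⟩
  · have hum0 : (u : PadicAlgCl p) ^ m ≠ 0 := pow_ne_zero _ hu0
    have ht0 : t₁ ^ e' ≠ 0 := pow_ne_zero _ ht₁0
    field_simp
    have := hkey
    field_simp at this
    linear_combination this
  · intro τ hτ
    rw [← pow_mul, mul_comm, pow_mul, map_pow, hβpfix τ hτ]
  · intro σ hσ hσT
    have hσu : σ (u : PadicAlgCl p) = u :=
      (IntermediateField.mem_fixingSubgroup_iff T σ).1 hσT _ u.2
    rw [map_inv₀, map_mul, map_pow, map_pow, ht₁fix σ hσ hσT, hσu]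

end Fermat.Agent.S59

end
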