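/-
S59, wall M5 = P-STEP, leaf LG-P, the FINITE-LEVEL TRACE-ONLY route (helper5): the algebraic core.
Ledger: NOTES/S59-M5.md.

`Y` an `𝒪`-module with an action `r` of a group `G`, `t d : G → 𝒪` ("trace" and "determinant"),
Cayley–Hamilton `r g ² − t g • r g + d g = 0` on `Y`.  `I ≤ G`, `σ₀ ∈ I` with `d σ₀ − 1` a unit,
`t σ₀ = 1 + d σ₀`.  Put `a g := u'(d σ₀ · t g − t (σ₀ g))`, `α g := u'(t (σ₀ g) − t g)`
(the lower right and the upper left entry of a matrix in a basis adapted to `σ₀`).  If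

* (ORD) `a (σ g) = a g` for `σ ∈ I` (trace identity of an ordinary representation),
* (IRR) `α (x₀ y₀) − α x₀ · α y₀` is a unit for some `x₀ y₀` (residual irreducibility),
* `φ` normalises `I`, and `r φ ² − a₀ r φ + c` maps `Y` into the inertia span `𝔄 Y`,

then `z ² − a₀ z + c` kills `Y`, `z = a φ`.

Mathlib only.  Sorry-free; axioms: propext, Classical.choice, Quot.sound.
-/
import Mathlib

set_option autoImplicit false
set_option linter.unusedVariables false
set_option linter.unusedSectionVars false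
set_option linter.style.longLine false

namespace Fermat.Agent.S59

/-! ### Abstract algebra: the idempotent of `s` -/

section Abs

variable {𝒪 : Type*} [CommRing 𝒪] {E : Type*} [Ring E] [Algebra 𝒪 E]

/-- the idempotent of `s` (eigenvalue `1`): `e = u'(d₀ − s)` -/
def s59pslfE (d₀ u' : 𝒪) (s : E) : E := u' • (d₀ • (1 : E) - s)

theorem s59pslf_e_idem (d₀ u' : 𝒪) (s : E) (hu : (d₀ - 1) * u' = 1)
    (hss : s * s = (1 + d₀) • s - d₀ • (1 : E)) :
    s59pslfE d₀ u' s * s59pslfE d₀ u' s = s59pslfE d₀ u' s := by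
  unfold s59pslfE
  simp only [smul_mul_assoc, mul_smul_comm, sub_mul, mul_sub, one_mul, mul_one, hss]
  linear_combination (norm := module) hu • (u' • (d₀ • (1 : E) - s))

/-- `1 − e = u'(s − 1)` -/
theorem s59pslf_one_sub_e (d₀ u' : 𝒪) (s : E) (hu : (d₀ - 1) * u' = 1) :
    1 - s59pslfE d₀ u' s = u' • (s - 1) := by
  unfold s59pslfE
  linear_combination (norm := module) (-hu) • (1 : E)

/-- the polarised Cayley–Hamilton identity in terms of `e` -/
theorem s59pslf_pol_e (d₀ u' tg tsg : 𝒪) (s g : E) (hu : (d₀ - 1) * u' = 1)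
    (hpol : s * g + g * s - (1 + d₀) • g - tg • s + ((1 + d₀) * tg - tsg) • (1 : E) = 0) :
    s59pslfE d₀ u' s * g + g * s59pslfE d₀ u' s =
      g + tg • s59pslfE d₀ u' s - (u' * (tsg - tg)) • (1 : E) := by
  unfold s59pslfE
  simp only [smul_mul_assoc, mul_smul_comm, sub_mul, mul_sub, one_mul, mul_one]
  linear_combination (norm := module) (-u') • hpol + hu • g

/-- `e g e = a e` -/
theorem s59pslf_ege (tg al : 𝒪) (e g : E) (he : e * e = e)
    (hpol : e * g + g * e = g + tg • e - al • (1 : E)) :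
    e * g * e = (tg - al) • e := by
  have h := congrArg (fun X => e * X) hpol
  simp only [mul_add, mul_sub, mul_smul_comm, mul_one, ← mul_assoc, he] at h
  linear_combination (norm := module) h

/-- `f g f = α f`, `f = 1 − e` -/
theorem s59pslf_fgf (tg al : 𝒪) (e g : E) (he : e * e = e)
    (hpol : e * g + g * e = g + tg • e - al • (1 : E)) :
    (1 - e) * g * (1 - e) = al • (1 - e) := by
  have h := s59pslf_ege tg al e g he hpol
  simp only [sub_mul, mul_sub, one_mul, mul_one]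
  linear_combination (norm := module) h - hpol

/-- `e x f y e = e (x y) e − (e x e)(e y e)` -/
theorem s59pslf_exfye (e x y : E) (he : e * e = e) :
    e * x * (1 - e) * y * e = e * (x * y) * e - (e * x * e) * (e * y * e) := by
  have h : (e * x * e) * (e * y * e) = e * x * (e * e) * y * e := by noncomm_ring
  rw [h, he]
  noncomm_ring

/-- `f x e y f = f (x y) f − (f x f)(f y f)` -/
theorem s59pslf_fxeyf (e x y : E) (he : e * e = e) :
    (1 - e) * x * e * y * (1 - e) =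
      (1 - e) * (x * y) * (1 - e) - ((1 - e) * x * (1 - e)) * ((1 - e) * y * (1 - e)) := by
  have hf : (1 - e) * (1 - e) = 1 - e := by
    simp only [sub_mul, mul_sub, one_mul, mul_one, he]; abel
  have h : ((1 - e) * x * (1 - e)) * ((1 - e) * y * (1 - e)) =
      (1 - e) * x * ((1 - e) * (1 - e)) * y * (1 - e) := by noncomm_ring
  rw [h, hf]
  noncomm_ring

end Abs

/-! ### The core -/

section Core

variable {𝒪 : Type*} [CommRing 𝒪] {Y : Type*} [AddCommGroup Y] [Module 𝒪 Y]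
  {G : Type*} [Group G]

/-- the inertia span `𝔄 Y`: the subgroup generated by the `r σ y − y`, `σ ∈ I` -/
def s59pslfSpan (r : G →* Module.End 𝒪 Y) (I : Subgroup G) : AddSubgroup Y :=
  AddSubgroup.closure {w | ∃ σ ∈ I, ∃ y : Y, w = r σ y - y}

/-- the "lower right entry" `a g = u'(d σ₀ · t g − t (σ₀ g))` -/
def s59pslfA (t d : G → 𝒪) (σ₀ : G) (u' : 𝒪) (g : G) : 𝒪 := u' * (d σ₀ * t g - t (σ₀ * g))

/-- the "upper left entry" `α g = u'(t (σ₀ g) − t g)` -/
def s59pslfAl (t : G → 𝒪) (σ₀ : G) (u' : 𝒪) (g : G) : 𝒪 := u' * (t (σ₀ * g) - t g)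

theorem s59pslf_a_eq (t d : G → 𝒪) (σ₀ : G) (u' : 𝒪) (hu : (d σ₀ - 1) * u' = 1) (g : G) :
    s59pslfA t d σ₀ u' g = t g - s59pslfAl t σ₀ u' g := by
  unfold s59pslfA s59pslfAl
  linear_combination (t g) * hu

/-- `d g • r g⁻¹ = t g − r g` -/
theorem s59pslf_inv (r : G →* Module.End 𝒪 Y) (t d : G → 𝒪)
    (hch : ∀ g, r g * r g - t g • r g + d g • (1 : Module.End 𝒪 Y) = 0) (g : G) :
    d g • r g⁻¹ = t g • (1 : Module.End 𝒪 Y) - r g := by
  have hgg : r g * r g⁻¹ = 1 := by rw [← map_mul, mul_inv_cancel, map_one]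
  have h := congrArg (fun X => X * r g⁻¹) (hch g)
  simp only [add_mul, sub_mul, smul_mul_assoc, one_mul, zero_mul, mul_assoc, hgg, mul_one] at h
  linear_combination (norm := module) h

/-- the polarised Cayley–Hamilton identity -/
theorem s59pslf_pol (r : G →* Module.End 𝒪 Y) (t d : G → 𝒪)
    (hch : ∀ g, r g * r g - t g • r g + d g • (1 : Module.End 𝒪 Y) = 0)
    (x y : G) (hd : d (x * y) = d x * d y) :
    r x * r y + r y * r x - t x • r y - t y • r x +
      (t x * t y - t (x * y)) • (1 : Module.End 𝒪 Y) = 0 := by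
  have hx := s59pslf_inv r t d hch x
  have hy := s59pslf_inv r t d hch y
  have hxy := s59pslf_inv r t d hch (x * y)
  rw [mul_inv_rev, map_mul, map_mul, hd] at hxy
  have h1 : (d x * d y) • (r y⁻¹ * r x⁻¹) = (d y • r y⁻¹) * (d x • r x⁻¹) := by
    rw [smul_mul_smul_comm, mul_comm (d y)]
  rw [h1, hx, hy] at hxy
  simp only [sub_mul, mul_sub, smul_mul_assoc, mul_smul_comm, one_mul, mul_one] at hxy
  linear_combination (norm := module) hxy

/-- **The core.**  `z² − a₀ z + c` kills `Y`, `z = a φ`. -/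
theorem s59pslf_core (r : G →* Module.End 𝒪 Y) (t d : G → 𝒪) (I : Subgroup G) (σ₀ φ : G)
    (u' a₀ c : 𝒪)
    (hch : ∀ g, r g * r g - t g • r g + d g • (1 : Module.End 𝒪 Y) = 0)
    (hd : ∀ g, d (σ₀ * g) = d σ₀ * d g)
    (hσ₀ : σ₀ ∈ I) (hu : (d σ₀ - 1) * u' = 1) (htσ₀ : t σ₀ = 1 + d σ₀) (ht1 : t 1 = 2)
    (hord : ∀ σ ∈ I, ∀ g, s59pslfA t d σ₀ u' (σ * g) = s59pslfA t d σ₀ u' g)
    (hirr : ∃ x₀ y₀ : G, IsUnit (s59pslfAl t σ₀ u' (x₀ * y₀) -
        s59pslfAl t σ₀ u' x₀ * s59pslfAl t σ₀ u' y₀))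
    (hnorm : ∀ σ ∈ I, φ * σ * φ⁻¹ ∈ I)
    (hesp : ∀ y, r φ (r φ y) - a₀ • r φ y + c • y ∈ s59pslfSpan r I) (y : Y) :
    ((s59pslfA t d σ₀ u' φ) ^ 2 - a₀ * s59pslfA t d σ₀ u' φ + c) • y = 0 := by
  obtain ⟨x₀, y₀, hκ⟩ := hirr
  set e : Module.End 𝒪 Y := s59pslfE (d σ₀) u' (r σ₀) with he_def
  have hss : r σ₀ * r σ₀ = (1 + d σ₀) • r σ₀ - d σ₀ • (1 : Module.End 𝒪 Y) := by
    have h := hch σ₀
    rw [htσ₀] at h
    linear_combination (norm := module) h
  have he : e * e = e := s59pslf_e_idem (d σ₀) u' (r σ₀) hu hss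
  have hpolE : ∀ g, e * r g + r g * e =
      r g + t g • e - (s59pslfAl t σ₀ u' g) • (1 : Module.End 𝒪 Y) := by
    intro g
    have h := s59pslf_pol r t d hch σ₀ g (hd g)
    rw [htσ₀] at h
    exact s59pslf_pol_e (d σ₀) u' (t g) (t (σ₀ * g)) (r σ₀) (r g) hu h
  have hege : ∀ g, e * r g * e = (s59pslfA t d σ₀ u' g) • e := by
    intro g
    rw [s59pslf_a_eq t d σ₀ u' hu g]
    exact s59pslf_ege (t g) _ e (r g) he (hpolE g)
  have hfgf : ∀ g, (1 - e) * r g * (1 - e) = (s59pslfAl t σ₀ u' g) • (1 - e) := fun g =>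
    s59pslf_fgf (t g) _ e (r g) he (hpolE g)
  have ha1 : s59pslfA t d σ₀ u' 1 = 1 := by
    unfold s59pslfA
    rw [mul_one, ht1, htσ₀]
    linear_combination hu
  have haI : ∀ σ ∈ I, s59pslfA t d σ₀ u' σ = 1 := by
    intro σ hσ
    have h := hord σ hσ 1
    rwa [mul_one, ha1] at h
  -- `e σ f y e = 0`
  have h0 : ∀ σ ∈ I, ∀ x : G, e * r σ * (1 - e) * r x * e = 0 := by
    intro σ hσ x
    rw [s59pslf_exfye e (r σ) (r x) he, ← map_mul, hege, hege, hege, hord σ hσ x, haI σ hσ,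
      smul_mul_smul_comm, he, one_mul, sub_self]
  have hκf : (1 - e) * r x₀ * e * r y₀ * (1 - e) =
      (s59pslfAl t σ₀ u' (x₀ * y₀) - s59pslfAl t σ₀ u' x₀ * s59pslfAl t σ₀ u' y₀) • (1 - e) := by
    have hf : (1 - e) * (1 - e) = 1 - e := by
      simp only [sub_mul, mul_sub, one_mul, mul_one, he]; abel
    rw [s59pslf_fxeyf e (r x₀) (r y₀) he, ← map_mul, hfgf, hfgf, hfgf, smul_mul_smul_comm, hf,
      sub_smul]
  have heσf : ∀ σ ∈ I, e * r σ * (1 - e) = 0 := by
    intro σ hσ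
    have hk : (s59pslfAl t σ₀ u' (x₀ * y₀) - s59pslfAl t σ₀ u' x₀ * s59pslfAl t σ₀ u' y₀) •
        (e * r σ * (1 - e)) = 0 := by
      have e1 : (s59pslfAl t σ₀ u' (x₀ * y₀) - s59pslfAl t σ₀ u' x₀ * s59pslfAl t σ₀ u' y₀) •
          (e * r σ * (1 - e)) = e * r σ * ((1 - e) * r x₀ * e * r y₀ * (1 - e)) := by
        rw [hκf, mul_smul_comm]
      have e2 : e * r σ * ((1 - e) * r x₀ * e * r y₀ * (1 - e)) =
          (e * r σ * (1 - e) * r x₀ * e) * (r y₀ * (1 - e)) := by noncomm_ring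
      rw [e1, e2, h0 σ hσ x₀, zero_mul]
    exact (hκ.smul_eq_zero).1 hk
  have heσ : ∀ σ ∈ I, e * r σ = e := by
    intro σ hσ
    have e1 : e * r σ = e * r σ * e + e * r σ * (1 - e) := by noncomm_ring
    rw [e1, heσf σ hσ, add_zero, hege, haI σ hσ, one_smul]
  -- `e` kills the inertia span
  have heSpan : ∀ w ∈ s59pslfSpan r I, e w = 0 := by
    intro w hw
    induction hw using AddSubgroup.closure_induction with
    | mem w hw =>
      obtain ⟨σ, hσ, y', rfl⟩ := hw
      rw [map_sub, ← Module.End.mul_apply, heσ σ hσ, sub_self]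
    | zero => exact map_zero e
    | add a b _ _ ha hb => rw [map_add, ha, hb, add_zero]
    | neg a _ ha => rw [map_neg, ha, neg_zero]
  -- `f Y ⊆ 𝔄 Y`
  have hfSpan : ∀ v : Y, (1 - e) v ∈ s59pslfSpan r I := by
    intro v
    rw [he_def, s59pslf_one_sub_e (d σ₀) u' (r σ₀) hu]
    refine AddSubgroup.subset_closure ⟨σ₀, hσ₀, u' • v, ?_⟩
    rw [LinearMap.smul_apply, LinearMap.sub_apply, Module.End.one_apply, smul_sub, map_smul]
  -- `φ` stabilises the inertia span
  have hφSpan : ∀ w ∈ s59pslfSpan r I, r φ w ∈ s59pslfSpan r I := by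
    intro w hw
    induction hw using AddSubgroup.closure_induction with
    | mem w hw =>
      obtain ⟨σ, hσ, y', rfl⟩ := hw
      refine AddSubgroup.subset_closure ⟨φ * σ * φ⁻¹, hnorm σ hσ, r φ y', ?_⟩
      rw [map_sub, ← Module.End.mul_apply, ← Module.End.mul_apply, ← map_mul, ← map_mul,
        inv_mul_cancel_right]
    | zero => rw [map_zero]; exact zero_mem _
    | add a b _ _ ha hb => rw [map_add]; exact add_mem ha hb
    | neg a _ ha => rw [map_neg]; exact neg_mem ha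
  have heφf : e * r φ * (1 - e) = 0 := by
    refine LinearMap.ext fun v => ?_
    rw [Module.End.mul_apply, Module.End.mul_apply, LinearMap.zero_apply]
    exact heSpan _ (hφSpan _ (hfSpan v))
  -- the relation on `e`
  have hΨ : e * (r φ * r φ - a₀ • r φ + c • (1 : Module.End 𝒪 Y)) * e = 0 := by
    refine LinearMap.ext fun v => ?_
    rw [Module.End.mul_apply, Module.End.mul_apply, LinearMap.zero_apply]
    apply heSpan
    have h := hesp (e v)
    simpa [LinearMap.add_apply, LinearMap.sub_apply, LinearMap.smul_apply,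
      Module.End.mul_apply] using h
  have hz2 : e * (r φ * r φ) * e = (s59pslfA t d σ₀ u' φ ^ 2) • e := by
    have e1 : e * (r φ * r φ) * e =
        (e * r φ * e) * (e * r φ * e) + (e * r φ * (1 - e)) * (r φ * e) := by
      have e2 : (e * r φ * e) * (e * r φ * e) = e * r φ * (e * e) * r φ * e := by noncomm_ring
      rw [e2, he]
      noncomm_ring
    rw [e1, heφf, zero_mul, add_zero, hege, smul_mul_smul_comm, he, pow_two]
  have hce : (s59pslfA t d σ₀ u' φ ^ 2 - a₀ * s59pslfA t d σ₀ u' φ + c) • e = 0 := by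
    have e1 : e * (r φ * r φ - a₀ • r φ + c • (1 : Module.End 𝒪 Y)) * e =
        e * (r φ * r φ) * e - a₀ • (e * r φ * e) + c • (e * e) := by
      simp only [mul_add, mul_sub, add_mul, sub_mul, mul_smul_comm, smul_mul_assoc, mul_one]
    rw [e1, hz2, hege, he] at hΨ
    linear_combination (norm := module) hΨ
  have hcf : (s59pslfA t d σ₀ u' φ ^ 2 - a₀ * s59pslfA t d σ₀ u' φ + c) • (1 - e) = 0 := by
    have hk : (s59pslfAl t σ₀ u' (x₀ * y₀) - s59pslfAl t σ₀ u' x₀ * s59pslfAl t σ₀ u' y₀) •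
        ((s59pslfA t d σ₀ u' φ ^ 2 - a₀ * s59pslfA t d σ₀ u' φ + c) • (1 - e)) = 0 := by
      rw [smul_comm, ← hκf]
      have e2 : (s59pslfA t d σ₀ u' φ ^ 2 - a₀ * s59pslfA t d σ₀ u' φ + c) •
          ((1 - e) * r x₀ * e * r y₀ * (1 - e)) =
          (1 - e) * r x₀ * ((s59pslfA t d σ₀ u' φ ^ 2 - a₀ * s59pslfA t d σ₀ u' φ + c) • e) *
            r y₀ * (1 - e) := by
        simp only [mul_smul_comm, smul_mul_assoc]
      rw [e2, hce, mul_zero, zero_mul, zero_mul]
    exact (hκ.smul_eq_zero).1 hk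
  have hy : y = e y + (1 - e) y := by
    rw [LinearMap.sub_apply, Module.End.one_apply]; abel
  have h1 := congrArg (fun X : Module.End 𝒪 Y => X y) hce
  have h2 := congrArg (fun X : Module.End 𝒪 Y => X y) hcf
  simp only [LinearMap.smul_apply, LinearMap.zero_apply] at h1 h2
  rw [hy, smul_add, h1, h2, add_zero]

end Core

end Fermat.Agent.S59
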