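/-
S59, wall M5 = P-STEP, leaf LG-P, the FINITE-LEVEL TRACE-ONLY route (helper5): from the finite
level data to the unit root relation.  Ledger: NOTES/S59-M5.md.

`ρ : G_ℚ → GL₂(𝒪)` ordinary at `p` with unit root `α` (`s59psUnitRoot ρ p α`), `det ρ = χ`.
`α` is a function of the traces of `ρ` (helper94's trace formula):
`α = a φ`, `a g = u'(det ρ σ₀ · tr ρ g − tr ρ (σ₀ g))`, `σ₀` in inertia with `det ρ σ₀ − 1` a unit.

* `s59pslfFin ρ p a` (**LG-FIN**, what geometry owes): for every `m` an `𝒪[G]`-module `Y`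
  (torsion allowed: a piece of `J₀(N)[pⁿ] ⊗ 𝒪`) with
  (CH) `r g ² − tr ρ g • r g + det ρ g = 0`, (ESp) `r φ ² − a r φ + p` maps `Y` into the inertia
  span `𝔄 Y` for ONE place `P ∣ p` and ONE Frobenius `φ` at `P`, (BIG) `Ann Y ⊆ 𝔪 ^ m`;
* `s59pslfIrr ρ p hp2` (**IRR-TR**): the trace form of the irreducibility of `ρ̄`;
* **`s59pslf_rep`** : IRR-TR + LG-FIN ⇒ `α² − a α + p = 0`.
* `s59ps_StmtLGFin 𝒪`, `s59pslf_lgp_of_fin` : the same in the shape of `s59ps_StmtLGP` (helper56).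

NO map between `ρ.V` and `Y` is needed, NO Tate module, NO transport by Carayol.
Sorry-free; axioms: propext, Classical.choice, Quot.sound.
-/
import Fermat.Agent.S59.PStep.LGP
import Fermat.Agent.S59.PStep.LGFinCore

set_option autoImplicit false
set_option linter.unusedSectionVars false
set_option linter.unusedVariables false
set_option linter.style.longLine false
set_option linter.style.haveILetI false

noncomputable section

namespace Fermat.Agent.S59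

open IsLocalRing Fermat.Agent.S41
open scoped TensorProduct

/-- `ℚ̄` -/
local notation "Qbar" => AlgebraicClosure ℚ

/-! ### Trace identities of an ordinary line -/

section Alg

variable {A : Type} [CommRing A] {V : Type} [AddCommGroup V] [Module A V]

/-- **(ORD)**: for `f₀`, `f₁` stabilising the line `A b₀` and trivial on the quotient, and ANY `g`:
`det f₀ · tr (f₁ g) − tr (f₀ f₁ g) = det f₀ · tr g − tr (f₀ g)`. -/
theorem s59pslf_trace_ord (b : Module.Basis (Fin 2) A V) (f0 f1 g : Module.End A V)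
    (h0L : f0 (b 0) ∈ (A ∙ b 0 : Submodule A V))
    (h0 : f0 (b 1) - b 1 ∈ (A ∙ b 0 : Submodule A V))
    (h1L : f1 (b 0) ∈ (A ∙ b 0 : Submodule A V))
    (h1 : f1 (b 1) - b 1 ∈ (A ∙ b 0 : Submodule A V)) :
    LinearMap.det f0 * LinearMap.trace A V (f1 * g) - LinearMap.trace A V (f0 * (f1 * g)) =
      LinearMap.det f0 * LinearMap.trace A V g - LinearMap.trace A V (f0 * g) := by
  have h0' : f0 (b 1) - (1 : A) • b 1 ∈ (A ∙ b 0 : Submodule A V) := by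
    rw [one_smul]; exact h0
  have h1' : f1 (b 1) - (1 : A) • b 1 ∈ (A ∙ b 0 : Submodule A V) := by
    rw [one_smul]; exact h1
  have e0 := s59pshp_shape b f0 1 h0L h0'
  have e1 := s59pshp_shape b f1 1 h1L h1'
  rw [← LinearMap.det_toMatrix b, LinearMap.trace_eq_matrix_trace A b,
    LinearMap.trace_eq_matrix_trace A b, LinearMap.trace_eq_matrix_trace A b,
    LinearMap.trace_eq_matrix_trace A b]
  simp only [LinearMap.toMatrix_mul, Matrix.det_fin_two, Matrix.trace_fin_two, Matrix.mul_apply,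
    Fin.sum_univ_two, e0.1, e0.2, e1.1, e1.2]
  ring

end Alg

/-! ### The interface -/

section Defs

variable {A : Type} [CommRing A] [IsLocalRing A]

/-- the trace of `ρ` -/
def s59pslfT (ρ : GaloisRepAdic A) (g : S59G) : A := LinearMap.trace A ρ.V (ρ.ρ g)

/-- the determinant of `ρ` -/
def s59pslfD (ρ : GaloisRepAdic A) (g : S59G) : A := LinearMap.det (ρ.ρ g)

/-- `κ (x, y) = α (x y) − α x · α y` ("upper right entry of `x` times lower left entry of `y`" in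
a basis adapted to `σ₀`), as a function of the traces of `ρ` -/
def s59pslfKappa (ρ : GaloisRepAdic A) (σ₀ x y : S59G) : A :=
  s59pslfAl (s59pslfT ρ) σ₀ (Ring.inverse (s59pslfD ρ σ₀ - 1)) (x * y) -
    s59pslfAl (s59pslfT ρ) σ₀ (Ring.inverse (s59pslfD ρ σ₀ - 1)) x *
      s59pslfAl (s59pslfT ρ) σ₀ (Ring.inverse (s59pslfD ρ σ₀ - 1)) y

/-- **IRR-TR**: the trace form of the irreducibility of `ρ̄`: at every place `P` over `p`, with
`σ₀ = s59dcot_sigma p hp2 P`, some `κ (x₀, y₀)` is a unit. -/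
def s59pslfIrr (ρ : GaloisRepAdic A) (p : ℕ) [Fact p.Prime] (hp2 : p ≠ 2) : Prop :=
  ∀ P : ValuationSubring Qbar, P.LiesOverPrime p →
    ∃ x₀ y₀ : S59G, IsUnit (s59pslfKappa ρ (s59dcot_sigma p hp2 P) x₀ y₀)

/-- **LG-FIN**: the finite level data. -/
def s59pslfFin (ρ : GaloisRepAdic A) (p : ℕ) (a : A) : Prop :=
  ∀ m : ℕ, ∃ (P : ValuationSubring Qbar) (_ : P.LiesOverPrime p) (φ : S59G)
    (_ : P.IsFrobeniusAt φ p) (Y : Type) (_ : AddCommGroup Y) (_ : Module A Y)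
    (r : S59G →* Module.End A Y),
    (∀ g, r g * r g - s59pslfT ρ g • r g + s59pslfD ρ g • (1 : Module.End A Y) = 0) ∧
    (∀ y, r φ (r φ y) - a • r φ y + (p : A) • y ∈ s59pslfSpan r (P.inertiaSubgroupIn ℚ)) ∧
    ∀ c : A, (∀ y : Y, c • y = 0) → c ∈ maximalIdeal A ^ m

end Defs

/-! ### The theorem -/

section Rep

variable {𝒪 : Type} [CommRing 𝒪] [IsDomain 𝒪] [IsDiscreteValuationRing 𝒪]

/-- inertia lies in the decomposition group -/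
theorem s59pslf_inertia_le (P : ValuationSubring Qbar) {σ : S59G}
    (hσ : σ ∈ P.inertiaSubgroupIn ℚ) : σ ∈ P.decompositionSubgroup ℚ := by
  obtain ⟨τ, -, rfl⟩ := hσ
  exact τ.2

/-- Frobenius normalises inertia -/
theorem s59pslf_conj_inertia (P : ValuationSubring Qbar) {σ γ : S59G}
    (hσ : σ ∈ P.decompositionSubgroup ℚ) (hγ : γ ∈ P.inertiaSubgroupIn ℚ) :
    σ * γ * σ⁻¹ ∈ P.inertiaSubgroupIn ℚ := by
  obtain ⟨g, hg, rfl⟩ := Subgroup.mem_map.1 hγ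
  have hn : (P.inertiaSubgroup ℚ).Normal := by
    unfold ValuationSubring.inertiaSubgroup
    infer_instance
  have h1 := hn.conj_mem g hg ⟨σ, hσ⟩
  refine Subgroup.mem_map.2 ⟨_, h1, ?_⟩
  simp only [Subgroup.subtype_apply, Subgroup.coe_mul, Subgroup.coe_inv]

/-- **IRR-TR + LG-FIN ⇒ the unit root relation** (`det ρ σ₀ − 1` a unit as a hypothesis). -/
theorem s59pslf_rep' (p : ℕ) [Fact p.Prime] (hp2 : p ≠ 2) (ρ : GaloisRepAdic 𝒪)
    (hunit : ∀ P : ValuationSubring Qbar, P.LiesOverPrime p →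
      IsUnit (LinearMap.det (ρ.ρ (s59dcot_sigma p hp2 P)) - 1))
    (a α : 𝒪) (hα : s59psUnitRoot ρ p α)
    (hirr : s59pslfIrr ρ p hp2) (hfin : s59pslfFin ρ p a) :
    α ^ 2 - a * α + (p : 𝒪) = 0 := by
  have hmem : ∀ m : ℕ, α ^ 2 - a * α + (p : 𝒪) ∈ maximalIdeal 𝒪 ^ m := by
    intro m
    obtain ⟨P, hP, φ, hφ, Y, iY1, iY2, r, hch, hesp, hbig⟩ := hfin m
    obtain ⟨L, ⟨b, hL⟩, hD, hI, hF⟩ := hα P hP
    obtain ⟨hI0, hD0, -⟩ := s59dcot_sigma_spec p hp2 P hP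
    have hb0 : b 0 ∈ L := by rw [hL]; exact Submodule.mem_span_singleton_self _
    have hL' : ∃ b : Module.Basis (Fin 2) 𝒪 ρ.V, L = 𝒪 ∙ b 0 := ⟨b, hL⟩
    set σ₀ : S59G := s59dcot_sigma p hp2 P with hσ₀
    have hu := hunit P hP
    have hu' : (s59pslfD ρ σ₀ - 1) * Ring.inverse (s59pslfD ρ σ₀ - 1) = 1 :=
      Ring.mul_inverse_cancel _ hu
    have hu'' : Ring.inverse (s59pslfD ρ σ₀ - 1) * (s59pslfD ρ σ₀ - 1) = 1 := by
      rw [mul_comm]; exact hu'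
    have hφD : φ ∈ P.decompositionSubgroup ℚ := hφ.mem_decompositionSubgroup
    -- trace facts
    have hd : ∀ g, s59pslfD ρ (σ₀ * g) = s59pslfD ρ σ₀ * s59pslfD ρ g := by
      intro g
      unfold s59pslfD
      rw [ρ.ρ.map_mul σ₀ g, map_mul]
    have ht1 : s59pslfT ρ 1 = 2 := by
      unfold s59pslfT
      rw [map_one, LinearMap.trace_one, ρ.finrank_eq]
      norm_num
    have htσ₀ : s59pslfT ρ σ₀ = 1 + s59pslfD ρ σ₀ := by
      have h := s59pshp_trace_formula' L hL' (ρ.ρ σ₀) 1 1 (hD _ hD0) (hI _ hI0)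
        (fun v hv => hv) (fun v => by
          rw [Module.End.one_apply, one_smul, sub_self]; exact zero_mem _)
      rw [mul_one, LinearMap.trace_one, ρ.finrank_eq] at h
      unfold s59pslfT s59pslfD
      push_cast at h
      linear_combination h
    have hord : ∀ σ ∈ P.inertiaSubgroupIn ℚ, ∀ g,
        s59pslfA (s59pslfT ρ) (s59pslfD ρ) σ₀ (Ring.inverse (s59pslfD ρ σ₀ - 1)) (σ * g) =
          s59pslfA (s59pslfT ρ) (s59pslfD ρ) σ₀ (Ring.inverse (s59pslfD ρ σ₀ - 1)) g := by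
      intro σ hσ g
      have hσD := s59pslf_inertia_le P hσ
      have h := s59pslf_trace_ord b (ρ.ρ σ₀) (ρ.ρ σ) (ρ.ρ g)
        (by rw [← hL]; exact hD _ hD0 _ hb0) (by rw [← hL]; exact hI _ hI0 _)
        (by rw [← hL]; exact hD _ hσD _ hb0) (by rw [← hL]; exact hI _ hσ _)
      unfold s59pslfA s59pslfT s59pslfD
      rw [ρ.ρ.map_mul σ₀ (σ * g), ρ.ρ.map_mul σ g, ρ.ρ.map_mul σ₀ g, h]
    have hz : s59pslfA (s59pslfT ρ) (s59pslfD ρ) σ₀ (Ring.inverse (s59pslfD ρ σ₀ - 1)) φ = α := by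
      have h := s59pshp_trace_formula' L hL' (ρ.ρ σ₀) (ρ.ρ φ) α (hD _ hD0) (hI _ hI0)
        (hD _ hφD) (hF φ hφ)
      unfold s59pslfA s59pslfT
      rw [ρ.ρ.map_mul σ₀ φ]
      have h2 : s59pslfD ρ σ₀ * LinearMap.trace 𝒪 ρ.V (ρ.ρ φ) -
          LinearMap.trace 𝒪 ρ.V (ρ.ρ σ₀ * ρ.ρ φ) = (s59pslfD ρ σ₀ - 1) * α := h.symm
      rw [h2, ← mul_assoc, hu'', one_mul]
    have hnorm : ∀ σ ∈ P.inertiaSubgroupIn ℚ, φ * σ * φ⁻¹ ∈ P.inertiaSubgroupIn ℚ :=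
      fun σ hσ => s59pslf_conj_inertia P hφD hσ
    have hcore := s59pslf_core r (s59pslfT ρ) (s59pslfD ρ) (P.inertiaSubgroupIn ℚ) σ₀ φ
      (Ring.inverse (s59pslfD ρ σ₀ - 1)) a (p : 𝒪) hch hd hI0 hu' htσ₀ ht1 hord (hirr P hP)
      hnorm hesp
    rw [hz] at hcore
    exact hbig _ hcore
  have hbot : (⨅ m : ℕ, maximalIdeal 𝒪 ^ m) = ⊥ :=
    Ideal.iInf_pow_eq_bot_of_isLocalRing _ (IsLocalRing.maximalIdeal.isMaximal 𝒪).ne_top
  have h1 : α ^ 2 - a * α + (p : 𝒪) ∈ (⨅ m : ℕ, maximalIdeal 𝒪 ^ m) :=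
    (Ideal.mem_iInf).2 hmem
  rw [hbot] at h1
  exact (Ideal.mem_bot).1 h1

/-- **IRR-TR + LG-FIN ⇒ the unit root relation.** -/
theorem s59pslf_rep (p : ℕ) [Fact p.Prime] (hp2 : p ≠ 2) (ρ : GaloisRepAdic 𝒪)
    (hdet : ρ.DetIsCyclotomic p) (a α : 𝒪) (hα : s59psUnitRoot ρ p α)
    (hirr : s59pslfIrr ρ p hp2) (hfin : s59pslfFin ρ p a) :
    α ^ 2 - a * α + (p : 𝒪) = 0 :=
  s59pslf_rep' p hp2 ρ (fun P hP => s59pshp_sigma_unit ρ p hp2 hdet P hP) a α hα hirr hfin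

end Rep

/-! ### The shape of `s59ps_StmtLGP` -/

section Stmt

variable (𝒪 : Type) [CommRing 𝒪] [IsDomain 𝒪] [IsDiscreteValuationRing 𝒪]
  [IsAdicComplete (maximalIdeal 𝒪) 𝒪]

/-- **LG-FIN** in the shape of `s59ps_StmtLGP`: the finite level data for `ρ_π` and the
`T_p`-eigenvalue `a`. -/
def s59ps_StmtLGFin : Prop :=
  ∀ (p : ℕ) [Fact p.Prime], p ≠ 2 → (p : 𝒪) ∈ maximalIdeal 𝒪 →
  ∀ (N : ℕ) [NeZero N] (hpN : ¬ p ∣ N) (S : Finset ℕ), p ∈ S →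
    (∀ ℓ : ℕ, ℓ.Prime → ℓ ∣ N → ℓ ∈ S) →
  ∀ (θ : CuspForm.heckeAlgebra N 2 (↑S : Set ℕ) →+* ResidueField 𝒪)
    (T : Type) [CommRing T] [IsLocalRing T] [IsNoetherianRing T]
    [IsAdicComplete (maximalIdeal T) T] [Algebra 𝒪 T] [IsLocalHom (algebraMap 𝒪 T)]
    [Module.Finite 𝒪 T] [Module.Free 𝒪 T]
    (H : CuspForm.HeckeGaloisRepDatum N (↑S : Set ℕ) 𝒪 θ T), H.ρ.DetIsCyclotomic p →
  ∀ (πT : T →ₐ[𝒪] 𝒪) (hπ : IsLocalHom (πT : T →+* 𝒪)) (x : 𝒪 ⊗[ℤ] ↥(Lpar N)), x ≠ 0 →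
    (∀ (ℓ : ℕ) (hℓ : ℓ.Prime) (hℓN : ¬ ℓ ∣ N) (hℓS : ℓ ∉ (↑S : Set ℕ)),
      (@s59bcTcZ N _ ℓ ⟨hℓ⟩ hℓN).baseChange 𝒪 x =
        πT (H.π (CuspForm.heckeAlgebra.T hℓ hℓN hℓS)) • x) →
  ∀ a : 𝒪, (s59bcTcZ N p hpN).baseChange 𝒪 x = a • x →
    (H.ρ.baseChangeAlong (πT : T →+* 𝒪) hπ).IsOrdinaryAt p →
    s59pslfFin (H.ρ.baseChangeAlong (πT : T →+* 𝒪) hπ) p a

/-- **IRR-TR** for the representations `ρ_π` of a Hecke–Galois datum. -/
def s59ps_StmtLGIrr : Prop :=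
  ∀ (p : ℕ) [Fact p.Prime] (hp2 : p ≠ 2), (p : 𝒪) ∈ maximalIdeal 𝒪 →
  ∀ (N : ℕ) [NeZero N] (S : Finset ℕ)
    (θ : CuspForm.heckeAlgebra N 2 (↑S : Set ℕ) →+* ResidueField 𝒪)
    (T : Type) [CommRing T] [IsLocalRing T] [IsNoetherianRing T]
    [IsAdicComplete (maximalIdeal T) T] [Algebra 𝒪 T] [IsLocalHom (algebraMap 𝒪 T)]
    [Module.Finite 𝒪 T] [Module.Free 𝒪 T]
    (H : CuspForm.HeckeGaloisRepDatum N (↑S : Set ℕ) 𝒪 θ T), H.ρ.DetIsCyclotomic p →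
  ∀ (πT : T →ₐ[𝒪] 𝒪) (hπ : IsLocalHom (πT : T →+* 𝒪)),
    (H.ρ.baseChangeAlong (πT : T →+* 𝒪) hπ).IsOrdinaryAt p →
    s59pslfIrr (H.ρ.baseChangeAlong (πT : T →+* 𝒪) hπ) p hp2

end Stmt

section Proof

variable {𝒪 : Type} [CommRing 𝒪] [IsDomain 𝒪] [IsDiscreteValuationRing 𝒪]
  [IsAdicComplete (maximalIdeal 𝒪) 𝒪]

/-- **IRR-TR + LG-FIN ⇒ LG-P.** -/
theorem s59pslf_lgp_of_fin (hirr : s59ps_StmtLGIrr 𝒪) (h : s59ps_StmtLGFin 𝒪) :
    s59ps_StmtLGP 𝒪 := by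
  intro p _ hp2 hp𝒪 N _ hpN S hpS hNS θ T _ _ _ _ _ _ _ _ H hdet πT hπ x hx hxe a hxa α hα
  have hord := s59pslg_ord_of_unitRoot _ p α hα
  refine s59pslf_rep' p hp2 _ ?_ a α hα
    (hirr p hp2 hp𝒪 N S θ T H hdet πT hπ hord)
    (h p hp2 hp𝒪 N hpN S hpS hNS θ T H hdet πT hπ x hx hxe a hxa hord)
  intro P hP
  have hu := (s59pshp_sigma_unit H.ρ p hp2 hdet P hP).map (πT : T →+* 𝒪)
  rw [map_sub, map_one, ← s59pshp_det_bc (πT : T →+* 𝒪) hπ H.ρ] at hu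
  exact hu

end Proof

end Fermat.Agent.S59
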