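/-
S59, wall M5 = P-STEP, leaf LG-P, part (LG2)(i) (helper44).  Ledger: NOTES/S59-M5.md.

`M` a finite `p`-group with a Hopf order `H` over `ℤ_(p)` (`p` odd), `P ∣ p` a place of `ℚ̄`,
`I = I_P`, `M⁰ = S33.ntslConn = {m | ∀ h ∈ H, h m ≡ h 0 mod 𝔪_P}` (the points which reduce to `0`
on the special fibre: the "connected part").

* `s59pslgc_conn_stable` : `M⁰` is stable under `I`;
* `s59pslgc_nts_conn`    : **`M⁰` has no trivial sub-quotient** (`NTS I act M⁰`): every `I`-stable
                           `B ≤ M⁰` is its own inertia span (Raynaud, `e = 1 < p − 1`);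
* `s59pslgc_conn_eq_span` : **`M⁰ = 𝔄 M`**: the kernel of reduction is the inertia span;
* `s59pslgc_mem_span_of_congr` : `m` with `h m ≡ h 0` for all `h ∈ H` lies in `𝔄 M`;
* `s59pslgc_fixed_conn_eq_zero` : an `I`-fixed point of `M⁰` is `0`
                           (reduction is injective on the `I`-fixed points).

The proof is that of `S33.stmtNTSOfLattice_of` (B3, helper53): there the hypothesis `B ≤ 𝔄 M` is
used only through `B ≤ M⁰`.

Sorry-free; axioms: propext, Classical.choice, Quot.sound.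
-/
import Fermat.Agent.S33.NTSOfLattice

set_option autoImplicit false
set_option linter.unusedSectionVars false
set_option linter.unusedVariables false
set_option linter.unusedSimpArgs false
set_option linter.style.longLine false
set_option linter.style.haveILetI false

namespace Fermat.Agent.S59

open Fermat.Agent.S33 Fermat.Agent.W1 Fermat.Agent.UNIP

section Conn

variable {p : ℕ} {P : ValuationSubring NQb} {M : Type} [AddCommGroup M] {act : GQb → M → M}
  {H : Subalgebra (GaloisRep.ratLocalizedAt p) (M → NQb)}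

/-- `M⁰` is stable under inertia -/
theorem s59pslgc_conn_stable (hp : p.Prime) (hP : P.LiesOverPrime p)
    (hH : IsHopfLattice (GaloisRep.ratLocalizedAt p) act H) :
    ntsStable (P.inertiaSubgroupIn ℚ) act (ntslConn hp hP hH) := by
  intro σ hσ m hm h hh
  have h1 : h (act σ m) - h m ∈ P.nonunits := by
    rw [hH.equivariant h hh σ m]
    exact Fermat.Agent.S05.inertia_apply_sub_mem_nonunits hσ (ntsl_value_mem hp hP hH.fg hh m)
  have e : h (act σ m) - h 0 = (h (act σ m) - h m) + (h m - h 0) := by ring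
  rw [e]
  exact ntsl_nu_add h1 (hm h hh)

/-- **(LG2)(i): the connected part has no trivial sub-quotient.** -/
theorem s59pslgc_nts_conn (hp : p.Prime) (hp2 : p ≠ 2) (hP : P.LiesOverPrime p) [Finite M]
    (hpow : ∃ m : ℕ, ∀ x : M, p ^ m • x = 0)
    (hH : IsHopfLattice (GaloisRep.ratLocalizedAt p) act H) :
    NTS (P.inertiaSubgroupIn ℚ) act (ntslConn hp hP hH) := by
  intro B hBconn hst b hb
  obtain ⟨m, hm⟩ := hpow
  -- the quotient `Q = B / 𝔄 B`
  set C : AddSubgroup M := ntsSpan (P.inertiaSubgroupIn ℚ) act B with hC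
  let C' : AddSubgroup B := C.addSubgroupOf B
  let π : B →+ B ⧸ C' := QuotientAddGroup.mk' C'
  have hπ : Function.Surjective π := QuotientAddGroup.mk'_surjective C'
  let act'' : GQb → B ⧸ C' → B ⧸ C' := fun _ x => x
  have hequiv : ∀ σ ∈ P.inertiaSubgroupIn ℚ, ∀ x : B, π (ntslAct act B σ x) = act'' σ (π x) := by
    intro σ hσ x
    show π (ntslAct act B σ x) = π x
    rw [← sub_eq_zero, ← map_sub]
    apply (QuotientAddGroup.eq_zero_iff _).mpr
    show ((ntslAct act B σ x - x : B) : M) ∈ C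
    rw [AddSubgroup.coe_sub, ntslAct_coe (hst σ hσ x x.2)]
    exact sub_mem_ntsSpan hσ x.2
  -- the Hopf lattice on `Q`
  have hHB := ntslHB_isHopfLatticeOver hp hP hH hst
  have hQ := stmtSQLocQuot (ntslA0 P) (P.inertiaSubgroupIn ℚ)
    (ntslA0_isPrincipalIdealRing hp hP)
    (fun r hr σ hσ => ntslA0_fixed hr hσ) ntslA0_frac B inferInstance inferInstance
    (ntslAct act B) (B ⧸ C') inferInstance act'' (ntslHB P H B) hHB π hπ hequiv
  -- no element of order `p` in `Q`
  have hnop : ∀ q : B ⧸ C', p • q = 0 → q = 0 := by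
    intro q hq
    apply hQ.separates
    have hval : ∀ φ ∈ ((ntslHB P H B).comap (pullFnOver (ntslA0 P) π) : Set (B ⧸ C' → NQb)),
        ∀ x, φ x ∈ ntslA0 P := by
      intro φ hφ x
      obtain ⟨y, rfl⟩ := hπ x
      refine ⟨ntslHB_value_mem hp hP hH B hφ y, ?_⟩
      show φ (π y) ∈ beta0Field P
      rw [mem_beta0Field]
      intro σ hσ
      exact (hQ.equivariant φ hφ σ hσ (π y)).symm
    have hconn : ∀ φ ∈ ((ntslHB P H B).comap (pullFnOver (ntslA0 P) π) : Set (B ⧸ C' → NQb)),
        (φ q - φ 0) / (p : NQb) ∈ ntslA0 P := by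
      intro φ hφ
      apply ntslA0_div_mem hp hP ((ntslA0 P).sub_mem (hval φ hφ q) (hval φ hφ 0))
      obtain ⟨y, rfl⟩ := hπ q
      have := ntslHB_congr hp hP hH hBconn hφ y
      simpa using this
    exact stmtRayLite NQb inferInstance inferInstance (ntslA0 P) p hp hp2 (ntslA0_sep hp hP)
      (B ⧸ C') inferInstance q hq _ hval hQ.comul_mem hconn
  -- conclusion
  have hzero : π ⟨b, hb⟩ = 0 := by
    apply ntsl_eq_zero_of_pow hnop m
    rw [← map_nsmul]
    have : p ^ m • (⟨b, hb⟩ : B) = 0 := by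
      apply Subtype.ext
      simpa using hm b
    rw [this, map_zero]
  have := (QuotientAddGroup.eq_zero_iff _).mp hzero
  exact this

/-- **The kernel of reduction is the inertia span**: `M⁰ = 𝔄 M`. -/
theorem s59pslgc_conn_eq_span (hp : p.Prime) (hp2 : p ≠ 2) (hP : P.LiesOverPrime p) [Finite M]
    (hpow : ∃ m : ℕ, ∀ x : M, p ^ m • x = 0)
    (hH : IsHopfLattice (GaloisRep.ratLocalizedAt p) act H) :
    ntslConn hp hP hH = ntsSpan (P.inertiaSubgroupIn ℚ) act ⊤ := by
  apply le_antisymm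
  · exact (s59pslgc_nts_conn hp hp2 hP hpow hH _ le_rfl (s59pslgc_conn_stable hp hP hH)).trans
      (ntsSpan_mono le_top)
  · exact ntsl_span_le_conn hp hP hH

/-- a point `m` with `h m ≡ h 0 mod 𝔪_P` for every `h ∈ H` lies in the inertia span `𝔄 M` -/
theorem s59pslgc_mem_span_of_congr (hp : p.Prime) (hp2 : p ≠ 2) (hP : P.LiesOverPrime p)
    [Finite M] (hpow : ∃ m : ℕ, ∀ x : M, p ^ m • x = 0)
    (hH : IsHopfLattice (GaloisRep.ratLocalizedAt p) act H) {m : M}
    (hm : ∀ h ∈ H, h m - h 0 ∈ P.nonunits) :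
    m ∈ ntsSpan (P.inertiaSubgroupIn ℚ) act ⊤ := by
  rw [← s59pslgc_conn_eq_span hp hp2 hP hpow hH]
  exact hm

/-- every `I`-stable subgroup of `M⁰` on which `I` acts trivially is `0` -/
theorem s59pslgc_trivial_eq_bot (hp : p.Prime) (hp2 : p ≠ 2) (hP : P.LiesOverPrime p)
    [Finite M] (hpow : ∃ m : ℕ, ∀ x : M, p ^ m • x = 0)
    (hH : IsHopfLattice (GaloisRep.ratLocalizedAt p) act H) (B : AddSubgroup M)
    (hB : B ≤ ntslConn hp hP hH) (htriv : ∀ σ ∈ P.inertiaSubgroupIn ℚ, ∀ b ∈ B, act σ b = b) :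
    B = ⊥ := by
  have hst : ntsStable (P.inertiaSubgroupIn ℚ) act B := fun σ hσ b hb => by
    rw [htriv σ hσ b hb]; exact hb
  have h1 := s59pslgc_nts_conn hp hp2 hP hpow hH B hB hst
  have h2 : ntsSpan (P.inertiaSubgroupIn ℚ) act B = ⊥ := by
    rw [ntsSpan, AddSubgroup.closure_eq_bot_iff]
    rintro w ⟨σ, hσ, b, hb, rfl⟩
    rw [Set.mem_singleton_iff, htriv σ hσ b hb, sub_self]
  rw [h2] at h1
  exact le_antisymm h1 bot_le

/-- **reduction is injective on the `I`-fixed points**: an `I`-fixed point of `M⁰` is `0`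
(`act` additive in `m`, as for every Galois module). -/
theorem s59pslgc_fixed_conn_eq_zero (hp : p.Prime) (hp2 : p ≠ 2) (hP : P.LiesOverPrime p)
    [Finite M] (hpow : ∃ m : ℕ, ∀ x : M, p ^ m • x = 0)
    (hH : IsHopfLattice (GaloisRep.ratLocalizedAt p) act H)
    (hadd : ∀ σ ∈ P.inertiaSubgroupIn ℚ, ∀ x y : M, act σ (x + y) = act σ x + act σ y)
    {m : M} (hm : m ∈ ntslConn hp hP hH)
    (hfix : ∀ σ ∈ P.inertiaSubgroupIn ℚ, act σ m = m) : m = 0 := by
  -- the subgroup of the `I`-fixed points of `M⁰`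
  let B : AddSubgroup M :=
    { carrier := {x | x ∈ ntslConn hp hP hH ∧ ∀ σ ∈ P.inertiaSubgroupIn ℚ, act σ x = x}
      zero_mem' := by
        refine ⟨zero_mem _, fun σ hσ => ?_⟩
        have h := hadd σ hσ 0 0
        rw [add_zero] at h
        exact left_eq_add.mp h
      add_mem' := by
        rintro x y ⟨hx, hx'⟩ ⟨hy, hy'⟩
        refine ⟨add_mem hx hy, fun σ hσ => ?_⟩
        rw [hadd σ hσ, hx' σ hσ, hy' σ hσ]
      neg_mem' := by
        rintro x ⟨hx, hx'⟩
        refine ⟨neg_mem hx, fun σ hσ => ?_⟩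
        have h0 : act σ 0 = 0 := by
          have h := hadd σ hσ 0 0
          rw [add_zero] at h
          exact left_eq_add.mp h
        have h := hadd σ hσ x (-x)
        rw [add_neg_cancel, h0, hx' σ hσ] at h
        exact (neg_eq_of_add_eq_zero_right h.symm).symm }
  have hB : B = ⊥ := s59pslgc_trivial_eq_bot hp hp2 hP hpow hH B (fun x hx => hx.1)
    (fun σ hσ b hb => hb.2 σ hσ)
  have hmB : m ∈ B := ⟨hm, hfix⟩
  rw [hB] at hmB
  exact (AddSubgroup.mem_bot).1 hmB

end Conn

end Fermat.Agent.S59
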