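/-
S59, wall M5 = P-STEP, leaf LG-P, part (LG2)(ii), step (a1) (helper10).  Ledger: NOTES/S59-M5.md.

**A point of `J[n]` lying in the kernel of reduction `J1` of a kernel chart lies in the inertia
span `𝔄 J[n]`** (`n = p^k`, `p` odd).

`KernelChart A J J1 g z` (W1) is the chart of the kernel of reduction `J1 ≤ J`; the local Hopf
lattice of W1 is `Ht = ctlHt A J1 z n` (generated by the indicators of the cosets of `J1` and by
the coordinate functions), the global one is `H = ltgH A act hp hA Ht = Ht ∩ Map_G`.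

* `s59pslb_ctl_congr` : every `h ∈ Ht` satisfies `h x ≡ h 0 mod 𝔪_A` for `x ∈ J[n] ∩ J1`;
* `s59pslb_local`     : `Ht` is a local Hopf lattice (W1 ALG-B, with the lattice named);
* `s59pslb_hopf_of_local`, `s59pslb_hopf` : `H` is a Hopf lattice over `ℤ_(p)` (W1 ALG-A, with
                        the lattice named);
* `s59pslb_mem_span_of_local` : for ANY local Hopf lattice `Ht` on a finite `p`-group `M`: if
                        `h x ≡ h 0 mod 𝔪_A` for all `h ∈ Ht` then `x ∈ 𝔄 M`;
* `s59pslb_mem_conn`  : `J[n] ∩ J1 ≤ M⁰` (the connected part `S33.ntslConn` of `H`);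
* `s59pslb_mem_span`, `s59pslb_mem_span_pow` : **`J[n] ∩ J1 ≤ 𝔄 J[n]`** (by helper44's
                        `s59pslgc_conn_eq_span`).

Sorry-free; axioms: propext, Classical.choice, Quot.sound.
-/
import Fermat.Agent.S59.PStep.LgConn
import Fermat.Agent.W1.ChartToLocal
import Fermat.Agent.W1.LocalToGlobalFinal

set_option autoImplicit false
set_option linter.unusedSectionVars false
set_option linter.unusedVariables false
set_option linter.unusedSimpArgs false
set_option linter.style.longLine false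
set_option linter.style.haveILetI false

namespace Fermat.Agent.S59

open Fermat.Agent.S33 Fermat.Agent.W1 Fermat.Agent.UNIP

section Bridge

variable {A : ValuationSubring (AlgebraicClosure ℚ)} {J : Type} [AddCommGroup J]
  [DistribMulAction (AlgebraicClosure ℚ ≃ₐ[ℚ] AlgebraicClosure ℚ) J]
  {J1 : AddSubgroup J} {g : ℕ} {z : J → Fin g → AlgebraicClosure ℚ} {n : ℕ}

/-- every function of the local lattice is congruent to its value at `0` on `J[n] ∩ J1` -/
theorem s59pslb_ctl_congr (hK : KernelChart A J J1 g z) :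
    ∀ h ∈ ctlHt A J1 z n, ∀ x : Submodule.torsionBy ℤ J (n : ℤ), (x : J) ∈ J1 →
      h x - h 0 ∈ A.nonunits := by
  intro h hh
  induction hh using Algebra.adjoin_induction with
  | mem f hf =>
    intro x hx
    rcases hf with ⟨b, rfl⟩ | ⟨σ, hσ, b, -, i, rfl⟩
    · have hiff : ((x : J) - b ∈ J1) ↔
          (((0 : Submodule.torsionBy ℤ J (n : ℤ)) : J) - b ∈ J1) := by
        rw [Submodule.coe_zero, zero_sub]
        constructor
        · intro h1
          have e : -b = ((x : J) - b) - (x : J) := by abel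
          rw [e]; exact J1.sub_mem h1 hx
        · intro h1
          have e : (x : J) - b = (x : J) + -b := by abel
          rw [e]; exact J1.add_mem hx h1
      by_cases hc : (x : J) - b ∈ J1
      · rw [ctlInd_of_mem hc, ctlInd_of_mem (hiff.1 hc), sub_self]
        exact ntsl_nu_zero
      · rw [ctlInd_of_not_mem hc, ctlInd_of_not_mem (fun h0 => hc (hiff.2 h0)), sub_self]
        exact ntsl_nu_zero
    · exact ntsl_nu_sub (ctlPsi_apply_mem hK hσ b i x) (ctlPsi_apply_mem hK hσ b i 0)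
  | algebraMap r =>
    intro x hx
    have e : (algebraMap A (Submodule.torsionBy ℤ J (n : ℤ) → AlgebraicClosure ℚ) r) x
        - (algebraMap A (Submodule.torsionBy ℤ J (n : ℤ) → AlgebraicClosure ℚ) r) 0 = 0 := by
      simp [Pi.algebraMap_apply]
    rw [e]
    exact ntsl_nu_zero
  | add f₁ f₂ h₁ h₂ ih₁ ih₂ =>
    intro x hx
    have e : (f₁ + f₂) x - (f₁ + f₂) 0 = (f₁ x - f₁ 0) + (f₂ x - f₂ 0) := by
      simp only [Pi.add_apply]; ring
    rw [e]
    exact ntsl_nu_add (ih₁ x hx) (ih₂ x hx)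
  | mul f₁ f₂ h₁ h₂ ih₁ ih₂ =>
    intro x hx
    have e : (f₁ * f₂) x - (f₁ * f₂) 0 = f₁ x * f₂ x - f₁ 0 * f₂ 0 := by
      simp only [Pi.mul_apply]
    rw [e]
    exact ntsl_nu_mul_sub_mul (ctl_integral hK f₁ h₁ x) (ctl_integral hK f₂ h₂ 0)
      (ih₁ x hx) (ih₂ x hx)

/-- W1 ALG-B with the lattice named: `ctlHt` is a local Hopf lattice on `J[n]` -/
theorem s59pslb_local {p : ℕ} (hp : p.Prime) (hA : A.LiesOverPrime p)
    (hK : KernelChart A J J1 g z) (hn : 0 < n) [Finite (Submodule.torsionBy ℤ J (n : ℤ))] :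
    IsLocalHopfLattice A (torsAct J (n : ℤ)) (ctlHt A J1 z n) :=
  { integral := ctl_integral hK
    separates := ctl_separates hK hn
    decomp_stable := ctl_decomp_stable hK
    inertia_span := ctl_inertia_span hK hn
    comul_mem := ctl_comul_mem hp hA hK hn }

/-- W1 ALG-A with the lattice named: for a local Hopf lattice `Ht`, the algebra
`ltgH = Ht ∩ Map_G` is a Hopf lattice over `ℤ_(p)` -/
theorem s59pslb_hopf_of_local {p : ℕ} (hp : p.Prime) (hA : A.LiesOverPrime p)
    {M : Type} [AddCommGroup M] [Finite M]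
    {act : (AlgebraicClosure ℚ ≃ₐ[ℚ] AlgebraicClosure ℚ) → M → M} (hact : IsContAction act)
    {Ht : Subalgebra A (M → AlgebraicClosure ℚ)} (hloc : IsLocalHopfLattice A act Ht) :
    IsHopfLattice (GaloisRep.ratLocalizedAt p) act (ltgH A act hp hA Ht) := by
  haveI : Fact p.Prime := ⟨hp⟩
  exact IsHopfLattice.of_core
    (ltg_fg hp hA hact hloc descLagrange DI.descInertiaStatement descApprox)
    (fun h hh => hh.2)
    (ltg_separates hp hA hact hloc descLagrange DI.descInertiaStatement descApprox)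
    (ltg_comul hp hA hact hloc descLagrange DI.descInertiaStatement descApprox)
    (ltg_act_zero hact)

/-- **the bridge, abstract form**: if every function of a local Hopf lattice `Ht` on the finite
`p`-group `M` (`p` odd) is congruent at `x` to its value at `0`, then `x ∈ 𝔄 M`. -/
theorem s59pslb_mem_span_of_local {p : ℕ} (hp : p.Prime) (hp2 : p ≠ 2)
    (hA : A.LiesOverPrime p) {M : Type} [AddCommGroup M] [Finite M]
    {act : (AlgebraicClosure ℚ ≃ₐ[ℚ] AlgebraicClosure ℚ) → M → M} (hact : IsContAction act)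
    {Ht : Subalgebra A (M → AlgebraicClosure ℚ)} (hloc : IsLocalHopfLattice A act Ht)
    (hpow : ∃ m : ℕ, ∀ x : M, p ^ m • x = 0)
    (x : M) (hx : ∀ h ∈ Ht, h x - h 0 ∈ A.nonunits) :
    x ∈ ntsSpan (A.inertiaSubgroupIn ℚ) act ⊤ :=
  s59pslgc_mem_span_of_congr hp hp2 hA hpow (s59pslb_hopf_of_local hp hA hact hloc)
    (fun h hh => hx h hh.1)

/-- W1 ALG-A for the lattice of a kernel chart -/
theorem s59pslb_hopf {p : ℕ} (hp : p.Prime) (hA : A.LiesOverPrime p)
    (hK : KernelChart A J J1 g z) (hn : 0 < n) [Finite (Submodule.torsionBy ℤ J (n : ℤ))]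
    (hact : IsContAction (torsAct J (n : ℤ))) :
    IsHopfLattice (GaloisRep.ratLocalizedAt p) (torsAct J (n : ℤ))
      (ltgH A (torsAct J (n : ℤ)) hp hA (ctlHt A J1 z n)) :=
  s59pslb_hopf_of_local hp hA hact (s59pslb_local hp hA hK hn)

/-- `J[n] ∩ J1` lies in the connected part `M⁰` of the Hopf lattice `ltgH` -/
theorem s59pslb_mem_conn {p : ℕ} (hp : p.Prime) (hA : A.LiesOverPrime p)
    (hK : KernelChart A J J1 g z) (hn : 0 < n) [Finite (Submodule.torsionBy ℤ J (n : ℤ))]
    (hact : IsContAction (torsAct J (n : ℤ)))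
    (x : Submodule.torsionBy ℤ J (n : ℤ)) (hx : (x : J) ∈ J1) :
    x ∈ ntslConn hp hA (s59pslb_hopf hp hA hK hn hact) :=
  fun h hh => s59pslb_ctl_congr hK h hh.1 x hx

/-- **(LG2)(ii), step (a1)**: a point of `J[n]` (`n` a power of the odd prime `p`) in the kernel
of reduction `J1` lies in the inertia span `𝔄 J[n]`. -/
theorem s59pslb_mem_span {p : ℕ} (hp : p.Prime) (hp2 : p ≠ 2) (hA : A.LiesOverPrime p)
    (hK : KernelChart A J J1 g z) (hn : 0 < n) [Finite (Submodule.torsionBy ℤ J (n : ℤ))]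
    (hact : IsContAction (torsAct J (n : ℤ)))
    (hpow : ∃ m : ℕ, ∀ x : Submodule.torsionBy ℤ J (n : ℤ), p ^ m • x = 0)
    (x : Submodule.torsionBy ℤ J (n : ℤ)) (hx : (x : J) ∈ J1) :
    x ∈ ntsSpan (A.inertiaSubgroupIn ℚ) (torsAct J (n : ℤ)) ⊤ :=
  s59pslb_mem_span_of_local hp hp2 hA hact (s59pslb_local hp hA hK hn) hpow x
    (fun h hh => s59pslb_ctl_congr hK h hh x hx)

/-- the same with the exponent written `(p : ℤ) ^ k`, as in S19 and S33 -/
theorem s59pslb_mem_span_pow {p : ℕ} (hp : p.Prime) (hp2 : p ≠ 2) (hA : A.LiesOverPrime p)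
    (hK : KernelChart A J J1 g z) (k : ℕ) [hfin : Finite (Submodule.torsionBy ℤ J ((p : ℤ) ^ k))]
    (hact : IsContAction (torsAct J ((p : ℤ) ^ k)))
    (x : Submodule.torsionBy ℤ J ((p : ℤ) ^ k)) (hx : (x : J) ∈ J1) :
    x ∈ ntsSpan (A.inertiaSubgroupIn ℚ) (torsAct J ((p : ℤ) ^ k)) ⊤ := by
  have hc : (((p ^ k : ℕ) : ℤ)) = (p : ℤ) ^ k := by push_cast; rfl
  revert hfin hact x
  rw [← hc]
  intro hfin hact x hx
  refine s59pslb_mem_span hp hp2 hA hK (pow_pos hp.pos k) hact ⟨k, fun y => ?_⟩ x hx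
  apply Subtype.ext
  have hy := (Submodule.mem_torsionBy_iff _ _).1 y.2
  rw [natCast_zsmul] at hy
  rw [Submodule.coe_smul_of_tower, hy]
  rfl

end Bridge

end Fermat.Agent.S59
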