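/-
S59, wall M5 = P-STEP, leaf LG-P, part (LG2)(ii), step (a1), CONCRETE form for `J₀(N)` (helper10).
Ledger: NOTES/S59-M5.md.

`R` the reduction package of `X₀(N)` at a valuation ring `A` of `ℚ̄` over `p` (`ModPR N A g R t`,
W1 GEO-PR), `R.J1 ≤ J₀(N)` its kernel of reduction.

* `s59pslj_kernelChart` : `R.J1` carries a kernel chart (W1 GEO-KC with the subgroup NAMED);
* `s59pslj_mem_span`    : **`J₀(N)[p^k] ∩ R.J1 ≤ 𝔄 J₀(N)[p^k]`** (`p` odd);
* `s59pslj_mem_span_levelUp` : the same through a level-raising map `φ : J₀(N) → J₀(N')`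
                          (`StmtLevelUp`, injective on `p`-power torsion, equivariant): a point `x`
                          of `J₀(N)[p^k]` with `φ x ∈ R'.J1` lies in `𝔄 J₀(N)[p^k]`.

Sorry-free; axioms: propext, Classical.choice, Quot.sound.
-/
import Fermat.Agent.S59.PStep.LgBridgeH10
import Fermat.Agent.W1.S19Final

set_option autoImplicit false
set_option synthInstance.maxHeartbeats 400000
set_option maxHeartbeats 1600000
set_option linter.unusedSectionVars false
set_option linter.unusedVariables false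
set_option linter.unusedSimpArgs false
set_option linter.style.longLine false
set_option linter.style.haveILetI false

open AlgebraicCurve Module ModularCurve

namespace Fermat.Agent.S59

open Fermat.Agent.S33 Fermat.Agent.W1 Fermat.Agent.UNIP

/-- **GEO-KC with the subgroup named**: the kernel of reduction `R.J1` of the reduction package
carries a kernel chart. -/
theorem s59pslj_kernelChart {N : ℕ} [NeZero N] {p : ℕ} (hp : p.Prime)
    {A : ValuationSubring (AlgebraicClosure ℚ)} (hA : A.LiesOverPrime p) {g : ℕ}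
    {R : PRData (AlgebraicClosure ℚ) ↥(modularFunctionFieldBar N) (IsLocalRing.ResidueField A)
      ↥(modularFunctionFieldFullC (IsLocalRing.ResidueField A) N) A}
    {t : ↥(modularFunctionFieldBar N)} (hM : ModPR N A g R t) :
    ∃ z : JZero N → Fin g → AlgebraicClosure ℚ, KernelChart A (JZero N) R.J1 g z := by
  have hDisc := stmtDisc
  have hC1 := stmtC1
  have hLift := stmtLift
  have hAdd := stmtAddApprox
  obtain ⟨S, hS⟩ := stmtTeich p hp A hA
  have hSsurj : ∀ c : IsLocalRing.ResidueField A, ∃ s ∈ S, R.res s = c := by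
    rw [hM.res_eq]; exact hS.surj
  have hSinj : ∀ s ∈ S, ∀ s' ∈ S, R.res s = R.res s' → s = s' := by
    rw [hM.res_eq]; exact hS.inj
  have ht : t ∈ R.O := hM.good.1
  obtain ⟨C, hC, hRep, hCt, hcS⟩ := kc_exists_chart hDisc hM.isPR hM.nice hM.nice_k t ht hM.good
    (hM.ram ht) S hSsurj hSinj
  subst hCt
  have hspec : ∀ x : JZero N, x ∈ R.J1 → C.IsCoord x (kcCoord C x) := fun x hx =>
    kcCoord_spec (isCoord_exists hDisc hC1 hM.isPR hM.nice hM.nice_k hM.orth hC hx)
  have hdecomp : ∀ σ ∈ A.decompositionSubgroup ℚ, ∀ x ∈ R.J1, σ • x ∈ R.J1 := by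
    intro σ hσ x hx
    obtain ⟨σb, h1, h2⟩ := hM.decomp σ hσ
    exact kc_smul_mem_J1 (arithmeticGalois (modularFunctionFieldFull N) σ) σb h1 h2 hx
  refine ⟨kcCoord C, ⟨hdecomp, ?_, ?_, ?_, ?_, ?_⟩⟩
  · -- mem_nonunits
    intro x hx i
    obtain ⟨P, -, hPd⟩ := hspec x hx
    exact (hPd i).2.1
  · -- injOn
    intro x hx y hy hxy
    have h1 := hspec x hx
    have h2 := hspec y hy
    rw [← hxy] at h2
    exact isCoord_inj hDisc hM.isPR hM.nice hM.nice_k hC h1 h2
  · -- inertia_equivariant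
    intro σ hσ x hx i
    have hσx : σ • x ∈ R.J1 :=
      hdecomp σ (Fermat.Agent.S05.mem_decomposition_of_mem_inertiaIn hσ) x hx
    have h1 := isCoord_smul hDisc hM.isPR hM.nice hM.nice_k hC hcS (kc_inertiaLike hM hS hσ)
      (hspec x hx)
    have h2 := kcCoord_eq hC1 hM.isPR hM.nice hM.nice_k hM.orth hC hσx h1
    exact congrFun h2 i
  · -- add_approx
    intro ϖ hϖ hϖ0 n
    obtain ⟨Φ, hΦ, h⟩ := kc_add_approx hAdd hM.isPR hM.nice hM.nice_k hM.orth hC hRep n
    refine ⟨Φ, hΦ, fun x hx y hy hzx hzy => ?_⟩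
    exact h ϖ hϖ hϖ0 x y _ _ _ (hspec x hx) (hspec y hy)
      (hspec (x + y) (R.J1.add_mem hx hy)) hzx hzy
  · -- lift
    intro x _
    obtain ⟨b, hb1, hb2⟩ := kc_lift hDisc hLift hM.isPR hM.nice hM.nice_k ht hM.good (hM.ram ht)
      hSsurj x
    exact ⟨b, fun σ hσ => hb2 _ (kc_inertiaLike hM hS hσ), hb1⟩

/-- **(LG2)(ii), step (a1), for `J₀(N)`**: a point of `J₀(N)[p^k]` (`p` odd) in the kernel of
reduction `R.J1` lies in the inertia span `𝔄 J₀(N)[p^k]`. -/
theorem s59pslj_mem_span {N : ℕ} [NeZero N] {p : ℕ} (hp : p.Prime) (hp2 : p ≠ 2)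
    {A : ValuationSubring (AlgebraicClosure ℚ)} (hA : A.LiesOverPrime p) {g : ℕ}
    {R : PRData (AlgebraicClosure ℚ) ↥(modularFunctionFieldBar N) (IsLocalRing.ResidueField A)
      ↥(modularFunctionFieldFullC (IsLocalRing.ResidueField A) N) A}
    {t : ↥(modularFunctionFieldBar N)} (hM : ModPR N A g R t) (k : ℕ)
    (x : Submodule.torsionBy ℤ (JZero N) ((p : ℤ) ^ k)) (hx : (x : JZero N) ∈ R.J1) :
    x ∈ ntsSpan (A.inertiaSubgroupIn ℚ) (torsAct (JZero N) ((p : ℤ) ^ k)) ⊤ := by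
  obtain ⟨z, hK⟩ := s59pslj_kernelChart hp hA hM
  haveI := s19f_finite N p hp.ne_zero k
  exact s59pslb_mem_span_pow hp hp2 hA hK k (s19f_cont N p hp.ne_zero k) x hx

/-- every point of `J[p^k]` is killed by `p^k` -/
theorem s59pslj_pow_smul {J : Type} [AddCommGroup J] (p k : ℕ)
    (y : Submodule.torsionBy ℤ J ((p : ℤ) ^ k)) : p ^ k • y = 0 := by
  apply Subtype.ext
  rw [Submodule.coe_smul_of_tower]
  exact s19f_nsmul_of_mem p k y.2

/-- **the same through a level-raising map** `φ : J₀(N) → J₀(N')` (equivariant, injective on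
`p`-power torsion): a point `x` of `J₀(N)[p^k]` whose image lies in the kernel of reduction at
the level `N'` lies in `𝔄 J₀(N)[p^k]`. -/
theorem s59pslj_mem_span_levelUp {N N' : ℕ} [NeZero N] [NeZero N'] {p : ℕ} (hp : p.Prime)
    (hp2 : p ≠ 2) {A : ValuationSubring (AlgebraicClosure ℚ)} (hA : A.LiesOverPrime p) {g : ℕ}
    {R : PRData (AlgebraicClosure ℚ) ↥(modularFunctionFieldBar N') (IsLocalRing.ResidueField A)
      ↥(modularFunctionFieldFullC (IsLocalRing.ResidueField A) N') A}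
    {t : ↥(modularFunctionFieldBar N')} (hM : ModPR N' A g R t)
    (φ : JZero N →+ JZero N')
    (hφeq : ∀ (σ : AlgebraicClosure ℚ ≃ₐ[ℚ] AlgebraicClosure ℚ) (x : JZero N),
      φ (σ • x) = σ • φ x)
    (hφinj : ∀ x : JZero N, (∃ n : ℕ, (p ^ n) • x = 0) → φ x = 0 → x = 0) (k : ℕ)
    (x : Submodule.torsionBy ℤ (JZero N) ((p : ℤ) ^ k)) (hx : φ (x : JZero N) ∈ R.J1) :
    x ∈ ntsSpan (A.inertiaSubgroupIn ℚ) (torsAct (JZero N) ((p : ℤ) ^ k)) ⊤ := by
  obtain ⟨z, hK⟩ := s59pslj_kernelChart hp hA hM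
  haveI := s19f_finite N p hp.ne_zero k
  have hc : (((p ^ k : ℕ) : ℤ)) = (p : ℤ) ^ k := s19f_cast p k
  -- the local lattice at the level `N'`
  have hfin' : Finite (Submodule.torsionBy ℤ (JZero N') ((p ^ k : ℕ) : ℤ)) := by
    rw [hc]; exact s19f_finite N' p hp.ne_zero k
  have hloc' : IsLocalHopfLattice A (torsAct (JZero N') ((p ^ k : ℕ) : ℤ))
      (ctlHt A R.J1 z (p ^ k)) := s59pslb_local hp hA hK (pow_pos hp.pos k)
  have hcongr' : ∀ h ∈ ctlHt A R.J1 z (p ^ k),
      ∀ y : Submodule.torsionBy ℤ (JZero N') ((p ^ k : ℕ) : ℤ), (y : JZero N') ∈ R.J1 →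
        h y - h 0 ∈ A.nonunits := s59pslb_ctl_congr hK
  -- transport of the exponent
  have key : ∀ (c : ℤ) (hcc : ((p ^ k : ℕ) : ℤ) = c)
      (x : Submodule.torsionBy ℤ (JZero N) c) [Finite (Submodule.torsionBy ℤ (JZero N) c)]
      (hact : IsContAction (torsAct (JZero N) c))
      (hpow : ∃ m : ℕ, ∀ y : Submodule.torsionBy ℤ (JZero N) c, p ^ m • y = 0),
      φ (x : JZero N) ∈ R.J1 →
      x ∈ ntsSpan (A.inertiaSubgroupIn ℚ) (torsAct (JZero N) c) ⊤ := by
    intro c hcc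
    subst hcc
    intro x _ hact hpow hx
    have hinj : Function.Injective (s19fTorsMap φ ((p ^ k : ℕ) : ℤ)) := by
      rw [injective_iff_map_eq_zero]
      intro y hy
      have hy0 : φ (y : JZero N) = 0 := congrArg Subtype.val hy
      have hyk : (p ^ k) • (y : JZero N) = 0 := by
        have := (Submodule.mem_torsionBy_iff _ _).1 y.2
        rwa [natCast_zsmul] at this
      exact Subtype.ext (hφinj _ ⟨k, hyk⟩ hy0)
    have hloc := s19f_localHopf_comap A (torsAct (JZero N) ((p ^ k : ℕ) : ℤ))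
      (torsAct (JZero N') ((p ^ k : ℕ) : ℤ)) (s19fTorsMap φ ((p ^ k : ℕ) : ℤ)) hinj
      (fun σ P => Subtype.ext (hφeq σ _)) (ctlHt A R.J1 z (p ^ k)) hloc'
    refine s59pslb_mem_span_of_local hp hp2 hA hact hloc hpow x ?_
    rintro _ ⟨f, hf, rfl⟩
    have h1 := hcongr' f hf (s19fTorsMap φ ((p ^ k : ℕ) : ℤ) x) hx
    have h0 : s19fTorsMap φ ((p ^ k : ℕ) : ℤ) 0 = 0 := map_zero _
    simpa only [AlgHom.coe_toRingHom, s19fComap_apply, h0] using h1
  exact key _ hc x (s19f_cont N p hp.ne_zero k) ⟨k, s59pslj_pow_smul p k⟩ hx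

end Fermat.Agent.S59
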