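import Fermat.Agent.DEU.ModPRAsm
import Fermat.Agent.ES.G2.S37K4
import Fermat.Agent.ES.G2.S37Plan

/-!
# S59 / M5 (P-STEP), LG-P, step (a2) of the bridge (LG2)(ii):  bounded torsion classes lie in `R.J1`

* `s59pslro_gaussRed_one` : `ReducesToOne A N u → GaussRed N A u 1`
  (both are the Gauss reduction of the `q`-expansion, in fraction form).
* `s59pslro_red_one` : `ReducesToOne A N u → ∃ h, deuValRed N A hRedF ⟨u, h⟩ = 1`.
* `s59pslro_mem_J1` (generic): for a reduction package `R` with `R.IsPR`, if every `GC`-function has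
  a constant multiple with reduction `1`, a bounded class killed by `m > 0` lies in `R.J1`
  (`r_* D = 0` because `m · r_* D = r_* (div u) = div (red u) = div 1 = 0`).
* `s59pslro_mem_J1_modPR` : the same for the concrete `DEU.modPRData N A hRedF r`
  and `GC = GaussConst A N`.
-/

set_option autoImplicit false
set_option linter.unusedSectionVars false
set_option synthInstance.maxHeartbeats 400000
set_option maxHeartbeats 1600000

open ModularCurve AlgebraicCurve HahnSeries

namespace Fermat.Agent.S59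

open Fermat.Agent.ES Fermat.Agent.S24 Fermat.Agent.ES.M Fermat.Agent.W1 Fermat.Agent.DEU
  Fermat.Agent.ES.G2

section Concrete

variable (N : ℕ) [NeZero N] (A : ValuationSubring Kb)

/-- `u ≡ 1` in the Gauss valuation (fraction form of `ES/G2/Plan.lean`) is `GaussRed u 1`
(fraction form of `ES/M/Plan.lean`). -/
theorem s59pslro_gaussRed_one {u : FF N} (hu : ReducesToOne A N u) : GaussRed N A u 1 := by
  obtain ⟨y₁, y₂, hy₁, hy₂, hp₁, hp₂, hc, huy⟩ := hu
  obtain ⟨Y₁, rfl⟩ := hp₁.1.exists_lift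
  obtain ⟨Y₂, rfl⟩ := hp₂.1.exists_lift
  refine ⟨Y₁, Y₂, hy₁, hy₂, (kronPrim_kronIncl_iff Y₂).mp hp₂, huy, ?_⟩
  rw [one_mul]
  exact ((kronCongr_kronIncl_iff Y₁ Y₂).mp hc).symm

/-- a function which reduces to one lies in the Gauss valuation ring and its reduction is `1` -/
theorem s59pslro_red_one (hRedF : StmtRedF N A) {u : FF N} (hu : ReducesToOne A N u) :
    ∃ h : u ∈ deuValO N A, deuValRed N A hRedF ⟨u, h⟩ = 1 := by
  obtain ⟨h, hh⟩ := (deuValRed_iff N A hRedF u 1).mp (s59pslro_gaussRed_one N A hu)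
  exact ⟨h, Subtype.ext hh⟩

end Concrete

section Generic

variable {K F k Fk : Type} [Field K] [Field F] [Algebra K F] [Field k] [Field Fk] [Algebra k Fk]
variable {A : ValuationSubring K}

/-- the push-forward of a divisor which is killed by `m ≠ 0` vanishes -/
theorem s59pslro_mapDomain_eq_zero (r : Place K F → Place k Fk) (D : Divisor K F) (m : ℕ)
    (hm : 0 < m) (h : ∀ Q : Place k Fk, Finsupp.mapDomain r (m • D) Q = 0) :
    Finsupp.mapDomain r D = 0 := by
  ext Q
  have h1 := h Q
  rw [Finsupp.mapDomain_smul, Finsupp.smul_apply, nsmul_eq_mul] at h1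
  have hm' : ((m : ℕ) : ℤ) ≠ 0 := by exact_mod_cast hm.ne'
  rcases mul_eq_zero.mp h1 with h2 | h2
  · exact absurd h2 hm'
  · simpa using h2

/-- **(a2), generic form.**  `R` a reduction package; if a function whose divisor is `m` times a
boundedly approximable divisor is `GC` (count) and every `GC`-function has a constant multiple in
`R.O` with reduction `1`, then a bounded class killed by `m > 0` lies in the kernel of reduction
`R.J1`. -/
theorem s59pslro_mem_J1 (R : PRData K F k Fk A) (hR : R.IsPR) {GC : F → Prop}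
    (hcount : ∀ E : Divisor K F, BddApprox GC E → ∀ m : ℕ, 0 < m → ∀ w : F, w ≠ 0 →
      (∀ v : Place K F, v.ord w = (m : ℤ) * E v) → GC w)
    (hred : ∀ w : F, w ≠ 0 → GC w → ∃ c : K, c ≠ 0 ∧
      ∃ h : algebraMap K F c * w ∈ R.O, R.red ⟨algebraMap K F c * w, h⟩ = 1)
    (m : ℕ) (hm : 0 < m) {x : Pic0 K F} (hx : S37BddClass GC x) (hmx : m • x = 0) :
    x ∈ R.J1 := by
  obtain ⟨D, rfl, hD⟩ := hx
  have hprinc : (m • D) ∈
      (Divisor.principal (K := K) (F := F)).addSubgroupOf
        (Divisor.degZero (K := K) (F := F)) := by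
    have h1 : Pic0.mk (m • D) = 0 := hmx
    exact (QuotientAddGroup.eq_zero_iff _).mp h1
  rw [AddSubgroup.mem_addSubgroupOf] at hprinc
  obtain ⟨w, hw0, hwD⟩ := hprinc
  have hwD' : ∀ v : Place K F, v.ord w = (m : ℤ) * (D : Divisor K F) v := by
    intro v
    rw [← hwD v]
    simp [Finsupp.smul_apply]
  have hGCw : GC w := hcount _ hD m hm w hw0 hwD'
  obtain ⟨c, hc, h, hu⟩ := hred w hw0 hGCw
  have hcF : algebraMap K F c ≠ 0 := by rwa [Ne, map_eq_zero]
  have hne : R.red ⟨algebraMap K F c * w, h⟩ ≠ 0 := by rw [hu]; exact one_ne_zero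
  have hdiv : ∀ P : Place K F, (m • (D : Divisor K F)) P = P.ord (algebraMap K F c * w) := by
    intro P
    rw [P.ord_mul hcF hw0, unram_ord_algebraMap P hc, zero_add, hwD' P]
    simp [Finsupp.smul_apply]
  have hzero : ∀ Q : Place k Fk, Finsupp.mapDomain R.r (m • (D : Divisor K F)) Q = 0 := by
    intro Q
    have h1 := hR.r_div ⟨algebraMap K F c * w, h⟩ hne (m • (D : Divisor K F)) hdiv Q
    rw [h1, hu, Q.ord_one]
  refine ⟨D, rfl, ?_⟩
  rw [s59pslro_mapDomain_eq_zero R.r (D : Divisor K F) m hm hzero]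
  exact AddSubgroup.zero_mem _

end Generic

section ConcreteJ1

variable (N : ℕ) [NeZero N] (A : ValuationSubring Kb) (hRedF : StmtRedF N A)

/-- a Gauss-constant function has a constant multiple in the Gauss valuation ring with
reduction `1` -/
theorem s59pslro_gaussConst_red {w : FF N} (hw : GaussConst A N w) :
    ∃ c : Kb, c ≠ 0 ∧ ∃ h : algebraMap Kb (FF N) c * w ∈ deuValO N A,
      deuValRed N A hRedF ⟨algebraMap Kb (FF N) c * w, h⟩ = 1 := by
  obtain ⟨c, hc, hcw⟩ := hw
  exact ⟨c, hc, s59pslro_red_one N A hRedF hcw⟩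

/-- **(a2), concrete form**: for the reduction package `DEU.modPRData N A hRedF r` of `X₀(N)` at
`A`, a bounded (for `GaussConst A N`) class killed by `m > 0` lies in `J1`. -/
theorem s59pslro_mem_J1_modPR
    (r : Place Kb (FF N) → Place (kA A) ↥(modularFunctionFieldFullC (kA A) N))
    (hR : (modPRData N A hRedF r).IsPR)
    (hcount : ∀ E : Divisor Kb (FF N), BddApprox (GaussConst A N) E → ∀ m : ℕ, 0 < m →
      ∀ w : FF N, w ≠ 0 → (∀ v : Place Kb (FF N), v.ord w = (m : ℤ) * E v) → GaussConst A N w)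
    (m : ℕ) (hm : 0 < m) {x : Pic0 Kb (FF N)} (hx : S37BddClass (GaussConst A N) x)
    (hmx : m • x = 0) : x ∈ (modPRData N A hRedF r).J1 :=
  s59pslro_mem_J1 (modPRData N A hRedF r) hR hcount
    (fun _ _ hw => s59pslro_gaussConst_red N A hRedF hw) m hm hx hmx

end ConcreteJ1

end Fermat.Agent.S59
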