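/-
S59, wall M5 = P-STEP, leaf LG-P, part (LG2)(ii), step (a3) and the assembled chain (helper44).
Ledger: NOTES/S59-M5.md; the chain is helper10's note (05:55Z):
   `K̄ ∩ J[m]  ⊆  (bounded classes)[m]  ⊆  R.J1[m]  ⊆  M⁰ = 𝔄 J[m]`.
   (a3) = first inclusion (THIS FILE), (a2) = `S59/PStep/LgRedOne.lean` (helper42),
   (a1) = `S59/PStep/LgBridgeJ0H10.lean` (helper10).

`N` a level, `ℓ ∤ N` a prime (in LG-P: `ℓ = p`, the torsion prime!), `A` a valuation subring of
`ℚ̄` over `ℓ`, `φ` a Frobenius at `A`, `K̄ = ES.G2.s37Ker` the subgroup of `J₀(N)` generated by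
`σ x − x` (`σ` in the inertia group of `A`) and `Ψ x = φ² x − T_ℓ φ x + ℓ x`.

* `s59pslbd_bddClass` : **(a3)** every element of `K̄` is a bounded class
  (`S37BddClass (GaussConst A N)`).  This is the first half of `ES.G2.stmtS37In_of`, which uses
  `ℓ ∤ N` only (Kronecker's congruences `stmtGCInertia`, `stmtGCFrob`); NO condition on the torsion.
* `s59pslbd_kummer`   : `x ∈ K̄`, `m • x = 0`, `0 < m`  ⇒  `x = [D]`, `m D = div w`, `w ≠ 0`,
  `c · w` REDUCES TO ONE at `A` for a constant `c ≠ 0`  (the count `s37RR_bddCount`, any `m`).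
* `s59pslbd_count`    : the count in the form `hcount` of `s59pslro_mem_J1_modPR`.
* `s59pslbd_mem_J1`   : **(a3) + (a2)**: `x ∈ K̄`, `m • x = 0`, `0 < m`  ⇒
  `x ∈ (DEU.modPRData N A hRedF r).J1`  (for every `r` with `IsPR`).
* `s59pslbd_modPR`    : the reduction package of DEU with its data NAMED
  (`ModPR N A (gN N) (modPRData N A hRedF r) t`), from the genus bound `StmtI2 N A`.
* `s59pslbd_ker_le_span_of_I2`, `s59pslbd_ker_le_span` : **(LG2)(ii) = (a3) + (a2) + (a1)**: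
  `p` odd, `p ∤ N` (and `StmtI2 N A`, resp. `5 ≤ p`), `x ∈ J₀(N)[p^k]`, `x ∈ K̄`
  ⇒  `x ∈ 𝔄 J₀(N)[p^k]` (`= ntsSpan I (torsAct J (p^k)) ⊤ = M⁰`, `s59pslgc_conn_eq_span`).

Sorry-free; axioms: propext, Classical.choice, Quot.sound.
-/
import Fermat.Agent.ES.G2.S37In
import Fermat.Agent.ES.G2.S37Place
import Fermat.Agent.S59.PStep.LgRedOne
import Fermat.Agent.S59.PStep.LgBridgeJ0H10
import Fermat.Agent.DEU.ModPRFinal

set_option autoImplicit false
set_option linter.style.haveILetI false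
set_option linter.unusedSectionVars false
set_option linter.unusedVariables false
set_option linter.style.longLine false

noncomputable section

namespace Fermat.Agent.S59

open ModularCurve AlgebraicCurve Fermat.Agent.ES Fermat.Agent.ES.G2 FrobAux

section A3

variable (N : ℕ) [NeZero N]

/-- **(a3)**: the elements of the minimal kernel `K̄` at a prime `ℓ ∤ N` are bounded classes. -/
theorem s59pslbd_bddClass (hcomm : HeckeOperatorsCommuteBar N) :
    letI := heckeModuleBar N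
    ∀ (_ : SMulCommClass (AlgebraicClosure ℚ ≃ₐ[ℚ] AlgebraicClosure ℚ) HeckeAlg (JZero N))
      (ℓ : ℕ) (hℓ : ℓ.Prime) (_ : ¬ ℓ ∣ N) (A : ValuationSubring Qb) (_ : A.LiesOverPrime ℓ)
      (φ : Qb ≃ₐ[ℚ] Qb) (_ : A.IsFrobeniusAt φ ℓ) (x : JZero N),
      x ∈ s37Ker (K := ℚ) (L := Qb) (JZero N) A ℓ hℓ φ → S37BddClass (GaussConst A N) x := by
  letI := heckeModuleBar N
  intro hsmul ℓ hℓ hℓN A hA φ hφ x hx
  haveI : NeZero ℓ := ⟨hℓ.ne_zero⟩
  haveI := Fermat.Agent.ES.H.hasPrincipalDivisors_FF N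
  haveI := Fermat.Agent.ES.H.hasPrincipalDivisors_FF (N * ℓ)
  obtain ⟨P₀⟩ := s37_nonempty_place N
  have hres := Fermat.Agent.ES.H.residue_bijective_FF N
  -- the closure properties of `GaussConst`
  have h1 : GaussConst A N (1 : modularFunctionFieldBar N) := GaussConst.one
  have hmul : ∀ a b : modularFunctionFieldBar N, a ≠ 0 → b ≠ 0 → GaussConst A N a →
      GaussConst A N b → GaussConst A N (a * b) := fun a b _ _ ha hb => ha.mul hb
  have hinv : ∀ a : modularFunctionFieldBar N, a ≠ 0 → GaussConst A N a →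
      GaussConst A N a⁻¹ := fun a _ ha => ha.inv
  have hpow : ∀ (a : modularFunctionFieldBar N) (k : ℕ), a ≠ 0 → GaussConst A N a →
      GaussConst A N (a ^ k) := fun a k _ ha => ha.pow k
  refine s37BddClass_of_mem_closure h1 hmul hinv ?_ hx
  rintro y (⟨σ, hσ, z, rfl⟩ | ⟨z, rfl⟩)
  · -- inertia
    obtain ⟨D, rfl⟩ := Pic0.mk_surjective z
    obtain ⟨g, hg⟩ : ∃ g : SemilinearAut Qb (modularFunctionFieldBar N),
        g = arithmeticGalois (modularFunctionFieldFull N) σ := ⟨_, rfl⟩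
    have hgx : σ • Pic0.mk D = g • Pic0.mk D := by rw [hg]; rfl
    refine ⟨SemilinearAut.degZeroSMulHom g D - D, ?_, ?_⟩
    · rw [hgx, SemilinearAut.pic0_smul_mk]
      rfl
    · have hB := s37RR_bddOfOp hres P₀ _ (Fermat.Agent.ES.R.riemann_inequality N) (GaussConst A N)
        (s37deg_opInertia g) (gcInertiaOp N σ) 2
        (fun f hf => (stmtGCInertia stmtPrim N ℓ hℓ A hA σ hσ f hf).ne_zero)
        (fun D f hf hD v => by rw [hg]; exact s37In_ord_inertia N σ D f hf hD v)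
        (fun f hf => stmtGCInertia stmtPrim N ℓ hℓ A hA σ hσ f hf)
        (fun B hB => s37deg_opInertia_bdd g B hB)
        (D : Divisor Qb (modularFunctionFieldBar N)) D.2
      rw [s37deg_opInertia_apply] at hB
      rw [AddSubgroup.coe_sub, SemilinearAut.coe_degZeroSMulHom]
      exact hB
  · -- Frobenius
    obtain ⟨D, rfl⟩ := Pic0.mk_surjective z
    obtain ⟨g, hg⟩ : ∃ g : SemilinearAut Qb (modularFunctionFieldBar N),
        g = arithmeticGalois (modularFunctionFieldFull N) φ := ⟨_, rfl⟩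
    have hgx : ∀ z : JZero N, φ • z = g • z := by
      intro z
      rw [hg]
      rfl
    have hT : ∀ y : JZero N, heckeGen ⟨ℓ, hℓ⟩ • y =
        Pic0.correspondence (heckeBetaBar Qb N ℓ) (heckeAlphaBar Qb N ℓ)
          (Fermat.Agent.ES.H.heckeBetaBarIntegral N ℓ)
          (Fermat.Agent.ES.H.heckeAlphaBarIntegral N ℓ)
          (Fermat.Agent.ES.H.fundamentalIdentityAlong_heckeBetaBar N ℓ)
          (Fermat.Agent.ES.H.finiteAlong_heckeAlphaBar N ℓ)
          (Fermat.Agent.ES.H.normFormulaAlong_heckeAlphaBar N ℓ) y := by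
      intro y
      rw [heckeModuleBar_heckeGen_smul hcomm ⟨ℓ, hℓ⟩ y]
      exact frob_heckeOperatorBar_eq N ℓ hℓ y
    refine ⟨SemilinearAut.degZeroSMulHom g (SemilinearAut.degZeroSMulHom g D)
        - Pic0.degZeroCorrespondence (heckeBetaBar Qb N ℓ) (heckeAlphaBar Qb N ℓ)
          (Fermat.Agent.ES.H.heckeBetaBarIntegral N ℓ)
          (Fermat.Agent.ES.H.heckeAlphaBarIntegral N ℓ)
          (Fermat.Agent.ES.H.fundamentalIdentityAlong_heckeBetaBar N ℓ)
          (SemilinearAut.degZeroSMulHom g D)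
        + ℓ • D, ?_, ?_⟩
    · unfold s37Psi
      rw [hT, hgx, hgx, SemilinearAut.pic0_smul_mk, SemilinearAut.pic0_smul_mk,
        Pic0.correspondence_mk]
      rfl
    · have hB := s37RR_bddOfOp hres P₀ _ (Fermat.Agent.ES.R.riemann_inequality N) (GaussConst A N)
        (s37deg_opFrob g (heckeBetaBar Qb N ℓ) (heckeAlphaBar Qb N ℓ)
          (Fermat.Agent.ES.H.heckeBetaBarIntegral N ℓ)
          (Fermat.Agent.ES.H.heckeAlphaBarIntegral N ℓ) ℓ)
        (gcFrobOp N ℓ φ) (1 + finrankAlong Qb (heckeBetaBar Qb N ℓ) + ℓ)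
        (fun f hf => (stmtGCFrob stmtPrim stmtHeckeNorm N ℓ hℓ hℓN A hA φ hφ f hf).ne_zero)
        (fun D f hf hD v => by rw [hg]; exact s37In_ord_frob N ℓ φ D f hf hD v)
        (fun f hf => stmtGCFrob stmtPrim stmtHeckeNorm N ℓ hℓ hℓN A hA φ hφ f hf)
        (fun B hB => s37deg_opFrob_bdd g _ _ _ _
          (Fermat.Agent.ES.H.fundamentalIdentityAlong_heckeBetaBar N ℓ) ℓ B hB)
        (D : Divisor Qb (modularFunctionFieldBar N)) D.2
      rw [s37deg_opFrob_apply] at hB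
      rw [AddSubgroup.coe_add, AddSubgroup.coe_sub, SemilinearAut.coe_degZeroSMulHom,
        SemilinearAut.coe_degZeroSMulHom, Pic0.coe_degZeroCorrespondence,
        SemilinearAut.coe_degZeroSMulHom, AddSubgroup.coe_nsmul, ← natCast_zsmul]
      exact hB

/-- **(a3) + count**: a torsion element of `K̄` is the class of a divisor `D` with `m D = div w`,
`c · w` reducing to one at `A`. -/
theorem s59pslbd_kummer (hcomm : HeckeOperatorsCommuteBar N) :
    letI := heckeModuleBar N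
    ∀ (_ : SMulCommClass (AlgebraicClosure ℚ ≃ₐ[ℚ] AlgebraicClosure ℚ) HeckeAlg (JZero N))
      (ℓ : ℕ) (hℓ : ℓ.Prime) (_ : ¬ ℓ ∣ N) (A : ValuationSubring Qb) (_ : A.LiesOverPrime ℓ)
      (φ : Qb ≃ₐ[ℚ] Qb) (_ : A.IsFrobeniusAt φ ℓ) (x : JZero N),
      x ∈ s37Ker (K := ℚ) (L := Qb) (JZero N) A ℓ hℓ φ → ∀ m : ℕ, 0 < m → m • x = 0 →
      ∃ (D : Divisor.degZero (K := Qb) (F := modularFunctionFieldBar N))
        (w : modularFunctionFieldBar N) (c : Qb),
        Pic0.mk D = x ∧ w ≠ 0 ∧ c ≠ 0 ∧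
        (∀ v : Place Qb (modularFunctionFieldBar N),
          v.ord w = (m : ℤ) * (D : Divisor Qb (modularFunctionFieldBar N)) v) ∧
        ReducesToOne A N (algebraMap Qb (modularFunctionFieldBar N) c * w) := by
  letI := heckeModuleBar N
  intro hsmul ℓ hℓ hℓN A hA φ hφ x hx m hm hmx
  haveI := Fermat.Agent.ES.H.hasPrincipalDivisors_FF N
  obtain ⟨P₀⟩ := s37_nonempty_place N
  have hres := Fermat.Agent.ES.H.residue_bijective_FF N
  have hinv : ∀ a : modularFunctionFieldBar N, a ≠ 0 → GaussConst A N a →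
      GaussConst A N a⁻¹ := fun a _ ha => ha.inv
  have hpow : ∀ (a : modularFunctionFieldBar N) (k : ℕ), a ≠ 0 → GaussConst A N a →
      GaussConst A N (a ^ k) := fun a k _ ha => ha.pow k
  obtain ⟨D, rfl, hD⟩ := s59pslbd_bddClass N hcomm hsmul ℓ hℓ hℓN A hA φ hφ x hx
  -- `m D` is principal
  have hprinc : (m • D) ∈
      (Divisor.principal (K := Qb) (F := modularFunctionFieldBar N)).addSubgroupOf
        (Divisor.degZero (K := Qb) (F := modularFunctionFieldBar N)) := by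
    have h1 : Pic0.mk (m • D) = 0 := hmx
    exact (QuotientAddGroup.eq_zero_iff _).mp h1
  rw [AddSubgroup.mem_addSubgroupOf] at hprinc
  obtain ⟨w, hw0, hwD⟩ := hprinc
  have hwD' : ∀ v : Place Qb (modularFunctionFieldBar N),
      v.ord w = (m : ℤ) * (D : Divisor Qb (modularFunctionFieldBar N)) v := by
    intro v
    rw [← hwD v]
    simp [Finsupp.smul_apply]
  obtain ⟨c, hc, hred⟩ := s37RR_bddCount hres P₀ (GaussConst A N) hinv hpow
    (stmtGCIndep stmtPrim N ℓ hℓ A hA) _ hD m hm w hw0 hwD'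
  exact ⟨D, w, c, rfl, hw0, hc, hwD', hred⟩

end A3

section Chain

open Fermat.Agent.S24 Fermat.Agent.ES.M Fermat.Agent.W1 Fermat.Agent.DEU Fermat.Agent.S33

variable (N : ℕ) [NeZero N]

/-- the count, in the form `hcount` of `s59pslro_mem_J1_modPR` (any prime `ℓ`, any `m > 0`) -/
theorem s59pslbd_count (ℓ : ℕ) (hℓ : ℓ.Prime) (A : ValuationSubring Qb)
    (hA : A.LiesOverPrime ℓ) :
    ∀ E : Divisor Qb (modularFunctionFieldBar N), BddApprox (GaussConst A N) E →
      ∀ m : ℕ, 0 < m → ∀ w : modularFunctionFieldBar N, w ≠ 0 →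
        (∀ v : Place Qb (modularFunctionFieldBar N), v.ord w = (m : ℤ) * E v) →
        GaussConst A N w := by
  intro E hE m hm w hw0 hord
  haveI := Fermat.Agent.ES.H.hasPrincipalDivisors_FF N
  obtain ⟨P₀⟩ := s37_nonempty_place N
  have hres := Fermat.Agent.ES.H.residue_bijective_FF N
  have hinv : ∀ a : modularFunctionFieldBar N, a ≠ 0 → GaussConst A N a →
      GaussConst A N a⁻¹ := fun a _ ha => ha.inv
  have hpow : ∀ (a : modularFunctionFieldBar N) (k : ℕ), a ≠ 0 → GaussConst A N a →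
      GaussConst A N (a ^ k) := fun a k _ ha => ha.pow k
  exact s37RR_bddCount hres P₀ (GaussConst A N) hinv hpow
    (stmtGCIndep stmtPrim N ℓ hℓ A hA) E hE m hm w hw0 hord

/-- **(a3) + (a2)**: a torsion element of the minimal kernel `K̄` at `ℓ ∤ N` lies in the kernel of
reduction of the reduction package `DEU.modPRData N A hRedF r`. -/
theorem s59pslbd_mem_J1 (hcomm : HeckeOperatorsCommuteBar N) :
    letI := heckeModuleBar N
    ∀ (_ : SMulCommClass (AlgebraicClosure ℚ ≃ₐ[ℚ] AlgebraicClosure ℚ) HeckeAlg (JZero N))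
      (ℓ : ℕ) (hℓ : ℓ.Prime) (_ : ¬ ℓ ∣ N) (A : ValuationSubring Qb) (_ : A.LiesOverPrime ℓ)
      (φ : Qb ≃ₐ[ℚ] Qb) (_ : A.IsFrobeniusAt φ ℓ) (hRedF : StmtRedF N A)
      (r : Place Kb (FF N) → Place (kA A) ↥(modularFunctionFieldFullC (kA A) N)),
      (modPRData N A hRedF r).IsPR →
      ∀ x : JZero N, x ∈ s37Ker (K := ℚ) (L := Qb) (JZero N) A ℓ hℓ φ →
        ∀ m : ℕ, 0 < m → m • x = 0 → x ∈ (modPRData N A hRedF r).J1 := by
  letI := heckeModuleBar N
  intro hsmul ℓ hℓ hℓN A hA φ hφ hRedF r hR x hx m hm hmx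
  exact s59pslro_mem_J1_modPR N A hRedF r hR (s59pslbd_count N ℓ hℓ A hA) m hm
    (s59pslbd_bddClass N hcomm hsmul ℓ hℓ hℓN A hA φ hφ x hx) hmx

/-- **GEO-PR with the data named**: the reduction package of `X₀(N)` at `A` over `ℓ ∤ N` is
`modPRData N A hRedF r` for a suitable `r` (copy of `DEU.hasModPR_of_stmtI2`). -/
theorem s59pslbd_modPR (ℓ : ℕ) (hℓ : ℓ.Prime) (hℓN : ¬ ℓ ∣ N)
    (A : ValuationSubring Kb) (hA : A.LiesOverPrime ℓ) (hI2 : StmtI2 N A) :
    ∃ (hRedF : StmtRedF N A)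
      (r : Place Kb (FF N) → Place (kA A) ↥(modularFunctionFieldFullC (kA A) N)) (t : FF N),
      ModPR N A (gN N) (modPRData N A hRedF r) t := by
  have hRedF : StmtRedF N A := stmtRedF N A ℓ hℓ hℓN hA
  obtain ⟨Pinf, Qinf, n₀, -, hQ, H⟩ := deuAnchor_hyp N A hRedF
    (Fermat.Agent.ES.LR.stmtLRa N ℓ hℓ A hA) hI2 (Fermat.Agent.ES.R.stmtR N)
    (modHyp_hresk N A) (modHyp_hpdk N A hℓ hA)
  refine ⟨hRedF, H.r, jF N, modPR_of_hyp H hQ ?_ ?_⟩
  · exact deuGood_good N A ℓ hℓ hℓN hA hRedF H.r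
      (fun u hu D hD Q => H.mapDomain_r_principal u hu D hD Q)
  · intro ht
    exact deuRamInst_finite N A ℓ hℓ hA hRedF ht

/-- **(LG2)(ii)**, from the genus bound in characteristic `p`: for `p` odd, `p ∤ N`, a point of
`J₀(N)[p^k]` in the minimal kernel `K̄` (at the torsion prime `p`!) lies in the inertia span
`𝔄 J₀(N)[p^k]`. -/
theorem s59pslbd_ker_le_span_of_I2 (hcomm : HeckeOperatorsCommuteBar N) :
    letI := heckeModuleBar N
    ∀ (_ : SMulCommClass (AlgebraicClosure ℚ ≃ₐ[ℚ] AlgebraicClosure ℚ) HeckeAlg (JZero N))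
      (p : ℕ) (hp : p.Prime) (_ : p ≠ 2) (_ : ¬ p ∣ N) (A : ValuationSubring Qb)
      (_ : A.LiesOverPrime p) (_ : StmtI2 N A)
      (φ : Qb ≃ₐ[ℚ] Qb) (_ : A.IsFrobeniusAt φ p) (k : ℕ)
      (x : Submodule.torsionBy ℤ (JZero N) ((p : ℤ) ^ k)),
      (x : JZero N) ∈ s37Ker (K := ℚ) (L := Qb) (JZero N) A p hp φ →
        x ∈ ntsSpan (A.inertiaSubgroupIn ℚ) (torsAct (JZero N) ((p : ℤ) ^ k)) ⊤ := by
  letI := heckeModuleBar N
  intro hsmul p hp hp2 hpN A hA hI2 φ hφ k x hx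
  obtain ⟨hRedF, r, t, hM⟩ := s59pslbd_modPR N p hp hpN A hA hI2
  have hk : (p ^ k) • (x : JZero N) = 0 := by
    have := (Submodule.mem_torsionBy_iff _ _).1 x.2
    rw [← natCast_zsmul]
    push_cast
    exact this
  exact s59pslj_mem_span hp hp2 hA hM k x
    (s59pslbd_mem_J1 N hcomm hsmul p hp hpN A hA φ hφ hRedF r hM.isPR (x : JZero N) hx
      (p ^ k) (pow_pos hp.pos k) hk)

/-- **(LG2)(ii)**, unconditional for `p ≥ 5`, `p ∤ N`. -/
theorem s59pslbd_ker_le_span (hcomm : HeckeOperatorsCommuteBar N) :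
    letI := heckeModuleBar N
    ∀ (_ : SMulCommClass (AlgebraicClosure ℚ ≃ₐ[ℚ] AlgebraicClosure ℚ) HeckeAlg (JZero N))
      (p : ℕ) (hp : p.Prime) (_ : 5 ≤ p) (_ : ¬ p ∣ N) (A : ValuationSubring Qb)
      (_ : A.LiesOverPrime p)
      (φ : Qb ≃ₐ[ℚ] Qb) (_ : A.IsFrobeniusAt φ p) (k : ℕ)
      (x : Submodule.torsionBy ℤ (JZero N) ((p : ℤ) ^ k)),
      (x : JZero N) ∈ s37Ker (K := ℚ) (L := Qb) (JZero N) A p hp φ →
        x ∈ ntsSpan (A.inertiaSubgroupIn ℚ) (torsAct (JZero N) ((p : ℤ) ^ k)) ⊤ := by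
  letI := heckeModuleBar N
  intro hsmul p hp h5 hpN A hA φ hφ k x hx
  exact s59pslbd_ker_le_span_of_I2 N hcomm hsmul p hp (by omega) hpN A hA
    (Fermat.Agent.ES.I2.stmtI2All N p hp h5 hpN A hA) φ hφ k x hx

end Chain

end Fermat.Agent.S59
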