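/-
S59, wall M5 = P-STEP, leaf LG-P, part (LG2)(ii), step (a4): THE LEVEL-UP (helper10).
Ledger: NOTES/S59-M5.md.

At `p = 3` the reduction package of `X₀(N)` exists only for `2 ∣ N`; for odd `N` one goes up to the
level `N · 2` along `β^* : J₀(N) → J₀(N r)` (`W1.stmtLevelUp`, pull-back along `f(q) ↦ f(q^r)`).

* `s59pslu_bddApprox`   : the pull-back of a boundedly approximable divisor is boundedly
                          approximable (generic: `φ : F →ₐ[K] F'` integral with the fundamental
                          identity, `GC G → GC' (φ G)`);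
* `s59pslu_bddClass`    : `S37BddClass GC x → S37BddClass GC' (lvlPic0 φ x)`;
* `s59pslu_reducesToOne`, `s59pslu_gaussConst` : `β` preserves "reduces to one" / "Gauss-constant";
* `s59pslu_bddClass_beta` : **a bounded class of `J₀(N)` goes to a bounded class of `J₀(N r)`**.

Sorry-free; axioms: propext, Classical.choice, Quot.sound.
-/
import Fermat.Agent.W1.LevelUp
import Fermat.Agent.ES.G2.S37K4
import Fermat.Agent.ES.G2.S37Plan
import Fermat.Agent.ES.Kronecker

set_option autoImplicit false
set_option linter.unusedSectionVars false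
set_option linter.unusedVariables false
set_option linter.style.longLine false
set_option linter.style.haveILetI false
set_option synthInstance.maxHeartbeats 400000
set_option maxHeartbeats 1600000

noncomputable section

namespace Fermat.Agent.S59

open AlgebraicCurve ModularCurve HahnSeries
open Fermat.Agent.S24 Fermat.Agent.ES Fermat.Agent.ES.M Fermat.Agent.ES.G2 Fermat.Agent.W1

section Generic

variable {K F F' : Type*} [Field K] [Field F] [Field F'] [Algebra K F] [Algebra K F']
  [HasPrincipalDivisors K F'] (φ : F →ₐ[K] F') (hφ : φ.toRingHom.IsIntegral)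

/-- the value of the pull-back at a place: `e · D(v)` with `e ≥ 0`, and the same `e` computes the
order of `φ G` -/
theorem s59pslu_exists_e (w : Place K F') :
    ∃ (e : ℤ) (v : Place K F), 0 ≤ e ∧
      (∀ D : Divisor K F, Divisor.pullbackAlong φ hφ D w = e * D v) ∧
      ∀ G : F, w.ord (φ G) = e * v.ord G := by
  letI := algebraAlong φ
  haveI := isScalarTower_along φ
  haveI := isIntegral_along φ hφ
  refine ⟨(w.ramificationIndex F : ℤ), w.restrict F, ?_, ?_, ?_⟩
  · exact_mod_cast (Place.ramificationIndex_pos (F := F) w).le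
  · intro D
    exact Divisor.pullback_apply D w
  · intro G
    exact Place.ord_restrict w G

/-- **the pull-back of a boundedly approximable divisor is boundedly approximable** -/
theorem s59pslu_bddApprox (hFI : FundamentalIdentityAlong K φ hφ)
    {GC : F → Prop} {GC' : F' → Prop}
    (hGC : ∀ G : F, G ≠ 0 → GC G → GC' (φ G)) {D : Divisor K F} (hD : BddApprox GC D) :
    BddApprox GC' (Divisor.pullbackAlong φ hφ D) := by
  obtain ⟨C, hC⟩ := hD
  refine ⟨finrankAlong K φ * C, fun n => ?_⟩
  obtain ⟨B, G, hB0, hBdeg, hG0, hGC0, hineq⟩ := hC n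
  refine ⟨Divisor.pullbackAlong φ hφ B, φ G, ?_, ?_, (map_ne_zero φ).mpr hG0, hGC G hG0 hGC0, ?_⟩
  · intro w
    obtain ⟨e, v, he, hpb, -⟩ := s59pslu_exists_e φ hφ w
    rw [hpb B]
    exact mul_nonneg he (hB0 v)
  · rw [Divisor.degree_pullbackAlong φ hφ hFI]
    push_cast
    exact mul_le_mul_of_nonneg_left hBdeg (Nat.cast_nonneg _)
  · intro w
    obtain ⟨e, v, he, hpb, hord⟩ := s59pslu_exists_e φ hφ w
    rw [hpb B, hpb D, hord G]
    obtain ⟨h1, h2⟩ := hineq v
    constructor
    · have := mul_le_mul_of_nonneg_left h1 he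
      linarith
    · have := mul_le_mul_of_nonneg_left h2 he
      linarith

/-- **the pull-back of a bounded class is a bounded class** -/
theorem s59pslu_bddClass (hFI : FundamentalIdentityAlong K φ hφ)
    {GC : F → Prop} {GC' : F' → Prop}
    (hGC : ∀ G : F, G ≠ 0 → GC G → GC' (φ G)) {x : Pic0 K F} (hx : S37BddClass GC x) :
    S37BddClass GC' (lvlPic0 φ hφ hFI x) := by
  obtain ⟨D, rfl, hD⟩ := hx
  refine ⟨lvlDegZero φ hφ hFI D, (lvlPic0_mk φ hφ hFI D).symm, ?_⟩
  rw [coe_lvlDegZero]
  exact s59pslu_bddApprox φ hφ hFI hGC hD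

end Generic

section Formal

variable {L : Type*} [Field L] {A : ValuationSubring L}

/-- `f(q) ↦ f(q^r)` preserves coefficientwise congruences -/
theorem s59pslu_congr_qExpand {f g : LaurentSeries L} (hf : KronInt A f) (hg : KronInt A g)
    (h : KronCongr A f g) (r : ℕ) [NeZero r] :
    KronCongr A (qExpand L r f) (qExpand L r g) := by
  obtain ⟨F, rfl⟩ := hf.exists_lift
  obtain ⟨G, rfl⟩ := hg.exists_lift
  rw [kronCongr_kronIncl_iff] at h
  have h1 : qExpand L r (kronIncl A F) = kronIncl A (qExpand A r F) :=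
    (coeffMap_qExpand A.subtype r F).symm
  have h2 : qExpand L r (kronIncl A G) = kronIncl A (qExpand A r G) :=
    (coeffMap_qExpand A.subtype r G).symm
  rw [h1, h2, kronCongr_kronIncl_iff]
  show coeffMap (IsLocalRing.residue A) (qExpand A r F)
    = coeffMap (IsLocalRing.residue A) (qExpand A r G)
  rw [coeffMap_qExpand, coeffMap_qExpand]
  exact congrArg _ h

/-- `f(q) ↦ f(q^r)` preserves primitivity -/
theorem s59pslu_prim_qExpand {f : LaurentSeries L} (hf : KronPrim A f) (r : ℕ) [NeZero r] :
    KronPrim A (qExpand L r f) := by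
  obtain ⟨F, rfl⟩ := hf.1.exists_lift
  rw [kronPrim_kronIncl_iff] at hf
  have h1 : qExpand L r (kronIncl A F) = kronIncl A (qExpand A r F) :=
    (coeffMap_qExpand A.subtype r F).symm
  rw [h1, kronPrim_kronIncl_iff]
  show coeffMap (IsLocalRing.residue A) (qExpand A r F) ≠ 0
  rw [coeffMap_qExpand]
  intro h0
  apply hf
  have hinj : Function.Injective (qExpand (IsLocalRing.ResidueField A) r) :=
    RingHom.injective _
  exact hinj (by rw [h0, map_zero])

end Formal

section Concrete

variable (N r : ℕ) [NeZero N] [NeZero r] (A : ValuationSubring Kb)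

/-- `β : F_N → F_{N r}` preserves "reduces to one" -/
theorem s59pslu_reducesToOne {u : FF N} (hu : ReducesToOne A N u) :
    ReducesToOne A (N * r) (heckeBetaBar Kb N r u) := by
  obtain ⟨y₁, y₂, hy₁, hy₂, hp₁, hp₂, hc, huy⟩ := hu
  refine ⟨qExpand Kb r y₁, qExpand Kb r y₂, (heckeBetaBar Kb N r ⟨y₁, hy₁⟩).2,
    (heckeBetaBar Kb N r ⟨y₂, hy₂⟩).2, s59pslu_prim_qExpand hp₁ r, s59pslu_prim_qExpand hp₂ r,
    s59pslu_congr_qExpand hp₁.1 hp₂.1 hc r, ?_⟩
  show qExpand Kb r (u : LaurentSeries Kb) * qExpand Kb r y₂ = qExpand Kb r y₁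
  rw [← map_mul, huy]

/-- `β : F_N → F_{N r}` preserves "Gauss-constant" -/
theorem s59pslu_gaussConst {w : FF N} (hw : GaussConst A N w) :
    GaussConst A (N * r) (heckeBetaBar Kb N r w) := by
  obtain ⟨c, hc, hcw⟩ := hw
  refine ⟨c, hc, ?_⟩
  have h := s59pslu_reducesToOne N r A hcw
  rwa [map_mul, AlgHom.commutes] at h

/-- **(a4)**: the level-raising map `β^* : J₀(N) → J₀(N r)` carries bounded classes to bounded
classes. -/
theorem s59pslu_bddClass_beta [NeZero (N * r)]
    (hβ : (heckeBetaBar Kb N r).toRingHom.IsIntegral)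
    (hFI : haveI := Fermat.Agent.ES.H.hasPrincipalDivisors_FF (N * r)
      FundamentalIdentityAlong Kb (heckeBetaBar Kb N r) hβ)
    {x : Pic0 Kb (FF N)} (hx : S37BddClass (GaussConst A N) x) :
    haveI := Fermat.Agent.ES.H.hasPrincipalDivisors_FF (N * r)
    S37BddClass (GaussConst A (N * r)) (lvlPic0 (heckeBetaBar Kb N r) hβ hFI x) := by
  haveI := Fermat.Agent.ES.H.hasPrincipalDivisors_FF (N * r)
  exact s59pslu_bddClass (heckeBetaBar Kb N r) hβ hFI
    (fun G _ hG => s59pslu_gaussConst N r A hG) hx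

end Concrete

end Fermat.Agent.S59
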