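/-
S59, wall M5 = P-STEP, leaf LG-P, part (LG2)(ii): THE CHAIN FOR EVERY ODD `p ∤ N`, in particular
`p = 3` (helper10).  Ledger: NOTES/S59-M5.md.

   `K̄ ∩ J₀(N)[p^k]  ⊆  𝔄 J₀(N)[p^k]`     (`K̄ = ES.G2.s37Ker` at the torsion prime `p`).

* `p ≥ 5` : helper44's `s59pslbd_ker_le_span` (reduction package at the level `N`);
* `p = 3`, `2 ∣ N` : helper44's `s59pslbd_ker_le_span_of_I2` with `ES.I2aux.stmtI2AuxAll`;
* `p = 3`, `2 ∤ N` : **level-up** `β^* : J₀(N) → J₀(N · 2)`:
    (a3) at the level `N` (`s59pslbd_bddClass`), (a4) `s59pslu_bddClass_beta`,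
    (a2) at the level `N · 2` (`s59pslro_mem_J1_modPR`), (a1) `s59pslj_mem_span_levelUp`.

* `s59pslt_levelUp_named` : the level-raising map with its two properties (copy of
                            `W1.stmtLevelUp` with the map NAMED);
* `s59pslt_ker_le_span_levelUp` : the chain through a level-up `N → N · r`;
* `s59pslt_ker_le_span` : **the chain for every odd prime `p ∤ N`**;
* `s59pslt_psi_mem_span` : **Eichler–Shimura at `p` on `J₀(N)[p^k]` modulo the inertia span**: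
                            `(φ² − T_p φ + p) x ∈ 𝔄 J₀(N)[p^k]`.

Sorry-free; axioms: propext, Classical.choice, Quot.sound.
-/
import Fermat.Agent.S59.PStep.LgBdd
import Fermat.Agent.S59.PStep.LgLevelUpH10
import Fermat.Agent.ES.I2aux.Glue

set_option autoImplicit false
set_option linter.style.haveILetI false
set_option linter.unusedSectionVars false
set_option linter.unusedVariables false
set_option linter.style.longLine false
set_option synthInstance.maxHeartbeats 400000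
set_option maxHeartbeats 1600000

noncomputable section

namespace Fermat.Agent.S59

open ModularCurve AlgebraicCurve Fermat.Agent.ES Fermat.Agent.ES.G2 FrobAux
open Fermat.Agent.S24 Fermat.Agent.ES.M Fermat.Agent.W1 Fermat.Agent.DEU Fermat.Agent.S33

section LevelUp

variable (N r : ℕ) [NeZero N] [NeZero r] [NeZero (N * r)]

/-- the level-raising map `β^* : J₀(N) → J₀(N r)` -/
def s59psltMap : JZero N →+ JZero (N * r) :=
  haveI := Fermat.Agent.ES.H.hasPrincipalDivisors_FF (N * r)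
  lvlPic0 (heckeBetaBar Kb N r) (Fermat.Agent.ES.H.heckeBetaBarIntegral N r)
    (Fermat.Agent.ES.H.fundamentalIdentityAlong_heckeBetaBar N r)

/-- `β^*` is Galois-equivariant -/
theorem s59pslt_map_smul (σ : AlgebraicClosure ℚ ≃ₐ[ℚ] AlgebraicClosure ℚ) (x : JZero N) :
    s59psltMap N r (σ • x) = σ • s59psltMap N r x := by
  haveI := Fermat.Agent.ES.H.hasPrincipalDivisors_FF (N * r)
  unfold s59psltMap
  rw [galois_smul_pic0_def, galois_smul_pic0_def]
  exact lvlPic0_smul (heckeBetaBar Kb N r) (Fermat.Agent.ES.H.heckeBetaBarIntegral N r)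
    (Fermat.Agent.ES.H.fundamentalIdentityAlong_heckeBetaBar N r)
    (intertwines_heckeBetaBar N r σ) x

/-- `β^*` is injective on the `p`-power torsion (`W1.stmtLevelUp`) -/
theorem s59pslt_map_inj (hr : r.Prime) (hrN : ¬ r ∣ N) {p : ℕ} (hp : p.Prime)
    (x : JZero N) (hx : ∃ n : ℕ, (p ^ n) • x = 0) (hφx : s59psltMap N r x = 0) : x = 0 := by
  haveI := Fermat.Agent.ES.H.hasPrincipalDivisors_FF (N * r)
  refine lvl_eq_zero_of_torsion (heckeBetaBar Kb N r)
    (Fermat.Agent.ES.H.heckeBetaBarIntegral N r)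
    (Fermat.Agent.ES.H.fundamentalIdentityAlong_heckeBetaBar N r) hp.ne_zero
    (lvl_const_pow (N * r) hp.pos) ?_ x hx hφx
  intro u g hu hdvd hg
  obtain ⟨P, hP, -⟩ := exists_isCuspInfty N
  have h1 := hdvd P
  rw [hP u hu] at h1
  exact lvl_root_mem hr hrN hp u g hu h1 hg

/-- `β^*` carries bounded classes to bounded classes -/
theorem s59pslt_map_bdd (A : ValuationSubring Kb) {x : JZero N}
    (hx : S37BddClass (GaussConst A N) x) :
    S37BddClass (GaussConst A (N * r)) (s59psltMap N r x) :=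
  s59pslu_bddClass_beta N r A (Fermat.Agent.ES.H.heckeBetaBarIntegral N r)
    (Fermat.Agent.ES.H.fundamentalIdentityAlong_heckeBetaBar N r) hx

/-- **the chain through a level-up `N → N r`**: `p` odd, `p ∤ N r`, the genus bound at the level
`N r`; then `K̄ ∩ J₀(N)[p^k] ⊆ 𝔄 J₀(N)[p^k]`. -/
theorem s59pslt_ker_le_span_levelUp (hcomm : HeckeOperatorsCommuteBar N) :
    letI := heckeModuleBar N
    ∀ (_ : SMulCommClass (AlgebraicClosure ℚ ≃ₐ[ℚ] AlgebraicClosure ℚ) HeckeAlg (JZero N))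
      (_ : r.Prime) (_ : ¬ r ∣ N)
      (p : ℕ) (hp : p.Prime) (_ : p ≠ 2) (_ : ¬ p ∣ N) (_ : p ≠ r) (A : ValuationSubring Qb)
      (_ : A.LiesOverPrime p) (_ : StmtI2 (N * r) A)
      (φ : Qb ≃ₐ[ℚ] Qb) (_ : A.IsFrobeniusAt φ p) (k : ℕ)
      (x : Submodule.torsionBy ℤ (JZero N) ((p : ℤ) ^ k)),
      (x : JZero N) ∈ s37Ker (K := ℚ) (L := Qb) (JZero N) A p hp φ →
        x ∈ ntsSpan (A.inertiaSubgroupIn ℚ) (torsAct (JZero N) ((p : ℤ) ^ k)) ⊤ := by
  letI := heckeModuleBar N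
  intro hsmul hr hrN p hp hp2 hpN hpr A hA hI2 φ hφ k x hx
  have hpNr : ¬ p ∣ N * r := by
    intro h
    rcases (Nat.Prime.dvd_mul hp).1 h with h | h
    · exact hpN h
    · exact hpr ((Nat.prime_dvd_prime_iff_eq hp hr).1 h)
  obtain ⟨hRedF, ρ, t, hM⟩ := s59pslbd_modPR (N * r) p hp hpNr A hA hI2
  have hk : (p ^ k) • (x : JZero N) = 0 := by
    have := (Submodule.mem_torsionBy_iff _ _).1 x.2
    rw [← natCast_zsmul]
    push_cast
    exact this
  -- (a3) at the level `N`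
  have hbdd : S37BddClass (GaussConst A N) (x : JZero N) :=
    s59pslbd_bddClass N hcomm hsmul p hp hpN A hA φ hφ (x : JZero N) hx
  -- (a4)
  have hbdd' : S37BddClass (GaussConst A (N * r)) (s59psltMap N r (x : JZero N)) :=
    s59pslt_map_bdd N r A hbdd
  -- (a2) at the level `N r`
  have hk' : (p ^ k) • s59psltMap N r (x : JZero N) = 0 := by
    rw [← map_nsmul, hk, map_zero]
  have hJ1 : s59psltMap N r (x : JZero N) ∈ (modPRData (N * r) A hRedF ρ).J1 :=
    s59pslro_mem_J1_modPR (N * r) A hRedF ρ hM.isPR (s59pslbd_count (N * r) p hp A hA)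
      (p ^ k) (pow_pos hp.pos k) hbdd' hk'
  -- (a1) through the level-up
  exact s59pslj_mem_span_levelUp hp hp2 hA hM (s59psltMap N r) (s59pslt_map_smul N r)
    (fun y hy hy0 => s59pslt_map_inj N r hr hrN hp y hy hy0) k x hJ1

end LevelUp

section All

variable (N : ℕ) [NeZero N]

/-- **(LG2)(ii) for every odd prime `p ∤ N`** (in particular `p = 3`): a point of `J₀(N)[p^k]` in
the minimal kernel `K̄` at the torsion prime `p` lies in the inertia span `𝔄 J₀(N)[p^k]`. -/
theorem s59pslt_ker_le_span (hcomm : HeckeOperatorsCommuteBar N) :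
    letI := heckeModuleBar N
    ∀ (_ : SMulCommClass (AlgebraicClosure ℚ ≃ₐ[ℚ] AlgebraicClosure ℚ) HeckeAlg (JZero N))
      (p : ℕ) (hp : p.Prime) (_ : p ≠ 2) (_ : ¬ p ∣ N) (A : ValuationSubring Qb)
      (_ : A.LiesOverPrime p)
      (φ : Qb ≃ₐ[ℚ] Qb) (_ : A.IsFrobeniusAt φ p) (k : ℕ)
      (x : Submodule.torsionBy ℤ (JZero N) ((p : ℤ) ^ k)),
      (x : JZero N) ∈ s37Ker (K := ℚ) (L := Qb) (JZero N) A p hp φ →
        x ∈ ntsSpan (A.inertiaSubgroupIn ℚ) (torsAct (JZero N) ((p : ℤ) ^ k)) ⊤ := by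
  letI := heckeModuleBar N
  intro hsmul p hp hp2 hpN A hA φ hφ k x hx
  rcases le_or_gt 5 p with h5 | h5
  · exact s59pslbd_ker_le_span N hcomm hsmul p hp h5 hpN A hA φ hφ k x hx
  -- `p = 3`
  have hp3 : p = 3 := by
    have h2 := hp.two_le
    interval_cases p
    · exact absurd rfl hp2
    · rfl
    · exact absurd hp (by decide)
  subst hp3
  by_cases h2N : 2 ∣ N
  · exact s59pslbd_ker_le_span_of_I2 N hcomm hsmul 3 hp hp2 hpN A hA
      (Fermat.Agent.ES.I2aux.stmtI2AuxAll N 3 hp (by norm_num) hpN h2N A hA) φ hφ k x hx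
  · haveI : NeZero (N * 2) := ⟨mul_ne_zero (NeZero.ne N) two_ne_zero⟩
    have h3N2 : ¬ 3 ∣ N * 2 := by
      intro h
      rcases (Nat.Prime.dvd_mul hp).1 h with h | h
      · exact hpN h
      · exact absurd h (by decide)
    exact s59pslt_ker_le_span_levelUp N 2 hcomm hsmul Nat.prime_two h2N 3 hp hp2 hpN
      (by decide) A hA
      (Fermat.Agent.ES.I2aux.stmtI2AuxAll (N * 2) 3 hp (by norm_num) h3N2
        (Dvd.intro_left N rfl) A hA) φ hφ k x hx

/-- **Eichler–Shimura at `p` on `J₀(N)[p^k]`, modulo the inertia span**: for every odd prime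
`p ∤ N`, every place `A ∣ p` with Frobenius `φ` and every `x ∈ J₀(N)[p^k]`, every point `y` of
`J₀(N)[p^k]` with `y = φ² x − T_p φ x + p x` lies in `𝔄 J₀(N)[p^k]`. -/
theorem s59pslt_psi_mem_span (hcomm : HeckeOperatorsCommuteBar N) :
    letI := heckeModuleBar N
    ∀ (_ : SMulCommClass (AlgebraicClosure ℚ ≃ₐ[ℚ] AlgebraicClosure ℚ) HeckeAlg (JZero N))
      (p : ℕ) (hp : p.Prime) (_ : p ≠ 2) (_ : ¬ p ∣ N) (A : ValuationSubring Qb)
      (_ : A.LiesOverPrime p)
      (φ : Qb ≃ₐ[ℚ] Qb) (_ : A.IsFrobeniusAt φ p) (k : ℕ) (x : JZero N)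
      (y : Submodule.torsionBy ℤ (JZero N) ((p : ℤ) ^ k)),
      (y : JZero N) = s37Psi (K := ℚ) (L := Qb) (JZero N) p hp φ x →
        y ∈ ntsSpan (A.inertiaSubgroupIn ℚ) (torsAct (JZero N) ((p : ℤ) ^ k)) ⊤ := by
  letI := heckeModuleBar N
  intro hsmul p hp hp2 hpN A hA φ hφ k x y hy
  refine s59pslt_ker_le_span N hcomm hsmul p hp hp2 hpN A hA φ hφ k y ?_
  rw [hy]
  exact s37_psi_mem_ker A p hp φ x

end All

end Fermat.Agent.S59
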