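/-
S59, wall M5 = P-STEP, leaf LG-P, part (LG2)(ii) = (Y3): the chain WITHOUT `hcomm`, WITHOUT any
Hecke-module instance on `J₀(N)` (helper44; the trap was found by helper5, 06:05Z: the prelude's
`heckeModuleBar N` is the real action only under the UNPROVED `HeckeOperatorsCommuteBar N`).
Ledger: NOTES/S59-M5.md.

`T_ℓ` is the OPERATOR `heckeOperatorBar N ⟨ℓ, hℓ⟩ : Module.End ℤ (JZero N)` throughout.

* `s59pslbfPsi N ℓ hℓ φ x = φ • φ • x − heckeOperatorBar N ⟨ℓ, hℓ⟩ (φ • x) + ℓ • x`  (`rfl`);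
* `s59pslbf_inertia_bdd` : `σ • x − x` is a bounded class (`σ` in the inertia group of `A ∣ ℓ`);
* `s59pslbf_psi_bdd`     : `Ψ' x` is a bounded class (`ℓ ∤ N`, `φ` a Frobenius at `A ∣ ℓ`);
* `s59pslbfKer`, `s59pslbf_bddClass` : the subgroup generated by both consists of bounded classes;
* `s59pslbf_span_of_bdd_of_I2`, `s59pslbf_span_of_bdd_levelUp`,
  **`s59pslbf_span_of_bdd`** : for EVERY odd prime `p ∤ N` (in particular `p = 3`), a point of
  `J₀(N)[p^k]` which is a bounded class at `A ∣ p` lies in the inertia span `𝔄 J₀(N)[p^k]`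
  (NO Frobenius, NO Hecke operator in this statement);
* **`s59pslbf_psi_mem_span`** : Eichler–Shimura at `p` on `J₀(N)[p^k]` modulo the inertia span,
  `y = φ² x − T_p (φ x) + p x  ⇒  y ∈ 𝔄 J₀(N)[p^k]`;
* `s59pslbf_ker_le_span` : the same for the subgroup `s59pslbfKer`.

Sorry-free; axioms: propext, Classical.choice, Quot.sound.
-/
import Fermat.Agent.S59.PStep.LgThreeH10

set_option autoImplicit false
set_option linter.style.haveILetI false
set_option linter.unusedSectionVars false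
set_option linter.unusedVariables false
set_option linter.style.longLine false
set_option synthInstance.maxHeartbeats 400000
set_option maxHeartbeats 1600000

noncomputable section

namespace Fermat.Agent.S59

open ModularCurve AlgebraicCurve Fermat.Agent.ES Fermat.Agent.ES.G2 FrobAux
open Fermat.Agent.S24 Fermat.Agent.ES.M Fermat.Agent.W1 Fermat.Agent.DEU Fermat.Agent.S33

section Bdd

variable (N : ℕ) [NeZero N]

/-- the operator `Ψ' = φ² − T_ℓ φ + ℓ`, `T_ℓ` the Hecke OPERATOR (no module instance) -/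
def s59pslbfPsi (ℓ : ℕ) (hℓ : ℓ.Prime) (φ : Qb ≃ₐ[ℚ] Qb) (x : JZero N) : JZero N :=
  φ • φ • x - heckeOperatorBar N ⟨ℓ, hℓ⟩ (φ • x) + ℓ • x

theorem s59pslbfPsi_apply (ℓ : ℕ) (hℓ : ℓ.Prime) (φ : Qb ≃ₐ[ℚ] Qb) (x : JZero N) :
    s59pslbfPsi N ℓ hℓ φ x = φ • φ • x - heckeOperatorBar N ⟨ℓ, hℓ⟩ (φ • x) + ℓ • x := rfl

/-- `σ x − x` is a bounded class, `σ` in the inertia group of `A ∣ ℓ` -/
theorem s59pslbf_inertia_bdd (ℓ : ℕ) (hℓ : ℓ.Prime) (A : ValuationSubring Qb)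
    (hA : A.LiesOverPrime ℓ) (σ : Qb ≃ₐ[ℚ] Qb) (hσ : σ ∈ A.inertiaSubgroupIn ℚ) (z : JZero N) :
    S37BddClass (GaussConst A N) (σ • z - z) := by
  haveI := Fermat.Agent.ES.H.hasPrincipalDivisors_FF N
  obtain ⟨P₀⟩ := s37_nonempty_place N
  have hres := Fermat.Agent.ES.H.residue_bijective_FF N
  obtain ⟨D, rfl⟩ := Pic0.mk_surjective z
  obtain ⟨g, hg⟩ : ∃ g : SemilinearAut Qb (modularFunctionFieldBar N),
      g = arithmeticGalois (modularFunctionFieldFull N) σ := ⟨_, rfl⟩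
  have hgx : σ • Pic0.mk D = g • Pic0.mk D := by rw [hg]; rfl
  refine ⟨SemilinearAut.degZeroSMulHom g D - D, ?_, ?_⟩
  · rw [hgx, SemilinearAut.pic0_smul_mk]
    rfl
  · have hB := s37RR_bddOfOp hres P₀ _ (Fermat.Agent.ES.R.riemann_inequality N) (GaussConst A N)
      (s37deg_opInertia g) (gcInertiaOp N σ) 2
      (fun f hf => (stmtGCInertia stmtPrim N ℓ hℓ A hA σ hσ f hf).ne_zero)
      (fun D f hf hD v => by rw [hg]; exact s37In_ord_inertia N σ D f hf hD v)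
      (fun f hf => stmtGCInertia stmtPrim N ℓ hℓ A hA σ hσ f hf)
      (fun B hB => s37deg_opInertia_bdd g B hB)
      (D : Divisor Qb (modularFunctionFieldBar N)) D.2
    rw [s37deg_opInertia_apply] at hB
    rw [AddSubgroup.coe_sub, SemilinearAut.coe_degZeroSMulHom]
    exact hB

/-- `Ψ' x = φ² x − T_ℓ (φ x) + ℓ x` is a bounded class (`ℓ ∤ N`, `φ` a Frobenius at `A ∣ ℓ`);
NO `hcomm`. -/
theorem s59pslbf_psi_bdd (ℓ : ℕ) (hℓ : ℓ.Prime) (hℓN : ¬ ℓ ∣ N) (A : ValuationSubring Qb)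
    (hA : A.LiesOverPrime ℓ) (φ : Qb ≃ₐ[ℚ] Qb) (hφ : A.IsFrobeniusAt φ ℓ) (z : JZero N) :
    S37BddClass (GaussConst A N) (s59pslbfPsi N ℓ hℓ φ z) := by
  haveI : NeZero ℓ := ⟨hℓ.ne_zero⟩
  haveI := Fermat.Agent.ES.H.hasPrincipalDivisors_FF N
  haveI := Fermat.Agent.ES.H.hasPrincipalDivisors_FF (N * ℓ)
  obtain ⟨P₀⟩ := s37_nonempty_place N
  have hres := Fermat.Agent.ES.H.residue_bijective_FF N
  obtain ⟨D, rfl⟩ := Pic0.mk_surjective z
  obtain ⟨g, hg⟩ : ∃ g : SemilinearAut Qb (modularFunctionFieldBar N),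
      g = arithmeticGalois (modularFunctionFieldFull N) φ := ⟨_, rfl⟩
  have hgx : ∀ z : JZero N, φ • z = g • z := by
    intro z
    rw [hg]
    rfl
  have hT : ∀ y : JZero N, heckeOperatorBar N ⟨ℓ, hℓ⟩ y =
      Pic0.correspondence (heckeBetaBar Qb N ℓ) (heckeAlphaBar Qb N ℓ)
        (Fermat.Agent.ES.H.heckeBetaBarIntegral N ℓ)
        (Fermat.Agent.ES.H.heckeAlphaBarIntegral N ℓ)
        (Fermat.Agent.ES.H.fundamentalIdentityAlong_heckeBetaBar N ℓ)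
        (Fermat.Agent.ES.H.finiteAlong_heckeAlphaBar N ℓ)
        (Fermat.Agent.ES.H.normFormulaAlong_heckeAlphaBar N ℓ) y :=
    fun y => frob_heckeOperatorBar_eq N ℓ hℓ y
  refine ⟨SemilinearAut.degZeroSMulHom g (SemilinearAut.degZeroSMulHom g D)
      - Pic0.degZeroCorrespondence (heckeBetaBar Qb N ℓ) (heckeAlphaBar Qb N ℓ)
        (Fermat.Agent.ES.H.heckeBetaBarIntegral N ℓ)
        (Fermat.Agent.ES.H.heckeAlphaBarIntegral N ℓ)
        (Fermat.Agent.ES.H.fundamentalIdentityAlong_heckeBetaBar N ℓ)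
        (SemilinearAut.degZeroSMulHom g D)
      + ℓ • D, ?_, ?_⟩
  · unfold s59pslbfPsi
    rw [hT, hgx, hgx, SemilinearAut.pic0_smul_mk, SemilinearAut.pic0_smul_mk,
      Pic0.correspondence_mk]
    rfl
  · have hB := s37RR_bddOfOp hres P₀ _ (Fermat.Agent.ES.R.riemann_inequality N) (GaussConst A N)
      (s37deg_opFrob g (heckeBetaBar Qb N ℓ) (heckeAlphaBar Qb N ℓ)
        (Fermat.Agent.ES.H.heckeBetaBarIntegral N ℓ)
        (Fermat.Agent.ES.H.heckeAlphaBarIntegral N ℓ) ℓ)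
      (gcFrobOp N ℓ φ) (1 + finrankAlong Qb (heckeBetaBar Qb N ℓ) + ℓ)
      (fun f hf => (stmtGCFrob stmtPrim stmtHeckeNorm N ℓ hℓ hℓN A hA φ hφ f hf).ne_zero)
      (fun D f hf hD v => by rw [hg]; exact s37In_ord_frob N ℓ φ D f hf hD v)
      (fun f hf => stmtGCFrob stmtPrim stmtHeckeNorm N ℓ hℓ hℓN A hA φ hφ f hf)
      (fun B hB => s37deg_opFrob_bdd g _ _ _ _
        (Fermat.Agent.ES.H.fundamentalIdentityAlong_heckeBetaBar N ℓ) ℓ B hB)
      (D : Divisor Qb (modularFunctionFieldBar N)) D.2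
    rw [s37deg_opFrob_apply] at hB
    rw [AddSubgroup.coe_add, AddSubgroup.coe_sub, SemilinearAut.coe_degZeroSMulHom,
      SemilinearAut.coe_degZeroSMulHom, Pic0.coe_degZeroCorrespondence,
      SemilinearAut.coe_degZeroSMulHom, AddSubgroup.coe_nsmul, ← natCast_zsmul]
    exact hB

/-- the minimal kernel with the Hecke OPERATOR: the subgroup generated by `σ x − x` (`σ` in the
inertia group of `A`) and `Ψ' x` -/
def s59pslbfKer (A : ValuationSubring Qb) (ℓ : ℕ) (hℓ : ℓ.Prime) (φ : Qb ≃ₐ[ℚ] Qb) :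
    AddSubgroup (JZero N) :=
  AddSubgroup.closure
    ({y | ∃ σ ∈ A.inertiaSubgroupIn ℚ, ∃ x : JZero N, y = σ • x - x} ∪
      {y | ∃ x : JZero N, y = s59pslbfPsi N ℓ hℓ φ x})

theorem s59pslbf_inertia_mem_ker (A : ValuationSubring Qb) (ℓ : ℕ) (hℓ : ℓ.Prime)
    (φ : Qb ≃ₐ[ℚ] Qb) {σ : Qb ≃ₐ[ℚ] Qb} (hσ : σ ∈ A.inertiaSubgroupIn ℚ) (x : JZero N) :
    σ • x - x ∈ s59pslbfKer N A ℓ hℓ φ :=
  AddSubgroup.subset_closure (Or.inl ⟨σ, hσ, x, rfl⟩)

theorem s59pslbf_psi_mem_ker (A : ValuationSubring Qb) (ℓ : ℕ) (hℓ : ℓ.Prime)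
    (φ : Qb ≃ₐ[ℚ] Qb) (x : JZero N) :
    s59pslbfPsi N ℓ hℓ φ x ∈ s59pslbfKer N A ℓ hℓ φ :=
  AddSubgroup.subset_closure (Or.inr ⟨x, rfl⟩)

/-- **(a3), without `hcomm`**: the elements of the minimal kernel are bounded classes. -/
theorem s59pslbf_bddClass (ℓ : ℕ) (hℓ : ℓ.Prime) (hℓN : ¬ ℓ ∣ N) (A : ValuationSubring Qb)
    (hA : A.LiesOverPrime ℓ) (φ : Qb ≃ₐ[ℚ] Qb) (hφ : A.IsFrobeniusAt φ ℓ) (x : JZero N)
    (hx : x ∈ s59pslbfKer N A ℓ hℓ φ) : S37BddClass (GaussConst A N) x := by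
  have h1 : GaussConst A N (1 : modularFunctionFieldBar N) := GaussConst.one
  have hmul : ∀ a b : modularFunctionFieldBar N, a ≠ 0 → b ≠ 0 → GaussConst A N a →
      GaussConst A N b → GaussConst A N (a * b) := fun a b _ _ ha hb => ha.mul hb
  have hinv : ∀ a : modularFunctionFieldBar N, a ≠ 0 → GaussConst A N a →
      GaussConst A N a⁻¹ := fun a _ ha => ha.inv
  refine s37BddClass_of_mem_closure h1 hmul hinv ?_ hx
  rintro y (⟨σ, hσ, z, rfl⟩ | ⟨z, rfl⟩)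
  · exact s59pslbf_inertia_bdd N ℓ hℓ A hA σ hσ z
  · exact s59pslbf_psi_bdd N ℓ hℓ hℓN A hA φ hφ z

end Bdd

/-! ### bounded ⇒ inertia span (no Hecke operator, no Frobenius) -/

section Span

/-- every point of `J[p^k]` is killed by `p^k` (in `J`) -/
theorem s59pslbf_pow_smul (N : ℕ) [NeZero N] (p k : ℕ)
    (x : Submodule.torsionBy ℤ (JZero N) ((p : ℤ) ^ k)) : (p ^ k) • (x : JZero N) = 0 := by
  have := (Submodule.mem_torsionBy_iff _ _).1 x.2
  rw [← natCast_zsmul]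
  push_cast
  exact this

/-- **bounded ⇒ span**, from the genus bound at the level `N`. -/
theorem s59pslbf_span_of_bdd_of_I2 (N : ℕ) [NeZero N] (p : ℕ) (hp : p.Prime) (hp2 : p ≠ 2)
    (hpN : ¬ p ∣ N) (A : ValuationSubring Qb) (hA : A.LiesOverPrime p) (hI2 : StmtI2 N A) (k : ℕ)
    (x : Submodule.torsionBy ℤ (JZero N) ((p : ℤ) ^ k))
    (hx : S37BddClass (GaussConst A N) (x : JZero N)) :
    x ∈ ntsSpan (A.inertiaSubgroupIn ℚ) (torsAct (JZero N) ((p : ℤ) ^ k)) ⊤ := by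
  obtain ⟨hRedF, r, t, hM⟩ := s59pslbd_modPR N p hp hpN A hA hI2
  exact s59pslj_mem_span hp hp2 hA hM k x
    (s59pslro_mem_J1_modPR N A hRedF r hM.isPR (s59pslbd_count N p hp A hA) (p ^ k)
      (pow_pos hp.pos k) hx (s59pslbf_pow_smul N p k x))

/-- **bounded ⇒ span**, through a level-up `N → N r`. -/
theorem s59pslbf_span_of_bdd_levelUp (N r : ℕ) [NeZero N] [NeZero r] [NeZero (N * r)]
    (hr : r.Prime) (hrN : ¬ r ∣ N) (p : ℕ) (hp : p.Prime) (hp2 : p ≠ 2) (hpN : ¬ p ∣ N)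
    (hpr : p ≠ r) (A : ValuationSubring Qb) (hA : A.LiesOverPrime p) (hI2 : StmtI2 (N * r) A)
    (k : ℕ) (x : Submodule.torsionBy ℤ (JZero N) ((p : ℤ) ^ k))
    (hx : S37BddClass (GaussConst A N) (x : JZero N)) :
    x ∈ ntsSpan (A.inertiaSubgroupIn ℚ) (torsAct (JZero N) ((p : ℤ) ^ k)) ⊤ := by
  have hpNr : ¬ p ∣ N * r := by
    intro h
    rcases (Nat.Prime.dvd_mul hp).1 h with h | h
    · exact hpN h
    · exact hpr ((Nat.prime_dvd_prime_iff_eq hp hr).1 h)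
  obtain ⟨hRedF, ρ, t, hM⟩ := s59pslbd_modPR (N * r) p hp hpNr A hA hI2
  have hk := s59pslbf_pow_smul N p k x
  have hbdd' : S37BddClass (GaussConst A (N * r)) (s59psltMap N r (x : JZero N)) :=
    s59pslt_map_bdd N r A hx
  have hk' : (p ^ k) • s59psltMap N r (x : JZero N) = 0 := by
    rw [← map_nsmul, hk, map_zero]
  have hJ1 : s59psltMap N r (x : JZero N) ∈ (modPRData (N * r) A hRedF ρ).J1 :=
    s59pslro_mem_J1_modPR (N * r) A hRedF ρ hM.isPR (s59pslbd_count (N * r) p hp A hA)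
      (p ^ k) (pow_pos hp.pos k) hbdd' hk'
  exact s59pslj_mem_span_levelUp hp hp2 hA hM (s59psltMap N r) (s59pslt_map_smul N r)
    (fun y hy hy0 => s59pslt_map_inj N r hr hrN hp y hy hy0) k x hJ1

/-- **bounded ⇒ span for EVERY odd prime `p ∤ N`** (in particular `p = 3`): a point of
`J₀(N)[p^k]` which is a bounded class at `A ∣ p` lies in the inertia span `𝔄 J₀(N)[p^k]`. -/
theorem s59pslbf_span_of_bdd (N : ℕ) [NeZero N] (p : ℕ) (hp : p.Prime) (hp2 : p ≠ 2)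
    (hpN : ¬ p ∣ N) (A : ValuationSubring Qb) (hA : A.LiesOverPrime p) (k : ℕ)
    (x : Submodule.torsionBy ℤ (JZero N) ((p : ℤ) ^ k))
    (hx : S37BddClass (GaussConst A N) (x : JZero N)) :
    x ∈ ntsSpan (A.inertiaSubgroupIn ℚ) (torsAct (JZero N) ((p : ℤ) ^ k)) ⊤ := by
  rcases le_or_gt 5 p with h5 | h5
  · exact s59pslbf_span_of_bdd_of_I2 N p hp hp2 hpN A hA
      (Fermat.Agent.ES.I2.stmtI2All N p hp h5 hpN A hA) k x hx
  -- `p = 3`
  have hp3 : p = 3 := by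
    have h2 := hp.two_le
    interval_cases p
    · exact absurd rfl hp2
    · rfl
    · exact absurd hp (by decide)
  subst hp3
  by_cases h2N : 2 ∣ N
  · exact s59pslbf_span_of_bdd_of_I2 N 3 hp hp2 hpN A hA
      (Fermat.Agent.ES.I2aux.stmtI2AuxAll N 3 hp (by norm_num) hpN h2N A hA) k x hx
  · haveI : NeZero (N * 2) := ⟨mul_ne_zero (NeZero.ne N) two_ne_zero⟩
    have h3N2 : ¬ 3 ∣ N * 2 := by
      intro h
      rcases (Nat.Prime.dvd_mul hp).1 h with h | h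
      · exact hpN h
      · exact absurd h (by decide)
    exact s59pslbf_span_of_bdd_levelUp N 2 Nat.prime_two h2N 3 hp hp2 hpN (by decide) A hA
      (Fermat.Agent.ES.I2aux.stmtI2AuxAll (N * 2) 3 hp (by norm_num) h3N2
        (Dvd.intro_left N rfl) A hA) k x hx

end Span

/-! ### Eichler–Shimura at `p` modulo the inertia span, without `hcomm` -/

section ES

variable (N : ℕ) [NeZero N]

/-- **(LG2)(ii) without `hcomm`**: a point of `J₀(N)[p^k]` in the minimal kernel (Hecke OPERATOR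
form) at the torsion prime `p` lies in the inertia span. -/
theorem s59pslbf_ker_le_span (p : ℕ) (hp : p.Prime) (hp2 : p ≠ 2) (hpN : ¬ p ∣ N)
    (A : ValuationSubring Qb) (hA : A.LiesOverPrime p) (φ : Qb ≃ₐ[ℚ] Qb)
    (hφ : A.IsFrobeniusAt φ p) (k : ℕ) (x : Submodule.torsionBy ℤ (JZero N) ((p : ℤ) ^ k))
    (hx : (x : JZero N) ∈ s59pslbfKer N A p hp φ) :
    x ∈ ntsSpan (A.inertiaSubgroupIn ℚ) (torsAct (JZero N) ((p : ℤ) ^ k)) ⊤ :=
  s59pslbf_span_of_bdd N p hp hp2 hpN A hA k x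
    (s59pslbf_bddClass N p hp hpN A hA φ hφ (x : JZero N) hx)

/-- **Eichler–Shimura at `p` on `J₀(N)[p^k]`, modulo the inertia span, without `hcomm`**: for
every odd prime `p ∤ N`, every place `A ∣ p` with Frobenius `φ`, every `x : J₀(N)` and every
point `y` of `J₀(N)[p^k]` with `y = φ² x − T_p (φ x) + p x` (`T_p = heckeOperatorBar N p`):
`y ∈ 𝔄 J₀(N)[p^k]`. -/
theorem s59pslbf_psi_mem_span (p : ℕ) (hp : p.Prime) (hp2 : p ≠ 2) (hpN : ¬ p ∣ N)
    (A : ValuationSubring Qb) (hA : A.LiesOverPrime p) (φ : Qb ≃ₐ[ℚ] Qb)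
    (hφ : A.IsFrobeniusAt φ p) (k : ℕ) (x : JZero N)
    (y : Submodule.torsionBy ℤ (JZero N) ((p : ℤ) ^ k))
    (hy : (y : JZero N) = φ • φ • x - heckeOperatorBar N ⟨p, hp⟩ (φ • x) + p • x) :
    y ∈ ntsSpan (A.inertiaSubgroupIn ℚ) (torsAct (JZero N) ((p : ℤ) ^ k)) ⊤ := by
  refine s59pslbf_span_of_bdd N p hp hp2 hpN A hA k y ?_
  rw [hy]
  exact s59pslbf_psi_bdd N p hp hpN A hA φ hφ x

end ES

end Fermat.Agent.S59

end
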