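import Fermat.Agent.S30.PseudoChar
import Fermat.Agent.RT.K8.OfRep
import Fermat.Agent.S32.Setup

/-!
# S59 / M5 (P-STEP), LG-P, route LG-FIN, leaf (Y2): Cayley–Hamilton on the eigen-span

`J` a `G_ℚ × Hecke`-module (`ES.ESDataInf`), `χ` a system of eigenvalues with values in `𝒪`,
`t, d : G_ℚ → 𝒪` (trace and determinant of `ρ_π`).

`X` an `𝒪`-module with commuting `𝒪`-linear actions `r` of `G_ℚ` and `τ` of the Hecke polynomials
which satisfies the relations of `J[pⁿ]`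
(`Approx p J n g h → r g + e_n(g) r g⁻¹ = τ h` on `X`; e.g. `X = J[p^m] ⊗_ℤ 𝒪`, `m ≤ n`) and is
killed by `I ^ k`; `y ∈ X` an eigenvector of the Hecke operators outside `S` with the eigenvalues
of `χ`.

* `s59pslch_eigen` : every element of the `𝒪[G]`-span of `y` is an eigenvector;
* `s59pslch_stable` : the `𝒪[G]`-span of `y` is `G`-stable;
* `s59pslch_main` : **(CH)** `r(g)² − t(g) r(g) + d(g) = 0` on the `𝒪[G]`-span of `y`, for every
  `g`, if `t g ≡ χ(h)` and `d g ≡ e_n(g)` modulo `I ^ k` for the representatives `h` of `g`.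
* `s59pslch_det` : `det ρ(g) ≡ e_n(g)` modulo `𝔪ᵏ` (`k ≤ n`) for `ρ` with cyclotomic determinant.
* `s59pslch_rep` : **(CH) for a representation** `ρ` with
  `charpoly ρ(Frob_ℓ) = X² − χ(T_ℓ) X + ℓ` (`ℓ ∉ S`) and cyclotomic determinant, at a level `n ≥ k`
  which is good for the precision `k` (`S30.Good`; weak Chebotarev + `ESDataInf`).
* `s59pslch_exists_level` : for every `k` such a level exists (`ESFaith`).
* `s59pslchR`, `s59pslchT` : the actions of `G_ℚ` and of the Hecke polynomials on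
  `𝒪 ⊗_ℤ J[p^m]` (`S32.tors`, `S32.galEnd`, `S32.heckeEnd`, base-changed);
* `s59pslch_tors` : **(CH) on the `𝒪[G]`-span of a Hecke eigenvector `y ∈ 𝒪 ⊗_ℤ J[p^m]`**
  (`m ≤ n`, `𝔪ᵏ ⊆ (p^m)`, `n ≥ k` good for `k`).
-/

set_option autoImplicit false
set_option linter.unusedSectionVars false

noncomputable section

namespace Fermat.Agent.S59

open ModularCurve Fermat.Agent.ES Fermat.Agent.S31 Fermat.Agent.S30

section CH

variable {p : ℕ} [Fact p.Prime] {N : ℕ} [NeZero N] {J : Type} [AddCommGroup J]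
  [Module HeckeAlg J] [DistribMulAction GQ J] {S : Finset ℕ} {𝒪 : Type*} [CommRing 𝒪]
  {χ : CuspForm.heckeAlgebra N 2 (↑S : Set ℕ) →+* 𝒪}
  {X : Type*} [AddCommGroup X] [Module 𝒪 X]

/-- the `𝒪[G]`-span of `y` -/
def s59pslchSpan (r : GQ →* Module.End 𝒪 X) (y : X) : Submodule 𝒪 X :=
  Submodule.span 𝒪 (Set.range fun g : GQ => r g y)

theorem s59pslch_self_mem (r : GQ →* Module.End 𝒪 X) (y : X) : y ∈ s59pslchSpan r y := by
  refine Submodule.subset_span ⟨1, ?_⟩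
  simp

/-- the span is stable under `G` -/
theorem s59pslch_stable (r : GQ →* Module.End 𝒪 X) (y : X) (g : GQ) {y' : X}
    (hy' : y' ∈ s59pslchSpan r y) : r g y' ∈ s59pslchSpan r y := by
  unfold s59pslchSpan at hy' ⊢
  induction hy' using Submodule.span_induction with
  | mem x hx =>
    obtain ⟨g', rfl⟩ := hx
    refine Submodule.subset_span ⟨g * g', ?_⟩
    simp [map_mul]
  | zero => rw [map_zero]; exact Submodule.zero_mem _
  | add a b _ _ ha hb => rw [map_add]; exact Submodule.add_mem _ ha hb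
  | smul c a _ ha => rw [map_smul]; exact Submodule.smul_mem _ c ha

/-- every element of the span is an eigenvector with the same eigenvalues -/
theorem s59pslch_eigen (r : GQ →* Module.End 𝒪 X) (τ : HeckeAlg →+* Module.End 𝒪 X)
    (hcomm : ∀ (g : GQ) (h : HeckeAlg) (x : X), r g (τ h x) = τ h (r g x))
    (y : X) (h : HeckeAlg) (c : 𝒪) (hy : τ h y = c • y) {y' : X}
    (hy' : y' ∈ s59pslchSpan r y) : τ h y' = c • y' := by
  unfold s59pslchSpan at hy'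
  induction hy' using Submodule.span_induction with
  | mem x hx =>
    obtain ⟨g', rfl⟩ := hx
    change τ h (r g' y) = c • r g' y
    rw [← hcomm, hy, map_smul]
  | zero => rw [map_zero, smul_zero]
  | add a b _ _ ha hb => rw [map_add, ha, hb, smul_add]
  | smul c' a _ ha => rw [map_smul, ha, smul_comm]

/-- **(Y2), abstract form: Cayley–Hamilton on the eigen-span.** -/
theorem s59pslch_main (I : Ideal 𝒪) (k n : ℕ) (t d : GQ → 𝒪)
    (hex : ∀ g : GQ, ∃ h ∈ MvPolynomial.supported ℤ (outsideVars (↑S : Set ℕ)),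
      Approx p J n g h)
    (ht : ∀ (g : GQ) (h : HeckeAlg),
      h ∈ MvPolynomial.supported ℤ (outsideVars (↑S : Set ℕ)) → Approx p J n g h →
        t g - chiHom S χ h ∈ I ^ k)
    (hd : ∀ g : GQ, d g - (cycE p n g : 𝒪) ∈ I ^ k)
    (r : GQ →* Module.End 𝒪 X) (τ : HeckeAlg →+* Module.End 𝒪 X)
    (hcomm : ∀ (g : GQ) (h : HeckeAlg) (x : X), r g (τ h x) = τ h (r g x))
    (hX : ∀ (g : GQ) (h : HeckeAlg), Approx p J n g h →
      ∀ x : X, r g x + (cycE p n g : 𝒪) • r g⁻¹ x = τ h x)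
    (hann : ∀ c ∈ I ^ k, ∀ x : X, c • x = 0)
    (y : X)
    (hy : ∀ h ∈ MvPolynomial.supported ℤ (outsideVars (↑S : Set ℕ)),
      τ h y = chiHom S χ h • y)
    (g : GQ) {y' : X} (hy' : y' ∈ s59pslchSpan r y) :
    r g (r g y') - t g • r g y' + d g • y' = 0 := by
  obtain ⟨h, hh, hA⟩ := hex g
  have hgy : r g y' ∈ s59pslchSpan r y := s59pslch_stable r y g hy'
  have h1 := hX g h hA (r g y')
  have hinv : r g⁻¹ (r g y') = y' := by
    rw [← Module.End.mul_apply, ← map_mul, inv_mul_cancel, map_one, Module.End.one_apply]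
  rw [hinv, s59pslch_eigen r τ hcomm y h _ (hy h hh) hgy] at h1
  have h2 : (t g - chiHom S χ h) • r g y' = 0 := hann _ (ht g h hh hA) _
  have h3 : (d g - (cycE p n g : 𝒪)) • y' = 0 := hann _ (hd g) _
  rw [sub_smul, sub_eq_zero] at h2 h3
  rw [h2, h3, ← h1]
  abel

end CH

section Rep

open Polynomial

variable {p : ℕ} [Fact p.Prime] {N : ℕ} [NeZero N] {J : Type} [AddCommGroup J]
  [Module HeckeAlg J] [DistribMulAction GQ J] {S : Finset ℕ} {𝒪 : Type} [CommRing 𝒪]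
  [IsLocalRing 𝒪] {χ : CuspForm.heckeAlgebra N 2 (↑S : Set ℕ) →+* 𝒪}
  {Xm : Type*} [AddCommGroup Xm] [Module 𝒪 Xm]

/-- the determinant of a representation with cyclotomic determinant is congruent to the integer
`e_n(g)` modulo `𝔪ᵏ`, `k ≤ n` -/
theorem s59pslch_det (ρ : GaloisRepAdic 𝒪) (hdet : ρ.DetIsCyclotomic p) {k n : ℕ} (hkn : k ≤ n)
    (g : GQ) :
    LinearMap.det (ρ.ρ g) - (cycE p n g : 𝒪) ∈ IsLocalRing.maximalIdeal 𝒪 ^ k := by
  have h1 := hdet.2 n g (cycE p n g) (fun μ hμ => padicCyclo_spec p g n hμ)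
  have h2 : Ideal.span {((p ^ n : ℕ) : 𝒪)} ≤ IsLocalRing.maximalIdeal 𝒪 ^ k := by
    rw [Ideal.span_singleton_le_iff_mem, Nat.cast_pow]
    exact Ideal.pow_le_pow_right hkn (Ideal.pow_mem_pow hdet.1 n)
  exact h2 h1

/-- **(Y2): Cayley–Hamilton on the eigen-span, for a representation.** -/
theorem s59pslch_rep (hcheb : Cheb.WeakChebotarev) (hJ : ESDataInf N p J)
    (hgoodN : ∀ r : ℕ, r.Prime → r ∉ S → ¬ r ∣ N)
    (hgood : ∀ r : ℕ, r.Prime → r ∉ S → ¬ r ∣ N * p)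
    (ρ : GaloisRepAdic 𝒪) (hdet : ρ.DetIsCyclotomic p)
    (hρ : ∀ (ℓ : ℕ) (hℓ : ℓ.Prime) (hℓN : ¬ ℓ ∣ N) (hℓS : ℓ ∉ (↑S : Set ℕ)),
      ∀ 𝔄 : ValuationSubring (AlgebraicClosure ℚ), 𝔄.LiesOverPrime ℓ →
        ∀ σ : AlgebraicClosure ℚ ≃ₐ[ℚ] AlgebraicClosure ℚ, 𝔄.IsFrobeniusAt σ ℓ →
          LinearMap.charpoly (ρ.ρ σ) =
            X ^ 2 - C (χ (CuspForm.heckeAlgebra.T hℓ hℓN hℓS)) * X + C ((ℓ : 𝒪)))
    {k n : ℕ} (hkn : k ≤ n) (hG : Good p J S χ k n)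
    (r : GQ →* Module.End 𝒪 Xm) (τ : HeckeAlg →+* Module.End 𝒪 Xm)
    (hcomm : ∀ (g : GQ) (h : HeckeAlg) (x : Xm), r g (τ h x) = τ h (r g x))
    (hX : ∀ (g : GQ) (h : HeckeAlg), Approx p J n g h →
      ∀ x : Xm, r g x + (cycE p n g : 𝒪) • r g⁻¹ x = τ h x)
    (hann : ∀ c ∈ IsLocalRing.maximalIdeal 𝒪 ^ k, ∀ x : Xm, c • x = 0)
    (y : Xm)
    (hy : ∀ h ∈ MvPolynomial.supported ℤ (outsideVars (↑S : Set ℕ)),
      τ h y = chiHom S χ h • y)
    (g : GQ) {y' : Xm} (hy' : y' ∈ s59pslchSpan r y) :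
    r g (r g y') - LinearMap.trace 𝒪 ρ.V (ρ.ρ g) • r g y' + LinearMap.det (ρ.ρ g) • y' = 0 :=
  s59pslch_main (p := p) (J := J) (S := S) (χ := χ) (IsLocalRing.maximalIdeal 𝒪) k n
    (fun g => LinearMap.trace 𝒪 ρ.V (ρ.ρ g)) (fun g => LinearMap.det (ρ.ρ g))
    (fun g => exists_approx hcheb hJ S hgood n g)
    (fun g h hh hA => Fermat.Agent.RT.K8.rtk8_trace_spec S χ hdet.1 hcheb hJ hgoodN hgood ρ hρ
      g k n h hG hh hA)
    (fun g => s59pslch_det ρ hdet hkn g)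
    r τ hcomm hX hann y hy g hy'

/-- for every precision `k` there is a good level `n ≥ k` -/
theorem s59pslch_exists_level (hfaith : ESFaith N p J)
    (hgoodN : ∀ r : ℕ, r.Prime → r ∉ S → ¬ r ∣ N)
    (hgood : ∀ r : ℕ, r.Prime → r ∉ S → ¬ r ∣ N * p) (k : ℕ) :
    ∃ n : ℕ, k ≤ n ∧ Good p J S χ k n :=
  exists_good (J := J) S χ hfaith hgoodN hgood k

end Rep

section Tors

open Polynomial Fermat.Agent.S32
open scoped TensorProduct

variable {p : ℕ} [Fact p.Prime] {N : ℕ} [NeZero N] (J : Type) [AddCommGroup J]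
  [Module HeckeAlg J] [DistribMulAction GQ J] {S : Finset ℕ} (𝒪 : Type) [CommRing 𝒪]

/-- the Galois action on `𝒪 ⊗_ℤ J[p^m]` -/
def s59pslchR (p m : ℕ) : GQ →* Module.End 𝒪 (𝒪 ⊗[ℤ] ↥(tors J p m)) where
  toFun g := (galEnd J p m g).baseChange 𝒪
  map_one' := by rw [map_one, LinearMap.baseChange_one]
  map_mul' := fun σ τ => by rw [map_mul, LinearMap.baseChange_mul]

/-- the Hecke action on `𝒪 ⊗_ℤ J[p^m]` -/
def s59pslchT (p m : ℕ) : HeckeAlg →+* Module.End 𝒪 (𝒪 ⊗[ℤ] ↥(tors J p m)) where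
  toFun h := (heckeEnd J p m h).baseChange 𝒪
  map_one' := by rw [map_one, LinearMap.baseChange_one]
  map_mul' := fun σ τ => by rw [map_mul, LinearMap.baseChange_mul]
  map_zero' := by rw [map_zero, LinearMap.baseChange_zero]
  map_add' := fun σ τ => by rw [map_add, LinearMap.baseChange_add]

variable {J 𝒪}

@[simp] theorem s59pslchR_tmul (m : ℕ) (g : GQ) (a : 𝒪) (z : ↥(tors J p m)) :
    s59pslchR J 𝒪 p m g (a ⊗ₜ[ℤ] z) = a ⊗ₜ[ℤ] (g • z) := rfl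

@[simp] theorem s59pslchT_tmul (m : ℕ) (h : HeckeAlg) (a : 𝒪) (z : ↥(tors J p m)) :
    s59pslchT J 𝒪 p m h (a ⊗ₜ[ℤ] z) = a ⊗ₜ[ℤ] (h • z) := rfl

/-- Galois and Hecke commute on `𝒪 ⊗_ℤ J[p^m]` -/
theorem s59pslch_comm (hJ : ESDataInf N p J) (m : ℕ) (g : GQ) (h : HeckeAlg)
    (x : 𝒪 ⊗[ℤ] ↥(tors J p m)) :
    s59pslchR J 𝒪 p m g (s59pslchT J 𝒪 p m h x) = s59pslchT J 𝒪 p m h (s59pslchR J 𝒪 p m g x) := by
  induction x using TensorProduct.induction_on with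
  | zero => simp
  | tmul a z =>
    rw [s59pslchT_tmul, s59pslchR_tmul, s59pslchR_tmul, s59pslchT_tmul]
    congr 1
    exact Subtype.ext (hJ.smul_comm g h (z : J))
  | add a b ha hb => rw [map_add, map_add, map_add, map_add, ha, hb]

/-- the relations of `J[pⁿ]` hold on `𝒪 ⊗_ℤ J[p^m]`, `m ≤ n` -/
theorem s59pslch_approx {m n : ℕ} (hmn : m ≤ n) {g : GQ} {h : HeckeAlg}
    (H : Approx p J n g h) (x : 𝒪 ⊗[ℤ] ↥(tors J p m)) :
    s59pslchR J 𝒪 p m g x + (cycE p n g : 𝒪) • s59pslchR J 𝒪 p m g⁻¹ x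
      = s59pslchT J 𝒪 p m h x := by
  induction x using TensorProduct.induction_on with
  | zero => simp
  | tmul a z =>
    rw [s59pslchT_tmul, s59pslchR_tmul, s59pslchR_tmul, Nat.cast_smul_eq_nsmul,
      ← TensorProduct.tmul_smul, ← TensorProduct.tmul_add]
    congr 1
    apply Subtype.ext
    have h1 := H (z : J) (torsion_le hmn z.2)
    simpa using h1
  | add a b ha hb =>
    rw [map_add, map_add, map_add, smul_add, ← ha, ← hb]
    abel

/-- `𝒪 ⊗_ℤ J[p^m]` is killed by the ideal `(p^m)` -/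
theorem s59pslch_ann (m : ℕ) {c : 𝒪} (hc : c ∈ Ideal.span {(p : 𝒪) ^ m})
    (x : 𝒪 ⊗[ℤ] ↥(tors J p m)) : c • x = 0 := by
  obtain ⟨c', rfl⟩ := Ideal.mem_span_singleton'.mp hc
  have key : ∀ x : 𝒪 ⊗[ℤ] ↥(tors J p m), ((p : 𝒪) ^ m) • x = 0 := by
    intro x
    induction x using TensorProduct.induction_on with
    | zero => simp
    | tmul a z =>
      have h1 : ((p : 𝒪) ^ m) = ((p ^ m : ℕ) : 𝒪) := by push_cast; rfl
      rw [h1, Nat.cast_smul_eq_nsmul, ← TensorProduct.tmul_smul, pow_smul_tors,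
        TensorProduct.tmul_zero]
    | add a b ha hb => rw [smul_add, ha, hb, add_zero]
  rw [mul_smul, key, smul_zero]

variable [IsLocalRing 𝒪] {χ : CuspForm.heckeAlgebra N 2 (↑S : Set ℕ) →+* 𝒪}

/-- **(Y2): Cayley–Hamilton on the `𝒪[G]`-span of a Hecke eigenvector of `𝒪 ⊗_ℤ J[p^m]`.** -/
theorem s59pslch_tors (hcheb : Cheb.WeakChebotarev) (hJ : ESDataInf N p J)
    (hgoodN : ∀ r : ℕ, r.Prime → r ∉ S → ¬ r ∣ N)
    (hgood : ∀ r : ℕ, r.Prime → r ∉ S → ¬ r ∣ N * p)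
    (ρ : GaloisRepAdic 𝒪) (hdet : ρ.DetIsCyclotomic p)
    (hρ : ∀ (ℓ : ℕ) (hℓ : ℓ.Prime) (hℓN : ¬ ℓ ∣ N) (hℓS : ℓ ∉ (↑S : Set ℕ)),
      ∀ 𝔄 : ValuationSubring (AlgebraicClosure ℚ), 𝔄.LiesOverPrime ℓ →
        ∀ σ : AlgebraicClosure ℚ ≃ₐ[ℚ] AlgebraicClosure ℚ, 𝔄.IsFrobeniusAt σ ℓ →
          LinearMap.charpoly (ρ.ρ σ) =
            X ^ 2 - C (χ (CuspForm.heckeAlgebra.T hℓ hℓN hℓS)) * X + C ((ℓ : 𝒪)))
    {k n m : ℕ} (hkn : k ≤ n) (hmn : m ≤ n) (hG : Good p J S χ k n)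
    (hkm : IsLocalRing.maximalIdeal 𝒪 ^ k ≤ Ideal.span {(p : 𝒪) ^ m})
    (y : 𝒪 ⊗[ℤ] ↥(tors J p m))
    (hy : ∀ h ∈ MvPolynomial.supported ℤ (outsideVars (↑S : Set ℕ)),
      s59pslchT J 𝒪 p m h y = chiHom S χ h • y)
    (g : GQ) {y' : 𝒪 ⊗[ℤ] ↥(tors J p m)} (hy' : y' ∈ s59pslchSpan (s59pslchR J 𝒪 p m) y) :
    s59pslchR J 𝒪 p m g (s59pslchR J 𝒪 p m g y')
      - LinearMap.trace 𝒪 ρ.V (ρ.ρ g) • s59pslchR J 𝒪 p m g y'
      + LinearMap.det (ρ.ρ g) • y' = 0 :=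
  s59pslch_rep hcheb hJ hgoodN hgood ρ hdet hρ hkn hG (s59pslchR J 𝒪 p m) (s59pslchT J 𝒪 p m)
    (fun g h x => s59pslch_comm hJ m g h x)
    (fun _ _ H x => s59pslch_approx hmn H x)
    (fun _ hc x => s59pslch_ann m (hkm hc) x) y hy g hy'

end Tors

end Fermat.Agent.S59
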