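/-
S59, wall M5 = P-STEP, leaf LG-FIN **(Y2) = CH on Y**, DIRECT form (helper80; design note of
helper5, 05:45Z, "M5 LG-P: FINITE-LEVEL, TRACE-ONLY route").  Ledger: NOTES/S59-M5.md.
Independent double of helper42's `S59/PStep/LgCH.lean` with FEWER hypotheses: no `ESFaith`, no
good level (`S30.Good`), no cyclotomic determinant, eigenvalues only at the generators `T_ℓ`;
only `ES.ESDataInf`, weak Chebotarev (proved) and the continuity of `ρ`.

`Y` = a `G_ℚ`-stable `𝒪`-submodule of a torsion module `W` with a Galois action `r` (e.g. the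
`𝒪[G]`-span of ONE Hecke eigenvector `y ∈ 𝒪 ⊗ J[pⁿ]`), `ρ` a `GaloisRepAdic 𝒪` (e.g. `ρ_π`).

* `s59pscd_charpoly`  : `charpoly f = X² − tr f · X + det f` in rank 2;
* `s59pscd_det_sub_one_mem`, `s59pscd_det_congr` : `det ρ(g) ≡ det ρ(γ) mod 𝔪ᵏ` if `g`, `γ` agree
  on a field of definition of `ρ mod 𝔪ᵏ` (the twin of `S31.trace_congr_of_agree`);
* **`s59pscd_CH_abs`** (abstract (Y2)): if `𝔪ᵏ Y = 0`, the action on `Y` factors through a finite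
  extension, and the Cayley–Hamilton relation `r(τ)² − tr ρ(τ) r(τ) + det ρ(τ) = 0` holds on `Y`
  for the Frobenius elements `τ` at the primes `ℓ ∉ S`, then it holds for EVERY `g ∈ G_ℚ`
  (weak Chebotarev `Cheb.exists_frobenius_pow_eq` + the Lucas recursion `S31.lucas_smul` +
  continuity of `ρ`);
* `s59pscdG`, `s59pscdH` : the Galois and the Hecke action on `𝒪 ⊗_ℤ J[pⁿ]`;
* **`s59pscd_CH`** (the instance): `J` an Eichler–Shimura package (`ES.ESDataInf N p J`), `H` a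
  Hecke–Galois datum of level `N` away from `S`, `πT : T → 𝒪` a local homomorphism,
  `y ∈ 𝒪 ⊗ J[pⁿ]` with `T_ℓ y = πT (H.π T_ℓ) • y` (`ℓ ∉ S`): then for every `g` and every `z` in the
  `𝒪[G]`-span `Y` of `y`:  `g² z − tr ρ_π(g) · g z + det ρ_π(g) · z = 0`
  (`ρ_π = H.ρ.baseChangeAlong πT`);
* `s59pscd_span_stable`, `s59pscd_span_eig`, `s59pscd_kill` : `Y` is Galois stable, the Hecke
  operators act on `Y` through `πT ∘ H.π`, and `𝔪ᵏ` kills `𝒪 ⊗ J[pⁿ]` for some `k` (`p ≠ 0` in `𝒪`).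
-/
import Fermat.Agent.S32.Key
import Fermat.Agent.Cheb.Final

set_option autoImplicit false
set_option linter.unusedSectionVars false
set_option linter.unusedVariables false
set_option linter.style.longLine false
set_option linter.style.haveILetI false

noncomputable section

namespace Fermat.Agent.S59

open IsLocalRing Polynomial
open ModularCurve Fermat.Agent.ES Fermat.Agent.S31 Fermat.Agent.S32
open scoped TensorProduct

/-! ### Rank 2 algebra -/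

section Alg

variable {A : Type} [CommRing A] {V : Type} [AddCommGroup V] [Module A V]
  [Module.Free A V] [Module.Finite A V]

/-- the characteristic polynomial in rank 2 -/
theorem s59pscd_charpoly (hV : Module.finrank A V = 2) (f : Module.End A V) :
    LinearMap.charpoly f = X ^ 2 - C (LinearMap.trace A V f) * X + C (LinearMap.det f) := by
  classical
  rcases subsingleton_or_nontrivial A with hA | hA
  · exact Subsingleton.elim _ _
  let b : Module.Basis (Fin 2) A V := Module.finBasisOfFinrankEq A V hV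
  rw [← LinearMap.charpoly_toMatrix f b, Matrix.charpoly_fin_two,
    ← LinearMap.trace_eq_matrix_trace A b f, LinearMap.det_toMatrix b f]

/-- an endomorphism which is congruent to the identity modulo `I` has determinant `≡ 1` -/
theorem s59pscd_det_sub_one_mem (I : Ideal A) (f : Module.End A V)
    (h : ∀ v : V, f v - v ∈ I • (⊤ : Submodule A V)) : LinearMap.det f - 1 ∈ I := by
  classical
  let b := Module.Free.chooseBasis A V
  have hM : (Ideal.Quotient.mk I).mapMatrix (LinearMap.toMatrix b b f) = 1 := by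
    ext i j
    rw [RingHom.mapMatrix_apply, Matrix.map_apply, LinearMap.toMatrix_apply, Matrix.one_apply]
    have h1 : b.repr (f (b j)) i = b.repr (f (b j) - b j) i + b.repr (b j) i := by
      rw [map_sub, Finsupp.sub_apply, sub_add_cancel]
    have h2 : b.repr (f (b j) - b j) i ∈ I :=
      functional_mem_of_mem_smul_top I (b.coord i) (h (b j))
    rw [h1, map_add, Ideal.Quotient.eq_zero_iff_mem.mpr h2, zero_add, Module.Basis.repr_self,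
      Finsupp.single_apply]
    by_cases hij : i = j
    · rw [if_pos hij.symm, if_pos hij, map_one]
    · rw [if_neg (fun h' => hij h'.symm), if_neg hij, map_zero]
  have h3 : Ideal.Quotient.mk I (LinearMap.det f) = 1 := by
    rw [← LinearMap.det_toMatrix b f, RingHom.map_det, hM, Matrix.det_one]
  rw [← Ideal.Quotient.eq_zero_iff_mem, map_sub, h3, map_one, sub_self]

/-- the coefficients of `X² − aX + d` -/
theorem s59pscd_coeffs [Nontrivial A] {a d a' d' : A}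
    (h : (X ^ 2 - C a * X + C d : A[X]) = X ^ 2 - C a' * X + C d') : a = a' ∧ d = d' := by
  have h1 := congrArg (fun q : A[X] => q.coeff 1) h
  have h0 := congrArg (fun q : A[X] => q.coeff 0) h
  simp only [coeff_add, coeff_sub, coeff_X_pow, coeff_C_mul, coeff_X_one, coeff_C, coeff_X_zero,
    mul_one, mul_zero] at h1 h0
  norm_num at h1 h0
  exact ⟨h1, h0⟩

end Alg

section Congr

variable {T : Type} [CommRing T] [IsLocalRing T]

/-- if `γ` and `g` agree on a field of definition of `ρ mod 𝔪ᵏ`, the determinants of `ρ(γ)` and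
`ρ(g)` are congruent modulo `𝔪ᵏ` -/
theorem s59pscd_det_congr (ρ : GaloisRepAdic T) (k : ℕ)
    (L : IntermediateField ℚ (AlgebraicClosure ℚ))
    (hL : ∀ σ : AlgebraicClosure ℚ ≃ₐ[ℚ] AlgebraicClosure ℚ, (∀ x ∈ L, σ x = x) →
      ∀ v : ρ.V, ρ.ρ σ v - v ∈ (maximalIdeal T ^ k) • (⊤ : Submodule T ρ.V))
    (γ g : AlgebraicClosure ℚ ≃ₐ[ℚ] AlgebraicClosure ℚ) (h : ∀ a ∈ L, γ a = g a) :
    LinearMap.det (ρ.ρ g) - LinearMap.det (ρ.ρ γ) ∈ maximalIdeal T ^ k := by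
  set u : AlgebraicClosure ℚ ≃ₐ[ℚ] AlgebraicClosure ℚ := γ⁻¹ * g with hu
  have huL : ∀ a ∈ L, u a = a := by
    intro a ha
    rw [hu, AlgEquiv.mul_apply, ← h a ha, ← AlgEquiv.mul_apply, inv_mul_cancel,
      AlgEquiv.one_apply]
  have hg : g = γ * u := by rw [hu, mul_inv_cancel_left]
  have e : LinearMap.det (ρ.ρ g) - LinearMap.det (ρ.ρ γ) =
      LinearMap.det (ρ.ρ γ) * (LinearMap.det (ρ.ρ u) - 1) := by
    rw [hg, map_mul, map_mul, mul_sub, mul_one]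
  rw [e]
  exact Ideal.mul_mem_left _ _ (s59pscd_det_sub_one_mem _ _ (hL u huL))

end Congr

/-! ### The abstract statement -/

section Abs

variable {𝒪 : Type} [CommRing 𝒪] [IsLocalRing 𝒪]

/-- **(Y2), abstract form.**  `Y` a Galois stable submodule killed by `𝔪ᵏ`, on which the action
factors through a finite extension `E`, and on which the Frobenius elements at the primes outside
`S` satisfy the Cayley–Hamilton relation with the trace and the determinant of `ρ`.  Then every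
`g ∈ G_ℚ` satisfies it. -/
theorem s59pscd_CH_abs (ρ : GaloisRepAdic 𝒪) {W : Type*} [AddCommGroup W] [Module 𝒪 W]
    (r : (AlgebraicClosure ℚ ≃ₐ[ℚ] AlgebraicClosure ℚ) →* Module.End 𝒪 W) (S : Finset ℕ)
    (Y : Submodule 𝒪 W)
    (hYG : ∀ (g : AlgebraicClosure ℚ ≃ₐ[ℚ] AlgebraicClosure ℚ), ∀ z ∈ Y, r g z ∈ Y)
    (k : ℕ) (hk : ∀ c ∈ maximalIdeal 𝒪 ^ k, ∀ z ∈ Y, c • z = 0)
    (E : IntermediateField ℚ (AlgebraicClosure ℚ)) (hEfin : FiniteDimensional ℚ E)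
    (hE : ∀ σ : AlgebraicClosure ℚ ≃ₐ[ℚ] AlgebraicClosure ℚ, (∀ a ∈ E, σ a = a) →
      ∀ z ∈ Y, r σ z = z)
    (hfrob : ∀ ℓ : ℕ, ℓ.Prime → ℓ ∉ S →
      ∀ A : ValuationSubring (AlgebraicClosure ℚ), A.LiesOverPrime ℓ →
      ∀ τ : AlgebraicClosure ℚ ≃ₐ[ℚ] AlgebraicClosure ℚ, A.IsFrobeniusAt τ ℓ → ∀ z ∈ Y,
        r τ (r τ z) - LinearMap.trace 𝒪 ρ.V (ρ.ρ τ) • r τ z + LinearMap.det (ρ.ρ τ) • z = 0)
    (g : AlgebraicClosure ℚ ≃ₐ[ℚ] AlgebraicClosure ℚ) (z : W) (hz : z ∈ Y) :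
    r g (r g z) - LinearMap.trace 𝒪 ρ.V (ρ.ρ g) • r g z + LinearMap.det (ρ.ρ g) • z = 0 := by
  classical
  obtain ⟨L, hLfin, hL⟩ := ρ.isAdicContinuous k
  obtain ⟨F, hFfin, hFgal, hEF, hLF, -⟩ := exists_galois_hull E L ⊥
  obtain ⟨ℓ, A, τ, m, hℓ, hℓS, hA, hτ, hgm⟩ := Fermat.Agent.Cheb.exists_frobenius_pow_eq F S g
  -- `g` and `τ ^ m` act in the same way on `Y`
  have hact : ∀ w ∈ Y, r g w = r (τ ^ m) w := by
    intro w hw
    set u : AlgebraicClosure ℚ ≃ₐ[ℚ] AlgebraicClosure ℚ := (τ ^ m)⁻¹ * g with hu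
    have huF : ∀ a ∈ E, u a = a := by
      intro a ha
      rw [hu, AlgEquiv.mul_apply, ← hgm a (hEF ha), ← AlgEquiv.mul_apply, inv_mul_cancel,
        AlgEquiv.one_apply]
    have hg : g = τ ^ m * u := by rw [hu, mul_inv_cancel_left]
    rw [hg, map_mul, Module.End.mul_apply, hE u huF w hw]
  -- the Lucas relation for `τ ^ m` on `Y`
  letI : DistribMulAction (AlgebraicClosure ℚ ≃ₐ[ℚ] AlgebraicClosure ℚ) W :=
    DistribMulAction.compHom W r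
  have hsm : ∀ (σ : AlgebraicClosure ℚ ≃ₐ[ℚ] AlgebraicClosure ℚ) (w : W), σ • w = r σ w :=
    fun _ _ => rfl
  have hluc := lucas_smul (G := AlgebraicClosure ℚ ≃ₐ[ℚ] AlgebraicClosure ℚ) τ
    (LinearMap.trace 𝒪 ρ.V (ρ.ρ τ)) (LinearMap.det (ρ.ρ τ)) (fun w : W => w ∈ Y)
    (fun σ w hw => hYG σ w hw) (fun y hy => hfrob ℓ hℓ hℓS A hA τ hτ y hy)
    (r (τ ^ m) z) (hYG _ _ hz) m
  have hinv : (τ⁻¹) ^ m • r (τ ^ m) z = z := by
    rw [hsm, ← Module.End.mul_apply, ← map_mul, inv_pow, inv_mul_cancel, map_one,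
      Module.End.one_apply]
  rw [hinv, hsm] at hluc
  -- the trace and the determinant of `ρ (τ ^ m)`
  have htr : LinearMap.trace 𝒪 ρ.V (ρ.ρ (τ ^ m)) =
      lucasS (LinearMap.trace 𝒪 ρ.V (ρ.ρ τ)) (LinearMap.det (ρ.ρ τ)) m := by
    rw [map_pow]
    exact trace_pow_eq_lucasS ρ.finrank_eq (ρ.ρ τ) _ _ (s59pscd_charpoly ρ.finrank_eq _) m
  have hdet : LinearMap.det (ρ.ρ (τ ^ m)) = LinearMap.det (ρ.ρ τ) ^ m := by
    rw [map_pow, map_pow]
  -- the congruences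
  have hc1 := trace_congr_of_agree ρ k L hL (τ ^ m) g fun a ha => hgm a (hLF ha)
  have hc2 := s59pscd_det_congr ρ k L hL (τ ^ m) g fun a ha => hgm a (hLF ha)
  rw [htr] at hc1
  rw [hdet] at hc2
  have hgz : r g z ∈ Y := hYG g z hz
  have k1 := hk _ hc1 (r g z) hgz
  have k2 := hk _ hc2 z hz
  rw [sub_smul, sub_eq_zero] at k1 k2
  rw [k1, k2, hact z hz, hact (r (τ ^ m) z) (hYG _ _ hz), ← hluc]
  abel

end Abs

/-! ### The instance `𝒪 ⊗ J[pⁿ]` -/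

section Inst

variable (J : Type) [AddCommGroup J] [Module HeckeAlg J] [DistribMulAction GQ J] (p n : ℕ)
  (𝒪 : Type) [CommRing 𝒪]

/-- base change of endomorphisms of `J[pⁿ]` to `𝒪 ⊗ J[pⁿ]` -/
def s59pscdB : Module.End ℤ ↥(tors J p n) →+* Module.End 𝒪 (𝒪 ⊗[ℤ] ↥(tors J p n)) :=
  (Module.End.baseChangeHom ℤ 𝒪 ↥(tors J p n)).toRingHom

/-- the Galois action on `𝒪 ⊗ J[pⁿ]` -/
def s59pscdG : GQ →* Module.End 𝒪 (𝒪 ⊗[ℤ] ↥(tors J p n)) :=
  (s59pscdB J p n 𝒪 : Module.End ℤ ↥(tors J p n) →* Module.End 𝒪 (𝒪 ⊗[ℤ] ↥(tors J p n))).comp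
    (galEnd J p n)

/-- the Hecke action on `𝒪 ⊗ J[pⁿ]` -/
def s59pscdH : HeckeAlg →+* Module.End 𝒪 (𝒪 ⊗[ℤ] ↥(tors J p n)) :=
  (s59pscdB J p n 𝒪).comp (heckeEnd J p n)

variable {J p n 𝒪}

@[simp] theorem s59pscdB_tmul (f : Module.End ℤ ↥(tors J p n)) (a : 𝒪) (x : ↥(tors J p n)) :
    s59pscdB J p n 𝒪 f (a ⊗ₜ[ℤ] x) = a ⊗ₜ[ℤ] f x := rfl

@[simp] theorem s59pscdG_tmul (g : GQ) (a : 𝒪) (x : ↥(tors J p n)) :
    s59pscdG J p n 𝒪 g (a ⊗ₜ[ℤ] x) = a ⊗ₜ[ℤ] (g • x) := rfl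

@[simp] theorem s59pscdH_tmul (t : HeckeAlg) (a : 𝒪) (x : ↥(tors J p n)) :
    s59pscdH J p n 𝒪 t (a ⊗ₜ[ℤ] x) = a ⊗ₜ[ℤ] (t • x) := rfl

theorem s59pscdG_eq (g : GQ) : s59pscdG J p n 𝒪 g = s59pscdB J p n 𝒪 (galEnd J p n g) := rfl

theorem s59pscdH_eq (t : HeckeAlg) :
    s59pscdH J p n 𝒪 t = s59pscdB J p n 𝒪 (heckeEnd J p n t) := rfl

/-- `pⁿ` kills `𝒪 ⊗ J[pⁿ]` -/
theorem s59pscd_pow_smul (z : 𝒪 ⊗[ℤ] ↥(tors J p n)) : ((p : 𝒪) ^ n) • z = 0 := by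
  induction z using TensorProduct.induction_on with
  | zero => exact smul_zero _
  | tmul a x =>
    have e : ((p : 𝒪) ^ n) * a = (((p ^ n : ℕ) : ℤ)) • a := by
      rw [zsmul_eq_mul, Int.cast_natCast, Nat.cast_pow]
    rw [TensorProduct.smul_tmul', smul_eq_mul, e, TensorProduct.smul_tmul, natCast_zsmul,
      pow_smul_tors, TensorProduct.tmul_zero]
  | add z w hz hw => rw [smul_add, hz, hw, add_zero]

/-- some power of the maximal ideal kills `𝒪 ⊗ J[pⁿ]` (`p ≠ 0` in `𝒪`) -/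
theorem s59pscd_kill [IsDomain 𝒪] [IsDiscreteValuationRing 𝒪] (hp0 : (p : 𝒪) ≠ 0) :
    ∃ k : ℕ, ∀ c ∈ maximalIdeal 𝒪 ^ k, ∀ z : 𝒪 ⊗[ℤ] ↥(tors J p n), c • z = 0 := by
  obtain ⟨ϖ, hϖ⟩ := IsDiscreteValuationRing.exists_irreducible 𝒪
  have hne : Ideal.span {(p : 𝒪) ^ n} ≠ ⊥ := by
    rw [Ne, Ideal.span_singleton_eq_bot]
    exact pow_ne_zero n hp0
  obtain ⟨k, hk⟩ := IsDiscreteValuationRing.ideal_eq_span_pow_irreducible hne hϖ
  refine ⟨k, fun c hc z => ?_⟩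
  rw [hϖ.maximalIdeal_eq, Ideal.span_singleton_pow, ← hk] at hc
  obtain ⟨c', rfl⟩ := Ideal.mem_span_singleton'.mp hc
  rw [mul_smul, s59pscd_pow_smul, smul_zero]

/-- the `𝒪[G]`-span of `y` is Galois stable -/
theorem s59pscd_span_stable (y : 𝒪 ⊗[ℤ] ↥(tors J p n)) (g : GQ)
    (z : 𝒪 ⊗[ℤ] ↥(tors J p n))
    (hz : z ∈ Submodule.span 𝒪 (Set.range fun h : GQ => s59pscdG J p n 𝒪 h y)) :
    s59pscdG J p n 𝒪 g z ∈ Submodule.span 𝒪 (Set.range fun h : GQ => s59pscdG J p n 𝒪 h y) := by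
  induction hz using Submodule.span_induction with
  | mem x hx =>
    obtain ⟨h, rfl⟩ := hx
    refine Submodule.subset_span ⟨g * h, ?_⟩
    show s59pscdG J p n 𝒪 (g * h) y = _
    rw [map_mul, Module.End.mul_apply]
  | zero => rw [map_zero]; exact Submodule.zero_mem _
  | add x w _ _ hx hw => rw [map_add]; exact Submodule.add_mem _ hx hw
  | smul a x _ hx => rw [map_smul]; exact Submodule.smul_mem _ a hx

/-- Galois and Hecke commute on `𝒪 ⊗ J[pⁿ]` -/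
theorem s59pscd_comm {N : ℕ} (hJ : ESDataInf N p J) (g : GQ) (t : HeckeAlg) :
    s59pscdH J p n 𝒪 t * s59pscdG J p n 𝒪 g = s59pscdG J p n 𝒪 g * s59pscdH J p n 𝒪 t := by
  rw [s59pscdG_eq, s59pscdH_eq, ← map_mul, ← map_mul]
  congr 1
  ext x
  simp only [Module.End.mul_apply, heckeEnd_apply, galEnd_apply, coe_smul_tors,
    coe_hecke_smul_tors]
  exact (hJ.smul_comm g t _).symm

/-- an eigenvalue of a Hecke operator on `y` is an eigenvalue on the `𝒪[G]`-span of `y` -/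
theorem s59pscd_span_eig {N : ℕ} (hJ : ESDataInf N p J) (y : 𝒪 ⊗[ℤ] ↥(tors J p n))
    (t : HeckeAlg) (c : 𝒪) (hy : s59pscdH J p n 𝒪 t y = c • y) (z : 𝒪 ⊗[ℤ] ↥(tors J p n))
    (hz : z ∈ Submodule.span 𝒪 (Set.range fun h : GQ => s59pscdG J p n 𝒪 h y)) :
    s59pscdH J p n 𝒪 t z = c • z := by
  induction hz using Submodule.span_induction with
  | mem x hx =>
    obtain ⟨h, rfl⟩ := hx
    show s59pscdH J p n 𝒪 t (s59pscdG J p n 𝒪 h y) = c • s59pscdG J p n 𝒪 h y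
    rw [← Module.End.mul_apply, s59pscd_comm hJ, Module.End.mul_apply, hy, map_smul]
  | zero => rw [map_zero, smul_zero]
  | add x w _ _ hx hw => rw [map_add, hx, hw, smul_add]
  | smul a x _ hx => rw [map_smul, hx, smul_comm]

/-- the Eichler–Shimura relation on `𝒪 ⊗ J[pⁿ]` -/
theorem s59pscd_frob {N : ℕ} (hJ : ESDataInf N p J) {ℓ : ℕ} (hℓ : ℓ.Prime) (hℓNp : ¬ ℓ ∣ N * p)
    (A : ValuationSubring (AlgebraicClosure ℚ)) (hA : A.LiesOverPrime ℓ) (τ : GQ)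
    (hτ : A.IsFrobeniusAt τ ℓ) (z : 𝒪 ⊗[ℤ] ↥(tors J p n)) :
    s59pscdG J p n 𝒪 τ (s59pscdG J p n 𝒪 τ z)
      - s59pscdH J p n 𝒪 (heckeGen ⟨ℓ, hℓ⟩) (s59pscdG J p n 𝒪 τ z) + (ℓ : 𝒪) • z = 0 := by
  have h0 : galEnd J p n τ * galEnd J p n τ - heckeEnd J p n (heckeGen ⟨ℓ, hℓ⟩) * galEnd J p n τ
      + (ℓ : Module.End ℤ ↥(tors J p n)) = 0 := by
    ext x
    have := hJ.frob ℓ hℓ hℓNp A hA τ hτ (x : J) ⟨n, x.2⟩
    simp only [LinearMap.add_apply, LinearMap.sub_apply, Module.End.mul_apply, galEnd_apply,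
      heckeEnd_apply, Module.End.natCast_apply, LinearMap.zero_apply, Submodule.coe_add,
      Submodule.coe_sub, coe_smul_tors, Submodule.coe_smul_of_tower,
      ZeroMemClass.coe_zero]
    exact this
  have h1 := congrArg (fun f => s59pscdB J p n 𝒪 f z) h0
  simp only [map_add, map_sub, map_mul, map_natCast, map_zero, LinearMap.add_apply,
    LinearMap.sub_apply, Module.End.mul_apply, LinearMap.zero_apply,
    Module.End.natCast_apply] at h1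
  rw [Nat.cast_smul_eq_nsmul 𝒪]
  exact h1

end Inst

/-! ### (Y2) for the span of a Hecke eigenvector -/

section Main

variable {A B : Type} [CommRing A] [IsLocalRing A] [CommRing B] [IsLocalRing B]

/-- determinants commute with base change -/
theorem s59pscd_det_bc (φ : A →+* B) (hφ : IsLocalHom φ) (ρ : GaloisRepAdic A) (σ : GQ) :
    LinearMap.det ((ρ.baseChangeAlong φ hφ).ρ σ) = φ (LinearMap.det (ρ.ρ σ)) := by
  letI : Algebra A B := φ.toAlgebra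
  exact LinearMap.det_baseChange (ρ.ρ σ)

/-- traces commute with base change -/
theorem s59pscd_trace_bc (φ : A →+* B) (hφ : IsLocalHom φ) (ρ : GaloisRepAdic A) (σ : GQ) :
    LinearMap.trace B (ρ.baseChangeAlong φ hφ).V ((ρ.baseChangeAlong φ hφ).ρ σ) =
      φ (LinearMap.trace A ρ.V (ρ.ρ σ)) := by
  letI : Algebra A B := φ.toAlgebra
  exact LinearMap.trace_baseChange (ρ.ρ σ) B

variable {p : ℕ} {N : ℕ} [NeZero N] {S : Finset ℕ}
  {𝒪 : Type} [CommRing 𝒪] [IsDomain 𝒪] [IsDiscreteValuationRing 𝒪]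
  [IsAdicComplete (IsLocalRing.maximalIdeal 𝒪) 𝒪]
  {θ : CuspForm.heckeAlgebra N 2 (↑S : Set ℕ) →+* IsLocalRing.ResidueField 𝒪}
  {T : Type} [CommRing T] [IsLocalRing T] [IsNoetherianRing T]
  [IsAdicComplete (IsLocalRing.maximalIdeal T) T] [Algebra 𝒪 T] [IsLocalHom (algebraMap 𝒪 T)]
  [Module.Finite 𝒪 T] [Module.Free 𝒪 T]
  {J : Type} [AddCommGroup J] [Module HeckeAlg J] [DistribMulAction GQ J]

/-- the trace and the determinant of `ρ_π` at a Frobenius element outside `S` -/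
theorem s59pscd_frob_tr_det (H : CuspForm.HeckeGaloisRepDatum N (↑S : Set ℕ) 𝒪 θ T)
    (πT : T →+* 𝒪) (hπ : IsLocalHom πT) {ℓ : ℕ} (hℓ : ℓ.Prime) (hℓN : ¬ ℓ ∣ N)
    (hℓS : ℓ ∉ (↑S : Set ℕ)) (A : ValuationSubring (AlgebraicClosure ℚ))
    (hA : A.LiesOverPrime ℓ) (τ : GQ) (hτ : A.IsFrobeniusAt τ ℓ) :
    LinearMap.trace 𝒪 (H.ρ.baseChangeAlong πT hπ).V ((H.ρ.baseChangeAlong πT hπ).ρ τ) =
        πT (H.π (CuspForm.heckeAlgebra.T hℓ hℓN hℓS)) ∧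
      LinearMap.det ((H.ρ.baseChangeAlong πT hπ).ρ τ) = (ℓ : 𝒪) := by
  have h1 := H.charpoly_frob ℓ hℓ hℓN hℓS A hA τ hτ
  rw [s59pscd_charpoly H.ρ.finrank_eq] at h1
  obtain ⟨e1, e2⟩ := s59pscd_coeffs h1
  rw [s59pscd_trace_bc, s59pscd_det_bc, e1, e2, map_natCast]
  exact ⟨rfl, rfl⟩

/-- **(Y2): Cayley–Hamilton on the `𝒪[G]`-span of a Hecke eigenvector** `y ∈ 𝒪 ⊗ J[pⁿ]` with the
eigenvalues of `πT ∘ H.π`: every `g ∈ G_ℚ` satisfies
`g² − tr ρ_π(g) · g + det ρ_π(g) = 0` on `Y = 𝒪[G] y`, `ρ_π = H.ρ ⊗_{πT} 𝒪`. -/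
theorem s59pscd_CH (hJ : ESDataInf N p J) (hp : p.Prime) (hp0 : (p : 𝒪) ≠ 0) (hpS : p ∈ S)
    (hNS : ∀ q : ℕ, q.Prime → q ∣ N → q ∈ S)
    (H : CuspForm.HeckeGaloisRepDatum N (↑S : Set ℕ) 𝒪 θ T)
    (πT : T →+* 𝒪) (hπ : IsLocalHom πT) (n : ℕ) (y : 𝒪 ⊗[ℤ] ↥(tors J p n))
    (hy : ∀ (ℓ : ℕ) (hℓ : ℓ.Prime) (hℓN : ¬ ℓ ∣ N) (hℓS : ℓ ∉ (↑S : Set ℕ)),
      s59pscdH J p n 𝒪 (heckeGen ⟨ℓ, hℓ⟩) y =
        πT (H.π (CuspForm.heckeAlgebra.T hℓ hℓN hℓS)) • y)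
    (g : GQ) (z : 𝒪 ⊗[ℤ] ↥(tors J p n))
    (hz : z ∈ Submodule.span 𝒪 (Set.range fun h : GQ => s59pscdG J p n 𝒪 h y)) :
    s59pscdG J p n 𝒪 g (s59pscdG J p n 𝒪 g z)
      - LinearMap.trace 𝒪 (H.ρ.baseChangeAlong πT hπ).V ((H.ρ.baseChangeAlong πT hπ).ρ g) •
          s59pscdG J p n 𝒪 g z
      + LinearMap.det ((H.ρ.baseChangeAlong πT hπ).ρ g) • z = 0 := by
  classical
  obtain ⟨k, hk⟩ := s59pscd_kill (J := J) (n := n) hp0
  obtain ⟨E, hEfin, hE⟩ := exists_common_field hJ n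
  refine s59pscd_CH_abs (H.ρ.baseChangeAlong πT hπ) (s59pscdG J p n 𝒪) S
    (Submodule.span 𝒪 (Set.range fun h : GQ => s59pscdG J p n 𝒪 h y))
    (fun g z hz => s59pscd_span_stable y g z hz) k (fun c hc z _ => hk c hc z) E hEfin
    ?_ ?_ g z hz
  · intro σ hσ w _
    have h1 : galEnd J p n σ = 1 := by
      ext x
      rw [galEnd_apply, coe_smul_tors, Module.End.one_apply]
      exact hE σ hσ (x : J) x.2
    rw [s59pscdG_eq, h1, map_one, Module.End.one_apply]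
  · intro ℓ hℓ hℓS A hA τ hτ w hw
    have hℓN : ¬ ℓ ∣ N := fun h => hℓS (hNS ℓ hℓ h)
    have hℓS' : ℓ ∉ (↑S : Set ℕ) := hℓS
    have hℓNp : ¬ ℓ ∣ N * p := by
      intro h
      rcases (Nat.Prime.dvd_mul hℓ).mp h with h | h
      · exact hℓN h
      · have : ℓ = p := (Nat.prime_dvd_prime_iff_eq hℓ hp).mp h
        exact hℓS (this ▸ hpS)
    obtain ⟨e1, e2⟩ := s59pscd_frob_tr_det H πT hπ hℓ hℓN hℓS' A hA τ hτ
    rw [e1, e2, ← s59pscd_span_eig hJ y (heckeGen ⟨ℓ, hℓ⟩) _ (hy ℓ hℓ hℓN hℓS') _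
      (s59pscd_span_stable y τ w hw)]
    exact s59pscd_frob hJ hℓ hℓNp A hA τ hτ w

/-- the restriction of a representation to a stable submodule -/
def s59pscdRes {R : Type*} [CommRing R] {W : Type*} [AddCommGroup W] [Module R W]
    (r : GQ →* Module.End R W) (Y : Submodule R W) (hY : ∀ (g : GQ), ∀ z ∈ Y, r g z ∈ Y) :
    GQ →* Module.End R ↥Y where
  toFun g := (r g).restrict (hY g)
  map_one' := by
    ext z
    rw [LinearMap.coe_restrict_apply, map_one, Module.End.one_apply, Module.End.one_apply]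
  map_mul' g h := by
    ext z
    rw [LinearMap.coe_restrict_apply, map_mul, Module.End.mul_apply, Module.End.mul_apply,
      LinearMap.coe_restrict_apply, LinearMap.coe_restrict_apply]

@[simp] theorem s59pscdRes_coe {R : Type*} [CommRing R] {W : Type*} [AddCommGroup W]
    [Module R W] (r : GQ →* Module.End R W) (Y : Submodule R W)
    (hY : ∀ (g : GQ), ∀ z ∈ Y, r g z ∈ Y) (g : GQ) (z : ↥Y) :
    ((s59pscdRes r Y hY g z : ↥Y) : W) = r g (z : W) := rfl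

/-- the `𝒪[G]`-span of `y ∈ 𝒪 ⊗ J[pⁿ]` -/
def s59pscdY (J : Type) [AddCommGroup J] [Module HeckeAlg J] [DistribMulAction GQ J] (p n : ℕ)
    (𝒪 : Type) [CommRing 𝒪] (y : 𝒪 ⊗[ℤ] ↥(tors J p n)) : Submodule 𝒪 (𝒪 ⊗[ℤ] ↥(tors J p n)) :=
  Submodule.span 𝒪 (Set.range fun h : GQ => s59pscdG J p n 𝒪 h y)

theorem s59pscd_self_mem (n : ℕ) (y : 𝒪 ⊗[ℤ] ↥(tors J p n)) : y ∈ s59pscdY J p n 𝒪 y := by
  refine Submodule.subset_span ⟨1, ?_⟩
  show s59pscdG J p n 𝒪 1 y = y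
  rw [map_one, Module.End.one_apply]

/-- the Galois action on the `𝒪[G]`-span of `y` -/
def s59pscdR (J : Type) [AddCommGroup J] [Module HeckeAlg J] [DistribMulAction GQ J] (p n : ℕ)
    (𝒪 : Type) [CommRing 𝒪] (y : 𝒪 ⊗[ℤ] ↥(tors J p n)) :
    GQ →* Module.End 𝒪 ↥(s59pscdY J p n 𝒪 y) :=
  s59pscdRes (s59pscdG J p n 𝒪) (s59pscdY J p n 𝒪 y) (fun g z hz => s59pscd_span_stable y g z hz)

/-- **(Y2), operator form** (the shape of the clause (CH) of `s59pslfFin`, helper5): on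
`Y = 𝒪[G] y` with `r = s59pscdR`:  `r g * r g − tr ρ_π(g) • r g + det ρ_π(g) • 1 = 0`. -/
theorem s59pscd_CH_op (hJ : ESDataInf N p J) (hp : p.Prime) (hp0 : (p : 𝒪) ≠ 0) (hpS : p ∈ S)
    (hNS : ∀ q : ℕ, q.Prime → q ∣ N → q ∈ S)
    (H : CuspForm.HeckeGaloisRepDatum N (↑S : Set ℕ) 𝒪 θ T)
    (πT : T →+* 𝒪) (hπ : IsLocalHom πT) (n : ℕ) (y : 𝒪 ⊗[ℤ] ↥(tors J p n))
    (hy : ∀ (ℓ : ℕ) (hℓ : ℓ.Prime) (hℓN : ¬ ℓ ∣ N) (hℓS : ℓ ∉ (↑S : Set ℕ)),
      s59pscdH J p n 𝒪 (heckeGen ⟨ℓ, hℓ⟩) y =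
        πT (H.π (CuspForm.heckeAlgebra.T hℓ hℓN hℓS)) • y)
    (g : GQ) :
    s59pscdR J p n 𝒪 y g * s59pscdR J p n 𝒪 y g
      - LinearMap.trace 𝒪 (H.ρ.baseChangeAlong πT hπ).V ((H.ρ.baseChangeAlong πT hπ).ρ g) •
          s59pscdR J p n 𝒪 y g
      + LinearMap.det ((H.ρ.baseChangeAlong πT hπ).ρ g) • (1 : Module.End 𝒪 ↥(s59pscdY J p n 𝒪 y))
      = 0 := by
  ext z
  have h := s59pscd_CH hJ hp hp0 hpS hNS H πT hπ n y hy g (z : 𝒪 ⊗[ℤ] ↥(tors J p n)) z.2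
  simp only [LinearMap.add_apply, LinearMap.sub_apply, Module.End.mul_apply,
    LinearMap.smul_apply, Module.End.one_apply, LinearMap.zero_apply, Submodule.coe_add,
    Submodule.coe_sub, Submodule.coe_smul, ZeroMemClass.coe_zero]
  exact h

/-- (BIG) for the span: an element of `𝒪` which kills `Y = 𝒪[G] y` kills `y`. -/
theorem s59pscd_big_of (n : ℕ) (y : 𝒪 ⊗[ℤ] ↥(tors J p n)) (I : Ideal 𝒪)
    (hI : ∀ c : 𝒪, c • y = 0 → c ∈ I) (c : 𝒪)
    (hc : ∀ z : ↥(s59pscdY J p n 𝒪 y), c • z = 0) : c ∈ I := by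
  apply hI
  have := congrArg (fun w : ↥(s59pscdY J p n 𝒪 y) => (w : 𝒪 ⊗[ℤ] ↥(tors J p n)))
    (hc ⟨y, s59pscd_self_mem n y⟩)
  exact this

end Main

end Fermat.Agent.S59
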