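/-
S59, wall M5 = P-STEP, leaf LG-P, finite-level trace-only route (helper5, NOTES/S59-M5.md),
piece (Y1) EIGENVECTOR, part 1 (helper16): the lattice inside the torsion of the Jacobian.

For every level `N`, every `p > 0` and every `k` there is an additive map

  `s59psleIota N p k : Hom_par(Γ₀(N), ℤ) → J₀(N)(ℚ̄)[p^k]`      (`φ ↦` the point with multiplier `e(φ / p^k)`)

* with kernel `p^k · Hom_par` (`s59psleIota_eq_zero_iff`),
* which commutes with `T_ℓ` for EVERY prime `ℓ ∤ N` — `ℓ = p` included — (`s59psleIota_hecke`):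
  `T_ℓ (ι φ) = ι (T_ℓ φ)`, `T_ℓ` = `heckeOperatorBar N ℓ` on the Jacobian, `s59bcTcZ N ℓ` on the lattice.

Inputs (all on main, proved): the multiplier relation `ES.MuRel` with `muExists`, `muUnique`,
`muAdd`, `muInj`, `muHecke` (stated for an AUXILIARY `p`, here `1`, so that every `ℓ ∤ N` is good)
and `muSurj`.
-/
import Fermat.Agent.ES.TorsionUnifFinal
import Fermat.Agent.ES.MuSurjGlue
import Fermat.Agent.S59.Eta.BCLin

set_option autoImplicit false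
set_option linter.unusedSectionVars false
set_option linter.unusedVariables false
set_option linter.style.longLine false
set_option linter.style.haveILetI false

noncomputable section

namespace Fermat.Agent.S59

open Fermat.Agent.ES Fermat.Agent.S41 CongruenceSubgroup ModularCurve ModularCurve.Period
open scoped MatrixGroups

variable (N : ℕ) [NeZero N]

/-! ### The multiplier map on the `m`-torsion -/

theorem s59psle_mu_rel {m : ℕ} (hm : 0 < m) {x : JZero N} (hx : m • x = 0) :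
    MuRel N m x (muMap N x) :=
  muRel_muMap (muExists N) muUnique hm hx

theorem s59psle_mu_add {m : ℕ} (hm : 0 < m) {x y : JZero N} (hx : m • x = 0) (hy : m • y = 0) :
    muMap N (x + y) = muMap N x + muMap N y :=
  muMap_eq muUnique hm (muAdd m hm x y _ _ (s59psle_mu_rel N hm hx) (s59psle_mu_rel N hm hy))

theorem s59psle_mu_zero : muMap N (0 : JZero N) = 0 := by
  have h := s59psle_mu_add N one_pos (x := (0 : JZero N)) (y := 0) (smul_zero _) (smul_zero _)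
  rw [add_zero] at h
  refine DFunLike.ext _ _ fun γ => ?_
  have h1 := DFunLike.congr_fun h γ
  rw [AddMonoidHom.add_apply] at h1
  rw [AddMonoidHom.zero_apply]
  exact left_eq_add.mp h1

theorem s59psle_mu_inj {m : ℕ} (hm : 0 < m) {x : JZero N} (hx : m • x = 0)
    (h : muMap N x = 0) : x = 0 := by
  have h1 := s59psle_mu_rel N hm hx
  rw [h] at h1
  exact muInj N m hm x h1

theorem s59psle_mu_eq_of_eq {m : ℕ} (hm : 0 < m) {x y : JZero N} (hx : m • x = 0)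
    (hy : m • y = 0) (h : muMap N x = muMap N y) : x = y := by
  have hj : m • ((m - 1) • y) = 0 := by rw [smul_comm, hy, smul_zero]
  have h3 : y + (m - 1) • y = 0 := by
    rw [← succ_nsmul', Nat.sub_add_cancel hm, hy]
  have e1 := s59psle_mu_add N hm hy hj
  rw [h3, s59psle_mu_zero] at e1
  have h1 : muMap N (x + (m - 1) • y) = 0 := by
    rw [s59psle_mu_add N hm hx hj, h]
    exact e1.symm
  have h2 : x + (m - 1) • y = 0 :=
    s59psle_mu_inj N hm (by rw [nsmul_add, hx, hj, add_zero]) h1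
  have h4 : x = -((m - 1) • y) := eq_neg_of_add_eq_zero_left h2
  have h5 : y = -((m - 1) • y) := eq_neg_of_add_eq_zero_left h3
  rw [h4, ← h5]

/-- `μ` commutes with `T_ℓ` for every prime `ℓ ∤ N` (on all torsion points) -/
theorem s59psle_mu_hecke (ℓ : ℕ) [hℓp : Fact ℓ.Prime] (hℓ : ¬ ℓ ∣ N) {m : ℕ} (hm : 0 < m)
    {x : JZero N} (hx : m • x = 0) :
    muMap N (heckeOperatorBar N ⟨ℓ, hℓp.out⟩ x) = Tc ℓ hℓ (muMap N x) := by
  have hg : (⟨ℓ, hℓp.out⟩ : Nat.Primes) ∈ goodPrimes N 1 := by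
    show ¬ ℓ ∣ N * 1
    rwa [mul_one]
  exact muMap_eq muUnique hm
    (muHecke N 1 ⟨⟨ℓ, hℓp.out⟩, hg⟩ m hm x _ (s59psle_mu_rel N hm hx))

/-! ### The lattice map `ι` -/

theorem s59psle_mem_tors {p k : ℕ} {x : JZero N} :
    x ∈ Submodule.torsionBy ℤ (JZero N) ((p : ℤ) ^ k) ↔ p ^ k • x = 0 := by
  rw [Submodule.mem_torsionBy_iff, ← Nat.cast_pow, natCast_zsmul]

theorem s59psle_expChar_add (n : ℕ) (φ ψ : HomG N ℤ) :
    expChar N n (φ + ψ) = expChar N n φ + expChar N n ψ := by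
  refine DFunLike.ext _ _ fun γ => ?_
  rw [AddMonoidHom.add_apply, expChar_apply, expChar_apply, expChar_apply,
    AddMonoidHom.add_apply, map_add]

theorem s59psle_exists (p k : ℕ) (hp : 0 < p) (φ : ↥(Lpar N)) :
    ∃ x : JZero N, p ^ k • x = 0 ∧ muMap N x = expChar N (p ^ k) φ.1 := by
  obtain ⟨x, hx, hrel⟩ := Sur.muSurj N φ.1 φ.2 (p ^ k) (pow_pos hp k)
  exact ⟨x, hx, muMap_eq muUnique (pow_pos hp k) hrel⟩

/-- the point with multiplier `e(φ / p^k)` -/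
def s59psleFun (p k : ℕ) (hp : 0 < p) (φ : ↥(Lpar N)) :
    ↥(Submodule.torsionBy ℤ (JZero N) ((p : ℤ) ^ k)) :=
  ⟨(s59psle_exists N p k hp φ).choose,
    (s59psle_mem_tors N).mpr (s59psle_exists N p k hp φ).choose_spec.1⟩

theorem s59psleFun_smul (p k : ℕ) (hp : 0 < p) (φ : ↥(Lpar N)) :
    p ^ k • (s59psleFun N p k hp φ : JZero N) = 0 :=
  (s59psle_exists N p k hp φ).choose_spec.1

theorem s59psleFun_mu (p k : ℕ) (hp : 0 < p) (φ : ↥(Lpar N)) :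
    muMap N (s59psleFun N p k hp φ : JZero N) = expChar N (p ^ k) φ.1 :=
  (s59psle_exists N p k hp φ).choose_spec.2

/-- a point of `J[p^k]` is determined by its multiplier -/
theorem s59psle_ext {p k : ℕ} (hp : 0 < p)
    {x y : ↥(Submodule.torsionBy ℤ (JZero N) ((p : ℤ) ^ k))}
    (h : muMap N (x : JZero N) = muMap N (y : JZero N)) : x = y :=
  Subtype.ext (s59psle_mu_eq_of_eq N (pow_pos hp k) ((s59psle_mem_tors N).mp x.2)
    ((s59psle_mem_tors N).mp y.2) h)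

/-- **the lattice map** `ι : Hom_par(Γ₀(N), ℤ) → J₀(N)[p^k]` -/
def s59psleIota (p k : ℕ) (hp : 0 < p) :
    ↥(Lpar N) →ₗ[ℤ] ↥(Submodule.torsionBy ℤ (JZero N) ((p : ℤ) ^ k)) :=
  (AddMonoidHom.mk' (s59psleFun N p k hp) (fun φ ψ => by
    refine s59psle_ext N hp ?_
    rw [Submodule.coe_add, s59psle_mu_add N (pow_pos hp k) (s59psleFun_smul N p k hp φ)
      (s59psleFun_smul N p k hp ψ), s59psleFun_mu, s59psleFun_mu, s59psleFun_mu]
    exact s59psle_expChar_add N _ _ _)).toIntLinearMap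

theorem s59psleIota_mu (p k : ℕ) (hp : 0 < p) (φ : ↥(Lpar N)) :
    muMap N (s59psleIota N p k hp φ : JZero N) = expChar N (p ^ k) φ.1 :=
  s59psleFun_mu N p k hp φ

theorem s59psleIota_smul (p k : ℕ) (hp : 0 < p) (φ : ↥(Lpar N)) :
    p ^ k • (s59psleIota N p k hp φ : JZero N) = 0 :=
  s59psleFun_smul N p k hp φ

/-- division of a parabolic homomorphism with values in `n ℤ` -/
theorem s59psle_exists_div {n : ℕ} (hn : n ≠ 0) (φ : ↥(Lpar N))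
    (h : ∀ γ, (n : ℤ) ∣ φ.1 γ) : ∃ ψ : ↥(Lpar N), φ = n • ψ := by
  have hn' : (n : ℤ) ≠ 0 := Nat.cast_ne_zero.mpr hn
  choose f hf using h
  have hadd : ∀ a b, f (a + b) = f a + f b := by
    intro a b
    apply mul_left_cancel₀ hn'
    rw [mul_add, ← hf, ← hf, ← hf, map_add]
  let ψ₀ : HomG N ℤ := AddMonoidHom.mk' f hadd
  have hψ : ψ₀ ∈ Lpar N := by
    intro γ hγ
    have h0 : φ.1 (Additive.ofMul γ) = 0 := φ.2 γ hγ
    have h1 := hf (Additive.ofMul γ)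
    rw [h0] at h1
    rcases mul_eq_zero.mp h1.symm with h2 | h2
    · exact absurd h2 hn'
    · exact h2
  refine ⟨⟨ψ₀, hψ⟩, Subtype.ext (DFunLike.ext _ _ fun γ => ?_)⟩
  rw [AddSubgroup.coe_nsmul, AddMonoidHom.nsmul_apply, hf γ, nsmul_eq_mul]
  rfl

/-- **the kernel of `ι` is `p^k · Hom_par`** -/
theorem s59psleIota_eq_zero_iff (p k : ℕ) (hp : 0 < p) (φ : ↥(Lpar N)) :
    s59psleIota N p k hp φ = 0 ↔ ∃ ψ : ↥(Lpar N), φ = p ^ k • ψ := by
  constructor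
  · intro h
    have h1 := s59psleIota_mu N p k hp φ
    rw [h, ZeroMemClass.coe_zero, s59psle_mu_zero] at h1
    exact s59psle_exists_div N (pow_pos hp k).ne' φ
      ((expChar_eq_zero_iff (pow_pos hp k).ne' φ.1).mp h1.symm)
  · rintro ⟨ψ, rfl⟩
    rw [map_nsmul]
    apply Subtype.ext
    rw [Submodule.coe_smul_of_tower, ZeroMemClass.coe_zero]
    exact s59psleIota_smul N p k hp ψ

/-! ### Hecke operators -/

/-- `T_ℓ` on `J₀(N)[p^k]` -/
def s59psleT (p k : ℕ) (ℓ : Nat.Primes) :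
    Module.End ℤ ↥(Submodule.torsionBy ℤ (JZero N) ((p : ℤ) ^ k)) :=
  (heckeOperatorBar N ℓ).restrict (fun x hx => by
    rw [Submodule.mem_torsionBy_iff] at hx ⊢
    rw [← map_zsmul, hx, map_zero])

@[simp]
theorem s59psleT_coe (p k : ℕ) (ℓ : Nat.Primes)
    (x : ↥(Submodule.torsionBy ℤ (JZero N) ((p : ℤ) ^ k))) :
    ((s59psleT N p k ℓ x : ↥(Submodule.torsionBy ℤ (JZero N) ((p : ℤ) ^ k))) : JZero N) =
      heckeOperatorBar N ℓ (x : JZero N) := rfl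

/-- **`ι` commutes with `T_ℓ` for every prime `ℓ ∤ N`** (`ℓ = p` included) -/
theorem s59psleIota_hecke (p k : ℕ) (hp : 0 < p) (ℓ : ℕ) [hℓp : Fact ℓ.Prime] (hℓ : ¬ ℓ ∣ N)
    (φ : ↥(Lpar N)) :
    s59psleT N p k ⟨ℓ, hℓp.out⟩ (s59psleIota N p k hp φ) =
      s59psleIota N p k hp (s59bcTcZ N ℓ hℓ φ) := by
  refine s59psle_ext N hp ?_
  rw [s59psleT_coe, s59psle_mu_hecke N ℓ hℓ (pow_pos hp k) (s59psleIota_smul N p k hp φ),
    s59psleIota_mu, s59psleIota_mu, s59bcTcZ_coe]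
  exact Fermat.Agent.ES.HeckeP.heckeHom_comp hℓ (expHom (p ^ k)) φ.1

theorem s59psleIota_hecke_comp (p k : ℕ) (hp : 0 < p) (ℓ : ℕ) [hℓp : Fact ℓ.Prime]
    (hℓ : ¬ ℓ ∣ N) :
    (s59psleT N p k ⟨ℓ, hℓp.out⟩).comp (s59psleIota N p k hp) =
      (s59psleIota N p k hp).comp (s59bcTcZ N ℓ hℓ) :=
  LinearMap.ext fun φ => s59psleIota_hecke N p k hp ℓ hℓ φ

/-! ### Base change to a coefficient ring `𝒪` -/

section Tensor

open TensorProduct IsLocalRing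

/-- a domain of characteristic `0` is flat over `ℤ` -/
theorem s59psle_flat (𝒪 : Type*) [CommRing 𝒪] [IsDomain 𝒪] [CharZero 𝒪] : Module.Flat ℤ 𝒪 := by
  rw [Module.Flat.flat_iff_torsion_eq_bot_of_isBezout, eq_bot_iff]
  intro x hx
  rw [Submodule.mem_torsion_iff] at hx
  obtain ⟨a, ha⟩ := hx
  have ha0 : (a : ℤ) ≠ 0 := nonZeroDivisors.coe_ne_zero a
  have h1 : ((a : ℤ) : 𝒪) * x = 0 := by
    rw [← zsmul_eq_mul]
    exact ha
  rcases mul_eq_zero.mp h1 with h2 | h2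
  · exact absurd (Int.cast_eq_zero.mp h2) ha0
  · exact h2

/-- **the kernel of `𝒪 ⊗ ι`** for a flat `𝒪`: if `ker ι = n Λ`, then `ker (𝒪 ⊗ ι) = n (𝒪 ⊗ Λ)` -/
theorem s59psle_ker_baseChange (𝒪 : Type*) [CommRing 𝒪] [Module.Flat ℤ 𝒪]
    {Λ A : Type*} [AddCommGroup Λ] [AddCommGroup A] (ι : Λ →ₗ[ℤ] A) (n : ℕ)
    (hker : ∀ φ, ι φ = 0 ↔ ∃ ψ, φ = n • ψ) (z : 𝒪 ⊗[ℤ] Λ) :
    ι.baseChange 𝒪 z = 0 ↔ ∃ w : 𝒪 ⊗[ℤ] Λ, z = n • w := by
  have hex : Function.Exact ((n : ℤ) • (LinearMap.id : Λ →ₗ[ℤ] Λ)) ι := by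
    intro φ
    rw [hker φ]
    constructor
    · rintro ⟨ψ, rfl⟩
      exact ⟨ψ, by rw [LinearMap.smul_apply, LinearMap.id_apply, natCast_zsmul]⟩
    · rintro ⟨ψ, rfl⟩
      exact ⟨ψ, by rw [LinearMap.smul_apply, LinearMap.id_apply, natCast_zsmul]⟩
  have h := Module.Flat.lTensor_exact 𝒪 hex z
  rw [LinearMap.lTensor_smul, LinearMap.lTensor_id] at h
  have e : ι.baseChange 𝒪 z = ι.lTensor 𝒪 z := by
    rw [← LinearMap.baseChange_eq_ltensor]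
  rw [e, h]
  constructor
  · rintro ⟨w, rfl⟩
    exact ⟨w, by rw [LinearMap.smul_apply, LinearMap.id_apply, natCast_zsmul]⟩
  · rintro ⟨w, rfl⟩
    exact ⟨w, by rw [LinearMap.smul_apply, LinearMap.id_apply, natCast_zsmul]⟩

/-- **annihilators over a discrete valuation ring**: in a finite torsion-free module `F`, for
`x ≠ 0` and `p ∈ 𝔪`: if `c • x ∈ p^k F` with `k` large, then `c ∈ 𝔪^m`. -/
theorem s59psle_ann_bound {𝒪 : Type*} [CommRing 𝒪] [IsDomain 𝒪] [IsDiscreteValuationRing 𝒪]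
    {F : Type*} [AddCommGroup F] [Module 𝒪 F] [Module.Finite 𝒪 F] [Module.IsTorsionFree 𝒪 F]
    {p : ℕ} (hp : (p : 𝒪) ∈ maximalIdeal 𝒪) {x : F} (hx : x ≠ 0) (m : ℕ) :
    ∃ k₀ : ℕ, ∀ k, k₀ ≤ k → ∀ c : 𝒪, (∃ w : F, c • x = p ^ k • w) → c ∈ maximalIdeal 𝒪 ^ m := by
  obtain ⟨ϖ, hϖ⟩ := IsDiscreteValuationRing.exists_irreducible 𝒪
  have hm𝒪 : maximalIdeal 𝒪 = Ideal.span {ϖ} := hϖ.maximalIdeal_eq
  -- Krull
  have hj : ∃ j₀ : ℕ, x ∉ (maximalIdeal 𝒪 ^ j₀ • ⊤ : Submodule 𝒪 F) := by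
    by_contra hcon
    have hcon' : ∀ j₀ : ℕ, x ∈ (maximalIdeal 𝒪 ^ j₀ • ⊤ : Submodule 𝒪 F) := fun j₀ =>
      by_contra fun h => hcon ⟨j₀, h⟩
    have h1 : x ∈ (⨅ i : ℕ, maximalIdeal 𝒪 ^ i • ⊤ : Submodule 𝒪 F) :=
      (Submodule.mem_iInf _).mpr hcon'
    rw [Ideal.iInf_pow_smul_eq_bot_of_isLocalRing (maximalIdeal 𝒪)
      (Ideal.IsPrime.ne_top inferInstance)] at h1
    exact hx ((Submodule.mem_bot 𝒪).mp h1)
  obtain ⟨j₀, hj₀⟩ := hj
  obtain ⟨t, ht⟩ : ∃ t : 𝒪, (p : 𝒪) = ϖ * t := by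
    rw [hm𝒪, Ideal.mem_span_singleton] at hp
    exact hp
  refine ⟨m + j₀, fun k hk c ⟨w, hw⟩ => ?_⟩
  by_contra hc
  have hc0 : c ≠ 0 := fun h => hc (h ▸ Ideal.zero_mem _)
  obtain ⟨s, u, hcu⟩ := IsDiscreteValuationRing.eq_unit_mul_pow_irreducible hc0 hϖ
  have hsm : s < m := by
    by_contra hsm
    have hsm : m ≤ s := Nat.le_of_not_lt hsm
    apply hc
    rw [hcu, hm𝒪, Ideal.span_singleton_pow, Ideal.mem_span_singleton]
    exact Dvd.dvd.mul_left (pow_dvd_pow ϖ hsm) _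
  have hks : s + j₀ ≤ k := by omega
  obtain ⟨d, hd⟩ := Nat.exists_eq_add_of_le hks
  have hϖs : ϖ ^ s ≠ 0 := pow_ne_zero s hϖ.ne_zero
  have h1 : ϖ ^ s • ((u : 𝒪) • x - (ϖ ^ (j₀ + d) * t ^ k) • w) = 0 := by
    have e1 : (p ^ k : ℕ) • w = ((p : 𝒪) ^ k) • w := by
      rw [← Nat.cast_pow, Nat.cast_smul_eq_nsmul]
    rw [e1, ht, hcu] at hw
    rw [smul_sub, smul_smul, smul_smul, mul_comm (ϖ ^ s) (u : 𝒪), hw, sub_eq_zero]
    congr 1
    rw [hd, mul_pow]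
    ring
  have h2 : (u : 𝒪) • x = (ϖ ^ (j₀ + d) * t ^ k) • w :=
    sub_eq_zero.mp ((smul_eq_zero_iff_right hϖs).mp h1)
  apply hj₀
  have h3 : x = (ϖ ^ j₀) • (((u⁻¹ : 𝒪ˣ) : 𝒪) • (ϖ ^ d * t ^ k) • w) := by
    have : x = ((u⁻¹ : 𝒪ˣ) : 𝒪) • ((u : 𝒪) • x) := by
      rw [smul_smul, Units.inv_mul, one_smul]
    rw [this, h2, smul_smul, smul_smul, smul_smul]
    congr 1
    ring
  rw [h3]
  refine Submodule.smul_mem_smul ?_ Submodule.mem_top
  rw [hm𝒪, Ideal.span_singleton_pow]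
  exact Ideal.mem_span_singleton_self _

variable (𝒪 : Type*) [CommRing 𝒪]

/-- **(Y1), eigenvector**: the image of an eigenvector is an eigenvector, for every prime
`ℓ ∤ N` (`ℓ = p` included) -/
theorem s59psle_eigen (p k : ℕ) (hp : 0 < p) (ℓ : ℕ) [hℓp : Fact ℓ.Prime] (hℓ : ¬ ℓ ∣ N)
    (x : 𝒪 ⊗[ℤ] ↥(Lpar N)) (a : 𝒪) (hx : (s59bcTcZ N ℓ hℓ).baseChange 𝒪 x = a • x) :
    (s59psleT N p k ⟨ℓ, hℓp.out⟩).baseChange 𝒪 ((s59psleIota N p k hp).baseChange 𝒪 x) =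
      a • (s59psleIota N p k hp).baseChange 𝒪 x := by
  rw [← LinearMap.comp_apply, ← LinearMap.baseChange_comp,
    s59psleIota_hecke_comp N p k hp ℓ hℓ, LinearMap.baseChange_comp, LinearMap.comp_apply, hx,
    map_smul]

/-- **(Y1), kernel**: for a flat `𝒪`, `c • y = 0` for the image `y` of `x` iff `c • x` is
divisible by `p^k` -/
theorem s59psle_smul_eq_zero_iff [Module.Flat ℤ 𝒪] (p k : ℕ) (hp : 0 < p)
    (x : 𝒪 ⊗[ℤ] ↥(Lpar N)) (c : 𝒪) :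
    c • (s59psleIota N p k hp).baseChange 𝒪 x = 0 ↔
      ∃ w : 𝒪 ⊗[ℤ] ↥(Lpar N), c • x = p ^ k • w := by
  rw [← map_smul]
  exact s59psle_ker_baseChange 𝒪 (s59psleIota N p k hp) (p ^ k)
    (s59psleIota_eq_zero_iff N p k hp) (c • x)

/-- **(Y1), BIG**: over a discrete valuation ring `𝒪`, flat over `ℤ`, with `p ∈ 𝔪`: for `x ≠ 0`
and every `m`, the annihilator of the image of `x` in `𝒪 ⊗ J₀(N)[p^k]` lies in `𝔪^m` for all
large `k`. -/
theorem s59psle_big [IsDomain 𝒪] [IsDiscreteValuationRing 𝒪] [Module.Flat ℤ 𝒪] (p : ℕ)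
    (hp : 0 < p) (hp𝒪 : (p : 𝒪) ∈ maximalIdeal 𝒪) (x : 𝒪 ⊗[ℤ] ↥(Lpar N)) (hx : x ≠ 0)
    (m : ℕ) :
    ∃ k₀ : ℕ, ∀ k, k₀ ≤ k → ∀ c : 𝒪,
      c • (s59psleIota N p k hp).baseChange 𝒪 x = 0 → c ∈ maximalIdeal 𝒪 ^ m := by
  obtain ⟨k₀, hk₀⟩ := s59psle_ann_bound hp𝒪 hx m
  exact ⟨k₀, fun k hk c hc =>
    hk₀ k hk c ((s59psle_smul_eq_zero_iff N 𝒪 p k hp x c).mp hc)⟩

end Tensor

end Fermat.Agent.S59
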