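/-
S59, wall M5 = P-STEP, leaf LG-P, finite-level trace-only route (helper5, NOTES/S59-M5.md),
piece (Y1) EIGENVECTOR, part 2 (helper16): the Eichler–Shimura package WITH `T_p`.

The proved package `ES.ESDataInf N p (PDiv N p)` of `ES/TopFaith.lean` uses the Hecke module
`pDivModule N p`, in which `X_ℓ` acts as `0` for `ℓ ∣ N p` — so `X_p` acts as `0`.  Here:

* `s59pslepOp N p ℓ` : `T_ℓ` on `PDiv N p` for EVERY prime `ℓ ∤ N` (`ℓ = p` included), `0` for
  `ℓ ∣ N`; the family commutes (`s59pslep_tfComm`, through the multiplier map, no hypothesis);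
* `s59pslepModule N p` : the Hecke module structure `X_ℓ ↦ s59pslepOp N p ℓ` on `PDiv N p`;
  `s59pslep_heckeGen_smul`, `s59pslep_heckeGen_smul_coe` (`X_p • x = T_p x`);
* `s59pslep_esDataInf`, `s59pslep_esFaith` : `ESDataInf N p (PDiv N p)` and `ESFaith N p (PDiv N p)`
  for THIS module structure, unconditionally;

The lattice map into `(PDiv N p)[p^k]` and the vector `y` of `s59pslesp_fin` (helper42) are in
`S59/PStep/LgEigY.lean`.
-/
import Fermat.Agent.S59.PStep.LgEig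
import Fermat.Agent.S59.PStep.LgCH
import Fermat.Agent.ES.TopFaith
import Fermat.Agent.ES.TorsionUnifProved
import Fermat.Agent.ES.G2.Main
import Fermat.Agent.ES.FiniteLevel
import Fermat.Agent.INJ.InjAll
import Fermat.Agent.S41.TcComm

set_option autoImplicit false
set_option linter.unusedSectionVars false
set_option linter.unusedVariables false
set_option linter.style.longLine false
set_option linter.style.haveILetI false

noncomputable section

namespace Fermat.Agent.S59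

open Fermat.Agent.ES Fermat.Agent.S41 Fermat.Agent.S31 Fermat.Agent.S32 Fermat.Agent.S30
open CongruenceSubgroup ModularCurve ModularCurve.Period
open scoped MatrixGroups

variable (N p : ℕ) [NeZero N]

/-! ### The operators -/

open Classical in
/-- `T_ℓ` on `PDiv N p` for every prime `ℓ ∤ N` (`ℓ = p` included), `0` for `ℓ ∣ N` -/
def s59pslepOp (ℓ : Nat.Primes) : Module.End ℤ (PDiv N p) :=
  if (ℓ : ℕ) ∣ N then 0 else pDivRestrict N p (heckeOperatorBar N ℓ).toAddMonoidHom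

variable {N p}

theorem s59pslepOp_of_bad {ℓ : Nat.Primes} (h : (ℓ : ℕ) ∣ N) : s59pslepOp N p ℓ = 0 := by
  classical
  rw [s59pslepOp, if_pos h]

theorem s59pslepOp_of_good {ℓ : Nat.Primes} (h : ¬ (ℓ : ℕ) ∣ N) (x : PDiv N p) :
    (s59pslepOp N p ℓ x : JZero N) = heckeOperatorBar N ℓ x := by
  classical
  rw [s59pslepOp, if_neg h]
  rfl

theorem s59pslepOp_eq_pDivOp {ℓ : Nat.Primes} (h : ¬ (ℓ : ℕ) ∣ N * p) :
    s59pslepOp N p ℓ = pDivOp N p ℓ := by
  have hN : ¬ (ℓ : ℕ) ∣ N := fun h' => h (dvd_mul_of_dvd_left h' p)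
  refine LinearMap.ext fun x => Subtype.ext ?_
  rw [s59pslepOp_of_good hN, pDivOp_of_good h]

/-- a power of `p` killing a point of `PDiv N p` -/
theorem s59pslep_exists_pow (hp : 0 < p) (x : PDiv N p) :
    ∃ m : ℕ, 0 < m ∧ m • (x : JZero N) = 0 := by
  obtain ⟨a, ha⟩ := x.2.1
  exact ⟨p ^ a, pow_pos hp a, ha⟩

theorem s59pslep_hecke_smul (ℓ : Nat.Primes) {m : ℕ} {x : JZero N} (hx : m • x = 0) :
    m • heckeOperatorBar N ℓ x = 0 := by
  rw [← map_nsmul, hx, map_zero]

/-- the operators commute on `PDiv N p` (through the multiplier map) -/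
theorem s59pslep_tfComm (hp : 0 < p) : TfComm (s59pslepOp N p) := by
  intro ℓ ℓ'
  by_cases h : (ℓ : ℕ) ∣ N
  · rw [s59pslepOp_of_bad h, zero_mul, mul_zero]
  by_cases h' : (ℓ' : ℕ) ∣ N
  · rw [s59pslepOp_of_bad h', zero_mul, mul_zero]
  refine LinearMap.ext fun x => Subtype.ext ?_
  rw [Module.End.mul_apply, Module.End.mul_apply, s59pslepOp_of_good h, s59pslepOp_of_good h',
    s59pslepOp_of_good h', s59pslepOp_of_good h]
  obtain ⟨m, hm, hx⟩ := s59pslep_exists_pow hp x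
  haveI : Fact (ℓ : ℕ).Prime := ⟨ℓ.2⟩
  haveI : Fact (ℓ' : ℕ).Prime := ⟨ℓ'.2⟩
  refine s59psle_mu_eq_of_eq N hm (s59pslep_hecke_smul ℓ (s59pslep_hecke_smul ℓ' hx))
    (s59pslep_hecke_smul ℓ' (s59pslep_hecke_smul ℓ hx)) ?_
  have e1 : muMap N (heckeOperatorBar N ℓ (heckeOperatorBar N ℓ' (x : JZero N))) =
      Tc (ℓ : ℕ) h (muMap N (heckeOperatorBar N ℓ' (x : JZero N))) :=
    s59psle_mu_hecke N (ℓ : ℕ) h hm (s59pslep_hecke_smul ℓ' hx)
  have e2 : muMap N (heckeOperatorBar N ℓ' (x : JZero N)) = Tc (ℓ' : ℕ) h' (muMap N (x : JZero N)) :=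
    s59psle_mu_hecke N (ℓ' : ℕ) h' hm hx
  have e3 : muMap N (heckeOperatorBar N ℓ' (heckeOperatorBar N ℓ (x : JZero N))) =
      Tc (ℓ' : ℕ) h' (muMap N (heckeOperatorBar N ℓ (x : JZero N))) :=
    s59psle_mu_hecke N (ℓ' : ℕ) h' hm (s59pslep_hecke_smul ℓ hx)
  have e4 : muMap N (heckeOperatorBar N ℓ (x : JZero N)) = Tc (ℓ : ℕ) h (muMap N (x : JZero N)) :=
    s59psle_mu_hecke N (ℓ : ℕ) h hm hx
  rw [e1, e2, e3, e4]
  exact tc_comm h h' (muMap N (x : JZero N))

variable (N p)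

/-- the Hecke module structure on `PDiv N p` in which `X_ℓ` acts as `T_ℓ` for every `ℓ ∤ N` -/
@[implicit_reducible]
def s59pslepModule : Module HeckeAlg (PDiv N p) := tfModule (s59pslepOp N p)

variable {N p}

theorem s59pslep_heckeGen_smul (hp : 0 < p) (ℓ : Nat.Primes) (x : PDiv N p) :
    (letI := s59pslepModule N p; heckeGen ℓ • x) = s59pslepOp N p ℓ x :=
  tfModule_heckeGen_smul (s59pslep_tfComm hp) ℓ x

theorem s59pslep_heckeGen_smul_coe (hp : 0 < p) {ℓ : Nat.Primes} (h : ¬ (ℓ : ℕ) ∣ N)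
    (x : PDiv N p) :
    ((letI := s59pslepModule N p; heckeGen ℓ • x : PDiv N p) : JZero N) =
      heckeOperatorBar N ℓ x := by
  rw [s59pslep_heckeGen_smul hp, s59pslepOp_of_good h]

theorem s59pslep_smul_def (hp : 0 < p) (t : HeckeAlg) (x : PDiv N p) :
    (letI := s59pslepModule N p; t • x) = tfEval (s59pslep_tfComm hp) t x :=
  tfModule_smul_def (s59pslep_tfComm hp) t x

/-- Galois commutes with the operators -/
theorem s59pslepOp_galois (σ : GQ) (ℓ : Nat.Primes) (x : PDiv N p) :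
    (letI := pDivGalois N p; σ • s59pslepOp N p ℓ x) =
      s59pslepOp N p ℓ (letI := pDivGalois N p; σ • x) := by
  letI := pDivGalois N p
  by_cases h : (ℓ : ℕ) ∣ N
  · rw [s59pslepOp_of_bad h, LinearMap.zero_apply, LinearMap.zero_apply, smul_zero]
  · apply Subtype.ext
    rw [s59pslepOp_of_good h, pDivGalois_coe, s59pslepOp_of_good h, pDivGalois_coe]
    exact galois_heckeOperatorBar N σ ℓ x

/-! ### The Eichler–Shimura package with `T_p` -/

/-- **`ESDataInf N p (PDiv N p)` for the module structure with `T_p`** -/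
theorem s59pslep_esDataInf [Fact p.Prime] :
    letI := s59pslepModule N p
    letI := pDivGalois N p
    ESDataInf N p (PDiv N p) := by
  letI := s59pslepModule N p
  letI := pDivGalois N p
  have hp : p.Prime := Fact.out
  have hp0 : p ≠ 0 := hp.ne_zero
  obtain ⟨μ, h⟩ := torsionUnif_proved N p hp.pos
  have hμ := multData_of_torsionUnifData hp0 h
  have hlev := stmtFiniteLevel N p hp0
  have hfrob := G2.stmtFrob_of_stmtINJAll Fermat.Agent.INJ.injAll_stmtINJAll N p
  have hunr := G2.stmtUnram_of_stmtINJAll Fermat.Agent.INJ.injAll_stmtINJAll N p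
  refine
    { finite := hμ.pDiv_finite
      divisible := fun x _ => pDiv_divisible x
      smul_comm := ?_
      finite_level := ?_
      frob := ?_
      unram := ?_
      supp := ?_ }
  · intro σ t x
    rw [s59pslep_smul_def hp.pos, s59pslep_smul_def hp.pos]
    exact tfEval_comm_of_comm (s59pslep_tfComm hp.pos) (DistribSMul.toAddMonoidHom (PDiv N p) σ)
      (fun ℓ y => s59pslepOp_galois σ ℓ y) t x
  · intro x _
    obtain ⟨E, hE, h⟩ := hlev x x.2.1
    exact ⟨E, hE, fun σ hσ => Subtype.ext (h σ hσ)⟩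
  · intro ℓ hℓ hgood A' hA τ hτ x _
    have h1 := hfrob ℓ hℓ hgood A' hA τ hτ x x.2.1
    have h2 := s59pslep_heckeGen_smul hp.pos ⟨ℓ, hℓ⟩ (τ • x)
    rw [h2]
    apply Subtype.ext
    rw [AddSubgroup.coe_add, AddSubgroup.coe_sub, coe_nsmul_pDiv,
      s59pslepOp_of_good (ℓ := ⟨ℓ, hℓ⟩) (fun h' => hgood (dvd_mul_of_dvd_left h' p))]
    exact h1
  · intro ℓ hℓ hgood A' hA σ hσ x _
    exact Subtype.ext (hunr ℓ hℓ hgood A' hA σ hσ x x.2.1)
  · refine supp_of_multiplier_gen hμ.toHom hμ.toHom_injective ?_ hμ.eps hμ.eps_injective ?_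
    · intro ℓ v
      rw [s59pslep_heckeGen_smul hp.pos, s59pslepOp_eq_pDivOp ℓ.2]
      exact hμ.toHom_pDivOp ℓ v
    · intro φ hφ
      obtain ⟨x, hx, hpx, hμx⟩ := hμ.surj_pDiv φ hφ 1
      rw [pow_one] at hpx
      refine ⟨⟨x, hx⟩, (pDiv_smul_eq_zero_iff _ _).mpr hpx, ?_⟩
      rw [hμ.toHom_apply]
      show μ x = _
      rw [hμx]
      refine DFunLike.ext _ _ fun γ => ?_
      rw [AddMonoidHom.comp_apply, AddMonoidHom.comp_apply, AddMonoidHom.comp_apply]
      exact (hμ.eps_intCast (φ γ)).symm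

/-- **`ESFaith N p (PDiv N p)` for the module structure with `T_p`** -/
theorem s59pslep_esFaith [Fact p.Prime] :
    letI := s59pslepModule N p
    Fermat.Agent.S31.ESFaith N p (PDiv N p) := by
  letI := s59pslepModule N p
  have hp : p.Prime := Fact.out
  have hp0 : p ≠ 0 := hp.ne_zero
  obtain ⟨μ, h⟩ := torsionUnif_proved N p hp.pos
  have hμ := multData_of_torsionUnifData hp0 h
  refine esFaith_of_contract (fun n => expHom (p ^ n)) hμ.ker hp0
    (faithContract_of_multiplier _ hμ.toHom ?_ ?_)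
  · intro n ℓ x _
    rw [s59pslep_heckeGen_smul hp.pos, s59pslepOp_eq_pDivOp ℓ.2]
    exact hμ.toHom_pDivOp ℓ x
  · intro n φ hφ
    obtain ⟨x, hx, hpx, hμx⟩ := hμ.surj_pDiv φ hφ n
    exact ⟨⟨x, hx⟩, (pDiv_smul_eq_zero_iff _ _).mpr hpx, hμx⟩

end Fermat.Agent.S59
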