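/-
S59, wall M5 = P-STEP, leaf LG-P, finite-level trace-only route (helper5, NOTES/S59-M5.md),
piece (Y1) EIGENVECTOR, part 3 (helper16): the vector `y` in the shape of the wiring
(helper42: `J := PDiv N p` with `pDivModule`, `pDivGalois`, `X := 𝒪 ⊗ S32.tors J p m`,
`T_p` an OPERATOR on `tors J p m`).

* `s59psley_mem_pDiv` : the point `ι_k φ` (`LgEig.lean`) lies in the `p`-divisible torsion;
* `s59psleyIota N p k` : the lattice map `Hom_par(Γ₀(N), ℤ) → (PDiv N p)[p^k]` (`S32.tors`);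
  `s59psleyIota_coe`, `s59psleyIota_heckeGen` (good `ℓ ∤ N p`), `s59psleyIota_op` (every operator
  on `tors` which is `heckeOperatorBar N ℓ` on points, `ℓ ∤ N`, e.g. `ℓ = p`);
* `s59psleyY 𝒪 k x := (𝒪 ⊗ ι_k) x`, with
  - `s59psley_eigen` : `T_h y = χ(h) • y` for every Hecke polynomial `h` outside `S`,
  - `s59psley_op` : `(Tp ⊗ 𝒪) y = a • y` for every operator `Tp` which is `T_p` on points,
  - `s59psley_big` : `Ann(y) ⊆ 𝔪^{m'}` for all large `k` (`𝒪` a DVR, flat over `ℤ`, `p ∈ 𝔪`, `x ≠ 0`);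
* `s59psley_main` : the three together (the `y`-part of `hdata` in `s59pslesp_fin`).
-/
import Fermat.Agent.S59.PStep.LgEigP

set_option autoImplicit false
set_option linter.unusedSectionVars false
set_option linter.unusedVariables false
set_option linter.style.longLine false
set_option linter.style.haveILetI false

noncomputable section

namespace Fermat.Agent.S59

open Fermat.Agent.ES Fermat.Agent.S41 Fermat.Agent.S31 Fermat.Agent.S32 Fermat.Agent.S30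
open CongruenceSubgroup ModularCurve ModularCurve.Period TensorProduct IsLocalRing
open scoped MatrixGroups

variable (N p : ℕ) [NeZero N]

/-! ### `ι_k φ` is `p`-divisible -/

theorem s59psley_mu_nsmul_apply {m : ℕ} (hm : 0 < m) {x : JZero N} (hx : m • x = 0) (j : ℕ)
    (γ : Additive (Gamma0 N)) : muMap N (j • x) γ = j • muMap N x γ := by
  induction j with
  | zero => rw [zero_nsmul, zero_nsmul, s59psle_mu_zero, AddMonoidHom.zero_apply]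
  | succ j ih =>
    have hj : m • (j • x) = 0 := by rw [smul_comm, hx, smul_zero]
    rw [succ_nsmul, succ_nsmul, s59psle_mu_add N hm hj hx, AddMonoidHom.add_apply, ih]

/-- the tower: `p • ι_{k+1} φ = ι_k φ` -/
theorem s59psley_tower (hp : 0 < p) (k : ℕ) (φ : ↥(Lpar N)) :
    p • (s59psleIota N p (k + 1) hp φ : JZero N) = (s59psleIota N p k hp φ : JZero N) := by
  have h1 : p ^ (k + 1) • (s59psleIota N p (k + 1) hp φ : JZero N) = 0 :=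
    s59psleIota_smul N p (k + 1) hp φ
  have h2 : p ^ (k + 1) • (p • (s59psleIota N p (k + 1) hp φ : JZero N)) = 0 := by
    rw [smul_comm, h1, smul_zero]
  have h3 : p ^ (k + 1) • (s59psleIota N p k hp φ : JZero N) = 0 := by
    rw [pow_succ', mul_smul, s59psleIota_smul N p k hp φ, smul_zero]
  refine s59psle_mu_eq_of_eq N (pow_pos hp (k + 1)) h2 h3 (DFunLike.ext _ _ fun γ => ?_)
  rw [s59psley_mu_nsmul_apply N (pow_pos hp (k + 1)) h1, s59psleIota_mu, s59psleIota_mu,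
    expChar_apply, expChar_apply, pow_succ']
  exact nsmul_expHom p (p ^ k) hp.ne' (φ.1 γ)

theorem s59psley_mem_pDiv (hp : 0 < p) (k : ℕ) (φ : ↥(Lpar N)) :
    (s59psleIota N p k hp φ : JZero N) ∈ pDivTors p (JZero N) :=
  ⟨⟨k, s59psleIota_smul N p k hp φ⟩, fun j => (s59psleIota N p (k + j) hp φ : JZero N), rfl,
    fun j => s59psley_tower N p hp (k + j) φ⟩

/-! ### The lattice map into `(PDiv N p)[p^k]` -/

attribute [local instance] pDivModule pDivGalois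

/-- the point `ι_k φ` in `(PDiv N p)[p^k]` -/
def s59psleyFun (hp : 0 < p) (k : ℕ) (φ : ↥(Lpar N)) : ↥(tors (PDiv N p) p k) :=
  ⟨⟨(s59psleIota N p k hp φ : JZero N), s59psley_mem_pDiv N p hp k φ⟩,
    (pDiv_smul_eq_zero_iff _ _).mpr (s59psleIota_smul N p k hp φ)⟩

/-- **the lattice map** `Hom_par(Γ₀(N), ℤ) → (PDiv N p)[p^k]` -/
def s59psleyIota (hp : 0 < p) (k : ℕ) : ↥(Lpar N) →ₗ[ℤ] ↥(tors (PDiv N p) p k) :=
  (AddMonoidHom.mk' (s59psleyFun N p hp k) (fun φ ψ => by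
    apply Subtype.ext
    apply Subtype.ext
    show ((s59psleIota N p k hp (φ + ψ) : _) : JZero N) =
      ((s59psleIota N p k hp φ : _) : JZero N) + ((s59psleIota N p k hp ψ : _) : JZero N)
    rw [map_add, Submodule.coe_add])).toIntLinearMap

@[simp]
theorem s59psleyIota_coe (hp : 0 < p) (k : ℕ) (φ : ↥(Lpar N)) :
    (((s59psleyIota N p hp k φ : ↥(tors (PDiv N p) p k)) : PDiv N p) : JZero N) =
      (s59psleIota N p k hp φ : JZero N) := rfl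

/-- the inclusion `(PDiv N p)[p^k] → J₀(N)[p^k]` -/
def s59psleyIncl (k : ℕ) :
    ↥(tors (PDiv N p) p k) →ₗ[ℤ] ↥(Submodule.torsionBy ℤ (JZero N) ((p : ℤ) ^ k)) :=
  (AddMonoidHom.mk' (fun z : ↥(tors (PDiv N p) p k) =>
    (⟨((z : PDiv N p) : JZero N), (s59psle_mem_tors N).mpr
      ((pDiv_smul_eq_zero_iff _ _).mp z.2)⟩ : ↥(Submodule.torsionBy ℤ (JZero N) ((p : ℤ) ^ k))))
    (fun z w => Subtype.ext rfl)).toIntLinearMap

@[simp]
theorem s59psleyIncl_coe (k : ℕ) (z : ↥(tors (PDiv N p) p k)) :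
    ((s59psleyIncl N p k z : ↥(Submodule.torsionBy ℤ (JZero N) ((p : ℤ) ^ k))) : JZero N) =
      ((z : PDiv N p) : JZero N) := rfl

theorem s59psleyIncl_injective (k : ℕ) : Function.Injective (s59psleyIncl N p k) := by
  intro z w h
  apply Subtype.ext
  apply Subtype.ext
  exact congrArg (fun t : ↥(Submodule.torsionBy ℤ (JZero N) ((p : ℤ) ^ k)) => (t : JZero N)) h

theorem s59psleyIncl_comp (hp : 0 < p) (k : ℕ) :
    (s59psleyIncl N p k).comp (s59psleyIota N p hp k) = s59psleIota N p k hp :=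
  LinearMap.ext fun φ => Subtype.ext rfl

/-- **every operator on `(PDiv N p)[p^k]` which is `T_ℓ` on points (`ℓ ∤ N`) commutes with `ι`** -/
theorem s59psleyIota_op (hp : 0 < p) (k : ℕ) (ℓ : ℕ) [hℓp : Fact ℓ.Prime] (hℓ : ¬ ℓ ∣ N)
    (Tp : Module.End ℤ ↥(tors (PDiv N p) p k))
    (hTp : ∀ z : ↥(tors (PDiv N p) p k),
      (((Tp z : ↥(tors (PDiv N p) p k)) : PDiv N p) : JZero N) =
        heckeOperatorBar N ⟨ℓ, hℓp.out⟩ ((z : PDiv N p) : JZero N)) :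
    Tp.comp (s59psleyIota N p hp k) = (s59psleyIota N p hp k).comp (s59bcTcZ N ℓ hℓ) := by
  refine LinearMap.ext fun φ => ?_
  apply Subtype.ext
  apply Subtype.ext
  rw [LinearMap.comp_apply, LinearMap.comp_apply, hTp, s59psleyIota_coe, s59psleyIota_coe,
    ← s59psleIota_hecke N p k hp ℓ hℓ φ, s59psleT_coe]

/-- **`ι` commutes with `X_ℓ`, `ℓ ∤ N p`** (the Hecke module `pDivModule`) -/
theorem s59psleyIota_heckeGen [Fact p.Prime] (k : ℕ) (ℓ : ℕ) [hℓp : Fact ℓ.Prime]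
    (hℓ : ¬ ℓ ∣ N * p) :
    (heckeEnd (PDiv N p) p k (heckeGen ⟨ℓ, hℓp.out⟩)).comp
        (s59psleyIota N p (Fact.out : p.Prime).pos k) =
      (s59psleyIota N p (Fact.out : p.Prime).pos k).comp
        (s59bcTcZ N ℓ (fun h => hℓ (dvd_mul_of_dvd_left h p))) := by
  have hp : p.Prime := Fact.out
  obtain ⟨μ, h⟩ := torsionUnif_proved N p hp.pos
  have hμ := multData_of_torsionUnifData hp.ne_zero h
  refine s59psleyIota_op N p hp.pos k ℓ (fun h => hℓ (dvd_mul_of_dvd_left h p)) _ fun z => ?_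
  rw [heckeEnd_apply, coe_hecke_smul_tors, hμ.heckeGen_smul, pDivOp_of_good hℓ]

/-! ### The vector `y` -/

variable (𝒪 : Type) [CommRing 𝒪]

/-- **the vector** `y_k = (𝒪 ⊗ ι_k) x ∈ 𝒪 ⊗ (PDiv N p)[p^k]` -/
def s59psleyY (hp : 0 < p) (k : ℕ) (x : 𝒪 ⊗[ℤ] ↥(Lpar N)) : 𝒪 ⊗[ℤ] ↥(tors (PDiv N p) p k) :=
  (s59psleyIota N p hp k).baseChange 𝒪 x

theorem s59psleyY_incl (hp : 0 < p) (k : ℕ) (x : 𝒪 ⊗[ℤ] ↥(Lpar N)) :
    (s59psleyIncl N p k).baseChange 𝒪 (s59psleyY N p 𝒪 hp k x) =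
      (s59psleIota N p k hp).baseChange 𝒪 x := by
  unfold s59psleyY
  rw [← LinearMap.comp_apply, ← LinearMap.baseChange_comp, s59psleyIncl_comp]

/-- **`T_p y = a y`** for every operator `Tp` on `(PDiv N p)[p^k]` which is `T_ℓ` on points -/
theorem s59psley_op (hp : 0 < p) (k : ℕ) (ℓ : ℕ) [hℓp : Fact ℓ.Prime] (hℓ : ¬ ℓ ∣ N)
    (Tp : Module.End ℤ ↥(tors (PDiv N p) p k))
    (hTp : ∀ z : ↥(tors (PDiv N p) p k),
      (((Tp z : ↥(tors (PDiv N p) p k)) : PDiv N p) : JZero N) =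
        heckeOperatorBar N ⟨ℓ, hℓp.out⟩ ((z : PDiv N p) : JZero N))
    (x : 𝒪 ⊗[ℤ] ↥(Lpar N)) (a : 𝒪) (hx : (s59bcTcZ N ℓ hℓ).baseChange 𝒪 x = a • x) :
    Tp.baseChange 𝒪 (s59psleyY N p 𝒪 hp k x) = a • s59psleyY N p 𝒪 hp k x := by
  unfold s59psleyY
  rw [← LinearMap.comp_apply, ← LinearMap.baseChange_comp,
    s59psleyIota_op N p hp k ℓ hℓ Tp hTp, LinearMap.baseChange_comp, LinearMap.comp_apply, hx,
    map_smul]

/-- **`T_h y = χ(h) y`** for every Hecke polynomial `h` in the variables outside `S` -/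
theorem s59psley_eigen [Fact p.Prime] {S : Finset ℕ} (hpS : p ∈ S)
    (hNS : ∀ q : ℕ, q.Prime → q ∣ N → q ∈ S)
    (χ : CuspForm.heckeAlgebra N 2 (↑S : Set ℕ) →+* 𝒪) (k : ℕ) (x : 𝒪 ⊗[ℤ] ↥(Lpar N))
    (hχ : ∀ (ℓ : ℕ) (hℓ : ℓ.Prime) (hℓN : ¬ ℓ ∣ N) (hℓS : ℓ ∉ (↑S : Set ℕ)),
      (@s59bcTcZ N _ ℓ ⟨hℓ⟩ hℓN).baseChange 𝒪 x = χ (CuspForm.heckeAlgebra.T hℓ hℓN hℓS) • x)
    (h : HeckeAlg) (hh : h ∈ MvPolynomial.supported ℤ (outsideVars (↑S : Set ℕ))) :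
    s59pslchT (PDiv N p) 𝒪 p k h (s59psleyY N p 𝒪 (Fact.out : p.Prime).pos k x) =
      chiHom S χ h • s59psleyY N p 𝒪 (Fact.out : p.Prime).pos k x := by
  have hp : p.Prime := Fact.out
  set y := s59psleyY N p 𝒪 hp.pos k x with hy
  rw [MvPolynomial.supported_eq_adjoin_X] at hh
  induction hh using Algebra.adjoin_induction with
  | mem t ht =>
    obtain ⟨ℓ, hℓS, rfl⟩ := ht
    have hℓN : ¬ (ℓ : ℕ) ∣ N := fun hd => hℓS (hNS ℓ ℓ.2 hd)
    have hℓNp : ¬ (ℓ : ℕ) ∣ N * p := by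
      intro hd
      rcases (Nat.Prime.dvd_mul ℓ.2).mp hd with hd | hd
      · exact hℓN hd
      · exact hℓS (((Nat.prime_dvd_prime_iff_eq ℓ.2 hp).mp hd) ▸ hpS)
    haveI : Fact (ℓ : ℕ).Prime := ⟨ℓ.2⟩
    have e1 : chiHom S χ (MvPolynomial.X ℓ) = χ (CuspForm.heckeAlgebra.T ℓ.2 hℓN hℓS) :=
      chiHom_heckeGen S χ ℓ.2 hℓN hℓS
    rw [e1]
    have e2 := s59psleyIota_heckeGen N p k (ℓ : ℕ) hℓNp
    show (heckeEnd (PDiv N p) p k (MvPolynomial.X ℓ)).baseChange 𝒪 y = _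
    rw [hy]
    unfold s59psleyY
    rw [← LinearMap.comp_apply, ← LinearMap.baseChange_comp]
    have e3 : (heckeEnd (PDiv N p) p k (MvPolynomial.X ℓ)).comp (s59psleyIota N p hp.pos k) =
        (s59psleyIota N p hp.pos k).comp (s59bcTcZ N (ℓ : ℕ) hℓN) := e2
    rw [e3, LinearMap.baseChange_comp, LinearMap.comp_apply, hχ (ℓ : ℕ) ℓ.2 hℓN hℓS, map_smul]
  | algebraMap r =>
    rw [eq_intCast, map_intCast, map_intCast, Module.End.intCast_apply, Int.cast_smul_eq_zsmul]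
  | add a b _ _ ha hb => rw [map_add, map_add, LinearMap.add_apply, ha, hb, add_smul]
  | mul a b _ _ ha hb =>
    rw [map_mul, map_mul, Module.End.mul_apply, hb, map_smul, ha, smul_smul, mul_comm]

/-- **(BIG)**: `Ann(y_k) ⊆ 𝔪^{m'}` for all large `k` -/
theorem s59psley_big [IsDomain 𝒪] [IsDiscreteValuationRing 𝒪] [Module.Flat ℤ 𝒪] (hp : 0 < p)
    (hp𝒪 : (p : 𝒪) ∈ maximalIdeal 𝒪) (x : 𝒪 ⊗[ℤ] ↥(Lpar N)) (hx : x ≠ 0) (m' : ℕ) :
    ∃ k₀ : ℕ, ∀ k, k₀ ≤ k → ∀ c : 𝒪,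
      c • s59psleyY N p 𝒪 hp k x = 0 → c ∈ maximalIdeal 𝒪 ^ m' := by
  obtain ⟨k₀, hk₀⟩ := s59psle_big N 𝒪 p hp hp𝒪 x hx m'
  refine ⟨k₀, fun k hk c hc => hk₀ k hk c ?_⟩
  rw [← s59psleyY_incl N p 𝒪 hp k x, ← map_smul, hc, map_zero]

/-- **(Y1) in the shape of the wiring**: the `y`-part of `hdata` of `s59pslesp_fin`, with `T_p`
an operator. -/
theorem s59psley_main [Fact p.Prime] {S : Finset ℕ} (hpS : p ∈ S)
    (hNS : ∀ q : ℕ, q.Prime → q ∣ N → q ∈ S) (hpN : ¬ p ∣ N)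
    [IsDomain 𝒪] [IsDiscreteValuationRing 𝒪] [CharZero 𝒪] (hp𝒪 : (p : 𝒪) ∈ maximalIdeal 𝒪)
    (χ : CuspForm.heckeAlgebra N 2 (↑S : Set ℕ) →+* 𝒪) (x : 𝒪 ⊗[ℤ] ↥(Lpar N)) (hx : x ≠ 0)
    (hχ : ∀ (ℓ : ℕ) (hℓ : ℓ.Prime) (hℓN : ¬ ℓ ∣ N) (hℓS : ℓ ∉ (↑S : Set ℕ)),
      (@s59bcTcZ N _ ℓ ⟨hℓ⟩ hℓN).baseChange 𝒪 x = χ (CuspForm.heckeAlgebra.T hℓ hℓN hℓS) • x)
    (a : 𝒪) (ha : (s59bcTcZ N p hpN).baseChange 𝒪 x = a • x) (m' : ℕ) :
    ∃ k₀ : ℕ, ∀ m, k₀ ≤ m → ∃ y : 𝒪 ⊗[ℤ] ↥(tors (PDiv N p) p m),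
      (∀ h ∈ MvPolynomial.supported ℤ (outsideVars (↑S : Set ℕ)),
        s59pslchT (PDiv N p) 𝒪 p m h y = chiHom S χ h • y) ∧
      (∀ Tp : Module.End ℤ ↥(tors (PDiv N p) p m),
        (∀ z : ↥(tors (PDiv N p) p m),
          (((Tp z : ↥(tors (PDiv N p) p m)) : PDiv N p) : JZero N) =
            heckeOperatorBar N ⟨p, Fact.out⟩ ((z : PDiv N p) : JZero N)) →
        Tp.baseChange 𝒪 y = a • y) ∧
      ∀ c : 𝒪, c • y = 0 → c ∈ maximalIdeal 𝒪 ^ m' := by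
  have hp : p.Prime := Fact.out
  haveI : Module.Flat ℤ 𝒪 := s59psle_flat 𝒪
  obtain ⟨k₀, hk₀⟩ := s59psley_big N p 𝒪 hp.pos hp𝒪 x hx m'
  refine ⟨k₀, fun m hm => ⟨s59psleyY N p 𝒪 hp.pos m x, ?_, ?_, hk₀ m hm⟩⟩
  · intro h hh
    exact s59psley_eigen N p 𝒪 hpS hNS χ m x hχ h hh
  · intro Tp hTp
    exact s59psley_op N p 𝒪 hp.pos m p hpN Tp hTp x a ha

end Fermat.Agent.S59
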