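/-
S59, wall M5 = P-STEP, leaf LG-P, finite-level trace-only route (helper5, NOTES/S59-M5.md),
piece (Y1) EIGENVECTOR, part 4 (helper16): the vector `y` for the Hecke module WITH `T_p`
(`s59pslepModule N p` of `LgEigP.lean`), in the literal shape of the `y`-part of `hdata` in
helper42's `s59pslesp_fin` with `J := PDiv N p`, `T := heckeGen ⟨p, _⟩`.

(Twin of `LgEigY.lean`, which does the same for `pDivModule` with `T_p` an operator.)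

* `s59pslezIota N p k` : `Hom_par(Γ₀(N), ℤ) → (PDiv N p)[p^k]` (`S32.tors` for `s59pslepModule`);
* `s59pslezIota_heckeGen` : `X_ℓ • ι φ = ι (T_ℓ φ)` for EVERY prime `ℓ ∤ N` (`ℓ = p` included);
* `s59pslezY 𝒪 k x := (𝒪 ⊗ ι_k) x`; `s59pslez_eigen`, `s59pslez_eigen_p`, `s59pslez_big`;
* `s59pslez_main` : the three together.
-/
import Fermat.Agent.S59.PStep.LgEigY

set_option autoImplicit false
set_option linter.unusedSectionVars false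
set_option linter.unusedVariables false
set_option linter.style.longLine false
set_option linter.style.haveILetI false

noncomputable section

namespace Fermat.Agent.S59

open Fermat.Agent.ES Fermat.Agent.S41 Fermat.Agent.S31 Fermat.Agent.S32 Fermat.Agent.S30
open CongruenceSubgroup ModularCurve ModularCurve.Period TensorProduct IsLocalRing
open scoped MatrixGroups

variable (N p : ℕ) [NeZero N]

attribute [local instance] s59pslepModule pDivGalois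

/-- the point `ι_k φ` in `(PDiv N p)[p^k]` -/
def s59pslezFun (hp : 0 < p) (k : ℕ) (φ : ↥(Lpar N)) : ↥(tors (PDiv N p) p k) :=
  ⟨⟨(s59psleIota N p k hp φ : JZero N), s59psley_mem_pDiv N p hp k φ⟩,
    (pDiv_smul_eq_zero_iff _ _).mpr (s59psleIota_smul N p k hp φ)⟩

/-- **the lattice map** `Hom_par(Γ₀(N), ℤ) → (PDiv N p)[p^k]` -/
def s59pslezIota (hp : 0 < p) (k : ℕ) : ↥(Lpar N) →ₗ[ℤ] ↥(tors (PDiv N p) p k) :=
  (AddMonoidHom.mk' (s59pslezFun N p hp k) (fun φ ψ => by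
    apply Subtype.ext
    apply Subtype.ext
    show ((s59psleIota N p k hp (φ + ψ) : _) : JZero N) =
      ((s59psleIota N p k hp φ : _) : JZero N) + ((s59psleIota N p k hp ψ : _) : JZero N)
    rw [map_add, Submodule.coe_add])).toIntLinearMap

@[simp]
theorem s59pslezIota_coe (hp : 0 < p) (k : ℕ) (φ : ↥(Lpar N)) :
    (((s59pslezIota N p hp k φ : ↥(tors (PDiv N p) p k)) : PDiv N p) : JZero N) =
      (s59psleIota N p k hp φ : JZero N) := rfl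

/-- the inclusion `(PDiv N p)[p^k] → J₀(N)[p^k]` -/
def s59pslezIncl (k : ℕ) :
    ↥(tors (PDiv N p) p k) →ₗ[ℤ] ↥(Submodule.torsionBy ℤ (JZero N) ((p : ℤ) ^ k)) :=
  (AddMonoidHom.mk' (fun z : ↥(tors (PDiv N p) p k) =>
    (⟨((z : PDiv N p) : JZero N), (s59psle_mem_tors N).mpr
      ((pDiv_smul_eq_zero_iff _ _).mp z.2)⟩ : ↥(Submodule.torsionBy ℤ (JZero N) ((p : ℤ) ^ k))))
    (fun z w => Subtype.ext rfl)).toIntLinearMap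

@[simp]
theorem s59pslezIncl_coe (k : ℕ) (z : ↥(tors (PDiv N p) p k)) :
    ((s59pslezIncl N p k z : ↥(Submodule.torsionBy ℤ (JZero N) ((p : ℤ) ^ k))) : JZero N) =
      ((z : PDiv N p) : JZero N) := rfl

theorem s59pslezIncl_injective (k : ℕ) : Function.Injective (s59pslezIncl N p k) := by
  intro z w h
  apply Subtype.ext
  apply Subtype.ext
  exact congrArg (fun t : ↥(Submodule.torsionBy ℤ (JZero N) ((p : ℤ) ^ k)) => (t : JZero N)) h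

theorem s59pslezIncl_comp (hp : 0 < p) (k : ℕ) :
    (s59pslezIncl N p k).comp (s59pslezIota N p hp k) = s59psleIota N p k hp :=
  LinearMap.ext fun φ => Subtype.ext rfl

/-- **`ι` commutes with `X_ℓ` for EVERY prime `ℓ ∤ N`** (`ℓ = p` included) -/
theorem s59pslezIota_heckeGen (hp : 0 < p) (k : ℕ) (ℓ : ℕ) [hℓp : Fact ℓ.Prime] (hℓ : ¬ ℓ ∣ N) :
    (heckeEnd (PDiv N p) p k (heckeGen ⟨ℓ, hℓp.out⟩)).comp (s59pslezIota N p hp k) =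
      (s59pslezIota N p hp k).comp (s59bcTcZ N ℓ hℓ) := by
  refine LinearMap.ext fun φ => ?_
  apply Subtype.ext
  apply Subtype.ext
  rw [LinearMap.comp_apply, LinearMap.comp_apply, heckeEnd_apply, coe_hecke_smul_tors,
    s59pslep_heckeGen_smul_coe hp (ℓ := ⟨ℓ, hℓp.out⟩) hℓ, s59pslezIota_coe, s59pslezIota_coe,
    ← s59psleIota_hecke N p k hp ℓ hℓ φ, s59psleT_coe]

/-! ### The vector `y` -/

variable (𝒪 : Type) [CommRing 𝒪]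

/-- **the vector** `y_k = (𝒪 ⊗ ι_k) x ∈ 𝒪 ⊗ (PDiv N p)[p^k]` -/
def s59pslezY (hp : 0 < p) (k : ℕ) (x : 𝒪 ⊗[ℤ] ↥(Lpar N)) : 𝒪 ⊗[ℤ] ↥(tors (PDiv N p) p k) :=
  (s59pslezIota N p hp k).baseChange 𝒪 x

theorem s59pslezY_incl (hp : 0 < p) (k : ℕ) (x : 𝒪 ⊗[ℤ] ↥(Lpar N)) :
    (s59pslezIncl N p k).baseChange 𝒪 (s59pslezY N p 𝒪 hp k x) =
      (s59psleIota N p k hp).baseChange 𝒪 x := by
  unfold s59pslezY
  rw [← LinearMap.comp_apply, ← LinearMap.baseChange_comp, s59pslezIncl_comp]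

/-- **`X_ℓ y = a y`** for every prime `ℓ ∤ N` (`ℓ = p` included) -/
theorem s59pslez_eigen_gen (hp : 0 < p) (k : ℕ) (ℓ : ℕ) [hℓp : Fact ℓ.Prime] (hℓ : ¬ ℓ ∣ N)
    (x : 𝒪 ⊗[ℤ] ↥(Lpar N)) (a : 𝒪) (hx : (s59bcTcZ N ℓ hℓ).baseChange 𝒪 x = a • x) :
    s59pslchT (PDiv N p) 𝒪 p k (heckeGen ⟨ℓ, hℓp.out⟩) (s59pslezY N p 𝒪 hp k x) =
      a • s59pslezY N p 𝒪 hp k x := by
  show (heckeEnd (PDiv N p) p k (heckeGen ⟨ℓ, hℓp.out⟩)).baseChange 𝒪 _ = _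
  unfold s59pslezY
  rw [← LinearMap.comp_apply, ← LinearMap.baseChange_comp,
    s59pslezIota_heckeGen N p hp k ℓ hℓ, LinearMap.baseChange_comp, LinearMap.comp_apply, hx,
    map_smul]

/-- **`T_h y = χ(h) y`** for every Hecke polynomial `h` in the variables outside `S` -/
theorem s59pslez_eigen (hp : 0 < p) {S : Finset ℕ}
    (hNS : ∀ q : ℕ, q.Prime → q ∣ N → q ∈ S)
    (χ : CuspForm.heckeAlgebra N 2 (↑S : Set ℕ) →+* 𝒪) (k : ℕ) (x : 𝒪 ⊗[ℤ] ↥(Lpar N))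
    (hχ : ∀ (ℓ : ℕ) (hℓ : ℓ.Prime) (hℓN : ¬ ℓ ∣ N) (hℓS : ℓ ∉ (↑S : Set ℕ)),
      (@s59bcTcZ N _ ℓ ⟨hℓ⟩ hℓN).baseChange 𝒪 x = χ (CuspForm.heckeAlgebra.T hℓ hℓN hℓS) • x)
    (h : HeckeAlg) (hh : h ∈ MvPolynomial.supported ℤ (outsideVars (↑S : Set ℕ))) :
    s59pslchT (PDiv N p) 𝒪 p k h (s59pslezY N p 𝒪 hp k x) =
      chiHom S χ h • s59pslezY N p 𝒪 hp k x := by
  rw [MvPolynomial.supported_eq_adjoin_X] at hh
  induction hh using Algebra.adjoin_induction with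
  | mem t ht =>
    obtain ⟨ℓ, hℓS, rfl⟩ := ht
    have hℓN : ¬ (ℓ : ℕ) ∣ N := fun hd => hℓS (hNS ℓ ℓ.2 hd)
    haveI : Fact (ℓ : ℕ).Prime := ⟨ℓ.2⟩
    have e1 : chiHom S χ (MvPolynomial.X ℓ) = χ (CuspForm.heckeAlgebra.T ℓ.2 hℓN hℓS) :=
      chiHom_heckeGen S χ ℓ.2 hℓN hℓS
    rw [e1]
    exact s59pslez_eigen_gen N p 𝒪 hp k (ℓ : ℕ) hℓN x _ (hχ (ℓ : ℕ) ℓ.2 hℓN hℓS)
  | algebraMap r =>
    rw [eq_intCast, map_intCast, map_intCast, Module.End.intCast_apply, Int.cast_smul_eq_zsmul]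
  | add a b _ _ ha hb => rw [map_add, map_add, LinearMap.add_apply, ha, hb, add_smul]
  | mul a b _ _ ha hb =>
    rw [map_mul, map_mul, Module.End.mul_apply, hb, map_smul, ha, smul_smul, mul_comm]

/-- **(BIG)**: `Ann(y_k) ⊆ 𝔪^{m'}` for all large `k` -/
theorem s59pslez_big [IsDomain 𝒪] [IsDiscreteValuationRing 𝒪] [Module.Flat ℤ 𝒪] (hp : 0 < p)
    (hp𝒪 : (p : 𝒪) ∈ maximalIdeal 𝒪) (x : 𝒪 ⊗[ℤ] ↥(Lpar N)) (hx : x ≠ 0) (m' : ℕ) :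
    ∃ k₀ : ℕ, ∀ k, k₀ ≤ k → ∀ c : 𝒪,
      c • s59pslezY N p 𝒪 hp k x = 0 → c ∈ maximalIdeal 𝒪 ^ m' := by
  obtain ⟨k₀, hk₀⟩ := s59psle_big N 𝒪 p hp hp𝒪 x hx m'
  refine ⟨k₀, fun k hk c hc => hk₀ k hk c ?_⟩
  rw [← s59pslezY_incl N p 𝒪 hp k x, ← map_smul, hc, map_zero]

/-- **(Y1) in the literal shape of `s59pslesp_fin`** (`J := PDiv N p` with `s59pslepModule`,
`T := heckeGen ⟨p, _⟩`): the `y`-part of `hdata`, for all large levels `m`. -/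
theorem s59pslez_main [hpF : Fact p.Prime] {S : Finset ℕ}
    (hNS : ∀ q : ℕ, q.Prime → q ∣ N → q ∈ S) (hpN : ¬ p ∣ N)
    [IsDomain 𝒪] [IsDiscreteValuationRing 𝒪] [CharZero 𝒪] (hp𝒪 : (p : 𝒪) ∈ maximalIdeal 𝒪)
    (χ : CuspForm.heckeAlgebra N 2 (↑S : Set ℕ) →+* 𝒪) (x : 𝒪 ⊗[ℤ] ↥(Lpar N)) (hx : x ≠ 0)
    (hχ : ∀ (ℓ : ℕ) (hℓ : ℓ.Prime) (hℓN : ¬ ℓ ∣ N) (hℓS : ℓ ∉ (↑S : Set ℕ)),
      (@s59bcTcZ N _ ℓ ⟨hℓ⟩ hℓN).baseChange 𝒪 x = χ (CuspForm.heckeAlgebra.T hℓ hℓN hℓS) • x)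
    (a : 𝒪) (ha : (s59bcTcZ N p hpN).baseChange 𝒪 x = a • x) (m' : ℕ) :
    ∃ k₀ : ℕ, ∀ m, k₀ ≤ m → ∃ y : 𝒪 ⊗[ℤ] ↥(tors (PDiv N p) p m),
      (∀ h ∈ MvPolynomial.supported ℤ (outsideVars (↑S : Set ℕ)),
        s59pslchT (PDiv N p) 𝒪 p m h y = chiHom S χ h • y) ∧
      s59pslchT (PDiv N p) 𝒪 p m (heckeGen ⟨p, hpF.out⟩) y = a • y ∧
      ∀ c : 𝒪, c • y = 0 → c ∈ maximalIdeal 𝒪 ^ m' := by
  have hp : p.Prime := Fact.out
  haveI : Module.Flat ℤ 𝒪 := s59psle_flat 𝒪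
  obtain ⟨k₀, hk₀⟩ := s59pslez_big N p 𝒪 hp.pos hp𝒪 x hx m'
  refine ⟨k₀, fun m hm => ⟨s59pslezY N p 𝒪 hp.pos m x, ?_, ?_, hk₀ m hm⟩⟩
  · intro h hh
    exact s59pslez_eigen N p 𝒪 hp.pos hNS χ m x hχ h hh
  · exact s59pslez_eigen_gen N p 𝒪 hp.pos m p hpN x a ha

end Fermat.Agent.S59
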