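import Fermat.Agent.S33.NTS

/-!
# S59 / M5 (P-STEP), LG-P, route LG-FIN: the ESp-transfer, abstract part

`NTS` ("no trivial sub-quotient", `S33/NTS.lean`) passes to `𝒪 ⊗_ℤ −` for ANY commutative ring `𝒪`:

* `s59pslesTen 𝒪 Z` : the subgroup of `𝒪 ⊗_ℤ M` generated by the `a ⊗ z`, `z ∈ Z`;
* `s59pslesp_exists_sum` : every element of it is a finite sum `Σ aᵢ ⊗ zᵢ`, `zᵢ ∈ Z`;
* `s59pslesp_nts_tensor` : `NTS I act Z`, `Z` stable ⇒ `NTS I (act ⊗ 𝒪) (s59pslesTen 𝒪 Z)`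
  (finite sums + `NTS.pi` + `NTS.map`);
* `s59pslesp_baseChange_mem` : if `Ψ : M → M` has values in `Z`, then `Ψ ⊗ 𝒪` has values in
  `s59pslesTen 𝒪 Z`;
* `s59pslesp_mem_span` : **transfer**: `Y ≤ 𝒪 ⊗ M` an `I`-stable subgroup, `Ψ` with values in `Z`:
  every `(Ψ ⊗ 𝒪) y ∈ Y` lies in the inertia span of `Y`.
-/

set_option autoImplicit false
set_option linter.unusedSectionVars false

noncomputable section

namespace Fermat.Agent.S59

open Fermat.Agent.S33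
open scoped TensorProduct

section Ten

variable {G : Type*} [Group G] {M : Type*} [AddCommGroup M] (𝒪 : Type*) [CommRing 𝒪]

/-- the subgroup of `𝒪 ⊗_ℤ M` generated by the `a ⊗ z`, `z ∈ Z` -/
def s59pslesTen (Z : AddSubgroup M) : AddSubgroup (𝒪 ⊗[ℤ] M) :=
  AddSubgroup.closure {x | ∃ (a : 𝒪) (z : M), z ∈ Z ∧ x = a ⊗ₜ[ℤ] z}

variable {𝒪}

theorem s59pslesp_tmul_mem {Z : AddSubgroup M} (a : 𝒪) {z : M} (hz : z ∈ Z) :
    a ⊗ₜ[ℤ] z ∈ s59pslesTen 𝒪 Z :=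
  AddSubgroup.subset_closure ⟨a, z, hz, rfl⟩

/-- every element of `s59pslesTen 𝒪 Z` is a finite sum `Σ aᵢ ⊗ zᵢ` with `zᵢ ∈ Z` -/
theorem s59pslesp_exists_sum {Z : AddSubgroup M} {x : 𝒪 ⊗[ℤ] M} (hx : x ∈ s59pslesTen 𝒪 Z) :
    ∃ (d : ℕ) (a : Fin d → 𝒪) (z : Fin d → M), (∀ i, z i ∈ Z) ∧ x = ∑ i, a i ⊗ₜ[ℤ] z i := by
  unfold s59pslesTen at hx
  induction hx using AddSubgroup.closure_induction with
  | mem x hx =>
    obtain ⟨a, z, hz, rfl⟩ := hx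
    exact ⟨1, fun _ => a, fun _ => z, fun _ => hz, by simp⟩
  | zero => exact ⟨0, Fin.elim0, Fin.elim0, fun i => i.elim0, by simp⟩
  | add x y _ _ hx hy =>
    obtain ⟨d, a, z, hz, rfl⟩ := hx
    obtain ⟨d', a', z', hz', rfl⟩ := hy
    refine ⟨d + d', Fin.append a a', Fin.append z z', ?_, ?_⟩
    · intro i
      refine Fin.addCases (fun j => ?_) (fun j => ?_) i
      · rw [Fin.append_left]; exact hz j
      · rw [Fin.append_right]; exact hz' j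
    · rw [Fin.sum_univ_add]
      simp only [Fin.append_left, Fin.append_right]
  | neg x _ hx =>
    obtain ⟨d, a, z, hz, rfl⟩ := hx
    refine ⟨d, fun i => -a i, z, hz, ?_⟩
    rw [← Finset.sum_neg_distrib]
    refine Finset.sum_congr rfl fun i _ => ?_
    rw [TensorProduct.neg_tmul]

variable (act : G → M →ₗ[ℤ] M)

/-- the action on `𝒪 ⊗_ℤ M` -/
def s59pslesAct (𝒪 : Type*) [CommRing 𝒪] (act : G → M →ₗ[ℤ] M) : G → 𝒪 ⊗[ℤ] M → 𝒪 ⊗[ℤ] M :=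
  fun σ x => (act σ).baseChange 𝒪 x

theorem s59pslesAct_tmul (σ : G) (a : 𝒪) (z : M) :
    s59pslesAct 𝒪 act σ (a ⊗ₜ[ℤ] z) = a ⊗ₜ[ℤ] act σ z := rfl

theorem s59pslesAct_add (σ : G) (x y : 𝒪 ⊗[ℤ] M) :
    s59pslesAct 𝒪 act σ (x + y) = s59pslesAct 𝒪 act σ x + s59pslesAct 𝒪 act σ y :=
  map_add _ _ _

theorem s59pslesAct_zero (σ : G) : s59pslesAct 𝒪 act σ (0 : 𝒪 ⊗[ℤ] M) = 0 := map_zero _

/-- `s59pslesTen 𝒪 Z` is stable if `Z` is -/
theorem s59pslesp_ten_stable (I : Subgroup G) {Z : AddSubgroup M}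
    (hst : ntsStable I (fun σ z => act σ z) Z) :
    ntsStable I (s59pslesAct 𝒪 act) (s59pslesTen 𝒪 Z) := by
  intro σ hσ b hb
  unfold s59pslesTen at hb
  induction hb using AddSubgroup.closure_induction with
  | mem x hx =>
    obtain ⟨a, z, hz, rfl⟩ := hx
    rw [s59pslesAct_tmul]
    exact s59pslesp_tmul_mem a (hst σ hσ z hz)
  | zero => rw [s59pslesAct_zero]; exact AddSubgroup.zero_mem _
  | add x y _ _ hx hy => rw [s59pslesAct_add]; exact AddSubgroup.add_mem _ hx hy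
  | neg x _ hx =>
    have : s59pslesAct 𝒪 act σ (-x) = -s59pslesAct 𝒪 act σ x := map_neg _ _
    rw [this]
    exact AddSubgroup.neg_mem _ hx

/-- **`NTS` passes to `𝒪 ⊗_ℤ −`**, for any commutative ring `𝒪`. -/
theorem s59pslesp_nts_tensor (I : Subgroup G) {Z : AddSubgroup M}
    (hZ : NTS I (fun σ z => act σ z) Z) (hst : ntsStable I (fun σ z => act σ z) Z) :
    NTS I (s59pslesAct 𝒪 act) (s59pslesTen 𝒪 Z) := by
  intro B hB hBst b hb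
  obtain ⟨d, a, z, hz, hbz⟩ := s59pslesp_exists_sum (hB hb)
  -- the map `w ↦ Σ aᵢ ⊗ wᵢ`
  let f : (Fin d → M) →+ 𝒪 ⊗[ℤ] M :=
    { toFun := fun w => ∑ i, a i ⊗ₜ[ℤ] w i
      map_zero' := by simp
      map_add' := fun w w' => by
        simp only [Pi.add_apply, TensorProduct.tmul_add, Finset.sum_add_distrib] }
  have hf : ∀ σ ∈ I, ∀ w : Fin d → M,
      f ((fun σ (w : Fin d → M) i => act σ (w i)) σ w) = s59pslesAct 𝒪 act σ (f w) := by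
    intro σ _ w
    change ∑ i, a i ⊗ₜ[ℤ] act σ (w i) = (act σ).baseChange 𝒪 (∑ i, a i ⊗ₜ[ℤ] w i)
    rw [map_sum]
    rfl
  have hpi : NTS I (fun σ (w : Fin d → M) i => act σ (w i))
      (AddSubgroup.pi Set.univ fun _ : Fin d => Z) :=
    NTS.pi hZ (fun σ _ => map_zero (act σ))
  have hpist : ntsStable I (fun σ (w : Fin d → M) i => act σ (w i))
      (AddSubgroup.pi Set.univ fun _ : Fin d => Z) := by
    intro σ hσ w hw i hi
    exact hst σ hσ (w i) (hw i hi)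
  have hW := NTS.map (actX := fun σ (w : Fin d → M) i => act σ (w i))
    (actY := s59pslesAct 𝒪 act) f hf hpi hpist
  set W : AddSubgroup (𝒪 ⊗[ℤ] M) := (AddSubgroup.pi Set.univ fun _ : Fin d => Z).map f with hWdef
  have hWst : ntsStable I (s59pslesAct 𝒪 act) W := by
    rintro σ hσ _ ⟨w, hw, rfl⟩
    exact ⟨_, hpist σ hσ w hw, hf σ hσ w⟩
  have hbW : b ∈ W := ⟨z, fun i _ => hz i, hbz.symm⟩
  have hBW : ntsStable I (s59pslesAct 𝒪 act) (B ⊓ W) :=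
    fun σ hσ c hc => ⟨hBst σ hσ c hc.1, hWst σ hσ c hc.2⟩
  exact ntsSpan_mono inf_le_left (hW (B ⊓ W) inf_le_right hBW ⟨hb, hbW⟩)

/-- if `Ψ` has values in `Z`, then `Ψ ⊗ 𝒪` has values in `s59pslesTen 𝒪 Z` -/
theorem s59pslesp_baseChange_mem {Z : AddSubgroup M} (Ψ : M →ₗ[ℤ] M) (hΨ : ∀ z, Ψ z ∈ Z)
    (x : 𝒪 ⊗[ℤ] M) : Ψ.baseChange 𝒪 x ∈ s59pslesTen 𝒪 Z := by
  induction x using TensorProduct.induction_on with
  | zero => rw [map_zero]; exact AddSubgroup.zero_mem _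
  | tmul a z => exact s59pslesp_tmul_mem a (hΨ z)
  | add x y hx hy => rw [map_add]; exact AddSubgroup.add_mem _ hx hy

/-- **ESp-transfer, abstract form.**  `Z ≤ M` stable with `NTS`, `Ψ : M → M` with values in `Z`,
`Y ≤ 𝒪 ⊗ M` an `I`-stable subgroup: every `(Ψ ⊗ 𝒪) y` which lies in `Y` lies in the inertia span
of `Y`. -/
theorem s59pslesp_mem_span (I : Subgroup G) {Z : AddSubgroup M}
    (hZ : NTS I (fun σ z => act σ z) Z) (hst : ntsStable I (fun σ z => act σ z) Z)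
    (Ψ : M →ₗ[ℤ] M) (hΨ : ∀ z, Ψ z ∈ Z)
    {Y : AddSubgroup (𝒪 ⊗[ℤ] M)} (hY : ntsStable I (s59pslesAct 𝒪 act) Y)
    {y : 𝒪 ⊗[ℤ] M} (hy : Ψ.baseChange 𝒪 y ∈ Y) :
    Ψ.baseChange 𝒪 y ∈ ntsSpan I (s59pslesAct 𝒪 act) Y := by
  have hN := s59pslesp_nts_tensor (𝒪 := 𝒪) act I hZ hst
  have hTst := s59pslesp_ten_stable (𝒪 := 𝒪) act I hst
  have hB : ntsStable I (s59pslesAct 𝒪 act) (Y ⊓ s59pslesTen 𝒪 Z) :=
    fun σ hσ c hc => ⟨hY σ hσ c hc.1, hTst σ hσ c hc.2⟩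
  exact ntsSpan_mono inf_le_left
    (hN (Y ⊓ s59pslesTen 𝒪 Z) inf_le_right hB ⟨hy, s59pslesp_baseChange_mem Ψ hΨ y⟩)

end Ten

end Fermat.Agent.S59
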