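import Fermat.Agent.S59.PStep.LGFin
import Fermat.Agent.S59.PStep.LgCH
import Fermat.Agent.S59.PStep.LgEspAbs

/-!
# S59 / M5 (P-STEP), LG-P, route LG-FIN: (CH) + (ESp) + (BIG) on the eigen-span ⇒ LG-FIN

`J` an Eichler–Shimura module, `X = 𝒪 ⊗_ℤ J[p^m]` with the actions `s59pslchR` (Galois) and
`s59pslchT` (Hecke) of `LgCH.lean`, `y ∈ X` a Hecke eigenvector, `Y = 𝒪[G] y` its span.

* `s59pslesPsi J p m φ T c` : the operator `φ² − T φ + c` on `J[p^m]`;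
* `s59pslesp_psi_bc` : its base change is `r φ ² − τ T · r φ + c` on `X`;
* `s59pslesRY` : the Galois action restricted to `Y`;
* `s59pslesp_ch` : **(CH)** on `Y` in the operator shape of `s59pslfFin`;
* `s59pslesp_esp` : **(ESp)** on `Y`: if `φ² − T_p φ + p` maps `J[p^m]` into an `I`-stable subgroup
  `Z` with `NTS` (the inertia span / connected part) and `T_p y = a y`, then
  `r φ ² − a r φ + p` maps `Y` into the inertia span of `Y`;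
* `s59pslesp_fin` : **LG-FIN** `s59pslfFin ρ p a` from the data at every precision.
-/

set_option autoImplicit false
set_option linter.unusedSectionVars false
set_option linter.unusedVariables false

noncomputable section

namespace Fermat.Agent.S59

open ModularCurve Fermat.Agent.ES Fermat.Agent.S31 Fermat.Agent.S30 Fermat.Agent.S32
  Fermat.Agent.S33 IsLocalRing
open scoped TensorProduct

section Esp

variable {p : ℕ} [Fact p.Prime] {N : ℕ} [NeZero N] (J : Type) [AddCommGroup J]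
  [Module HeckeAlg J] [DistribMulAction GQ J] {S : Finset ℕ} (𝒪 : Type) [CommRing 𝒪]

/-- the operator `φ² − T φ + c` on `J[p^m]` -/
def s59pslesPsi (p m : ℕ) (φ : GQ) (T : HeckeAlg) (c : ℕ) : Module.End ℤ ↥(tors J p m) :=
  galEnd J p m φ * galEnd J p m φ - heckeEnd J p m T * galEnd J p m φ
    + c • (1 : Module.End ℤ ↥(tors J p m))

variable {J 𝒪}

theorem s59pslesPsi_apply (m : ℕ) (φ : GQ) (T : HeckeAlg) (c : ℕ) (z : ↥(tors J p m)) :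
    s59pslesPsi J p m φ T c z = φ • φ • z - T • φ • z + c • z := rfl

/-- the base change of `φ² − T φ + c` -/
theorem s59pslesp_psi_bc (m : ℕ) (φ : GQ) (T : HeckeAlg) (c : ℕ) (x : 𝒪 ⊗[ℤ] ↥(tors J p m)) :
    (s59pslesPsi J p m φ T c).baseChange 𝒪 x =
      s59pslchR J 𝒪 p m φ (s59pslchR J 𝒪 p m φ x) - s59pslchT J 𝒪 p m T (s59pslchR J 𝒪 p m φ x)
        + (c : 𝒪) • x := by
  induction x using TensorProduct.induction_on with
  | zero => simp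
  | tmul a z =>
    rw [LinearMap.baseChange_tmul, s59pslesPsi_apply, s59pslchR_tmul, s59pslchR_tmul,
      s59pslchT_tmul, Nat.cast_smul_eq_nsmul, TensorProduct.tmul_add, TensorProduct.tmul_sub,
      TensorProduct.tmul_smul c a z]
  | add x y hx hy =>
    rw [map_add, hx, hy, map_add, map_add, map_add, smul_add]
    abel

/-- the Galois action restricted to the `𝒪[G]`-span of `y` -/
def s59pslesRY (m : ℕ) (y : 𝒪 ⊗[ℤ] ↥(tors J p m)) :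
    GQ →* Module.End 𝒪 ↥(s59pslchSpan (s59pslchR J 𝒪 p m) y) where
  toFun g := (s59pslchR J 𝒪 p m g).restrict fun _ hy' => s59pslch_stable _ y g hy'
  map_one' := by
    ext y'
    simp
  map_mul' := fun g g' => by
    ext y'
    simp [map_mul]

@[simp] theorem s59pslesRY_coe (m : ℕ) (y : 𝒪 ⊗[ℤ] ↥(tors J p m)) (g : GQ)
    (y' : ↥(s59pslchSpan (s59pslchR J 𝒪 p m) y)) :
    ((s59pslesRY m y g y' : ↥(s59pslchSpan (s59pslchR J 𝒪 p m) y)) : 𝒪 ⊗[ℤ] ↥(tors J p m)) =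
      s59pslchR J 𝒪 p m g (y' : 𝒪 ⊗[ℤ] ↥(tors J p m)) := rfl

/-- from the inertia span in the ambient module to the inertia span of `Y` -/
theorem s59pslesp_span_sub (m : ℕ) (y : 𝒪 ⊗[ℤ] ↥(tors J p m)) (I : Subgroup GQ)
    {w : 𝒪 ⊗[ℤ] ↥(tors J p m)}
    (hw : w ∈ ntsSpan I (s59pslesAct 𝒪 fun σ => galEnd J p m σ)
      (s59pslchSpan (s59pslchR J 𝒪 p m) y).toAddSubgroup) :
    ∃ v ∈ s59pslfSpan (s59pslesRY m y) I, (v : 𝒪 ⊗[ℤ] ↥(tors J p m)) = w := by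
  unfold ntsSpan at hw
  induction hw using AddSubgroup.closure_induction with
  | mem w hw =>
    obtain ⟨σ, hσ, b, hb, rfl⟩ := hw
    exact ⟨s59pslesRY m y σ ⟨b, hb⟩ - ⟨b, hb⟩, AddSubgroup.subset_closure ⟨σ, hσ, ⟨b, hb⟩, rfl⟩,
      rfl⟩
  | zero => exact ⟨0, AddSubgroup.zero_mem _, rfl⟩
  | add x x' _ _ hx hx' =>
    obtain ⟨v, hv, rfl⟩ := hx
    obtain ⟨v', hv', rfl⟩ := hx'
    exact ⟨v + v', AddSubgroup.add_mem _ hv hv', rfl⟩
  | neg x _ hx =>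
    obtain ⟨v, hv, rfl⟩ := hx
    exact ⟨-v, AddSubgroup.neg_mem _ hv, rfl⟩

/-- **(ESp) on the eigen-span.** -/
theorem s59pslesp_esp (hJ : ESDataInf N p J) (m : ℕ) (I : Subgroup GQ) (φ : GQ) (T : HeckeAlg)
    (c : ℕ) (a : 𝒪)
    {Z : AddSubgroup ↥(tors J p m)}
    (hZ : NTS I (fun σ (z : ↥(tors J p m)) => σ • z) Z)
    (hst : ntsStable I (fun σ (z : ↥(tors J p m)) => σ • z) Z)
    (hΨ : ∀ z, s59pslesPsi J p m φ T c z ∈ Z)
    (y : 𝒪 ⊗[ℤ] ↥(tors J p m)) (hy : s59pslchT J 𝒪 p m T y = a • y)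
    (y' : ↥(s59pslchSpan (s59pslchR J 𝒪 p m) y)) :
    s59pslesRY m y φ (s59pslesRY m y φ y') - a • s59pslesRY m y φ y' + (c : 𝒪) • y'
      ∈ s59pslfSpan (s59pslesRY m y) I := by
  have hφy' : s59pslchR J 𝒪 p m φ (y' : 𝒪 ⊗[ℤ] ↥(tors J p m)) ∈
      s59pslchSpan (s59pslchR J 𝒪 p m) y := s59pslch_stable _ y φ y'.2
  have hT := s59pslch_eigen (s59pslchR J 𝒪 p m) (s59pslchT J 𝒪 p m)
    (fun g h x => s59pslch_comm hJ m g h x) y T a hy hφy'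
  have hval : (s59pslesPsi J p m φ T c).baseChange 𝒪 (y' : 𝒪 ⊗[ℤ] ↥(tors J p m)) =
      ((s59pslesRY m y φ (s59pslesRY m y φ y') - a • s59pslesRY m y φ y' + (c : 𝒪) • y' :
        ↥(s59pslchSpan (s59pslchR J 𝒪 p m) y)) : 𝒪 ⊗[ℤ] ↥(tors J p m)) := by
    rw [s59pslesp_psi_bc, hT]
    rfl
  have hYst : ntsStable I (s59pslesAct 𝒪 fun σ => galEnd J p m σ)
      (s59pslchSpan (s59pslchR J 𝒪 p m) y).toAddSubgroup :=
    fun σ _ b hb => s59pslch_stable _ y σ hb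
  have hmem : (s59pslesPsi J p m φ T c).baseChange 𝒪 (y' : 𝒪 ⊗[ℤ] ↥(tors J p m)) ∈
      (s59pslchSpan (s59pslchR J 𝒪 p m) y).toAddSubgroup := by
    rw [hval]
    exact Subtype.property _
  have h1 := s59pslesp_mem_span (𝒪 := 𝒪) (fun σ => galEnd J p m σ) I hZ hst
    (s59pslesPsi J p m φ T c) hΨ hYst hmem
  obtain ⟨v, hv, hvw⟩ := s59pslesp_span_sub m y I h1
  have : v = s59pslesRY m y φ (s59pslesRY m y φ y') - a • s59pslesRY m y φ y' + (c : 𝒪) • y' :=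
    Subtype.ext (hvw.trans hval)
  rw [← this]
  exact hv

end Esp

section Fin

open Polynomial

variable {p : ℕ} [Fact p.Prime] {N : ℕ} [NeZero N] {J : Type} [AddCommGroup J]
  [Module HeckeAlg J] [DistribMulAction GQ J] {S : Finset ℕ} {𝒪 : Type} [CommRing 𝒪]
  [IsLocalRing 𝒪] {χ : CuspForm.heckeAlgebra N 2 (↑S : Set ℕ) →+* 𝒪}

/-- **(CH) on the eigen-span**, in the operator shape of `s59pslfFin`. -/
theorem s59pslesp_ch (hcheb : Cheb.WeakChebotarev) (hJ : ESDataInf N p J)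
    (hgoodN : ∀ r : ℕ, r.Prime → r ∉ S → ¬ r ∣ N)
    (hgood : ∀ r : ℕ, r.Prime → r ∉ S → ¬ r ∣ N * p)
    (ρ : GaloisRepAdic 𝒪) (hdet : ρ.DetIsCyclotomic p)
    (hρ : ∀ (ℓ : ℕ) (hℓ : ℓ.Prime) (hℓN : ¬ ℓ ∣ N) (hℓS : ℓ ∉ (↑S : Set ℕ)),
      ∀ 𝔄 : ValuationSubring (AlgebraicClosure ℚ), 𝔄.LiesOverPrime ℓ →
        ∀ σ : AlgebraicClosure ℚ ≃ₐ[ℚ] AlgebraicClosure ℚ, 𝔄.IsFrobeniusAt σ ℓ →
          LinearMap.charpoly (ρ.ρ σ) =
            X ^ 2 - C (χ (CuspForm.heckeAlgebra.T hℓ hℓN hℓS)) * X + C ((ℓ : 𝒪)))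
    {k n m : ℕ} (hkn : k ≤ n) (hmn : m ≤ n) (hG : Good p J S χ k n)
    (hkm : maximalIdeal 𝒪 ^ k ≤ Ideal.span {(p : 𝒪) ^ m})
    (y : 𝒪 ⊗[ℤ] ↥(tors J p m))
    (hy : ∀ h ∈ MvPolynomial.supported ℤ (outsideVars (↑S : Set ℕ)),
      s59pslchT J 𝒪 p m h y = chiHom S χ h • y) (g : GQ) :
    s59pslesRY m y g * s59pslesRY m y g - s59pslfT ρ g • s59pslesRY m y g
      + s59pslfD ρ g • (1 : Module.End 𝒪 ↥(s59pslchSpan (s59pslchR J 𝒪 p m) y)) = 0 := by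
  ext y'
  have h := s59pslch_tors hcheb hJ hgoodN hgood ρ hdet hρ hkn hmn hG hkm y hy g y'.2
  simpa [s59pslfT, s59pslfD] using h

/-- **LG-FIN from the finite level data**: for every precision `m'` a level `m`, a good level
`n ≥ m, k`, a stable subgroup `Z ≤ J[p^m]` with `NTS` containing the values of
`φ² − T_p φ + p`, and a Hecke eigenvector `y ∈ 𝒪 ⊗ J[p^m]` with `T_p y = a y` whose annihilator
lies in `𝔪 ^ m'`. -/
theorem s59pslesp_fin (hcheb : Cheb.WeakChebotarev) (hJ : ESDataInf N p J)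
    (hgoodN : ∀ r : ℕ, r.Prime → r ∉ S → ¬ r ∣ N)
    (hgood : ∀ r : ℕ, r.Prime → r ∉ S → ¬ r ∣ N * p)
    (ρ : GaloisRepAdic 𝒪) (hdet : ρ.DetIsCyclotomic p)
    (hρ : ∀ (ℓ : ℕ) (hℓ : ℓ.Prime) (hℓN : ¬ ℓ ∣ N) (hℓS : ℓ ∉ (↑S : Set ℕ)),
      ∀ 𝔄 : ValuationSubring (AlgebraicClosure ℚ), 𝔄.LiesOverPrime ℓ →
        ∀ σ : AlgebraicClosure ℚ ≃ₐ[ℚ] AlgebraicClosure ℚ, 𝔄.IsFrobeniusAt σ ℓ →
          LinearMap.charpoly (ρ.ρ σ) =
            X ^ 2 - C (χ (CuspForm.heckeAlgebra.T hℓ hℓN hℓS)) * X + C ((ℓ : 𝒪)))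
    (a : 𝒪) (T : HeckeAlg)
    (P : ValuationSubring (AlgebraicClosure ℚ)) (hP : P.LiesOverPrime p)
    (φ : GQ) (hφ : P.IsFrobeniusAt φ p)
    (hdata : ∀ m' : ℕ, ∃ k n m : ℕ, k ≤ n ∧ m ≤ n ∧ Good p J S χ k n ∧
      maximalIdeal 𝒪 ^ k ≤ Ideal.span {(p : 𝒪) ^ m} ∧
      ∃ Z : AddSubgroup ↥(tors J p m),
        NTS (P.inertiaSubgroupIn ℚ) (fun σ (z : ↥(tors J p m)) => σ • z) Z ∧
        ntsStable (P.inertiaSubgroupIn ℚ) (fun σ (z : ↥(tors J p m)) => σ • z) Z ∧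
        (∀ z, s59pslesPsi J p m φ T p z ∈ Z) ∧
        ∃ y : 𝒪 ⊗[ℤ] ↥(tors J p m),
          (∀ h ∈ MvPolynomial.supported ℤ (outsideVars (↑S : Set ℕ)),
            s59pslchT J 𝒪 p m h y = chiHom S χ h • y) ∧
          s59pslchT J 𝒪 p m T y = a • y ∧
          ∀ c : 𝒪, c • y = 0 → c ∈ maximalIdeal 𝒪 ^ m') :
    s59pslfFin ρ p a := by
  intro m'
  obtain ⟨k, n, m, hkn, hmn, hG, hkm, Z, hZ, hst, hΨ, y, hy, hyT, hbig⟩ := hdata m'
  refine ⟨P, hP, φ, hφ, ↥(s59pslchSpan (s59pslchR J 𝒪 p m) y), inferInstance, inferInstance,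
    s59pslesRY m y, ?_, ?_, ?_⟩
  · exact fun g => s59pslesp_ch hcheb hJ hgoodN hgood ρ hdet hρ hkn hmn hG hkm y hy g
  · exact fun y' => s59pslesp_esp hJ m (P.inertiaSubgroupIn ℚ) φ T p a hZ hst hΨ y hyT y'
  · intro c hc
    refine hbig c ?_
    have := hc ⟨y, s59pslch_self_mem _ y⟩
    exact congrArg Subtype.val this

end Fin

end Fermat.Agent.S59
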