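/-
S59, wall M5 = P-STEP, leaf LG-P, (Y3): FROM `J[p^k]` TO `J[p^k] ⊗ 𝒪` AND TO A SUBMODULE `Y`
(helper10).  Ledger: NOTES/S59-M5.md.

Abstract.  `G` a group, `I ≤ G`, `M` a `G`-module (additive action `actM`), `X` an abelian group
with an additive action `actX`, and a FAMILY of equivariant additive maps `f c : M → X`, `c ∈ C`,
whose images generate `X` (model: `X = 𝒪 ⊗_ℤ M`, `f c m = c ⊗ m`; or `X = M^d`).

* `s59psln_exists_sum` : the elements of `⨆ c, (f c) Z` are finite sums `∑ f (c i) (z i)`;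
* `s59psln_mem_span_of_mem_iSup` : `NTS Z`, `B ≤ X` stable, `b ∈ B ∩ ⨆ c, (f c) Z` ⇒ `b ∈ 𝔄 B`;
* `s59psln_nts_iSup`   : **`NTS Z ⇒ NTS (⨆ c, (f c) Z)`** (no freeness of `𝒪` is needed);
* `s59psln_span_le_iSup`, `s59psln_iSup_le_span` : `𝔄 X = ⨆ c, (f c) (𝔄 M)`;
* `s59psln_nts_span`   : **`NTS (𝔄 M) ⇒ NTS (𝔄 X)`**;
* `s59psln_op_mem_span` : an additive operator `E_X` of `X` which is `E_M` on the generators, with
                         `E_M M ⊆ 𝔄 M`, maps `X` into `𝔄 X`;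
* `s59psln_esp`        : **(ESp) on a submodule**: `Y ≤ X` stable, `y ∈ Y` with `E_X y ∈ Y`
                         ⇒ `E_X y ∈ 𝔄 Y` (the span of `σ y' − y'`, `y' ∈ Y`).

Sorry-free; axioms: propext, Classical.choice, Quot.sound.
-/
import Fermat.Agent.S33.NTS
import Fermat.Agent.S33.Transfer

set_option autoImplicit false
set_option linter.unusedSectionVars false
set_option linter.unusedVariables false
set_option linter.style.longLine false

namespace Fermat.Agent.S59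

open Fermat.Agent.S33

section Family

variable {G : Type*} [Group G] {I : Subgroup G} {M X : Type*} [AddCommGroup M] [AddCommGroup X]
  {actM : G → M → M} {actX : G → X → X} {C : Type*}

/-- the elements of `⨆ c, (f c) Z` are finite sums `∑ f (c i) (z i)`, `z i ∈ Z` -/
theorem s59psln_exists_sum (f : C → M →+ X) (Z : AddSubgroup M) {b : X}
    (hb : b ∈ ⨆ c, Z.map (f c)) :
    ∃ (d : ℕ) (c : Fin d → C) (z : Fin d → M), (∀ i, z i ∈ Z) ∧ b = ∑ i, f (c i) (z i) := by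
  refine AddSubgroup.iSup_induction (fun c => Z.map (f c))
    (C := fun b => ∃ (d : ℕ) (c : Fin d → C) (z : Fin d → M),
      (∀ i, z i ∈ Z) ∧ b = ∑ i, f (c i) (z i)) hb ?_ ?_ ?_
  · rintro c x ⟨z, hz, rfl⟩
    exact ⟨1, fun _ => c, fun _ => z, fun _ => hz, by simp⟩
  · exact ⟨0, Fin.elim0, Fin.elim0, fun i => i.elim0, by simp⟩
  · rintro x y ⟨d₁, c₁, z₁, hz₁, rfl⟩ ⟨d₂, c₂, z₂, hz₂, rfl⟩
    refine ⟨d₁ + d₂, Fin.append c₁ c₂, Fin.append z₁ z₂, ?_, ?_⟩
    · intro i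
      refine Fin.addCases (fun j => ?_) (fun j => ?_) i
      · rw [Fin.append_left]; exact hz₁ j
      · rw [Fin.append_right]; exact hz₂ j
    · rw [Fin.sum_univ_add]
      simp only [Fin.append_left, Fin.append_right]

/-- an additive action commutes with finite sums -/
theorem s59psln_act_sum (hXadd : ∀ σ ∈ I, ∀ x y, actX σ (x + y) = actX σ x + actX σ y)
    {σ : G} (hσ : σ ∈ I) {ι : Type*} (s : Finset ι) (u : ι → X) :
    actX σ (∑ i ∈ s, u i) = ∑ i ∈ s, actX σ (u i) := by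
  classical
  have h0 : actX σ 0 = 0 := by
    have h := hXadd σ hσ 0 0
    rw [add_zero] at h
    exact left_eq_add.mp h
  induction s using Finset.induction_on with
  | empty => simpa using h0
  | insert a s ha ih => rw [Finset.sum_insert ha, Finset.sum_insert ha, hXadd σ hσ, ih]

/-- **the key**: an element of a stable subgroup `B` of `X` which is a sum of images of elements
of `Z` (`NTS`) lies in the inertia span of `B`. -/
theorem s59psln_mem_span_of_mem_iSup (f : C → M →+ X)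
    (hf : ∀ c, ∀ σ ∈ I, ∀ m, f c (actM σ m) = actX σ (f c m))
    (hXadd : ∀ σ ∈ I, ∀ x y, actX σ (x + y) = actX σ x + actX σ y)
    {Z : AddSubgroup M} (hZ : NTS I actM Z) (hst : ntsStable I actM Z)
    (h0 : ∀ σ ∈ I, actM σ 0 = 0)
    {B : AddSubgroup X} (hB : ntsStable I actX B) {b : X} (hbB : b ∈ B)
    (hb : b ∈ ⨆ c, Z.map (f c)) : b ∈ ntsSpan I actX B := by
  obtain ⟨d, c, z, hz, rfl⟩ := s59psln_exists_sum f Z hb
  let g : (Fin d → M) →+ X := ∑ i, (f (c i)).comp (Pi.evalAddMonoidHom (fun _ : Fin d => M) i)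
  have hg : ∀ v, g v = ∑ i, f (c i) (v i) := by
    intro v
    simp [g]
  have hgeq : ∀ σ ∈ I, ∀ v : Fin d → M, g (fun i => actM σ (v i)) = actX σ (g v) := by
    intro σ hσ v
    rw [hg, hg, s59psln_act_sum hXadd hσ]
    exact Finset.sum_congr rfl fun i _ => hf (c i) σ hσ (v i)
  have hpi : NTS I (fun σ (v : Fin d → M) i => actM σ (v i))
      (AddSubgroup.pi Set.univ fun _ : Fin d => Z) := NTS.pi hZ h0
  have hpist : ntsStable I (fun σ (v : Fin d → M) i => actM σ (v i))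
      (AddSubgroup.pi Set.univ fun _ : Fin d => Z) :=
    fun σ hσ v hv i _ => hst σ hσ _ (hv i (Set.mem_univ i))
  have hN : NTS I actX ((AddSubgroup.pi Set.univ fun _ : Fin d => Z).map g) :=
    NTS.map (actX := fun σ (v : Fin d → M) i => actM σ (v i)) g hgeq hpi hpist
  have hWst : ntsStable I actX ((AddSubgroup.pi Set.univ fun _ : Fin d => Z).map g) := by
    rintro σ hσ _ ⟨v, hv, rfl⟩
    exact ⟨fun i => actM σ (v i), hpist σ hσ v hv, hgeq σ hσ v⟩
  have h1 := hN (B ⊓ (AddSubgroup.pi Set.univ fun _ : Fin d => Z).map g) inf_le_right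
    (fun σ hσ x hx => ⟨hB σ hσ x hx.1, hWst σ hσ x hx.2⟩)
    ⟨hbB, ⟨z, fun i _ => hz i, hg z⟩⟩
  exact ntsSpan_mono inf_le_left h1

/-- **`NTS` passes to the subgroup generated by the images of a family of equivariant maps**
(e.g. to `Z ⊗ 𝒪 ⊆ M ⊗ 𝒪`, for ANY `𝒪`). -/
theorem s59psln_nts_iSup (f : C → M →+ X)
    (hf : ∀ c, ∀ σ ∈ I, ∀ m, f c (actM σ m) = actX σ (f c m))
    (hXadd : ∀ σ ∈ I, ∀ x y, actX σ (x + y) = actX σ x + actX σ y)
    {Z : AddSubgroup M} (hZ : NTS I actM Z) (hst : ntsStable I actM Z)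
    (h0 : ∀ σ ∈ I, actM σ 0 = 0) : NTS I actX (⨆ c, Z.map (f c)) :=
  fun B hB hBst b hb => s59psln_mem_span_of_mem_iSup f hf hXadd hZ hst h0 hBst hb (hB hb)

/-- `𝔄 X ≤ ⨆ c, (f c) (𝔄 M)` when the images of the `f c` generate `X` -/
theorem s59psln_span_le_iSup (f : C → M →+ X)
    (hf : ∀ c, ∀ σ ∈ I, ∀ m, f c (actM σ m) = actX σ (f c m))
    (hXadd : ∀ σ ∈ I, ∀ x y, actX σ (x + y) = actX σ x + actX σ y)
    (hgen : ∀ x : X, x ∈ ⨆ c, (⊤ : AddSubgroup M).map (f c)) :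
    ntsSpan I actX ⊤ ≤ ⨆ c, (ntsSpan I actM ⊤).map (f c) := by
  rw [ntsSpan, AddSubgroup.closure_le]
  rintro w ⟨σ, hσ, x, -, rfl⟩
  refine AddSubgroup.iSup_induction (fun c => (⊤ : AddSubgroup M).map (f c))
    (C := fun x => actX σ x - x ∈ ⨆ c, (ntsSpan I actM ⊤).map (f c)) (hgen x) ?_ ?_ ?_
  · rintro c x ⟨m, -, rfl⟩
    have e : actX σ (f c m) - f c m = f c (actM σ m - m) := by rw [map_sub, hf c σ hσ]
    rw [e]
    exact AddSubgroup.mem_iSup_of_mem c ⟨_, sub_mem_ntsSpan hσ (AddSubgroup.mem_top m), rfl⟩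
  · have h0 : actX σ 0 = 0 := by
      have h := hXadd σ hσ 0 0
      rw [add_zero] at h
      exact left_eq_add.mp h
    rw [h0, sub_self]
    exact zero_mem _
  · intro x y hx hy
    have e : actX σ (x + y) - (x + y) = (actX σ x - x) + (actX σ y - y) := by
      rw [hXadd σ hσ]; abel
    rw [e]
    exact add_mem hx hy

/-- `⨆ c, (f c) (𝔄 M) ≤ 𝔄 X` -/
theorem s59psln_iSup_le_span (f : C → M →+ X)
    (hf : ∀ c, ∀ σ ∈ I, ∀ m, f c (actM σ m) = actX σ (f c m)) :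
    ⨆ c, (ntsSpan I actM ⊤).map (f c) ≤ ntsSpan I actX ⊤ := by
  refine iSup_le fun c => ?_
  refine (map_ntsSpan_le (f c) (hf c) ⊤).trans (ntsSpan_mono le_top)

/-- **`NTS (𝔄 M) ⇒ NTS (𝔄 X)`** when the images of the `f c` generate `X` -/
theorem s59psln_nts_span (f : C → M →+ X)
    (hf : ∀ c, ∀ σ ∈ I, ∀ m, f c (actM σ m) = actX σ (f c m))
    (hXadd : ∀ σ ∈ I, ∀ x y, actX σ (x + y) = actX σ x + actX σ y)
    (hMadd : ∀ σ m m', actM σ (m + m') = actM σ m + actM σ m')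
    (hMmul : ∀ σ τ m, actM (σ * τ) m = actM σ (actM τ m))
    (hgen : ∀ x : X, x ∈ ⨆ c, (⊤ : AddSubgroup M).map (f c))
    (hZ : NTS I actM (ntsSpan I actM ⊤)) : NTS I actX (ntsSpan I actX ⊤) := by
  have h0 : ∀ σ ∈ I, actM σ 0 = 0 := by
    intro σ _
    have h := hMadd σ 0 0
    rw [add_zero] at h
    exact left_eq_add.mp h
  exact (s59psln_nts_iSup f hf hXadd hZ (ntsStable_ntsSpan I actM hMadd hMmul ⊤) h0).mono
    (s59psln_span_le_iSup f hf hXadd hgen)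

/-- an additive operator `E_X` of `X` which is `E_M` on the generators, with `E_M M ⊆ 𝔄 M`, has
its values in `⨆ c, (f c) (𝔄 M)` -/
theorem s59psln_op_mem_iSup (f : C → M →+ X)
    (hgen : ∀ x : X, x ∈ ⨆ c, (⊤ : AddSubgroup M).map (f c))
    (EM : M → M) (EX : X →+ X) (hE : ∀ c m, EX (f c m) = f c (EM m))
    (hEM : ∀ m, EM m ∈ ntsSpan I actM ⊤) (x : X) :
    EX x ∈ ⨆ c, (ntsSpan I actM ⊤).map (f c) := by
  refine AddSubgroup.iSup_induction (fun c => (⊤ : AddSubgroup M).map (f c))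
    (C := fun x => EX x ∈ ⨆ c, (ntsSpan I actM ⊤).map (f c)) (hgen x) ?_ ?_ ?_
  · rintro c x ⟨m, -, rfl⟩
    rw [hE]
    exact AddSubgroup.mem_iSup_of_mem c ⟨_, hEM m, rfl⟩
  · rw [map_zero]; exact zero_mem _
  · intro x y hx hy
    rw [map_add]; exact add_mem hx hy

/-- … hence in `𝔄 X` -/
theorem s59psln_op_mem_span (f : C → M →+ X)
    (hf : ∀ c, ∀ σ ∈ I, ∀ m, f c (actM σ m) = actX σ (f c m))
    (hgen : ∀ x : X, x ∈ ⨆ c, (⊤ : AddSubgroup M).map (f c))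
    (EM : M → M) (EX : X →+ X) (hE : ∀ c m, EX (f c m) = f c (EM m))
    (hEM : ∀ m, EM m ∈ ntsSpan I actM ⊤) (x : X) : EX x ∈ ntsSpan I actX ⊤ :=
  s59psln_iSup_le_span f hf (s59psln_op_mem_iSup f hgen EM EX hE hEM x)

/-- **(ESp) on a submodule.**  `NTS (𝔄 M)`; `E_X` an additive operator of `X` which is `E_M` on
the generators, `E_M M ⊆ 𝔄 M`; `Y ≤ X` stable under `I`, `y` with `E_X y ∈ Y`.  Then `E_X y` lies
in the inertia span of `Y`. -/
theorem s59psln_esp (f : C → M →+ X)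
    (hf : ∀ c, ∀ σ ∈ I, ∀ m, f c (actM σ m) = actX σ (f c m))
    (hXadd : ∀ σ ∈ I, ∀ x y, actX σ (x + y) = actX σ x + actX σ y)
    (hMadd : ∀ σ m m', actM σ (m + m') = actM σ m + actM σ m')
    (hMmul : ∀ σ τ m, actM (σ * τ) m = actM σ (actM τ m))
    (hgen : ∀ x : X, x ∈ ⨆ c, (⊤ : AddSubgroup M).map (f c))
    (hZ : NTS I actM (ntsSpan I actM ⊤))
    (EM : M → M) (EX : X →+ X) (hE : ∀ c m, EX (f c m) = f c (EM m))
    (hEM : ∀ m, EM m ∈ ntsSpan I actM ⊤)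
    {Y : AddSubgroup X} (hY : ntsStable I actX Y) (y : X) (hEy : EX y ∈ Y) :
    EX y ∈ ntsSpan I actX Y := by
  have h0 : ∀ σ ∈ I, actM σ 0 = 0 := by
    intro σ _
    have h := hMadd σ 0 0
    rw [add_zero] at h
    exact left_eq_add.mp h
  exact s59psln_mem_span_of_mem_iSup f hf hXadd hZ (ntsStable_ntsSpan I actM hMadd hMmul ⊤) h0
    hY hEy (s59psln_op_mem_iSup f hgen EM EX hE hEM y)

end Family

end Fermat.Agent.S59
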