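/-
S59, wall M5 = P-STEP, leaf LG-P, route LG-FIN, leaf (Y3) = **(ESp)** (helper10).
Ledger: NOTES/S59-M5.md.

In the model of (Y2) (helper42, `LgCH.lean`): `X = 𝒪 ⊗_ℤ J[p^m]` (`J[p^m] = S32.tors J p m`),
`r = s59pslchR`, `τ = s59pslchT`, `Y = s59pslchSpan r y` the `𝒪[G]`-span of a vector `y` with
`T_p y = a y`.  Then for ONE place `A ∣ p` and ANY Frobenius `φ` at `A`:

      `r φ (r φ y') − a • r φ y' + p • y' ∈ 𝔄 Y`      for all `y' ∈ Y`.

* `s59psly_hasLocalHopf` : a local Hopf lattice on `J₀(N)[ℓ^k]` for EVERY `N`, `ℓ ∤ N` (the body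
                           of `W1.s19f_final`; no root `SNN` module is imported);
* `s59psly_nts_jzero`    : `NTS I (𝔄 J₀(N)[p^k])` (`p` odd, `p ∤ N`; `torsionBy`-form), from
                           helper44's `s59pslgc_nts_conn`, `s59pslgc_conn_eq_span`;
* `s59pslyE`             : `S32.tors J p m ≃+ Submodule.torsionBy ℤ J (p^m)` (the two models of
                           `J[p^m]` on main), equivariant;
* `s59psly_nts_tors`, `s59psly_psi_tors` : `NTS` and Eichler–Shimura at `p` modulo `𝔄` in the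
                           `S32.tors`-form;
* `s59psly_esp_abs`      : **(ESp)** for an abstract `J` (hypotheses: `NTS`, `Ψ J[p^m] ⊆ 𝔄`);
* `s59pslyRes`, `s59psly_esp_sub_abs` : the same on the TYPE `↥Y` with the restricted action, in
                           the shape `s59pslfSpan` of helper5's `s59pslfFin`;
* `s59psly_esp`, `s59psly_esp_sub` : **(ESp) for `J = J₀(N)`, every odd `p ∤ N`**.

Sorry-free; axioms: propext, Classical.choice, Quot.sound.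
-/
import Fermat.Agent.S59.PStep.LgThreeH10
import Fermat.Agent.S59.PStep.LgTensorH10
import Fermat.Agent.S59.PStep.LgCH
import Fermat.Agent.S59.PStep.LGFinCore

set_option autoImplicit false
set_option linter.style.haveILetI false
set_option linter.unusedSectionVars false
set_option linter.unusedVariables false
set_option linter.style.longLine false
set_option synthInstance.maxHeartbeats 400000
set_option maxHeartbeats 1600000

noncomputable section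

namespace Fermat.Agent.S59

open ModularCurve AlgebraicCurve Fermat.Agent.ES Fermat.Agent.ES.G2
open Fermat.Agent.W1 Fermat.Agent.S33 Fermat.Agent.S32
open scoped TensorProduct

/-! ### 1. `NTS (𝔄 J₀(N)[p^k])` without the root module `S19` -/

section NTSJ

/-- a local Hopf lattice on `J₀(N)[ℓ^k]`, for every level `N` and every prime `ℓ ∤ N`
(the body of `W1.s19f_final`) -/
theorem s59psly_hasLocalHopf (N : ℕ) [NeZero N] (ℓ : ℕ) (hℓ : ℓ.Prime) (hℓN : ¬ ℓ ∣ N) (k : ℕ)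
    (A : ValuationSubring (AlgebraicClosure ℚ)) (hA : A.LiesOverPrime ℓ) :
    HasLocalHopf N ℓ k A := by
  have hPR : StmtModPRS19 :=
    Fermat.Agent.DEU.hasModPR_s19 Fermat.Agent.ES.I2aux.stmtI2AuxAll
  have hLvl : StmtLevelUpS19 := stmtLevelUpS19
  have hN : N ≠ 0 := NeZero.ne N
  have direct : 2 ≤ N → (5 ≤ ℓ ∨ (5 - ℓ) ∣ N) → HasLocalHopf N ℓ k A := fun h2 h5 =>
    s19f_hasLocalHopf_of_kernelChart N ℓ hℓ k A hA
      (s19f_hasKernelChart hPR N ℓ hℓ hℓN h2 h5 A hA)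
  by_cases h5 : 5 ≤ ℓ
  · by_cases h2 : 2 ≤ N
    · exact direct h2 (Or.inl h5)
    · have hN1 : N = 1 := by omega
      refine s19f_hasLocalHopf_aux hPR hLvl N 2 ℓ hℓ hℓN Nat.prime_two ?_ ?_ ?_ ?_ k A hA
      · rw [hN1]; decide
      · omega
      · intro h; omega
      · intro _; exact ⟨hN1, rfl⟩
  · have hℓ23 : ℓ = 2 ∨ ℓ = 3 := by
      have hlt : ℓ < 5 := by omega
      have h2 := hℓ.two_le
      interval_cases ℓ
      · exact Or.inl rfl
      · exact Or.inr rfl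
      · exact absurd hℓ (by decide)
    rcases hℓ23 with h | h
    · by_cases h3 : 3 ∣ N
      · refine direct ?_ (Or.inr ?_)
        · have := Nat.le_of_dvd (Nat.pos_of_ne_zero hN) h3
          omega
        · rw [h]; exact h3
      · refine s19f_hasLocalHopf_aux hPR hLvl N 3 ℓ hℓ hℓN Nat.prime_three h3 ?_ ?_ ?_
          k A hA
        · omega
        · intro _; omega
        · intro h'; omega
    · by_cases h2 : 2 ∣ N
      · refine direct (Nat.le_of_dvd (Nat.pos_of_ne_zero hN) h2) (Or.inr ?_)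
        rw [h]; exact h2
      · refine s19f_hasLocalHopf_aux hPR hLvl N 2 ℓ hℓ hℓN Nat.prime_two h2 ?_ ?_ ?_
          k A hA
        · omega
        · intro _; omega
        · intro h'; omega

/-- **`NTS (𝔄 J₀(N)[p^k])`**, `p` odd, `p ∤ N` -/
theorem s59psly_nts_jzero (N : ℕ) [NeZero N] {p : ℕ} (hp : p.Prime) (hp2 : p ≠ 2)
    (hpN : ¬ p ∣ N) (A : ValuationSubring (AlgebraicClosure ℚ)) (hA : A.LiesOverPrime p)
    (k : ℕ) :
    NTS (A.inertiaSubgroupIn ℚ) (torsAct (JZero N) ((p : ℤ) ^ k))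
      (ntsSpan (A.inertiaSubgroupIn ℚ) (torsAct (JZero N) ((p : ℤ) ^ k)) ⊤) := by
  obtain ⟨Ht, hloc⟩ := s59psly_hasLocalHopf N p hp hpN k A hA
  haveI := s19f_finite N p hp.ne_zero k
  have hH := s59pslb_hopf_of_local hp hA (s19f_cont N p hp.ne_zero k) hloc
  have hpow : ∃ m : ℕ, ∀ x : Submodule.torsionBy ℤ (JZero N) ((p : ℤ) ^ k), p ^ m • x = 0 :=
    ⟨k, s59pslj_pow_smul p k⟩
  rw [← s59pslgc_conn_eq_span hp hp2 hA hpow hH]
  exact s59pslgc_nts_conn hp hp2 hA hpow hH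

end NTSJ

/-! ### 2. The two models of `J[p^m]` -/

section Models

variable (J : Type) [AddCommGroup J] [Module HeckeAlg J] [DistribMulAction GQ J] (p m : ℕ)

/-- `S32.tors J p m ≃+ Submodule.torsionBy ℤ J (p^m)` -/
def s59pslyE : ↥(tors J p m) ≃+ ↥(Submodule.torsionBy ℤ J ((p : ℤ) ^ m)) where
  toFun z := ⟨(z : J), by
    rw [Submodule.mem_torsionBy_iff, ← s19f_cast, natCast_zsmul]
    exact z.2⟩
  invFun y := ⟨(y : J), s19f_nsmul_of_mem p m y.2⟩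
  left_inv _ := rfl
  right_inv _ := rfl
  map_add' _ _ := rfl

variable {J p m}

@[simp] theorem s59pslyE_coe (z : ↥(tors J p m)) : ((s59pslyE J p m z : _) : J) = (z : J) := rfl

@[simp] theorem s59pslyE_symm_coe (y : ↥(Submodule.torsionBy ℤ J ((p : ℤ) ^ m))) :
    (((s59pslyE J p m).symm y : _) : J) = (y : J) := rfl

theorem s59pslyE_smul (σ : GQ) (z : ↥(tors J p m)) :
    s59pslyE J p m (σ • z) = torsAct J ((p : ℤ) ^ m) σ (s59pslyE J p m z) := rfl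

theorem s59pslyE_symm_smul (σ : GQ) (y : ↥(Submodule.torsionBy ℤ J ((p : ℤ) ^ m))) :
    (s59pslyE J p m).symm (torsAct J ((p : ℤ) ^ m) σ y) = σ • (s59pslyE J p m).symm y := rfl

variable (J p m)

/-- the Galois action on `S32.tors J p m`, as a plain map -/
def s59pslyAct (σ : GQ) (z : ↥(tors J p m)) : ↥(tors J p m) := σ • z

variable {J p m}

/-- `NTS` in the `S32.tors`-form -/
theorem s59psly_nts_tors (I : Subgroup GQ)
    (h : NTS I (torsAct J ((p : ℤ) ^ m)) (ntsSpan I (torsAct J ((p : ℤ) ^ m)) ⊤)) :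
    NTS I (s59pslyAct J p m) (ntsSpan I (s59pslyAct J p m) ⊤) := by
  refine NTS.comap_of_injective (actF := s59pslyAct J p m) (actX := torsAct J ((p : ℤ) ^ m))
    (s59pslyE J p m).toAddMonoidHom (s59pslyE J p m).injective (fun _ _ _ => rfl) h
    (ntsStable_ntsSpan I (s59pslyAct J p m) (fun σ x x' => smul_add σ x x')
      (fun σ τ x => mul_smul σ τ x) ⊤) ?_
  exact (map_ntsSpan_le (actF := s59pslyAct J p m) (actX := torsAct J ((p : ℤ) ^ m))
    (s59pslyE J p m).toAddMonoidHom (fun _ _ _ => rfl) ⊤).trans (ntsSpan_mono le_top)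

/-- the operator `Ψ = φ² − T_p φ + p` on `S32.tors J p m` -/
def s59pslyPsi (hp : p.Prime) (φ : GQ) (z : ↥(tors J p m)) : ↥(tors J p m) :=
  φ • φ • z - heckeGen ⟨p, hp⟩ • (φ • z) + p • z

/-- Eichler–Shimura at `p` modulo the inertia span, in the `S32.tors`-form -/
theorem s59psly_psi_tors (I : Subgroup GQ) (hp : p.Prime) (φ : GQ)
    (hΨ : ∀ (x : J) (y : ↥(Submodule.torsionBy ℤ J ((p : ℤ) ^ m))),
      (y : J) = φ • φ • x - heckeGen ⟨p, hp⟩ • (φ • x) + p • x →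
        y ∈ ntsSpan I (torsAct J ((p : ℤ) ^ m)) ⊤)
    (z : ↥(tors J p m)) : s59pslyPsi hp φ z ∈ ntsSpan I (s59pslyAct J p m) ⊤ := by
  have h1 : s59pslyE J p m (s59pslyPsi hp φ z) ∈ ntsSpan I (torsAct J ((p : ℤ) ^ m)) ⊤ :=
    hΨ (z : J) _ rfl
  have h2 := map_ntsSpan_le (actF := torsAct J ((p : ℤ) ^ m)) (actX := s59pslyAct J p m)
    (I := I) (s59pslyE J p m).symm.toAddMonoidHom (fun _ _ _ => rfl) ⊤
    ⟨_, h1, rfl⟩
  have h3 : (s59pslyE J p m).symm.toAddMonoidHom (s59pslyE J p m (s59pslyPsi hp φ z)) =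
      s59pslyPsi hp φ z := (s59pslyE J p m).symm_apply_apply _
  rw [h3] at h2
  exact ntsSpan_mono le_top h2

end Models

/-! ### 3. (ESp) on the `𝒪[G]`-span of a `T_p`-eigenvector -/

section Esp

variable {J : Type} [AddCommGroup J] [Module HeckeAlg J] [DistribMulAction GQ J] {p m : ℕ}
  [Fact p.Prime] {𝒪 : Type} [CommRing 𝒪]

/-- Galois and Hecke commute on `𝒪 ⊗_ℤ J[p^m]` -/
theorem s59psly_comm (hcomm : ∀ (σ : GQ) (t : HeckeAlg) (x : J), σ • t • x = t • σ • x)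
    (g : GQ) (h : HeckeAlg) (x : 𝒪 ⊗[ℤ] ↥(tors J p m)) :
    s59pslchR J 𝒪 p m g (s59pslchT J 𝒪 p m h x) = s59pslchT J 𝒪 p m h (s59pslchR J 𝒪 p m g x) := by
  induction x using TensorProduct.induction_on with
  | zero => simp
  | tmul a z =>
    rw [s59pslchT_tmul, s59pslchR_tmul, s59pslchR_tmul, s59pslchT_tmul]
    congr 1
    exact Subtype.ext (hcomm g h (z : J))
  | add a b ha hb => rw [map_add, map_add, map_add, map_add, ha, hb]

/-- the operator `Ψ` on `𝒪 ⊗_ℤ J[p^m]` -/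
def s59pslyPsiX (𝒪 : Type) [CommRing 𝒪] (hp : p.Prime) (φ : GQ) :
    Module.End 𝒪 (𝒪 ⊗[ℤ] ↥(tors J p m)) :=
  s59pslchR J 𝒪 p m φ * s59pslchR J 𝒪 p m φ
    - s59pslchT J 𝒪 p m (heckeGen ⟨p, hp⟩) * s59pslchR J 𝒪 p m φ + (p : 𝒪) • 1

theorem s59pslyPsiX_apply (hp : p.Prime) (φ : GQ) (x : 𝒪 ⊗[ℤ] ↥(tors J p m)) :
    s59pslyPsiX 𝒪 hp φ x = s59pslchR J 𝒪 p m φ (s59pslchR J 𝒪 p m φ x)
      - s59pslchT J 𝒪 p m (heckeGen ⟨p, hp⟩) (s59pslchR J 𝒪 p m φ x) + (p : 𝒪) • x := rfl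

theorem s59pslyPsiX_tmul (hp : p.Prime) (φ : GQ) (c : 𝒪) (z : ↥(tors J p m)) :
    s59pslyPsiX 𝒪 hp φ (c ⊗ₜ[ℤ] z) = c ⊗ₜ[ℤ] s59pslyPsi hp φ z := by
  rw [s59pslyPsiX_apply, s59pslchR_tmul, s59pslchR_tmul, s59pslchT_tmul, Nat.cast_smul_eq_nsmul,
    ← TensorProduct.tmul_smul, ← TensorProduct.tmul_sub, ← TensorProduct.tmul_add]
  rfl

/-- **(ESp), abstract `J`**: `NTS (𝔄 J[p^m])` and `Ψ J[p^m] ⊆ 𝔄 J[p^m]` give
`r φ (r φ y') − a • r φ y' + p • y' ∈ 𝔄 Y` on the `𝒪[G]`-span `Y` of a `T_p`-eigenvector. -/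
theorem s59psly_esp_abs (I : Subgroup GQ) (hp : p.Prime) (φ : GQ)
    (hcomm : ∀ (σ : GQ) (t : HeckeAlg) (x : J), σ • t • x = t • σ • x)
    (hNTS : NTS I (torsAct J ((p : ℤ) ^ m)) (ntsSpan I (torsAct J ((p : ℤ) ^ m)) ⊤))
    (hΨ : ∀ (x : J) (y : ↥(Submodule.torsionBy ℤ J ((p : ℤ) ^ m))),
      (y : J) = φ • φ • x - heckeGen ⟨p, hp⟩ • (φ • x) + p • x →
        y ∈ ntsSpan I (torsAct J ((p : ℤ) ^ m)) ⊤)
    (a : 𝒪) (y : 𝒪 ⊗[ℤ] ↥(tors J p m))
    (hy : s59pslchT J 𝒪 p m (heckeGen ⟨p, hp⟩) y = a • y)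
    {y' : 𝒪 ⊗[ℤ] ↥(tors J p m)} (hy' : y' ∈ s59pslchSpan (s59pslchR J 𝒪 p m) y) :
    s59pslchR J 𝒪 p m φ (s59pslchR J 𝒪 p m φ y') - a • s59pslchR J 𝒪 p m φ y' + (p : 𝒪) • y' ∈
      ntsSpan I (fun σ x => s59pslchR J 𝒪 p m σ x)
        (s59pslchSpan (s59pslchR J 𝒪 p m) y).toAddSubgroup := by
  set r := s59pslchR J 𝒪 p m with hr
  set τ := s59pslchT J 𝒪 p m with hτ
  have hT : ∀ y'' ∈ s59pslchSpan r y, τ (heckeGen ⟨p, hp⟩) y'' = a • y'' := fun y'' hy'' =>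
    s59pslch_eigen r τ (fun g h x => s59psly_comm hcomm g h x) y _ a hy hy''
  have hφy' : r φ y' ∈ s59pslchSpan r y := s59pslch_stable r y φ hy'
  have hEq : s59pslyPsiX 𝒪 hp φ y' = r φ (r φ y') - a • r φ y' + (p : 𝒪) • y' := by
    rw [s59pslyPsiX_apply, ← hτ, ← hr, hT _ hφy']
  rw [← hEq]
  have hmem : s59pslyPsiX 𝒪 hp φ y' ∈ (s59pslchSpan r y).toAddSubgroup := by
    rw [hEq]
    exact Submodule.add_mem _ (Submodule.sub_mem _ (s59pslch_stable r y φ hφy')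
      (Submodule.smul_mem _ a hφy')) (Submodule.smul_mem _ _ hy')
  let f : 𝒪 → ↥(tors J p m) →+ 𝒪 ⊗[ℤ] ↥(tors J p m) := fun c =>
    (TensorProduct.mk ℤ 𝒪 ↥(tors J p m) c).toAddMonoidHom
  have hgen : ∀ x : 𝒪 ⊗[ℤ] ↥(tors J p m),
      x ∈ ⨆ c, (⊤ : AddSubgroup ↥(tors J p m)).map (f c) := by
    intro x
    induction x using TensorProduct.induction_on with
    | zero => exact zero_mem _
    | tmul c z => exact AddSubgroup.mem_iSup_of_mem c ⟨z, AddSubgroup.mem_top z, rfl⟩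
    | add x₁ x₂ h₁ h₂ => exact add_mem h₁ h₂
  exact s59psln_esp (I := I) (actM := s59pslyAct J p m) (actX := fun σ x => r σ x) f
    (fun c σ _ z => rfl) (fun σ _ x₁ x₂ => map_add (r σ) x₁ x₂)
    (fun σ z z' => smul_add σ z z') (fun σ σ' z => mul_smul σ σ' z) hgen
    (s59psly_nts_tors I hNTS) (s59pslyPsi hp φ) (s59pslyPsiX 𝒪 hp φ).toAddMonoidHom
    (fun c z => s59pslyPsiX_tmul hp φ c z) (s59psly_psi_tors I hp φ hΨ)
    (fun σ _ b hb => s59pslch_stable r y σ hb) y' hmem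

/-- the restriction of the Galois action to the `𝒪[G]`-span of `y` -/
def s59pslyRes {X : Type*} [AddCommGroup X] [Module 𝒪 X] (r : GQ →* Module.End 𝒪 X) (y : X) :
    GQ →* Module.End 𝒪 ↥(s59pslchSpan r y) where
  toFun g := (r g).restrict (fun _ hy' => s59pslch_stable r y g hy')
  map_one' := by
    ext ⟨x, hx⟩
    simp
  map_mul' g h := by
    ext ⟨x, hx⟩
    simp [map_mul]

@[simp] theorem s59pslyRes_coe {X : Type*} [AddCommGroup X] [Module 𝒪 X]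
    (r : GQ →* Module.End 𝒪 X) (y : X) (g : GQ) (y' : ↥(s59pslchSpan r y)) :
    ((s59pslyRes r y g y' : ↥(s59pslchSpan r y)) : X) = r g (y' : X) := rfl

/-- the inertia span of a submodule, computed in the ambient module, is the inertia span
`s59pslfSpan` of the restricted action -/
theorem s59psly_span_sub {X : Type*} [AddCommGroup X] [Module 𝒪 X]
    (r : GQ →* Module.End 𝒪 X) (y : X) (I : Subgroup GQ) {w : X}
    (hw : w ∈ ntsSpan I (fun σ x => r σ x) (s59pslchSpan r y).toAddSubgroup) :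
    ∃ hwY : w ∈ s59pslchSpan r y,
      (⟨w, hwY⟩ : ↥(s59pslchSpan r y)) ∈ s59pslfSpan (s59pslyRes r y) I := by
  unfold ntsSpan at hw
  induction hw using AddSubgroup.closure_induction with
  | mem w hw =>
    obtain ⟨σ, hσ, b, hb, rfl⟩ := hw
    refine ⟨Submodule.sub_mem _ (s59pslch_stable r y σ hb) hb, ?_⟩
    exact AddSubgroup.subset_closure ⟨σ, hσ, ⟨b, hb⟩, rfl⟩
  | zero => exact ⟨Submodule.zero_mem _, zero_mem _⟩
  | add a b _ _ ha hb =>
    obtain ⟨ha1, ha2⟩ := ha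
    obtain ⟨hb1, hb2⟩ := hb
    exact ⟨Submodule.add_mem _ ha1 hb1, add_mem ha2 hb2⟩
  | neg a _ ha =>
    obtain ⟨ha1, ha2⟩ := ha
    exact ⟨Submodule.neg_mem _ ha1, neg_mem ha2⟩

/-- **(ESp), abstract `J`, on the type `↥Y`** (the shape of `s59pslfFin`). -/
theorem s59psly_esp_sub_abs (I : Subgroup GQ) (hp : p.Prime) (φ : GQ)
    (hcomm : ∀ (σ : GQ) (t : HeckeAlg) (x : J), σ • t • x = t • σ • x)
    (hNTS : NTS I (torsAct J ((p : ℤ) ^ m)) (ntsSpan I (torsAct J ((p : ℤ) ^ m)) ⊤))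
    (hΨ : ∀ (x : J) (y : ↥(Submodule.torsionBy ℤ J ((p : ℤ) ^ m))),
      (y : J) = φ • φ • x - heckeGen ⟨p, hp⟩ • (φ • x) + p • x →
        y ∈ ntsSpan I (torsAct J ((p : ℤ) ^ m)) ⊤)
    (a : 𝒪) (y : 𝒪 ⊗[ℤ] ↥(tors J p m))
    (hy : s59pslchT J 𝒪 p m (heckeGen ⟨p, hp⟩) y = a • y)
    (y' : ↥(s59pslchSpan (s59pslchR J 𝒪 p m) y)) :
    s59pslyRes (s59pslchR J 𝒪 p m) y φ (s59pslyRes (s59pslchR J 𝒪 p m) y φ y')
      - a • s59pslyRes (s59pslchR J 𝒪 p m) y φ y' + (p : 𝒪) • y' ∈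
      s59pslfSpan (s59pslyRes (s59pslchR J 𝒪 p m) y) I := by
  obtain ⟨hwY, hw⟩ := s59psly_span_sub (s59pslchR J 𝒪 p m) y I
    (s59psly_esp_abs I hp φ hcomm hNTS hΨ a y hy y'.2)
  exact hw

end Esp

/-! ### 4. `J = J₀(N)` -/

section JZero

variable (N : ℕ) [NeZero N] {𝒪 : Type} [CommRing 𝒪]

/-- **(ESp) for `J₀(N)`, every odd prime `p ∤ N`** (ambient form). -/
theorem s59psly_esp (hcomm : HeckeOperatorsCommuteBar N) :
    letI := heckeModuleBar N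
    ∀ (_ : SMulCommClass (AlgebraicClosure ℚ ≃ₐ[ℚ] AlgebraicClosure ℚ) HeckeAlg (JZero N))
      (p : ℕ) (hp : p.Prime) (_ : p ≠ 2) (_ : ¬ p ∣ N)
      (A : ValuationSubring (AlgebraicClosure ℚ)) (_ : A.LiesOverPrime p)
      (φ : GQ) (_ : A.IsFrobeniusAt φ p) (m : ℕ) (a : 𝒪)
      (y : 𝒪 ⊗[ℤ] ↥(tors (JZero N) p m)),
      s59pslchT (JZero N) 𝒪 p m (heckeGen ⟨p, hp⟩) y = a • y →
      ∀ y' ∈ s59pslchSpan (s59pslchR (JZero N) 𝒪 p m) y,
        s59pslchR (JZero N) 𝒪 p m φ (s59pslchR (JZero N) 𝒪 p m φ y')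
          - a • s59pslchR (JZero N) 𝒪 p m φ y' + (p : 𝒪) • y' ∈
        ntsSpan (A.inertiaSubgroupIn ℚ) (fun σ x => s59pslchR (JZero N) 𝒪 p m σ x)
          (s59pslchSpan (s59pslchR (JZero N) 𝒪 p m) y).toAddSubgroup := by
  letI := heckeModuleBar N
  intro hsmul p hp hp2 hpN A hA φ hφ m a y hy y' hy'
  haveI : Fact p.Prime := ⟨hp⟩
  exact s59psly_esp_abs (A.inertiaSubgroupIn ℚ) hp φ (fun σ t x => smul_comm σ t x)
    (s59psly_nts_jzero N hp hp2 hpN A hA m)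
    (fun x z hz => s59pslt_psi_mem_span N hcomm hsmul p hp hp2 hpN A hA φ hφ m x z hz)
    a y hy hy'

/-- **(ESp) for `J₀(N)`, every odd prime `p ∤ N`, on the type `↥Y`** (the shape of helper5's
`s59pslfFin`: `Y = ↥(s59pslchSpan r y)`, `r = s59pslyRes …`). -/
theorem s59psly_esp_sub (hcomm : HeckeOperatorsCommuteBar N) :
    letI := heckeModuleBar N
    ∀ (_ : SMulCommClass (AlgebraicClosure ℚ ≃ₐ[ℚ] AlgebraicClosure ℚ) HeckeAlg (JZero N))
      (p : ℕ) (hp : p.Prime) (_ : p ≠ 2) (_ : ¬ p ∣ N)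
      (A : ValuationSubring (AlgebraicClosure ℚ)) (_ : A.LiesOverPrime p)
      (φ : GQ) (_ : A.IsFrobeniusAt φ p) (m : ℕ) (a : 𝒪)
      (y : 𝒪 ⊗[ℤ] ↥(tors (JZero N) p m)),
      s59pslchT (JZero N) 𝒪 p m (heckeGen ⟨p, hp⟩) y = a • y →
      ∀ y' : ↥(s59pslchSpan (s59pslchR (JZero N) 𝒪 p m) y),
        s59pslyRes (s59pslchR (JZero N) 𝒪 p m) y φ
            (s59pslyRes (s59pslchR (JZero N) 𝒪 p m) y φ y')
          - a • s59pslyRes (s59pslchR (JZero N) 𝒪 p m) y φ y' + (p : 𝒪) • y' ∈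
        s59pslfSpan (s59pslyRes (s59pslchR (JZero N) 𝒪 p m) y) (A.inertiaSubgroupIn ℚ) := by
  letI := heckeModuleBar N
  intro hsmul p hp hp2 hpN A hA φ hφ m a y hy y'
  haveI : Fact p.Prime := ⟨hp⟩
  exact s59psly_esp_sub_abs (A.inertiaSubgroupIn ℚ) hp φ (fun σ t x => smul_comm σ t x)
    (s59psly_nts_jzero N hp hp2 hpN A hA m)
    (fun x z hz => s59pslt_psi_mem_span N hcomm hsmul p hp hp2 hpN A hA φ hφ m x z hz)
    a y hy y'

end JZero

end Fermat.Agent.S59
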