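import Fermat.Agent.S59.PStep.LgEsp

/-!
# S59 / M5 (P-STEP), LG-P, route LG-FIN: (ESp) and LG-FIN with `T_p` as an OPERATOR

Twin of `LgEsp.lean` in which the Hecke operator at `p` is an arbitrary additive endomorphism `Tp`
of `J[p^m]` commuting with the Galois action (on the proved Eichler–Shimura package
`PDiv N p` the polynomial variable `heckeGen p` acts as `0`, so the true `T_p` is not of the form
`heckeGen p • ·`).

* `s59pslesPsiT J p m φ Tp c` : the operator `φ² − Tp φ + c` on `J[p^m]`;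
* `s59pslesp_psiT_bc` : its base change to `𝒪 ⊗ J[p^m]`;
* `s59pslesp_eigenT` : `Tp ⊗ 𝒪` acts as `a` on the `𝒪[G]`-span of an eigenvector;
* `s59pslesp_espT` : **(ESp)** on the eigen-span;
* `s59pslesp_finT` : **LG-FIN** from the finite level data (`Tp`, `Z`, `y` at every precision).
-/

set_option autoImplicit false
set_option linter.unusedSectionVars false
set_option linter.unusedVariables false

noncomputable section

namespace Fermat.Agent.S59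

open ModularCurve Fermat.Agent.ES Fermat.Agent.S31 Fermat.Agent.S30 Fermat.Agent.S32
  Fermat.Agent.S33 IsLocalRing
open scoped TensorProduct

section EspT

variable {p : ℕ} [Fact p.Prime] {N : ℕ} [NeZero N] (J : Type) [AddCommGroup J]
  [Module HeckeAlg J] [DistribMulAction GQ J] {S : Finset ℕ} (𝒪 : Type) [CommRing 𝒪]

/-- the operator `φ² − Tp φ + c` on `J[p^m]` -/
def s59pslesPsiT (p m : ℕ) (φ : GQ) (Tp : Module.End ℤ ↥(tors J p m)) (c : ℕ) :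
    Module.End ℤ ↥(tors J p m) :=
  galEnd J p m φ * galEnd J p m φ - Tp * galEnd J p m φ
    + c • (1 : Module.End ℤ ↥(tors J p m))

variable {J 𝒪}

theorem s59pslesPsiT_apply (m : ℕ) (φ : GQ) (Tp : Module.End ℤ ↥(tors J p m)) (c : ℕ)
    (z : ↥(tors J p m)) :
    s59pslesPsiT J p m φ Tp c z = φ • φ • z - Tp (φ • z) + c • z := rfl

/-- the base change of `φ² − Tp φ + c` -/
theorem s59pslesp_psiT_bc (m : ℕ) (φ : GQ) (Tp : Module.End ℤ ↥(tors J p m)) (c : ℕ)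
    (x : 𝒪 ⊗[ℤ] ↥(tors J p m)) :
    (s59pslesPsiT J p m φ Tp c).baseChange 𝒪 x =
      s59pslchR J 𝒪 p m φ (s59pslchR J 𝒪 p m φ x) - Tp.baseChange 𝒪 (s59pslchR J 𝒪 p m φ x)
        + (c : 𝒪) • x := by
  induction x using TensorProduct.induction_on with
  | zero => simp
  | tmul a z =>
    rw [LinearMap.baseChange_tmul, s59pslesPsiT_apply, s59pslchR_tmul, s59pslchR_tmul,
      LinearMap.baseChange_tmul, Nat.cast_smul_eq_nsmul, TensorProduct.tmul_add,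
      TensorProduct.tmul_sub, TensorProduct.tmul_smul c a z]
  | add x y hx hy =>
    rw [map_add, hx, hy, map_add, map_add, map_add, smul_add]
    abel

/-- `Tp ⊗ 𝒪` commutes with the Galois action -/
theorem s59pslesp_commT (m : ℕ) (Tp : Module.End ℤ ↥(tors J p m))
    (hTp : ∀ (g : GQ) (z : ↥(tors J p m)), g • Tp z = Tp (g • z)) (g : GQ)
    (x : 𝒪 ⊗[ℤ] ↥(tors J p m)) :
    s59pslchR J 𝒪 p m g (Tp.baseChange 𝒪 x) = Tp.baseChange 𝒪 (s59pslchR J 𝒪 p m g x) := by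
  induction x using TensorProduct.induction_on with
  | zero => simp
  | tmul a z =>
    rw [LinearMap.baseChange_tmul, s59pslchR_tmul, s59pslchR_tmul, LinearMap.baseChange_tmul,
      hTp]
  | add a b ha hb => rw [map_add, map_add, map_add, map_add, ha, hb]

/-- `Tp ⊗ 𝒪` acts as `a` on the `𝒪[G]`-span of an eigenvector -/
theorem s59pslesp_eigenT (m : ℕ) (Tp : Module.End ℤ ↥(tors J p m))
    (hTp : ∀ (g : GQ) (z : ↥(tors J p m)), g • Tp z = Tp (g • z)) (a : 𝒪)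
    (y : 𝒪 ⊗[ℤ] ↥(tors J p m)) (hy : Tp.baseChange 𝒪 y = a • y)
    {y' : 𝒪 ⊗[ℤ] ↥(tors J p m)} (hy' : y' ∈ s59pslchSpan (s59pslchR J 𝒪 p m) y) :
    Tp.baseChange 𝒪 y' = a • y' := by
  unfold s59pslchSpan at hy'
  induction hy' using Submodule.span_induction with
  | mem x hx =>
    obtain ⟨g', rfl⟩ := hx
    change Tp.baseChange 𝒪 (s59pslchR J 𝒪 p m g' y) = a • s59pslchR J 𝒪 p m g' y
    rw [← s59pslesp_commT m Tp hTp, hy, map_smul]
  | zero => rw [map_zero, smul_zero]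
  | add u v _ _ hu hv => rw [map_add, hu, hv, smul_add]
  | smul c' u _ hu => rw [map_smul, hu, smul_comm]

/-- **(ESp) on the eigen-span**, `T_p` an operator. -/
theorem s59pslesp_espT (m : ℕ) (I : Subgroup GQ) (φ : GQ) (Tp : Module.End ℤ ↥(tors J p m))
    (hTp : ∀ (g : GQ) (z : ↥(tors J p m)), g • Tp z = Tp (g • z))
    (c : ℕ) (a : 𝒪)
    {Z : AddSubgroup ↥(tors J p m)}
    (hZ : NTS I (fun σ (z : ↥(tors J p m)) => σ • z) Z)
    (hst : ntsStable I (fun σ (z : ↥(tors J p m)) => σ • z) Z)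
    (hΨ : ∀ z, s59pslesPsiT J p m φ Tp c z ∈ Z)
    (y : 𝒪 ⊗[ℤ] ↥(tors J p m)) (hy : Tp.baseChange 𝒪 y = a • y)
    (y' : ↥(s59pslchSpan (s59pslchR J 𝒪 p m) y)) :
    s59pslesRY m y φ (s59pslesRY m y φ y') - a • s59pslesRY m y φ y' + (c : 𝒪) • y'
      ∈ s59pslfSpan (s59pslesRY m y) I := by
  have hφy' : s59pslchR J 𝒪 p m φ (y' : 𝒪 ⊗[ℤ] ↥(tors J p m)) ∈
      s59pslchSpan (s59pslchR J 𝒪 p m) y := s59pslch_stable _ y φ y'.2
  have hT := s59pslesp_eigenT m Tp hTp a y hy hφy'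
  have hval : (s59pslesPsiT J p m φ Tp c).baseChange 𝒪 (y' : 𝒪 ⊗[ℤ] ↥(tors J p m)) =
      ((s59pslesRY m y φ (s59pslesRY m y φ y') - a • s59pslesRY m y φ y' + (c : 𝒪) • y' :
        ↥(s59pslchSpan (s59pslchR J 𝒪 p m) y)) : 𝒪 ⊗[ℤ] ↥(tors J p m)) := by
    rw [s59pslesp_psiT_bc, hT]
    rfl
  have hYst : ntsStable I (s59pslesAct 𝒪 fun σ => galEnd J p m σ)
      (s59pslchSpan (s59pslchR J 𝒪 p m) y).toAddSubgroup :=
    fun σ _ b hb => s59pslch_stable _ y σ hb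
  have hmem : (s59pslesPsiT J p m φ Tp c).baseChange 𝒪 (y' : 𝒪 ⊗[ℤ] ↥(tors J p m)) ∈
      (s59pslchSpan (s59pslchR J 𝒪 p m) y).toAddSubgroup := by
    rw [hval]
    exact Subtype.property _
  have h1 := s59pslesp_mem_span (𝒪 := 𝒪) (fun σ => galEnd J p m σ) I hZ hst
    (s59pslesPsiT J p m φ Tp c) hΨ hYst hmem
  obtain ⟨v, hv, hvw⟩ := s59pslesp_span_sub m y I h1
  have : v = s59pslesRY m y φ (s59pslesRY m y φ y') - a • s59pslesRY m y φ y' + (c : 𝒪) • y' :=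
    Subtype.ext (hvw.trans hval)
  rw [← this]
  exact hv

end EspT

section FinT

open Polynomial

variable {p : ℕ} [Fact p.Prime] {N : ℕ} [NeZero N] {J : Type} [AddCommGroup J]
  [Module HeckeAlg J] [DistribMulAction GQ J] {S : Finset ℕ} {𝒪 : Type} [CommRing 𝒪]
  [IsLocalRing 𝒪] {χ : CuspForm.heckeAlgebra N 2 (↑S : Set ℕ) →+* 𝒪}

/-- **LG-FIN from the finite level data**, `T_p` an operator: for every precision `m'` a level
`m`, a good level `n ≥ m, k`, an endomorphism `Tp` of `J[p^m]` commuting with Galois, a stable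
subgroup `Z ≤ J[p^m]` with `NTS` containing the values of `φ² − Tp φ + p`, and a Hecke eigenvector
`y ∈ 𝒪 ⊗ J[p^m]` with `Tp y = a y` whose annihilator lies in `𝔪 ^ m'`. -/
theorem s59pslesp_finT (hcheb : Cheb.WeakChebotarev) (hJ : ESDataInf N p J)
    (hgoodN : ∀ r : ℕ, r.Prime → r ∉ S → ¬ r ∣ N)
    (hgood : ∀ r : ℕ, r.Prime → r ∉ S → ¬ r ∣ N * p)
    (ρ : GaloisRepAdic 𝒪) (hdet : ρ.DetIsCyclotomic p)
    (hρ : ∀ (ℓ : ℕ) (hℓ : ℓ.Prime) (hℓN : ¬ ℓ ∣ N) (hℓS : ℓ ∉ (↑S : Set ℕ)),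
      ∀ 𝔄 : ValuationSubring (AlgebraicClosure ℚ), 𝔄.LiesOverPrime ℓ →
        ∀ σ : AlgebraicClosure ℚ ≃ₐ[ℚ] AlgebraicClosure ℚ, 𝔄.IsFrobeniusAt σ ℓ →
          LinearMap.charpoly (ρ.ρ σ) =
            X ^ 2 - C (χ (CuspForm.heckeAlgebra.T hℓ hℓN hℓS)) * X + C ((ℓ : 𝒪)))
    (a : 𝒪)
    (P : ValuationSubring (AlgebraicClosure ℚ)) (hP : P.LiesOverPrime p)
    (φ : GQ) (hφ : P.IsFrobeniusAt φ p)
    (hdata : ∀ m' : ℕ, ∃ k n m : ℕ, k ≤ n ∧ m ≤ n ∧ Good p J S χ k n ∧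
      maximalIdeal 𝒪 ^ k ≤ Ideal.span {(p : 𝒪) ^ m} ∧
      ∃ Tp : Module.End ℤ ↥(tors J p m),
        (∀ (g : GQ) (z : ↥(tors J p m)), g • Tp z = Tp (g • z)) ∧
      ∃ Z : AddSubgroup ↥(tors J p m),
        NTS (P.inertiaSubgroupIn ℚ) (fun σ (z : ↥(tors J p m)) => σ • z) Z ∧
        ntsStable (P.inertiaSubgroupIn ℚ) (fun σ (z : ↥(tors J p m)) => σ • z) Z ∧
        (∀ z, s59pslesPsiT J p m φ Tp p z ∈ Z) ∧
        ∃ y : 𝒪 ⊗[ℤ] ↥(tors J p m),
          (∀ h ∈ MvPolynomial.supported ℤ (outsideVars (↑S : Set ℕ)),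
            s59pslchT J 𝒪 p m h y = chiHom S χ h • y) ∧
          Tp.baseChange 𝒪 y = a • y ∧
          ∀ c : 𝒪, c • y = 0 → c ∈ maximalIdeal 𝒪 ^ m') :
    s59pslfFin ρ p a := by
  intro m'
  obtain ⟨k, n, m, hkn, hmn, hG, hkm, Tp, hTp, Z, hZ, hst, hΨ, y, hy, hyT, hbig⟩ := hdata m'
  refine ⟨P, hP, φ, hφ, ↥(s59pslchSpan (s59pslchR J 𝒪 p m) y), inferInstance, inferInstance,
    s59pslesRY m y, ?_, ?_, ?_⟩
  · exact fun g => s59pslesp_ch hcheb hJ hgoodN hgood ρ hdet hρ hkn hmn hG hkm y hy g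
  · exact fun y' => s59pslesp_espT m (P.inertiaSubgroupIn ℚ) φ Tp hTp p a hZ hst hΨ y hyT y'
  · intro c hc
    refine hbig c ?_
    have := hc ⟨y, s59pslch_self_mem _ y⟩
    exact congrArg Subtype.val this

end FinT

end Fermat.Agent.S59
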