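/-
S59, wall M5 = P-STEP, leaf LG-P, **IRR-TR** (helper44): the trace form of the irreducibility of
`ρ̄` for the representations `ρ_π` of a Hecke–Galois datum.  Ledger: NOTES/S59-M5.md.

`ρ : G_ℚ → GL₂(A)` over a local ring, residually absolutely irreducible, ordinary at `P ∣ p` with
line `L = A b₀`, `σ₀` in the inertia group of `P` with `u = det ρ σ₀ − 1` a unit, `u' = u⁻¹`.
`α g = u'(tr ρ(σ₀ g) − tr ρ g)`, `κ (x, y) = α (x y) − α x · α y` (`s59pslfKappa`,
`S59/PStep/LGFin.lean`).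

* `s59pslir_kappa_matrix` : in the basis `b` (`M(σ₀) = [[d₀, β], [0, 1]]`), with `c = u' β`:
  `κ (x, y) = C_y · (B_x + c (D_x − A_x) − c² C_x)`   (`M(g) = [[A, B], [C, D]]`);
  (the second factor is the upper right entry of `x` in the basis `(b₀, b₁ − c b₀)` adapted to `σ₀`);
* `s59pslir_exists_unit` : for a residually absolutely irreducible `ρ` and a linear form `Λ` on
  `M₂(A)` with a unit value, some `Λ (M(g))` is a unit  (Burnside + Nakayama:
  `S31.span_range_toMatrix_eq_top`);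
* `s59pslir_irr` : **IRR-TR** for every residually absolutely irreducible `ρ` which is ordinary at
  `p` and has `det ρ σ₀ − 1` a unit at every place over `p`;
* **`s59pslir_main : s59ps_StmtLGIrr 𝒪`**  (UNCONDITIONAL);
* `s59pslir_lgp_of_fin : s59ps_StmtLGFin 𝒪 → s59ps_StmtLGP 𝒪`  (LG-P ⇐ LG-FIN alone).

Sorry-free; axioms: propext, Classical.choice, Quot.sound.
-/
import Fermat.Agent.S59.PStep.LGFin
import Fermat.Agent.S59.HGD.Abs
import Fermat.Agent.S59.FinERes
import Fermat.Agent.S31.TraceKernel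

set_option autoImplicit false
set_option linter.unusedSectionVars false
set_option linter.unusedVariables false
set_option linter.style.longLine false
set_option linter.style.haveILetI false

noncomputable section

namespace Fermat.Agent.S59

open IsLocalRing
open scoped TensorProduct

/-- `ℚ̄` -/
local notation "Qbar" => AlgebraicClosure ℚ

/-! ### The matrix form of `κ` -/

section Alg

variable {A : Type} [CommRing A] {V : Type} [AddCommGroup V] [Module A V]

/-- **the matrix form of `κ`**: `κ (x, y) = C_y · (B_x + c (D_x − A_x) − c² C_x)`. -/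
theorem s59pslir_kappa_matrix (b : Module.Basis (Fin 2) A V) (s x y : Module.End A V) (u' : A)
    (hs10 : LinearMap.toMatrix b b s 1 0 = 0) (hs11 : LinearMap.toMatrix b b s 1 1 = 1)
    (hu : (LinearMap.det s - 1) * u' = 1) :
    u' * (LinearMap.trace A V (s * (x * y)) - LinearMap.trace A V (x * y)) -
        (u' * (LinearMap.trace A V (s * x) - LinearMap.trace A V x)) *
          (u' * (LinearMap.trace A V (s * y) - LinearMap.trace A V y)) =
      LinearMap.toMatrix b b y 1 0 *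
        (LinearMap.toMatrix b b x 0 1 +
          (u' * LinearMap.toMatrix b b s 0 1) *
            (LinearMap.toMatrix b b x 1 1 - LinearMap.toMatrix b b x 0 0) -
          (u' * LinearMap.toMatrix b b s 0 1) ^ 2 * LinearMap.toMatrix b b x 1 0) := by
  have hdet : LinearMap.det s = LinearMap.toMatrix b b s 0 0 := by
    rw [← LinearMap.det_toMatrix b, Matrix.det_fin_two, hs10, hs11]
    ring
  rw [hdet] at hu
  simp only [LinearMap.trace_eq_matrix_trace A b, LinearMap.toMatrix_mul, Matrix.trace_fin_two,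
    Matrix.mul_apply, Fin.sum_univ_two, hs10, hs11]
  linear_combination
    (-((LinearMap.toMatrix b b s 0 0 - 1) * u') *
        (LinearMap.toMatrix b b x 0 0 * LinearMap.toMatrix b b y 0 0) +
      LinearMap.toMatrix b b x 0 1 * LinearMap.toMatrix b b y 1 0 -
      (u' * LinearMap.toMatrix b b s 0 1) *
        (LinearMap.toMatrix b b x 1 0 * LinearMap.toMatrix b b y 0 0) -
      (u' * LinearMap.toMatrix b b s 0 1) *
        (LinearMap.toMatrix b b x 0 0 * LinearMap.toMatrix b b y 1 0)) * hu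

end Alg

/-! ### Burnside -/

section Res

variable {A : Type} [CommRing A] [IsLocalRing A]

/-- for a residually absolutely irreducible `ρ` and a linear form `Λ` on `M₂(A)` with a unit
value, some `Λ (M(g))` is a unit -/
theorem s59pslir_exists_unit (ρ : GaloisRepAdic A) (habs : ρ.residual.IsAbsolutelyIrreducible)
    (b : Module.Basis (Fin 2) A ρ.V) (Λ : Matrix (Fin 2) (Fin 2) A →ₗ[A] A)
    (M₀ : Matrix (Fin 2) (Fin 2) A) (h : IsUnit (Λ M₀)) :
    ∃ g : S59G, IsUnit (Λ (LinearMap.toMatrix b b (ρ.ρ g))) := by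
  by_contra hcon
  push Not at hcon
  have hspan := Fermat.Agent.S31.span_range_toMatrix_eq_top ρ habs b
  have hle : Submodule.span A (Set.range fun g : AlgebraicClosure ℚ ≃ₐ[ℚ] AlgebraicClosure ℚ =>
      LinearMap.toMatrix b b (ρ.ρ g)) ≤ Submodule.comap Λ (maximalIdeal A) := by
    rw [Submodule.span_le]
    rintro _ ⟨g, rfl⟩
    exact (mem_maximalIdeal _).2 (hcon g)
  rw [hspan] at hle
  have h1 : Λ M₀ ∈ maximalIdeal A := hle (Submodule.mem_top (x := M₀))
  exact (mem_maximalIdeal _).1 h1 h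

/-- **IRR-TR** for a residually absolutely irreducible representation which is ordinary at `p`
and has `det ρ σ₀ − 1` a unit at every place over `p`. -/
theorem s59pslir_irr (ρ : GaloisRepAdic A) (habs : ρ.residual.IsAbsolutelyIrreducible)
    (p : ℕ) [Fact p.Prime] (hp2 : p ≠ 2) (hord : ρ.IsOrdinaryAt p)
    (hu : ∀ P : ValuationSubring Qbar, P.LiesOverPrime p →
      IsUnit (LinearMap.det (ρ.ρ (s59dcot_sigma p hp2 P)) - 1)) :
    s59pslfIrr ρ p hp2 := by
  intro P hP
  obtain ⟨L, ⟨b, rfl⟩, hD, hI⟩ := hord P hP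
  obtain ⟨hI0, hD0, -⟩ := s59dcot_sigma_spec p hp2 P hP
  set σ₀ := s59dcot_sigma p hp2 P with hσ₀
  have hL : ρ.ρ σ₀ (b 0) ∈ (A ∙ b 0 : Submodule A ρ.V) :=
    hD σ₀ hD0 (b 0) (Submodule.mem_span_singleton_self _)
  have hz : ρ.ρ σ₀ (b 1) - (1 : A) • b 1 ∈ (A ∙ b 0 : Submodule A ρ.V) := by
    rw [one_smul]
    exact hI σ₀ hI0 (b 1)
  obtain ⟨hs10, hs11⟩ := s59pshp_shape b (ρ.ρ σ₀) 1 hL hz
  have hu' : (LinearMap.det (ρ.ρ σ₀) - 1) * Ring.inverse (LinearMap.det (ρ.ρ σ₀) - 1) = 1 :=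
    Ring.mul_inverse_cancel _ (hu P hP)
  -- the two linear forms
  set c : A := Ring.inverse (LinearMap.det (ρ.ρ σ₀) - 1) * LinearMap.toMatrix b b (ρ.ρ σ₀) 0 1
    with hc
  obtain ⟨y₀, hy₀⟩ := s59pslir_exists_unit ρ habs b (Matrix.entryLinearMap A A 1 0)
    (Matrix.single 1 0 1) (by
      rw [Matrix.entryLinearMap_apply, Matrix.single_apply_same]
      exact isUnit_one)
  obtain ⟨x₀, hx₀⟩ := s59pslir_exists_unit ρ habs b
    (Matrix.entryLinearMap A A 0 1 +
      c • (Matrix.entryLinearMap A A 1 1 - Matrix.entryLinearMap A A 0 0) -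
      c ^ 2 • Matrix.entryLinearMap A A 1 0)
    (Matrix.single 0 1 1) (by
      simp only [LinearMap.sub_apply, LinearMap.add_apply, LinearMap.smul_apply,
        Matrix.entryLinearMap_apply, Matrix.single_apply]
      simp)
  refine ⟨x₀, y₀, ?_⟩
  have hk : s59pslfKappa ρ σ₀ x₀ y₀ =
      LinearMap.toMatrix b b (ρ.ρ y₀) 1 0 *
        (LinearMap.toMatrix b b (ρ.ρ x₀) 0 1 +
          c * (LinearMap.toMatrix b b (ρ.ρ x₀) 1 1 - LinearMap.toMatrix b b (ρ.ρ x₀) 0 0) -
          c ^ 2 * LinearMap.toMatrix b b (ρ.ρ x₀) 1 0) := by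
    have h := s59pslir_kappa_matrix b (ρ.ρ σ₀) (ρ.ρ x₀) (ρ.ρ y₀)
      (Ring.inverse (LinearMap.det (ρ.ρ σ₀) - 1)) hs10 hs11 hu'
    rw [← h]
    unfold s59pslfKappa s59pslfAl s59pslfT s59pslfD
    simp only [map_mul]
  rw [hk]
  refine IsUnit.mul ?_ ?_
  · simpa only [Matrix.entryLinearMap_apply] using hy₀
  · simpa only [LinearMap.sub_apply, LinearMap.add_apply, LinearMap.smul_apply,
      Matrix.entryLinearMap_apply, smul_eq_mul] using hx₀

end Res

/-! ### IRR-TR for the representations of a Hecke–Galois datum -/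

section Main

variable (𝒪 : Type) [CommRing 𝒪] [IsDomain 𝒪] [IsDiscreteValuationRing 𝒪]
  [IsAdicComplete (maximalIdeal 𝒪) 𝒪]

/-- **IRR-TR**, unconditional. -/
theorem s59pslir_main : s59ps_StmtLGIrr 𝒪 := by
  intro p _ hp2 hp𝒪 N _ S θ T _ _ _ _ _ _ _ _ H hdet πT hπ hord
  have habs : (H.ρ.baseChangeAlong (πT : T →+* 𝒪) hπ).residual.IsAbsolutelyIrreducible := by
    refine s59hgd_absIrr_of_isEquiv (s59fe_residual_baseChange (πT : T →+* 𝒪) hπ H.ρ) ?_
    exact s59hgd_absIrr_baseChangeAlong _ H.residual_absIrr _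
  refine s59pslir_irr _ habs p hp2 hord fun P hP => ?_
  have hu := (s59pshp_sigma_unit H.ρ p hp2 hdet P hP).map (πT : T →+* 𝒪)
  rw [map_sub, map_one, ← s59pshp_det_bc (πT : T →+* 𝒪) hπ H.ρ] at hu
  exact hu

variable {𝒪}

/-- **LG-P ⇐ LG-FIN** (IRR-TR plugged in). -/
theorem s59pslir_lgp_of_fin (h : s59ps_StmtLGFin 𝒪) : s59ps_StmtLGP 𝒪 :=
  s59pslf_lgp_of_fin (s59pslir_main 𝒪) h

end Main

end Fermat.Agent.S59

end
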