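import Fermat.Agent.S59.PStep.LgEspT
import Fermat.Agent.S59.PStep.LgEspH10
import Fermat.Agent.ES.TopFaith

/-!
# S59 / M5 (P-STEP), LG-P, route LG-FIN: wiring on the proved Eichler–Shimura package `PDiv N p`

`J := PDiv N p` (the `p`-divisible `p`-power torsion of `J₀(N)(ℚ̄)`) with its Galois action
`pDivGalois` and ANY Hecke-module structure (the proved package uses `pDivModule`, in which the
variable `X_p` acts as `0`; the operator `T_p` is therefore supplied as an endomorphism).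

* `s59pslwJ N p m` : the inclusion `J[p^m] → J₀(N)[p^m]` (`S32.tors` → `Submodule.torsionBy`),
  injective (`s59pslwJ_injective`) and Galois-equivariant (`s59pslwJ_smul`);
* `s59pslwZ N p m I` : the pull-back of the inertia span `𝔄 J₀(N)[p^m]`;
* `s59pslw_nts`, `s59pslw_stable` : it is `I`-stable with `NTS` (`p` odd, `p ∤ N`, `I` the inertia
  group of a place over `p`; from helper10's `s59psly_nts_jzero`);
* `s59pslwTp N p m` : the operator `T_p = heckeOperatorBar N p` on `J[p^m]`, commuting with Galois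
  (`s59pslwTp_smul`);
* `s59pslw_psi_mem` : `φ² − T_p φ + p` maps `J[p^m]` into `s59pslwZ`, given Eichler–Shimura at `p`
  modulo the inertia span on `J₀(N)[p^m]` (hypothesis `hΨ`, the shape of `s59pslh_psi_mem_span`).
-/

set_option autoImplicit false
set_option linter.unusedSectionVars false
set_option linter.unusedVariables false
set_option linter.style.longLine false
set_option synthInstance.maxHeartbeats 400000
set_option maxHeartbeats 1600000

noncomputable section

namespace Fermat.Agent.S59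

open ModularCurve Fermat.Agent.ES Fermat.Agent.S31 Fermat.Agent.S30 Fermat.Agent.S32
  Fermat.Agent.S33 Fermat.Agent.W1 IsLocalRing
open scoped TensorProduct

attribute [local instance] Fermat.Agent.ES.pDivGalois

section Wire

variable (N : ℕ) [NeZero N] (p : ℕ) [Fact p.Prime] [Module HeckeAlg (PDiv N p)] (m : ℕ)

/-- the inclusion of `PDiv N p [p^m]` into `J₀(N)[p^m]` -/
def s59pslwJ : ↥(tors (PDiv N p) p m) →+ ↥(Submodule.torsionBy ℤ (JZero N) ((p : ℤ) ^ m)) where
  toFun z := ⟨((z : PDiv N p) : JZero N), by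
    rw [Submodule.mem_torsionBy_iff]
    have h : p ^ m • ((z : PDiv N p) : JZero N) = 0 := (pDiv_smul_eq_zero_iff _ _).mp z.2
    rw [← Nat.cast_pow, natCast_zsmul]
    exact h⟩
  map_zero' := rfl
  map_add' _ _ := rfl

@[simp] theorem s59pslwJ_coe (z : ↥(tors (PDiv N p) p m)) :
    ((s59pslwJ N p m z : ↥(Submodule.torsionBy ℤ (JZero N) ((p : ℤ) ^ m))) : JZero N) =
      ((z : PDiv N p) : JZero N) := rfl

theorem s59pslwJ_injective : Function.Injective (s59pslwJ N p m) := by
  intro z z' h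
  have h1 : ((z : PDiv N p) : JZero N) = ((z' : PDiv N p) : JZero N) :=
    congrArg (fun y : ↥(Submodule.torsionBy ℤ (JZero N) ((p : ℤ) ^ m)) => (y : JZero N)) h
  exact Subtype.ext (Subtype.ext h1)

theorem s59pslwJ_smul (σ : GQ) (z : ↥(tors (PDiv N p) p m)) :
    s59pslwJ N p m (σ • z) = torsAct (JZero N) ((p : ℤ) ^ m) σ (s59pslwJ N p m z) := rfl

/-- the pull-back of the inertia span of `J₀(N)[p^m]` -/
def s59pslwZ (I : Subgroup GQ) : AddSubgroup ↥(tors (PDiv N p) p m) :=
  (ntsSpan I (torsAct (JZero N) ((p : ℤ) ^ m)) ⊤).comap (s59pslwJ N p m)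

theorem s59pslw_torsAct_stable (I : Subgroup GQ) :
    ntsStable I (torsAct (JZero N) ((p : ℤ) ^ m))
      (ntsSpan I (torsAct (JZero N) ((p : ℤ) ^ m)) ⊤) := by
  intro σ hσ w hw
  have h2 : torsAct (JZero N) ((p : ℤ) ^ m) σ w - w ∈
      ntsSpan I (torsAct (JZero N) ((p : ℤ) ^ m)) ⊤ :=
    sub_mem_ntsSpan hσ (AddSubgroup.mem_top w)
  have : torsAct (JZero N) ((p : ℤ) ^ m) σ w =
      (torsAct (JZero N) ((p : ℤ) ^ m) σ w - w) + w := by abel
  rw [this]
  exact AddSubgroup.add_mem _ h2 hw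

theorem s59pslw_stable (I : Subgroup GQ) :
    ntsStable I (fun σ (z : ↥(tors (PDiv N p) p m)) => σ • z) (s59pslwZ N p m I) := by
  intro σ hσ z hz
  show s59pslwJ N p m (σ • z) ∈ ntsSpan I (torsAct (JZero N) ((p : ℤ) ^ m)) ⊤
  rw [s59pslwJ_smul]
  exact s59pslw_torsAct_stable N p m I σ hσ _ hz

/-- **`NTS` of the pull-back of the inertia span** -/
theorem s59pslw_nts (hp2 : p ≠ 2) (hpN : ¬ p ∣ N)
    (A : ValuationSubring (AlgebraicClosure ℚ)) (hA : A.LiesOverPrime p) :
    NTS (A.inertiaSubgroupIn ℚ) (fun σ (z : ↥(tors (PDiv N p) p m)) => σ • z)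
      (s59pslwZ N p m (A.inertiaSubgroupIn ℚ)) := by
  refine NTS.comap_of_injective (actF := fun σ (z : ↥(tors (PDiv N p) p m)) => σ • z)
    (actX := torsAct (JZero N) ((p : ℤ) ^ m)) (s59pslwJ N p m) (s59pslwJ_injective N p m)
    (fun σ _ z => s59pslwJ_smul N p m σ z)
    (s59psly_nts_jzero N (Fact.out : p.Prime) hp2 hpN A hA m)
    (s59pslw_stable N p m _) ?_
  exact AddSubgroup.map_comap_le _ _

/-- the operator `T_p` on `PDiv N p [p^m]` -/
def s59pslwTp : Module.End ℤ ↥(tors (PDiv N p) p m) :=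
  AddMonoidHom.toIntLinearMap
    { toFun := fun z =>
        ⟨pDivRestrict N p (heckeOperatorBar N ⟨p, Fact.out⟩).toAddMonoidHom (z : PDiv N p), by
          show p ^ m • _ = 0
          rw [← map_nsmul, show p ^ m • (z : PDiv N p) = 0 from z.2, map_zero]⟩
      map_zero' := Subtype.ext (map_zero _)
      map_add' := fun _ _ => Subtype.ext (map_add _ _ _) }

@[simp] theorem s59pslwTp_coe (z : ↥(tors (PDiv N p) p m)) :
    (((s59pslwTp N p m z : ↥(tors (PDiv N p) p m)) : PDiv N p) : JZero N) =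
      heckeOperatorBar N ⟨p, Fact.out⟩ ((z : PDiv N p) : JZero N) := rfl

/-- `T_p` commutes with the Galois action -/
theorem s59pslwTp_smul (g : GQ) (z : ↥(tors (PDiv N p) p m)) :
    g • s59pslwTp N p m z = s59pslwTp N p m (g • z) :=
  Subtype.ext (Subtype.ext (galois_heckeOperatorBar N g ⟨p, Fact.out⟩ _))

/-- **`φ² − T_p φ + p` has values in the pull-back of the inertia span**, given Eichler–Shimura at
`p` modulo the inertia span on `J₀(N)[p^m]`. -/
theorem s59pslw_psi_mem (I : Subgroup GQ) (φ : GQ)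
    (hΨ : ∀ (x : JZero N) (y : ↥(Submodule.torsionBy ℤ (JZero N) ((p : ℤ) ^ m))),
      (y : JZero N) = φ • φ • x - heckeOperatorBar N ⟨p, Fact.out⟩ (φ • x) + p • x →
        y ∈ ntsSpan I (torsAct (JZero N) ((p : ℤ) ^ m)) ⊤)
    (z : ↥(tors (PDiv N p) p m)) :
    s59pslesPsiT (PDiv N p) p m φ (s59pslwTp N p m) p z ∈ s59pslwZ N p m I := by
  show s59pslwJ N p m (s59pslesPsiT (PDiv N p) p m φ (s59pslwTp N p m) p z) ∈
    ntsSpan I (torsAct (JZero N) ((p : ℤ) ^ m)) ⊤
  refine hΨ ((z : PDiv N p) : JZero N) _ ?_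
  rfl

/-- the same for a Hecke polynomial `T` which acts as `T_p` (e.g. `heckeGen p` in helper16's module
`s59pslepModule`). -/
theorem s59pslw_psi_mem_gen (I : Subgroup GQ) (φ : GQ) (T : HeckeAlg)
    (hT : ∀ z : ↥(tors (PDiv N p) p m),
      (((T • z : ↥(tors (PDiv N p) p m)) : PDiv N p) : JZero N) =
        heckeOperatorBar N ⟨p, Fact.out⟩ ((z : PDiv N p) : JZero N))
    (hΨ : ∀ (x : JZero N) (y : ↥(Submodule.torsionBy ℤ (JZero N) ((p : ℤ) ^ m))),
      (y : JZero N) = φ • φ • x - heckeOperatorBar N ⟨p, Fact.out⟩ (φ • x) + p • x →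
        y ∈ ntsSpan I (torsAct (JZero N) ((p : ℤ) ^ m)) ⊤)
    (z : ↥(tors (PDiv N p) p m)) :
    s59pslesPsi (PDiv N p) p m φ T p z ∈ s59pslwZ N p m I := by
  show s59pslwJ N p m (s59pslesPsi (PDiv N p) p m φ T p z) ∈
    ntsSpan I (torsAct (JZero N) ((p : ℤ) ^ m)) ⊤
  refine hΨ ((z : PDiv N p) : JZero N) _ ?_
  have h := hT (φ • z)
  change φ • φ • ((z : PDiv N p) : JZero N)
      - (((T • (φ • z) : ↥(tors (PDiv N p) p m)) : PDiv N p) : JZero N)
      + p • ((z : PDiv N p) : JZero N) = _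
  rw [h]
  rfl

end Wire

end Fermat.Agent.S59
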