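/-
S59, wall M5 = P-STEP, leaf LG-P, wiring of LG-FIN: three small leaves for helper42's assembly
`S59/PStep/LgFinal.lean` (helper44).  Ledger: NOTES/S59-M5.md.

* (A1) `s59pslwa_levels` : in a discrete valuation ring with `(p : 𝒪) ≠ 0`, some power of the
  maximal ideal lies in `(p ^ m)`  (+ `s59pslwa_levels_eq` : `(p ^ m) = 𝔪 ^ k`);
* (A2) `s59pslwa_charpoly` : the characteristic polynomial of Frobenius (`ℓ ∤ N`, `ℓ ∉ S`) of
  `ρ_π = H.ρ ⊗_{πT} 𝒪` is `X² − χ(T_ℓ) X + ℓ`, `χ = πT ∘ H.π`;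
  `s59pslwa_trace`, `s59pslwa_det_frob` : its trace and determinant;
  `s59pslwa_det` : `ρ_π` has cyclotomic determinant;
* (A3) `s59pslwa_exists_frob` : a place `P` of `ℚ̄` over `p` with a Frobenius `φ`.

Sorry-free; axioms: propext, Classical.choice, Quot.sound.
-/
import Fermat.Agent.TW.BC
import Fermat.Agent.Common.FrobExists
import Fermat.Prelude.Def_CuspForm_HeckeGaloisRepDatum

set_option autoImplicit false
set_option linter.unusedSectionVars false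
set_option linter.unusedVariables false
set_option linter.style.longLine false
set_option linter.style.haveILetI false

noncomputable section

namespace Fermat.Agent.S59

open IsLocalRing Polynomial

/-! ### (A1) levels -/

section A1

variable {𝒪 : Type} [CommRing 𝒪] [IsDomain 𝒪] [IsDiscreteValuationRing 𝒪]

/-- `(p ^ m)` is a power of the maximal ideal -/
theorem s59pslwa_levels_eq (p : ℕ) (hp0 : (p : 𝒪) ≠ 0) (m : ℕ) :
    ∃ k : ℕ, Ideal.span {(p : 𝒪) ^ m} = maximalIdeal 𝒪 ^ k := by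
  have hne : Ideal.span {(p : 𝒪) ^ m} ≠ ⊥ := by
    rw [Ne, Ideal.span_singleton_eq_bot]
    exact pow_ne_zero m hp0
  exact exists_maximalIdeal_pow_eq_of_principal 𝒪 (IsPrincipalIdealRing.principal _) _ hne

/-- **(A1)**: some power of the maximal ideal lies in `(p ^ m)`. -/
theorem s59pslwa_levels (p : ℕ) (hp0 : (p : 𝒪) ≠ 0) (m : ℕ) :
    ∃ k : ℕ, maximalIdeal 𝒪 ^ k ≤ Ideal.span {(p : 𝒪) ^ m} := by
  obtain ⟨k, hk⟩ := s59pslwa_levels_eq p hp0 m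
  exact ⟨k, hk.ge⟩

end A1

/-! ### (A2) the representation `ρ_π` -/

section A2

variable {𝒪 : Type} [CommRing 𝒪] [IsDomain 𝒪] [IsDiscreteValuationRing 𝒪]
  [IsAdicComplete (maximalIdeal 𝒪) 𝒪]
variable {N : ℕ} [NeZero N] {S : Set ℕ}
  {θ : CuspForm.heckeAlgebra N 2 S →+* ResidueField 𝒪}
  {T : Type} [CommRing T] [IsLocalRing T] [IsNoetherianRing T]
  [IsAdicComplete (maximalIdeal T) T] [Algebra 𝒪 T] [IsLocalHom (algebraMap 𝒪 T)]
  [Module.Finite 𝒪 T] [Module.Free 𝒪 T]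

/-- the characteristic polynomial commutes with `baseChangeAlong` -/
theorem s59pslwa_charpoly_bc {A B : Type} [CommRing A] [IsLocalRing A] [CommRing B]
    [IsLocalRing B] (φ : A →+* B) (hφ : IsLocalHom φ) (ρ : GaloisRepAdic A)
    (σ : AlgebraicClosure ℚ ≃ₐ[ℚ] AlgebraicClosure ℚ) :
    LinearMap.charpoly ((ρ.baseChangeAlong φ hφ).ρ σ) = (LinearMap.charpoly (ρ.ρ σ)).map φ := by
  letI : Algebra A B := φ.toAlgebra
  exact LinearMap.charpoly_baseChange (ρ.ρ σ) B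

/-- **(A2)**: the characteristic polynomial of Frobenius of `ρ_π`. -/
theorem s59pslwa_charpoly (H : CuspForm.HeckeGaloisRepDatum N S 𝒪 θ T) (πT : T →ₐ[𝒪] 𝒪)
    (hπ : IsLocalHom (πT : T →+* 𝒪)) (ℓ : ℕ) (hℓ : ℓ.Prime) (hℓN : ¬ ℓ ∣ N) (hℓS : ℓ ∉ S)
    (𝔄 : ValuationSubring (AlgebraicClosure ℚ)) (h𝔄 : 𝔄.LiesOverPrime ℓ)
    (σ : AlgebraicClosure ℚ ≃ₐ[ℚ] AlgebraicClosure ℚ) (hσ : 𝔄.IsFrobeniusAt σ ℓ) :
    LinearMap.charpoly ((H.ρ.baseChangeAlong (πT : T →+* 𝒪) hπ).ρ σ) =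
      X ^ 2 - C (((πT : T →+* 𝒪).comp H.π) (CuspForm.heckeAlgebra.T hℓ hℓN hℓS)) * X +
        C ((ℓ : 𝒪)) := by
  rw [s59pslwa_charpoly_bc, H.charpoly_frob ℓ hℓ hℓN hℓS 𝔄 h𝔄 σ hσ]
  simp only [Polynomial.map_add, Polynomial.map_sub, Polynomial.map_mul, Polynomial.map_pow,
    Polynomial.map_X, Polynomial.map_C, map_natCast, RingHom.comp_apply, Polynomial.map_natCast]

/-- the characteristic polynomial of an endomorphism of a free module of rank `2` -/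
theorem s59pslwa_charpoly_two {A : Type} [CommRing A] [IsLocalRing A] (ρ : GaloisRepAdic A)
    (σ : AlgebraicClosure ℚ ≃ₐ[ℚ] AlgebraicClosure ℚ) :
    LinearMap.charpoly (ρ.ρ σ) =
      X ^ 2 - C (LinearMap.trace A ρ.V (ρ.ρ σ)) * X + C (LinearMap.det (ρ.ρ σ)) := by
  classical
  haveI : Nontrivial A := inferInstance
  let b0 := Module.Free.chooseBasis A ρ.V
  have hcard : Fintype.card (Module.Free.ChooseBasisIndex A ρ.V) = Fintype.card (Fin 2) := by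
    rw [← Module.finrank_eq_card_chooseBasisIndex, ρ.finrank_eq, Fintype.card_fin]
  let e := Fintype.equivOfCardEq hcard
  let b : Module.Basis (Fin 2) A ρ.V := b0.reindex e
  rw [← LinearMap.charpoly_toMatrix (ρ.ρ σ) b, Matrix.charpoly_fin_two,
    ← LinearMap.trace_eq_matrix_trace A b, LinearMap.det_toMatrix b]

/-- coefficients of `X² − t X + d` -/
theorem s59pslwa_coeffs {A : Type} [CommRing A] {t d t' d' : A}
    (h : (X ^ 2 - C t * X + C d : A[X]) = X ^ 2 - C t' * X + C d') : t = t' ∧ d = d' := by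
  constructor
  · have h1 := congrArg (fun q : A[X] => q.coeff 1) h
    simp only [coeff_add, coeff_sub, coeff_X_pow, coeff_C_mul, coeff_X_one, coeff_C,
      mul_one] at h1
    norm_num at h1
    exact h1
  · have h0 := congrArg (fun q : A[X] => q.coeff 0) h
    simp only [coeff_add, coeff_sub, coeff_X_pow, coeff_C_mul, coeff_X_zero, coeff_C_zero,
      mul_zero] at h0
    norm_num at h0
    exact h0

/-- the trace of Frobenius of `ρ_π` is `χ (T_ℓ)` -/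
theorem s59pslwa_trace (H : CuspForm.HeckeGaloisRepDatum N S 𝒪 θ T) (πT : T →ₐ[𝒪] 𝒪)
    (hπ : IsLocalHom (πT : T →+* 𝒪)) (ℓ : ℕ) (hℓ : ℓ.Prime) (hℓN : ¬ ℓ ∣ N) (hℓS : ℓ ∉ S)
    (𝔄 : ValuationSubring (AlgebraicClosure ℚ)) (h𝔄 : 𝔄.LiesOverPrime ℓ)
    (σ : AlgebraicClosure ℚ ≃ₐ[ℚ] AlgebraicClosure ℚ) (hσ : 𝔄.IsFrobeniusAt σ ℓ) :
    LinearMap.trace 𝒪 (H.ρ.baseChangeAlong (πT : T →+* 𝒪) hπ).V
        ((H.ρ.baseChangeAlong (πT : T →+* 𝒪) hπ).ρ σ) =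
      πT (H.π (CuspForm.heckeAlgebra.T hℓ hℓN hℓS)) := by
  have h := s59pslwa_charpoly H πT hπ ℓ hℓ hℓN hℓS 𝔄 h𝔄 σ hσ
  rw [s59pslwa_charpoly_two] at h
  exact (s59pslwa_coeffs h).1

/-- the determinant of Frobenius of `ρ_π` is `ℓ` -/
theorem s59pslwa_det_frob (H : CuspForm.HeckeGaloisRepDatum N S 𝒪 θ T) (πT : T →ₐ[𝒪] 𝒪)
    (hπ : IsLocalHom (πT : T →+* 𝒪)) (ℓ : ℕ) (hℓ : ℓ.Prime) (hℓN : ¬ ℓ ∣ N) (hℓS : ℓ ∉ S)
    (𝔄 : ValuationSubring (AlgebraicClosure ℚ)) (h𝔄 : 𝔄.LiesOverPrime ℓ)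
    (σ : AlgebraicClosure ℚ ≃ₐ[ℚ] AlgebraicClosure ℚ) (hσ : 𝔄.IsFrobeniusAt σ ℓ) :
    LinearMap.det ((H.ρ.baseChangeAlong (πT : T →+* 𝒪) hπ).ρ σ) = (ℓ : 𝒪) := by
  have h := s59pslwa_charpoly H πT hπ ℓ hℓ hℓN hℓS 𝔄 h𝔄 σ hσ
  rw [s59pslwa_charpoly_two] at h
  exact (s59pslwa_coeffs h).2

/-- **(A2)**, determinant: `ρ_π` has cyclotomic determinant. -/
theorem s59pslwa_det (H : CuspForm.HeckeGaloisRepDatum N S 𝒪 θ T) (πT : T →ₐ[𝒪] 𝒪)
    (hπ : IsLocalHom (πT : T →+* 𝒪)) (p : ℕ) (hdet : H.ρ.DetIsCyclotomic p) :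
    (H.ρ.baseChangeAlong (πT : T →+* 𝒪) hπ).DetIsCyclotomic p :=
  Fermat.Agent.TW.twbc_detIsCyclotomic _ hπ H.ρ p hdet

end A2

/-! ### (A3) a Frobenius at `p` -/

/-- **(A3)**: a place of `ℚ̄` over `p` with a Frobenius. -/
theorem s59pslwa_exists_frob (p : ℕ) (hp : p.Prime) :
    ∃ (P : ValuationSubring (AlgebraicClosure ℚ))
      (φ : AlgebraicClosure ℚ ≃ₐ[ℚ] AlgebraicClosure ℚ),
      P.LiesOverPrime p ∧ P.IsFrobeniusAt φ p :=
  Fermat.Agent.Common.exists_isFrobeniusAt p hp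

end Fermat.Agent.S59

end
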