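/-
S59, wall M5 = P-STEP, leaf LG-P, route LG-FIN: the FINAL ASSEMBLY (helper42).
Ledger: NOTES/S59-M5.md.

* `s59pslfin_stmt 𝒪 : s59ps_StmtLGFin 𝒪` for a complete discrete valuation ring `𝒪` of
  characteristic zero: the finite level data of `S59/PStep/LGFin.lean` for the representations
  `ρ_π` of a Hecke–Galois datum and a `T_p`-eigenvalue `a` (`p ∤ N`, `p` odd);
* `s59pslfin_lgp 𝒪 : s59ps_StmtLGP 𝒪` (LG-P itself, IRR-TR of `LgIrr.lean` plugged in).

Model: `J := PDiv N p` with the Hecke module `pDivModule` and the Galois action `pDivGalois`;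
`T_p` is the OPERATOR `s59pslwTp` on `J[p^m]` (`LgWire.lean`).  Inputs:
(CH) `LgCH.lean` + `LgEspT.lean` (`s59pslesp_finT`), (N1) `s59pslw_nts`, (N2)
`s59pslbf_psi_mem_span` (helper44), (Y1) `s59psley_main` (helper16), (A1)-(A3) `LgWireAux.lean`
(helper44), weak Chebotarev, the Eichler–Shimura package on `PDiv N p`.

Sorry-free; std three only.
-/
import Fermat.Agent.S59.PStep.LgEspT
import Fermat.Agent.S59.PStep.LgWire
import Fermat.Agent.S59.PStep.LgWireAux
import Fermat.Agent.S59.PStep.LgEigY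
import Fermat.Agent.S59.PStep.LgBddFree
import Fermat.Agent.S59.PStep.LgIrr
import Fermat.Agent.Cheb.Final

set_option autoImplicit false
set_option linter.unusedSectionVars false
set_option linter.unusedVariables false
set_option linter.style.longLine false
set_option linter.style.haveILetI false
set_option maxHeartbeats 1600000
set_option synthInstance.maxHeartbeats 400000

noncomputable section

namespace Fermat.Agent.S59

open Fermat.Agent.ES Fermat.Agent.S41 Fermat.Agent.S31 Fermat.Agent.S32 Fermat.Agent.S30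
open CongruenceSubgroup ModularCurve ModularCurve.Period TensorProduct IsLocalRing

attribute [local instance] pDivModule pDivGalois

section Final

variable (𝒪 : Type) [CommRing 𝒪] [IsDomain 𝒪] [IsDiscreteValuationRing 𝒪]
  [IsAdicComplete (maximalIdeal 𝒪) 𝒪] [CharZero 𝒪]

/-- **LG-FIN**, unconditional, for `𝒪` of characteristic zero. -/
theorem s59pslfin_stmt : s59ps_StmtLGFin 𝒪 := by
  intro p _ hp2 hp𝒪 N _ hpN S hpS hNS θ T _ _ _ _ _ _ _ _ H hdet πT hπ x hx hxe a hxa hord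
  have hp : p.Prime := Fact.out
  have hp0 : p ≠ 0 := hp.ne_zero
  have hp𝒪0 : (p : 𝒪) ≠ 0 := Nat.cast_ne_zero.mpr hp0
  obtain ⟨μ, hU⟩ := torsionUnif_proved N p hp.pos
  have hμ := multData_of_torsionUnifData hp0 hU
  have hINJ := Fermat.Agent.INJ.injAll_stmtINJAll
  have hJ : ESDataInf N p (PDiv N p) :=
    hμ.esDataInf (stmtFiniteLevel N p hp0) (G2.stmtFrob_of_stmtINJAll hINJ N p)
      (G2.stmtUnram_of_stmtINJAll hINJ N p)
  have hfaith : ESFaith N p (PDiv N p) := hμ.esFaith hp0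
  have hgoodN : ∀ r : ℕ, r.Prime → r ∉ S → ¬ r ∣ N := fun r hr hrS hd => hrS (hNS r hr hd)
  have hgood : ∀ r : ℕ, r.Prime → r ∉ S → ¬ r ∣ N * p := by
    intro r hr hrS hd
    rcases (Nat.Prime.dvd_mul hr).mp hd with hd | hd
    · exact hrS (hNS r hr hd)
    · exact hrS (((Nat.prime_dvd_prime_iff_eq hr hp).mp hd) ▸ hpS)
  obtain ⟨P, φ, hP, hφ⟩ := s59pslwa_exists_frob p hp
  refine s59pslesp_finT (J := PDiv N p) (χ := (πT : T →+* 𝒪).comp H.π)
    Fermat.Agent.Cheb.weakChebotarev_holds hJ hgoodN hgood _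
    (s59pslwa_det H πT hπ p hdet) ?_ a P hP φ hφ ?_
  · intro ℓ hℓ hℓN hℓS 𝔄 h𝔄 σ hσ
    exact s59pslwa_charpoly H πT hπ ℓ hℓ hℓN hℓS 𝔄 h𝔄 σ hσ
  · intro m'
    obtain ⟨k₀, hk₀⟩ := s59psley_main N p 𝒪 hpS hNS hpN hp𝒪 ((πT : T →+* 𝒪).comp H.π) x hx
      (fun ℓ hℓ hℓN hℓS => hxe ℓ hℓ hℓN hℓS) a hxa m'
    obtain ⟨k, hk⟩ := s59pslwa_levels (𝒪 := 𝒪) p hp𝒪0 k₀
    obtain ⟨n₀, hkn₀, hG⟩ := s59pslch_exists_level (J := PDiv N p) (S := S)
      (χ := (πT : T →+* 𝒪).comp H.π) hfaith hgoodN hgood k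
    obtain ⟨y, hy1, hy2, hy3⟩ := hk₀ k₀ le_rfl
    refine ⟨k, max n₀ k₀, k₀, le_trans hkn₀ (le_max_left _ _), le_max_right _ _,
      hG.mono_level (le_max_left _ _), hk, s59pslwTp N p k₀, s59pslwTp_smul N p k₀,
      s59pslwZ N p k₀ (P.inertiaSubgroupIn ℚ), s59pslw_nts N p k₀ hp2 hpN P hP,
      s59pslw_stable N p k₀ _, ?_, y, hy1, hy2 _ (s59pslwTp_coe N p k₀), hy3⟩
    intro z
    exact s59pslw_psi_mem N p k₀ _ φ
      (fun x y hy => s59pslbf_psi_mem_span N p hp hp2 hpN P hP φ hφ k₀ x y hy) z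

/-- **LG-P**, unconditional, for `𝒪` of characteristic zero. -/
theorem s59pslfin_lgp : s59ps_StmtLGP 𝒪 :=
  s59pslir_lgp_of_fin (s59pslfin_stmt 𝒪)

end Final

end Fermat.Agent.S59

end
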