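/-
S59, wall M5 = P-STEP, leaf LG-P, part (ESp), step (a3) WITHOUT `HeckeOperatorsCommuteBar`
(helper5).  Ledger: NOTES/S59-M5.md.  See `S59/PStep/LgFree.lean` for the chain.

Twin of helper44's `s59pslbd_bddClass` (LgBdd.lean) with the OPERATOR `heckeOperatorBar N ⟨ℓ, hℓ⟩`
in the place of `heckeGen ⟨ℓ, hℓ⟩ •` (`heckeModuleBar N`, which needs `hcomm`):

* `s59pslhPsi N p hp φ x = φ² x − T_p (φ x) + p x`, `T_p = heckeOperatorBar N ⟨p, hp⟩`;
* `s59pslh_bdd_inertia`, `s59pslh_bdd_psi` : **(a3)** `σ x − x` (`σ` in the inertia group of `A`)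
  and `Ψ x` are bounded classes (`ℓ ∤ N`, `A ∣ ℓ`, `φ` a Frobenius at `A`).

Sorry-free; axioms: propext, Classical.choice, Quot.sound.
-/
import Fermat.Agent.ES.G2.S37In
import Fermat.Agent.ES.G2.S37Place
import Fermat.Agent.S59.PStep.LgRedOne
import Fermat.Agent.S59.PStep.LgBridgeJ0H10
import Fermat.Agent.DEU.ModPRFinal

set_option autoImplicit false
set_option linter.style.haveILetI false
set_option linter.unusedSectionVars false
set_option linter.unusedVariables false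
set_option linter.style.longLine false

noncomputable section

namespace Fermat.Agent.S59

open ModularCurve AlgebraicCurve Fermat.Agent.ES Fermat.Agent.ES.G2 FrobAux

section Free

variable (N : ℕ) [NeZero N]

/-- the operator `Ψ = φ² − T_p φ + p` of `J₀(N)(ℚ̄)`, `T_p` the OPERATOR `heckeOperatorBar` -/
def s59pslhPsi (p : ℕ) (hp : p.Prime) (φ : Qb ≃ₐ[ℚ] Qb) (x : JZero N) : JZero N :=
  φ • φ • x - heckeOperatorBar N ⟨p, hp⟩ (φ • x) + p • x

/-- **(a3), inertia**: `σ x − x` is a bounded class. -/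
theorem s59pslh_bdd_inertia (ℓ : ℕ) (hℓ : ℓ.Prime) (hℓN : ¬ ℓ ∣ N) (A : ValuationSubring Qb)
    (hA : A.LiesOverPrime ℓ) (σ : Qb ≃ₐ[ℚ] Qb) (hσ : σ ∈ A.inertiaSubgroupIn ℚ) (z : JZero N) :
    S37BddClass (GaussConst A N) (σ • z - z) := by
  haveI : NeZero ℓ := ⟨hℓ.ne_zero⟩
  haveI := Fermat.Agent.ES.H.hasPrincipalDivisors_FF N
  obtain ⟨P₀⟩ := s37_nonempty_place N
  have hres := Fermat.Agent.ES.H.residue_bijective_FF N
  obtain ⟨D, rfl⟩ := Pic0.mk_surjective z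
  obtain ⟨g, hg⟩ : ∃ g : SemilinearAut Qb (modularFunctionFieldBar N),
      g = arithmeticGalois (modularFunctionFieldFull N) σ := ⟨_, rfl⟩
  have hgx : σ • Pic0.mk D = g • Pic0.mk D := by rw [hg]; rfl
  refine ⟨SemilinearAut.degZeroSMulHom g D - D, ?_, ?_⟩
  · rw [hgx, SemilinearAut.pic0_smul_mk]
    rfl
  · have hB := s37RR_bddOfOp hres P₀ _ (Fermat.Agent.ES.R.riemann_inequality N) (GaussConst A N)
      (s37deg_opInertia g) (gcInertiaOp N σ) 2
      (fun f hf => (stmtGCInertia stmtPrim N ℓ hℓ A hA σ hσ f hf).ne_zero)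
      (fun D f hf hD v => by rw [hg]; exact s37In_ord_inertia N σ D f hf hD v)
      (fun f hf => stmtGCInertia stmtPrim N ℓ hℓ A hA σ hσ f hf)
      (fun B hB => s37deg_opInertia_bdd g B hB)
      (D : Divisor Qb (modularFunctionFieldBar N)) D.2
    rw [s37deg_opInertia_apply] at hB
    rw [AddSubgroup.coe_sub, SemilinearAut.coe_degZeroSMulHom]
    exact hB

/-- **(a3), Frobenius**: `Ψ x = φ² x − T_ℓ φ x + ℓ x` is a bounded class (Kronecker's congruence;
`ℓ ∤ N`, `φ` a Frobenius at `A ∣ ℓ`). -/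
theorem s59pslh_bdd_psi (ℓ : ℕ) (hℓ : ℓ.Prime) (hℓN : ¬ ℓ ∣ N) (A : ValuationSubring Qb)
    (hA : A.LiesOverPrime ℓ) (φ : Qb ≃ₐ[ℚ] Qb) (hφ : A.IsFrobeniusAt φ ℓ) (z : JZero N) :
    S37BddClass (GaussConst A N) (s59pslhPsi N ℓ hℓ φ z) := by
  haveI : NeZero ℓ := ⟨hℓ.ne_zero⟩
  haveI := Fermat.Agent.ES.H.hasPrincipalDivisors_FF N
  haveI := Fermat.Agent.ES.H.hasPrincipalDivisors_FF (N * ℓ)
  obtain ⟨P₀⟩ := s37_nonempty_place N
  have hres := Fermat.Agent.ES.H.residue_bijective_FF N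
  obtain ⟨D, rfl⟩ := Pic0.mk_surjective z
  obtain ⟨g, hg⟩ : ∃ g : SemilinearAut Qb (modularFunctionFieldBar N),
      g = arithmeticGalois (modularFunctionFieldFull N) φ := ⟨_, rfl⟩
  have hgx : ∀ z : JZero N, φ • z = g • z := by
    intro z
    rw [hg]
    rfl
  have hT : ∀ y : JZero N, heckeOperatorBar N ⟨ℓ, hℓ⟩ y =
      Pic0.correspondence (heckeBetaBar Qb N ℓ) (heckeAlphaBar Qb N ℓ)
        (Fermat.Agent.ES.H.heckeBetaBarIntegral N ℓ)
        (Fermat.Agent.ES.H.heckeAlphaBarIntegral N ℓ)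
        (Fermat.Agent.ES.H.fundamentalIdentityAlong_heckeBetaBar N ℓ)
        (Fermat.Agent.ES.H.finiteAlong_heckeAlphaBar N ℓ)
        (Fermat.Agent.ES.H.normFormulaAlong_heckeAlphaBar N ℓ) y := by
    intro y
    exact frob_heckeOperatorBar_eq N ℓ hℓ y
  refine ⟨SemilinearAut.degZeroSMulHom g (SemilinearAut.degZeroSMulHom g D)
      - Pic0.degZeroCorrespondence (heckeBetaBar Qb N ℓ) (heckeAlphaBar Qb N ℓ)
        (Fermat.Agent.ES.H.heckeBetaBarIntegral N ℓ)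
        (Fermat.Agent.ES.H.heckeAlphaBarIntegral N ℓ)
        (Fermat.Agent.ES.H.fundamentalIdentityAlong_heckeBetaBar N ℓ)
        (SemilinearAut.degZeroSMulHom g D)
      + ℓ • D, ?_, ?_⟩
  · unfold s59pslhPsi
    rw [hT, hgx, hgx, SemilinearAut.pic0_smul_mk, SemilinearAut.pic0_smul_mk,
      Pic0.correspondence_mk]
    rfl
  · have hB := s37RR_bddOfOp hres P₀ _ (Fermat.Agent.ES.R.riemann_inequality N) (GaussConst A N)
      (s37deg_opFrob g (heckeBetaBar Qb N ℓ) (heckeAlphaBar Qb N ℓ)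
        (Fermat.Agent.ES.H.heckeBetaBarIntegral N ℓ)
        (Fermat.Agent.ES.H.heckeAlphaBarIntegral N ℓ) ℓ)
      (gcFrobOp N ℓ φ) (1 + finrankAlong Qb (heckeBetaBar Qb N ℓ) + ℓ)
      (fun f hf => (stmtGCFrob stmtPrim stmtHeckeNorm N ℓ hℓ hℓN A hA φ hφ f hf).ne_zero)
      (fun D f hf hD v => by rw [hg]; exact s37In_ord_frob N ℓ φ D f hf hD v)
      (fun f hf => stmtGCFrob stmtPrim stmtHeckeNorm N ℓ hℓ hℓN A hA φ hφ f hf)
      (fun B hB => s37deg_opFrob_bdd g _ _ _ _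
        (Fermat.Agent.ES.H.fundamentalIdentityAlong_heckeBetaBar N ℓ) ℓ B hB)
      (D : Divisor Qb (modularFunctionFieldBar N)) D.2
    rw [s37deg_opFrob_apply] at hB
    rw [AddSubgroup.coe_add, AddSubgroup.coe_sub, SemilinearAut.coe_degZeroSMulHom,
      SemilinearAut.coe_degZeroSMulHom, Pic0.coe_degZeroCorrespondence,
      SemilinearAut.coe_degZeroSMulHom, AddSubgroup.coe_nsmul, ← natCast_zsmul]
    exact hB

end Free

end Fermat.Agent.S59
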