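/-
S59, wall M5 = P-STEP, leaf LG-P, part (ESp): **the Eichler–Shimura relation at `p` on
`J₀(N)[p^k]` modulo the inertia span, WITHOUT `HeckeOperatorsCommuteBar`** (helper5).
Ledger: NOTES/S59-M5.md.

helper44's `s59pslbd_*` (LgBdd.lean) and helper10's `s59pslt_*` (LgThreeH10.lean) are stated in the
binder form of S37: `(hcomm : HeckeOperatorsCommuteBar N)`, `letI := heckeModuleBar N`,
`SMulCommClass G_ℚ HeckeAlg (JZero N)`.  The commutation of ALL the Hecke operators of `J₀(N)(ℚ̄)`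
(bad primes included) is proved nowhere, and the prelude's `heckeModuleBar N` is the trivial action
without it.  `hcomm` enters the chain in ONE place (`heckeModuleBar_heckeGen_smul`, to identify
`heckeGen ⟨ℓ, _⟩ •` with the operator `heckeOperatorBar N ⟨ℓ, _⟩`).  Here is the twin with the
OPERATOR `heckeOperatorBar N ⟨p, hp⟩` in the place of `heckeGen ⟨p, hp⟩ •`:
no `hcomm`, no `SMulCommClass`, no Hecke-module instance at all.

* `s59pslhPsi N p hp φ x = φ² x − T_p (φ x) + p x`, `T_p = heckeOperatorBar N ⟨p, hp⟩`;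
* `s59pslh_bdd_inertia`, `s59pslh_bdd_psi` : **(a3)** `σ x − x` (`σ` in the inertia group of `A`)
  and `Ψ x` are bounded classes (`ℓ ∤ N`, `A ∣ ℓ`, `φ` a Frobenius at `A`)
  (file `S59/PStep/LgFreeBdd.lean`);
* `s59pslh_span_of_bdd_I2`, `s59pslh_span_of_bdd_levelUp`, `s59pslh_span_of_bdd` :
  **(a2) + (a1) (+ (a4))** a bounded class in `J₀(N)[p^k]` lies in the inertia span
  `𝔄 J₀(N)[p^k]` (`p` odd, `p ∤ N`);
* **`s59pslh_psi_mem_span`** : `y ∈ J₀(N)[p^k]`, `y = Ψ x`  ⇒  `y ∈ 𝔄 J₀(N)[p^k]`;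
* `s59pslh_psi_tors_mem_span` : the same for `x ∈ J₀(N)[p^k]` (then `Ψ x ∈ J₀(N)[p^k]`), with
  the operator `s59pslhPsiT` of `J₀(N)[p^k]`.

Sorry-free; axioms: propext, Classical.choice, Quot.sound.
-/
import Fermat.Agent.S59.PStep.LgThreeH10
import Fermat.Agent.S59.PStep.LgFreeBdd

set_option autoImplicit false
set_option linter.style.haveILetI false
set_option linter.unusedSectionVars false
set_option linter.unusedVariables false
set_option linter.style.longLine false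
set_option synthInstance.maxHeartbeats 400000
set_option maxHeartbeats 1600000

noncomputable section

namespace Fermat.Agent.S59

open ModularCurve AlgebraicCurve Fermat.Agent.ES Fermat.Agent.ES.G2 FrobAux


section FreeChain

open Fermat.Agent.S24 Fermat.Agent.ES.M Fermat.Agent.W1 Fermat.Agent.DEU Fermat.Agent.S33

variable (N : ℕ) [NeZero N]

/-- **(a2) + (a1)**, from the genus bound at the level `N`: a bounded class of `J₀(N)[p^k]` lies
in the inertia span. -/
theorem s59pslh_span_of_bdd_I2 (p : ℕ) (hp : p.Prime) (hp2 : p ≠ 2) (hpN : ¬ p ∣ N)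
    (A : ValuationSubring Qb) (hA : A.LiesOverPrime p) (hI2 : StmtI2 N A) (k : ℕ)
    (x : Submodule.torsionBy ℤ (JZero N) ((p : ℤ) ^ k))
    (hx : S37BddClass (GaussConst A N) (x : JZero N)) :
    x ∈ ntsSpan (A.inertiaSubgroupIn ℚ) (torsAct (JZero N) ((p : ℤ) ^ k)) ⊤ := by
  obtain ⟨hRedF, r, t, hM⟩ := s59pslbd_modPR N p hp hpN A hA hI2
  have hk : (p ^ k) • (x : JZero N) = 0 := by
    have := (Submodule.mem_torsionBy_iff _ _).1 x.2
    rw [← natCast_zsmul]
    push_cast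
    exact this
  exact s59pslj_mem_span hp hp2 hA hM k x
    (s59pslro_mem_J1_modPR N A hRedF r hM.isPR (s59pslbd_count N p hp A hA)
      (p ^ k) (pow_pos hp.pos k) hx hk)

end FreeChain

section FreeUp

open Fermat.Agent.S24 Fermat.Agent.ES.M Fermat.Agent.W1 Fermat.Agent.DEU Fermat.Agent.S33

variable (N r : ℕ) [NeZero N] [NeZero r] [NeZero (N * r)]

/-- **(a4) + (a2) + (a1)**, through a level-up `N → N r`: a bounded class of `J₀(N)[p^k]` lies in
the inertia span. -/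
theorem s59pslh_span_of_bdd_levelUp (hr : r.Prime) (hrN : ¬ r ∣ N)
    (p : ℕ) (hp : p.Prime) (hp2 : p ≠ 2) (hpN : ¬ p ∣ N) (hpr : p ≠ r)
    (A : ValuationSubring Qb) (hA : A.LiesOverPrime p) (hI2 : StmtI2 (N * r) A) (k : ℕ)
    (x : Submodule.torsionBy ℤ (JZero N) ((p : ℤ) ^ k))
    (hbdd : S37BddClass (GaussConst A N) (x : JZero N)) :
    x ∈ ntsSpan (A.inertiaSubgroupIn ℚ) (torsAct (JZero N) ((p : ℤ) ^ k)) ⊤ := by
  have hpNr : ¬ p ∣ N * r := by
    intro h
    rcases (Nat.Prime.dvd_mul hp).1 h with h | h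
    · exact hpN h
    · exact hpr ((Nat.prime_dvd_prime_iff_eq hp hr).1 h)
  obtain ⟨hRedF, ρ, t, hM⟩ := s59pslbd_modPR (N * r) p hp hpNr A hA hI2
  have hk : (p ^ k) • (x : JZero N) = 0 := by
    have := (Submodule.mem_torsionBy_iff _ _).1 x.2
    rw [← natCast_zsmul]
    push_cast
    exact this
  have hbdd' : S37BddClass (GaussConst A (N * r)) (s59psltMap N r (x : JZero N)) :=
    s59pslt_map_bdd N r A hbdd
  have hk' : (p ^ k) • s59psltMap N r (x : JZero N) = 0 := by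
    rw [← map_nsmul, hk, map_zero]
  have hJ1 : s59psltMap N r (x : JZero N) ∈ (modPRData (N * r) A hRedF ρ).J1 :=
    s59pslro_mem_J1_modPR (N * r) A hRedF ρ hM.isPR (s59pslbd_count (N * r) p hp A hA)
      (p ^ k) (pow_pos hp.pos k) hbdd' hk'
  exact s59pslj_mem_span_levelUp hp hp2 hA hM (s59psltMap N r) (s59pslt_map_smul N r)
    (fun y hy hy0 => s59pslt_map_inj N r hr hrN hp y hy hy0) k x hJ1

end FreeUp

section FreeAll

open Fermat.Agent.S24 Fermat.Agent.ES.M Fermat.Agent.W1 Fermat.Agent.DEU Fermat.Agent.S33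

variable (N : ℕ) [NeZero N]

/-- **(a2) + (a1) for every odd prime `p ∤ N`**: a bounded class of `J₀(N)[p^k]` lies in the
inertia span `𝔄 J₀(N)[p^k]`. -/
theorem s59pslh_span_of_bdd (p : ℕ) (hp : p.Prime) (hp2 : p ≠ 2) (hpN : ¬ p ∣ N)
    (A : ValuationSubring Qb) (hA : A.LiesOverPrime p) (k : ℕ)
    (x : Submodule.torsionBy ℤ (JZero N) ((p : ℤ) ^ k))
    (hx : S37BddClass (GaussConst A N) (x : JZero N)) :
    x ∈ ntsSpan (A.inertiaSubgroupIn ℚ) (torsAct (JZero N) ((p : ℤ) ^ k)) ⊤ := by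
  rcases le_or_gt 5 p with h5 | h5
  · exact s59pslh_span_of_bdd_I2 N p hp hp2 hpN A hA
      (Fermat.Agent.ES.I2.stmtI2All N p hp h5 hpN A hA) k x hx
  -- `p = 3`
  have hp3 : p = 3 := by
    have h2 := hp.two_le
    interval_cases p
    · exact absurd rfl hp2
    · rfl
    · exact absurd hp (by decide)
  subst hp3
  by_cases h2N : 2 ∣ N
  · exact s59pslh_span_of_bdd_I2 N 3 hp hp2 hpN A hA
      (Fermat.Agent.ES.I2aux.stmtI2AuxAll N 3 hp (by norm_num) hpN h2N A hA) k x hx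
  · haveI : NeZero (N * 2) := ⟨mul_ne_zero (NeZero.ne N) two_ne_zero⟩
    have h3N2 : ¬ 3 ∣ N * 2 := by
      intro h
      rcases (Nat.Prime.dvd_mul hp).1 h with h | h
      · exact hpN h
      · exact absurd h (by decide)
    exact s59pslh_span_of_bdd_levelUp N 2 Nat.prime_two h2N 3 hp hp2 hpN
      (by decide) A hA
      (Fermat.Agent.ES.I2aux.stmtI2AuxAll (N * 2) 3 hp (by norm_num) h3N2
        (Dvd.intro_left N rfl) A hA) k x hx

/-- **Eichler–Shimura at `p` on `J₀(N)[p^k]`, modulo the inertia span, WITHOUT `hcomm`**: for every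
odd prime `p ∤ N`, every place `A ∣ p` with Frobenius `φ` and every `x ∈ J₀(N)(ℚ̄)`, every point
`y` of `J₀(N)[p^k]` with `y = φ² x − T_p φ x + p x` lies in `𝔄 J₀(N)[p^k]`. -/
theorem s59pslh_psi_mem_span (p : ℕ) (hp : p.Prime) (hp2 : p ≠ 2) (hpN : ¬ p ∣ N)
    (A : ValuationSubring Qb) (hA : A.LiesOverPrime p)
    (φ : Qb ≃ₐ[ℚ] Qb) (hφ : A.IsFrobeniusAt φ p) (k : ℕ) (x : JZero N)
    (y : Submodule.torsionBy ℤ (JZero N) ((p : ℤ) ^ k))
    (hy : (y : JZero N) = s59pslhPsi N p hp φ x) :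
    y ∈ ntsSpan (A.inertiaSubgroupIn ℚ) (torsAct (JZero N) ((p : ℤ) ^ k)) ⊤ := by
  refine s59pslh_span_of_bdd N p hp hp2 hpN A hA k y ?_
  rw [hy]
  exact s59pslh_bdd_psi N p hp hpN A hA φ hφ x

end FreeAll

end Fermat.Agent.S59
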