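/-
S59, wall M5 = P-STEP, leaf LG-P, part (LG2)(ii), abstract half (helper29).
Ledger: NOTES/S59-M5.md.

`A ∣ p` a valuation ring of `ℚ̄` (`p` odd), `J` a `G_ℚ`-module with a KERNEL CHART `(J1, z)`
(`W1.KernelChart`: `J1` = the kernel of reduction, `z` = formal coordinates on `J1`), `M = J[n]`
finite with continuous action.

* `s59pslk_ctlHt_congr` : the functions of the EXPLICIT local lattice `W1.ctlHt A J1 z n`
  (generated by the indicators of the cosets of `J1` and the chart coordinates) are constant
  modulo `𝔪_A` on `J1 ∩ M`;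
* `s59pslk_exists_lattice` : there is a Hopf lattice `H` over `ℤ_(p)` on `M`
  (`W1.ltgH = Ht ∩ Map_G(M, ℚ̄)`) all of whose functions are constant mod `𝔪_A` on `J1 ∩ M`;
* `s59pslk_kernel_le_span` : **`J1 ∩ J[pᵏ] ⊆ 𝔄 J[pᵏ]`** (the inertia span), by helper44's
  `s59pslgc_mem_span_of_congr` (`M⁰ = 𝔄 M` does not depend on the lattice);
* `s59pslk_span_le_kernel` : the converse `𝔄 J[n] ⊆ J1` (`KernelChart.lift`).

So for a kernel chart: "reduces to `0`" ⟺ "lies in the inertia span" on `p`-power torsion.
Sorry-free; axioms: propext, Classical.choice, Quot.sound.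
-/
import Fermat.Agent.S59.PStep.LgConn
import Fermat.Agent.W1.ChartToLocal
import Fermat.Agent.W1.LocalToGlobalFinal

set_option autoImplicit false
set_option linter.unusedSectionVars false
set_option linter.unusedVariables false
set_option linter.unusedSimpArgs false
set_option linter.style.longLine false
set_option linter.style.haveILetI false

namespace Fermat.Agent.S59

open Fermat.Agent.S33 Fermat.Agent.W1 Fermat.Agent.UNIP

section Ker

variable {p : ℕ} {A : ValuationSubring (AlgebraicClosure ℚ)} {J : Type} [AddCommGroup J]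
  [DistribMulAction (AlgebraicClosure ℚ ≃ₐ[ℚ] AlgebraicClosure ℚ) J]
  {J1 : AddSubgroup J} {g : ℕ} {z : J → Fin g → AlgebraicClosure ℚ} {n : ℕ}

/-- the functions of the explicit local lattice are constant modulo `𝔪_A` on the kernel of
reduction -/
theorem s59pslk_ctlHt_congr (hK : KernelChart A J J1 g z)
    (c : Submodule.torsionBy ℤ J (n : ℤ)) (hc : (c : J) ∈ J1) :
    ∀ h ∈ ctlHt A J1 z n, h c - h 0 ∈ A.nonunits := by
  intro h hh
  induction hh using Algebra.adjoin_induction with
  | mem f hf =>
    rcases hf with ⟨b, rfl⟩ | ⟨σ, hσ, b, -, i, rfl⟩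
    · by_cases hb : b ∈ J1
      · have h1 : ((c : Submodule.torsionBy ℤ J (n : ℤ)) : J) - b ∈ J1 := J1.sub_mem hc hb
        have h2 : (((0 : Submodule.torsionBy ℤ J (n : ℤ))) : J) - b ∈ J1 := by
          rw [Submodule.coe_zero, zero_sub]
          exact J1.neg_mem hb
        rw [ctlInd_of_mem h1, ctlInd_of_mem h2, sub_self]
        exact ntsl_nu_zero
      · have h1 : ((c : Submodule.torsionBy ℤ J (n : ℤ)) : J) - b ∉ J1 := by
          intro h
          apply hb
          have := J1.sub_mem hc h
          rwa [sub_sub_cancel] at this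
        have h2 : (((0 : Submodule.torsionBy ℤ J (n : ℤ))) : J) - b ∉ J1 := by
          rw [Submodule.coe_zero, zero_sub]
          intro h
          apply hb
          have := J1.neg_mem h
          rwa [neg_neg] at this
        rw [ctlInd_of_not_mem h1, ctlInd_of_not_mem h2, sub_self]
        exact ntsl_nu_zero
    · exact ntsl_nu_sub (ctlPsi_apply_mem hK hσ b i c) (ctlPsi_apply_mem hK hσ b i 0)
  | algebraMap r =>
    have : (algebraMap A (Submodule.torsionBy ℤ J (n : ℤ) → AlgebraicClosure ℚ) r) c
        - (algebraMap A (Submodule.torsionBy ℤ J (n : ℤ) → AlgebraicClosure ℚ) r) 0 = 0 :=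
      sub_self _
    rw [this]
    exact ntsl_nu_zero
  | add x y _ _ hx hy =>
    have e : (x + y) c - (x + y) 0 = (x c - x 0) + (y c - y 0) := by
      simp only [Pi.add_apply]; ring
    rw [e]
    exact ntsl_nu_add hx hy
  | mul x y hxm hym hx hy =>
    have e : (x * y) c - (x * y) 0 = x c * y c - x 0 * y 0 := by
      simp only [Pi.mul_apply]
    rw [e]
    exact ntsl_nu_mul_sub_mul (ctl_integral hK x hxm c) (ctl_integral hK y hym 0) hx hy

/-- the explicit local lattice is a local Hopf lattice (`W1.chartToLocalStatement`, with the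
lattice named) -/
theorem s59pslk_ctlHt_isLocalHopfLattice (hp : p.Prime) (hA : A.LiesOverPrime p)
    (hK : KernelChart A J J1 g z) (hn : 0 < n) [Finite (Submodule.torsionBy ℤ J (n : ℤ))] :
    IsLocalHopfLattice A (torsAct J (n : ℤ)) (ctlHt A J1 z n) :=
  { integral := ctl_integral hK
    separates := ctl_separates hK hn
    decomp_stable := ctl_decomp_stable hK
    inertia_span := ctl_inertia_span hK hn
    comul_mem := ctl_comul_mem hp hA hK hn }

/-- a Hopf lattice over `ℤ_(p)` on `J[n]` whose functions are constant mod `𝔪_A` on the kernel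
of reduction -/
theorem s59pslk_exists_lattice (hp : p.Prime) (hA : A.LiesOverPrime p)
    (hK : KernelChart A J J1 g z) (hn : 0 < n)
    [Finite (Submodule.torsionBy ℤ J (n : ℤ))] (hact : IsContAction (torsAct J (n : ℤ))) :
    ∃ H : Subalgebra (GaloisRep.ratLocalizedAt p)
        (Submodule.torsionBy ℤ J (n : ℤ) → AlgebraicClosure ℚ),
      IsHopfLattice (GaloisRep.ratLocalizedAt p) (torsAct J (n : ℤ)) H ∧
      ∀ c : Submodule.torsionBy ℤ J (n : ℤ), (c : J) ∈ J1 →
        ∀ h ∈ H, h c - h 0 ∈ A.nonunits := by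
  haveI : Fact p.Prime := ⟨hp⟩
  have hloc := s59pslk_ctlHt_isLocalHopfLattice hp hA hK hn
  refine ⟨ltgH A (torsAct J (n : ℤ)) hp hA (ctlHt A J1 z n), IsHopfLattice.of_core
    (ltg_fg hp hA hact hloc descLagrange DI.descInertiaStatement descApprox) (fun h hh => hh.2)
    (ltg_separates hp hA hact hloc descLagrange DI.descInertiaStatement descApprox)
    (ltg_comul hp hA hact hloc descLagrange DI.descInertiaStatement descApprox)
    (ltg_act_zero hact), ?_⟩
  intro c hc h hh
  exact s59pslk_ctlHt_congr hK c hc h hh.1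

/-- **(LG2)(ii), abstract**: for a kernel chart, a point of `J[m]`, `m = pᵏ`, in the kernel of
reduction `J1` lies in the inertia span `𝔄 J[m]`. -/
theorem s59pslk_kernel_le_span (hp : p.Prime) (hp2 : p ≠ 2) (hA : A.LiesOverPrime p)
    (hK : KernelChart A J J1 g z) (k : ℕ) (m : ℤ) (hm : m = ((p ^ k : ℕ) : ℤ))
    [Finite (Submodule.torsionBy ℤ J m)] (hact : IsContAction (torsAct J m))
    (c : Submodule.torsionBy ℤ J m) (hc : (c : J) ∈ J1) :
    c ∈ ntsSpan (A.inertiaSubgroupIn ℚ) (torsAct J m) ⊤ := by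
  subst hm
  obtain ⟨H, hH, hcong⟩ := s59pslk_exists_lattice hp hA hK (pow_pos hp.pos k) hact
  refine s59pslgc_mem_span_of_congr hp hp2 hA ⟨k, fun x => ?_⟩ hH (hcong c hc)
  apply Subtype.ext
  have hx := (Submodule.mem_torsionBy_iff _ _).1 x.2
  rw [AddSubmonoidClass.coe_nsmul, ← natCast_zsmul]
  simp

/-- the converse: the inertia span of the torsion lies in the kernel of reduction -/
theorem s59pslk_span_le_kernel (hK : KernelChart A J J1 g z) (hn : 0 < n)
    (c : Submodule.torsionBy ℤ J (n : ℤ))
    (hc : c ∈ ntsSpan (A.inertiaSubgroupIn ℚ) (torsAct J (n : ℤ)) ⊤) : (c : J) ∈ J1 := by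
  unfold ntsSpan at hc
  induction hc using AddSubgroup.closure_induction with
  | mem x hx =>
    obtain ⟨σ, hσ, b, -, rfl⟩ := hx
    exact ctl_inertia_sub_mem hK hσ (ctl_torsion hn b)
  | zero => exact J1.zero_mem
  | add x y _ _ hx hy => exact J1.add_mem hx hy
  | neg x _ hx => exact J1.neg_mem hx

end Ker

end Fermat.Agent.S59
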