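/-
S59, wall M5 = P-STEP, leaf LG-P (local–global at `p`), part 1: THE ALGEBRA (helper16).

`ρ` a 2-dimensional representation over a local ring `A` with `p ∈ 𝔪_A`, ordinary at `p`.

* `s59pslg_root_unique` : in a local ring with `p ∈ 𝔪`, a UNIT root of `X² − a X + p` is unique;
* `S59pslgQuad ρ p a`   : **the Eichler–Shimura relation at `p`** on the unramified quotient: for
  every place `P` over `p`, every ordinary line `L` at `P` and every Frobenius `φ` at `P`,
  `φ² − a φ + p` maps `V` into `L`;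
* `s59pslg_unitRoot_of_quad` : **LG-P ⇐ (ordinary) + (Quad)**:
  `ρ.IsOrdinaryAt p → S59pslgQuad ρ p a → α² − a α + p = 0 → IsUnit α → s59psUnitRoot ρ p α`;
* `s59pslg_quad_of_unitRoot` : the converse (for the line of `s59psUnitRoot`);
* `s59pslg_frob_unit`, `s59pslg_coord_*` : the coordinate calculus on `V ⧸ L`.
-/
import Fermat.Agent.S59.PStep.Plan

set_option autoImplicit false
set_option linter.unusedSectionVars false
set_option linter.unusedVariables false
set_option linter.style.longLine false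
set_option linter.style.haveILetI false

noncomputable section

namespace Fermat.Agent.S59

open IsLocalRing

/-- `ℚ̄` -/
local notation "Qbar" => AlgebraicClosure ℚ

section Root

variable {A : Type*} [CommRing A] [IsLocalRing A]

/-- **a unit root of `X² − a X + p` is unique** (`p ∈ 𝔪`). -/
theorem s59pslg_root_unique {p a u α : A} (hp : p ∈ maximalIdeal A)
    (hu : IsUnit u) (hα : IsUnit α) (hu2 : u ^ 2 - a * u + p = 0)
    (hα2 : α ^ 2 - a * α + p = 0) : u = α := by
  -- `a − α = p α⁻¹ ∈ 𝔪`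
  obtain ⟨β, hβ⟩ := hα.exists_right_inv
  have h1 : a - α = p * β := by
    have e : α * (a - α) = p := by linear_combination (-1 : A) * hα2
    calc a - α = (α * β) * (a - α) := by rw [hβ, one_mul]
      _ = (α * (a - α)) * β := by ring
      _ = p * β := by rw [e]
  have h2 : a - α ∈ maximalIdeal A := by
    rw [h1]
    exact Ideal.mul_mem_right _ _ hp
  -- `u + α − a` is a unit
  have h3 : IsUnit (u + α - a) := by
    have e : u + α - a = u - (a - α) := by ring
    rw [e]
    by_contra hnu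
    have hm : u - (a - α) ∈ maximalIdeal A := (mem_maximalIdeal _).2 hnu
    have hu' : u ∈ maximalIdeal A := by
      have := Ideal.add_mem _ hm h2
      simpa using this
    exact (mem_maximalIdeal _).1 hu' hu
  have h4 : (u + α - a) * (u - α) = 0 := by linear_combination hu2 - hα2
  have h5 : u - α = 0 := by
    obtain ⟨w, hw⟩ := h3.exists_left_inv
    calc u - α = (w * (u + α - a)) * (u - α) := by rw [hw, one_mul]
      _ = w * ((u + α - a) * (u - α)) := by ring
      _ = 0 := by rw [h4, mul_zero]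
  exact sub_eq_zero.1 h5

end Root

section Quad

variable {A : Type} [CommRing A] [IsLocalRing A]

/-- **The Eichler–Shimura relation at `p` on the unramified quotient**: `φ² − a φ + p` maps `V`
into every ordinary line at `P`, for every Frobenius `φ` at `P`. -/
def S59pslgQuad (ρ : GaloisRepAdic A) (p : ℕ) (a : A) : Prop :=
  ∀ P : ValuationSubring Qbar, P.LiesOverPrime p →
    ∀ L : Submodule A ρ.V,
      (∃ b : Module.Basis (Fin 2) A ρ.V, L = A ∙ b 0) →
      (∀ σ ∈ P.decompositionSubgroup ℚ, ∀ v ∈ L, ρ.ρ σ v ∈ L) →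
      (∀ σ ∈ P.inertiaSubgroupIn ℚ, ∀ v : ρ.V, ρ.ρ σ v - v ∈ L) →
      ∀ φ : S59G, P.IsFrobeniusAt φ p → ∀ v : ρ.V,
        ρ.ρ φ (ρ.ρ φ v) - a • ρ.ρ φ v + (p : A) • v ∈ L

variable {V : Type*} [AddCommGroup V] [Module A V]

/-- membership in the line `A ∙ b 0` is the vanishing of the second coordinate -/
theorem s59pslg_mem_line_iff (b : Module.Basis (Fin 2) A V) (v : V) :
    v ∈ (A ∙ b 0 : Submodule A V) ↔ b.repr v 1 = 0 := by
  constructor
  · intro h
    obtain ⟨c, rfl⟩ := Submodule.mem_span_singleton.1 h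
    rw [map_smul, Finsupp.smul_apply, Module.Basis.repr_self, Finsupp.single_apply]
    simp
  · intro h
    have e : v = b.repr v 0 • b 0 := by
      conv_lhs => rw [← b.sum_repr v]
      rw [Fin.sum_univ_two, h, zero_smul, add_zero]
    rw [e]
    exact Submodule.smul_mem _ _ (Submodule.mem_span_singleton_self _)

/-- an endomorphism preserving the line acts on the second coordinate through a scalar -/
theorem s59pslg_coord_apply (b : Module.Basis (Fin 2) A V) (f : Module.End A V)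
    (hf : ∀ v ∈ (A ∙ b 0 : Submodule A V), f v ∈ (A ∙ b 0 : Submodule A V)) (v : V) :
    b.repr (f v) 1 = b.repr (f (b 1)) 1 * b.repr v 1 := by
  have e : v = b.repr v 0 • b 0 + b.repr v 1 • b 1 := by
    conv_lhs => rw [← b.sum_repr v]
    rw [Fin.sum_univ_two]
  have h0 : b.repr (f (b 0)) 1 = 0 :=
    (s59pslg_mem_line_iff b _).1 (hf _ (Submodule.mem_span_singleton_self _))
  conv_lhs => rw [e]
  rw [map_add, map_smul, map_smul, map_add, map_smul, map_smul, Finsupp.add_apply,
    Finsupp.smul_apply, Finsupp.smul_apply, h0, smul_eq_mul, smul_eq_mul, mul_zero, zero_add,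
    mul_comm]

end Quad

section Main

variable {A : Type} [CommRing A] [IsLocalRing A]

/-- the scalar by which `σ ∈ D_P` acts on `V ⧸ L` -/
def s59pslgScalar (ρ : GaloisRepAdic A) (b : Module.Basis (Fin 2) A ρ.V) (σ : S59G) : A :=
  b.repr (ρ.ρ σ (b 1)) 1

/-- the scalar of an element of the decomposition group is a unit -/
theorem s59pslg_scalar_unit (ρ : GaloisRepAdic A) (b : Module.Basis (Fin 2) A ρ.V)
    {D : Subgroup S59G}
    (hD : ∀ σ ∈ D, ∀ v ∈ (A ∙ b 0 : Submodule A ρ.V), ρ.ρ σ v ∈ (A ∙ b 0 : Submodule A ρ.V))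
    {σ : S59G} (hσ : σ ∈ D) : IsUnit (s59pslgScalar ρ b σ) := by
  have hinv : σ⁻¹ ∈ D := D.inv_mem hσ
  have h1 := s59pslg_coord_apply b (ρ.ρ σ⁻¹) (hD σ⁻¹ hinv) (ρ.ρ σ (b 1))
  have e : ρ.ρ σ⁻¹ (ρ.ρ σ (b 1)) = b 1 := by
    rw [← Module.End.mul_apply, ← map_mul, inv_mul_cancel, map_one, Module.End.one_apply]
  rw [e, Module.Basis.repr_self, Finsupp.single_apply] at h1
  simp only [if_true] at h1
  exact IsUnit.of_mul_eq_one _ (by rw [mul_comm]; exact h1.symm)

/-- **LG-P from the Eichler–Shimura relation at `p`**: an ordinary representation on whose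
unramified quotients `φ² − a φ + p = 0` has unit root `α`. -/
theorem s59pslg_unitRoot_of_quad (ρ : GaloisRepAdic A) {p : ℕ} {a α : A}
    (hp : (p : A) ∈ maximalIdeal A) (hord : ρ.IsOrdinaryAt p) (hquad : S59pslgQuad ρ p a)
    (hα : IsUnit α) (hα2 : α ^ 2 - a * α + (p : A) = 0) : s59psUnitRoot ρ p α := by
  intro P hP
  obtain ⟨L, ⟨b, hb⟩, hD, hI⟩ := hord P hP
  refine ⟨L, ⟨b, hb⟩, hD, hI, ?_⟩
  intro φ hφ v
  subst hb
  have hφD : φ ∈ P.decompositionSubgroup ℚ := hφ.mem_decompositionSubgroup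
  set u := s59pslgScalar ρ b φ with hu
  have hcoord : ∀ w : ρ.V, b.repr (ρ.ρ φ w) 1 = u * b.repr w 1 :=
    fun w => s59pslg_coord_apply b (ρ.ρ φ) (hD φ hφD) w
  have huU : IsUnit u := s59pslg_scalar_unit ρ b hD hφD
  -- the quadratic relation for `u`
  have hq := hquad P hP _ ⟨b, rfl⟩ hD hI φ hφ (b 1)
  rw [s59pslg_mem_line_iff] at hq
  rw [map_add, map_sub, map_smul, map_smul, Finsupp.add_apply, Finsupp.sub_apply,
    Finsupp.smul_apply, Finsupp.smul_apply, hcoord, hcoord, Module.Basis.repr_self,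
    Finsupp.single_apply] at hq
  simp only [if_true, smul_eq_mul, mul_one] at hq
  have hu2 : u ^ 2 - a * u + (p : A) = 0 := by
    rw [← hq]
    ring
  have hua : u = α := s59pslg_root_unique hp huU hα hu2 hα2
  rw [s59pslg_mem_line_iff, map_sub, map_smul, Finsupp.sub_apply, Finsupp.smul_apply, hcoord,
    hua, smul_eq_mul, sub_self]

/-- the converse: with unit root `α = ` a root of `X² − a X + p`, the relation holds on the line
of `s59psUnitRoot` -/
theorem s59pslg_quad_of_unitRoot (ρ : GaloisRepAdic A) {p : ℕ} {a α : A}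
    (h : s59psUnitRoot ρ p α) (hα2 : α ^ 2 - a * α + (p : A) = 0)
    (P : ValuationSubring Qbar) (hP : P.LiesOverPrime p) :
    ∃ L : Submodule A ρ.V,
      (∃ b : Module.Basis (Fin 2) A ρ.V, L = A ∙ b 0) ∧
      (∀ σ ∈ P.decompositionSubgroup ℚ, ∀ v ∈ L, ρ.ρ σ v ∈ L) ∧
      (∀ σ ∈ P.inertiaSubgroupIn ℚ, ∀ v : ρ.V, ρ.ρ σ v - v ∈ L) ∧
      ∀ φ : S59G, P.IsFrobeniusAt φ p → ∀ v : ρ.V,
        ρ.ρ φ (ρ.ρ φ v) - a • ρ.ρ φ v + (p : A) • v ∈ L := by
  obtain ⟨L, hb, hD, hI, hF⟩ := h P hP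
  refine ⟨L, hb, hD, hI, fun φ hφ v => ?_⟩
  have h1 := hF φ hφ (ρ.ρ φ v)
  have h2 := hF φ hφ v
  have e : ρ.ρ φ (ρ.ρ φ v) - a • ρ.ρ φ v + (p : A) • v =
      (ρ.ρ φ (ρ.ρ φ v) - α • ρ.ρ φ v) + (α - a) • (ρ.ρ φ v - α • v) +
        (α ^ 2 - a * α + (p : A)) • v := by
    simp only [sub_smul, smul_sub, add_smul, mul_smul, pow_two]
    abel
  rw [e, hα2, zero_smul, add_zero]
  exact L.add_mem h1 (L.smul_mem _ h2)

end Main

end Fermat.Agent.S59

end
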