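/-
S59, wall M5 = P-STEP, leaf LG-P (local–global at `p`), part 2: THE TRANSFER (helper16).

How the Eichler–Shimura relation at `p` passes from the torsion of the Jacobian to a
representation `ρ` which is only known to be CONTROLLED by it (`S32.AnnProp`-style), through the
inertia span and `S33.NTS` ("no trivial sub-quotient").

* `s59pslx_transfer` : **abstract transfer.**  `Ψ : F → X`, `Θ : F → Y` inertia-equivariant with
  `ker Ψ ≤ ker Θ`, `Z ≤ X` inertia-stable with `NTS`, `E : F → F` an operator with `Ψ (E c) ∈ Z`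
  for all `c`.  Then `Θ (E c)` lies in the inertia span of `Y`.
  (Use: `F = R[G]^r`, `X = J[pᵐ]^r`, `Z = 𝔄 X`, `E = φ² − T_p φ + p`, `Y = V ⧸ 𝔪ᵏ V`.)
* `s59pslx_span_le_line` : the inertia span of `V` lies in every ordinary line;
* `s59pslx_mem_line_of_forall` : `w ∈ L + 𝔪ᵏ V` for all `k` ⇒ `w ∈ L` (Krull);
* `s59pslx_quad_of_span` : **(`∀ k`, `(φ² − a φ + p) V ⊆ 𝔄 V + 𝔪ᵏ V`) ⇒ `S59pslgQuad ρ p a`**;
* `S59pslxModel`, `s59pslx_span_of_model` : a MODEL of `ρ mod 𝔪ᵏ` (the data `F, X, Ψ, Θ, Z, E` with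
  the congruences mod `𝔪ᵏ`) gives `(φ² − a φ + p) V ⊆ 𝔄 V + 𝔪ᵏ V`;
* `s59pslx_unitRoot_of_models` : **LG-P from models for all `k`**.
-/
import Fermat.Agent.S59.PStep.LgpAlg
import Fermat.Agent.S33.NTS

set_option autoImplicit false
set_option linter.unusedSectionVars false
set_option linter.unusedVariables false
set_option linter.style.longLine false
set_option linter.style.haveILetI false

noncomputable section

namespace Fermat.Agent.S59

open IsLocalRing Fermat.Agent.S33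

/-- `ℚ̄` -/
local notation "Qbar" => AlgebraicClosure ℚ

section Abs

variable {G : Type*} [Group G] {F X Y : Type*} [AddCommGroup F] [AddCommGroup X]
  [AddCommGroup Y] {I : Subgroup G} {actF : G → F → F} {actX : G → X → X} {actY : G → Y → Y}

/-- **Abstract transfer** of an operator with values in an `NTS`-subgroup. -/
theorem s59pslx_transfer (Ψ : F →+ X) (Θ : F →+ Y)
    (hΨ : ∀ σ ∈ I, ∀ c, Ψ (actF σ c) = actX σ (Ψ c))
    (hΘ : ∀ σ ∈ I, ∀ c, Θ (actF σ c) = actY σ (Θ c))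
    (hker : ∀ c, Ψ c = 0 → Θ c = 0)
    {Z : AddSubgroup X} (hZ : NTS I actX Z) (hZst : ntsStable I actX Z)
    (E : F → F) (hE : ∀ c, Ψ (E c) ∈ Z) (c : F) :
    Θ (E c) ∈ ntsSpan I actY (⊤ : AddSubgroup Y) := by
  set W : AddSubgroup F := Z.comap Ψ with hWdef
  have hW : ntsStable I actF W := by
    intro σ hσ w hw
    change Ψ (actF σ w) ∈ Z
    rw [hΨ σ hσ]
    exact hZst σ hσ _ hw
  have hWZ : W.map Ψ ≤ Z := by
    rintro _ ⟨w, hw, rfl⟩
    exact hw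
  have hN : NTS I actY (W.map Θ) := nts_transfer Ψ Θ hΨ hΘ hker hZ hW hWZ
  have hst : ntsStable I actY (W.map Θ) := by
    rintro σ hσ _ ⟨w, hw, rfl⟩
    exact ⟨actF σ w, hW σ hσ w hw, hΘ σ hσ w⟩
  have h1 : Θ (E c) ∈ W.map Θ := ⟨E c, hE c, rfl⟩
  exact ntsSpan_mono le_top (hN (W.map Θ) le_rfl hst h1)

end Abs

section Line

variable {A : Type} [CommRing A] [IsLocalRing A]

/-- the action of `G_ℚ` on `V` as a plain map -/
def s59pslxAct (ρ : GaloisRepAdic A) : S59G → ρ.V → ρ.V := fun σ v => ρ.ρ σ v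

/-- the operator `φ² − a φ + p` on `V` -/
def s59pslxOp (ρ : GaloisRepAdic A) (φ : S59G) (p : ℕ) (a : A) (v : ρ.V) : ρ.V :=
  ρ.ρ φ (ρ.ρ φ v) - a • ρ.ρ φ v + (p : A) • v

theorem s59pslxOp_add (ρ : GaloisRepAdic A) (φ : S59G) (p : ℕ) (a : A) (v w : ρ.V) :
    s59pslxOp ρ φ p a (v + w) = s59pslxOp ρ φ p a v + s59pslxOp ρ φ p a w := by
  simp only [s59pslxOp, map_add, smul_add]
  abel

theorem s59pslxOp_mem (ρ : GaloisRepAdic A) (φ : S59G) (p : ℕ) (a : A)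
    (M : Submodule A ρ.V) (hM : ∀ v ∈ M, ρ.ρ φ v ∈ M) {v : ρ.V} (hv : v ∈ M) :
    s59pslxOp ρ φ p a v ∈ M :=
  M.add_mem (M.sub_mem (hM _ (hM _ hv)) (M.smul_mem _ (hM _ hv))) (M.smul_mem _ hv)

/-- every endomorphism preserves `I • ⊤` -/
theorem s59pslx_end_mem (ρ : GaloisRepAdic A) (J : Ideal A) (f : Module.End A ρ.V) {v : ρ.V}
    (hv : v ∈ J • (⊤ : Submodule A ρ.V)) : f v ∈ J • (⊤ : Submodule A ρ.V) := by
  refine Submodule.smul_induction_on hv (fun r hr n _ => ?_) (fun x y hx hy => ?_)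
  · rw [map_smul]
    exact Submodule.smul_mem_smul hr Submodule.mem_top
  · rw [map_add]
    exact Submodule.add_mem _ hx hy

/-- the inertia span of `V` lies in every line `L` with `(σ − 1) V ⊆ L` -/
theorem s59pslx_span_le_line (ρ : GaloisRepAdic A) (I : Subgroup S59G) (L : Submodule A ρ.V)
    (hI : ∀ σ ∈ I, ∀ v : ρ.V, ρ.ρ σ v - v ∈ L) :
    ntsSpan I (s59pslxAct ρ) (⊤ : AddSubgroup ρ.V) ≤ L.toAddSubgroup := by
  rw [ntsSpan, AddSubgroup.closure_le]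
  rintro w ⟨σ, hσ, b, -, rfl⟩
  exact hI σ hσ b

/-- the second coordinate of an element of `J • ⊤` lies in `J` -/
theorem s59pslx_coord_mem (ρ : GaloisRepAdic A) (b : Module.Basis (Fin 2) A ρ.V) (J : Ideal A)
    {v : ρ.V} (hv : v ∈ J • (⊤ : Submodule A ρ.V)) : b.repr v 1 ∈ J := by
  refine Submodule.smul_induction_on hv (fun r hr n _ => ?_) (fun x y hx hy => ?_)
  · rw [map_smul, Finsupp.smul_apply, smul_eq_mul]
    exact Ideal.mul_mem_right _ _ hr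
  · rw [map_add, Finsupp.add_apply]
    exact Ideal.add_mem _ hx hy

/-- **Krull**: `w ∈ L + 𝔪ᵏ V` for all `k` ⇒ `w ∈ L`. -/
theorem s59pslx_mem_line_of_forall [IsNoetherianRing A] (ρ : GaloisRepAdic A)
    (b : Module.Basis (Fin 2) A ρ.V) (w : ρ.V)
    (h : ∀ k : ℕ, ∃ l ∈ (A ∙ b 0 : Submodule A ρ.V),
      w - l ∈ (maximalIdeal A ^ k) • (⊤ : Submodule A ρ.V)) :
    w ∈ (A ∙ b 0 : Submodule A ρ.V) := by
  rw [s59pslg_mem_line_iff]
  have hk : ∀ k : ℕ, b.repr w 1 ∈ maximalIdeal A ^ k := by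
    intro k
    obtain ⟨l, hl, hwl⟩ := h k
    have h1 := s59pslx_coord_mem ρ b _ hwl
    rw [map_sub, Finsupp.sub_apply, (s59pslg_mem_line_iff b l).1 hl, sub_zero] at h1
    exact h1
  have hinf : b.repr w 1 ∈ (⨅ k : ℕ, maximalIdeal A ^ k : Ideal A) := by
    rw [Ideal.mem_iInf]
    exact hk
  have hbot : (⨅ k : ℕ, maximalIdeal A ^ k : Ideal A) = ⊥ :=
    Ideal.iInf_pow_eq_bot_of_isLocalRing _ (maximalIdeal.isMaximal A).ne_top
  rw [hbot] at hinf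
  exact hinf

/-- **`(φ² − a φ + p) V ⊆ 𝔄 V + 𝔪ᵏ V` for all `k` gives the Eichler–Shimura relation at `p` on the
unramified quotient.** -/
theorem s59pslx_quad_of_span [IsNoetherianRing A] (ρ : GaloisRepAdic A) {p : ℕ} {a : A}
    (h : ∀ P : ValuationSubring Qbar, P.LiesOverPrime p → ∀ φ : S59G, P.IsFrobeniusAt φ p →
      ∀ (k : ℕ) (v : ρ.V), ∃ l ∈ ntsSpan (P.inertiaSubgroupIn ℚ) (s59pslxAct ρ)
        (⊤ : AddSubgroup ρ.V),
        s59pslxOp ρ φ p a v - l ∈ (maximalIdeal A ^ k) • (⊤ : Submodule A ρ.V)) :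
    S59pslgQuad ρ p a := by
  intro P hP L hb hD hI φ hφ v
  obtain ⟨b, rfl⟩ := hb
  refine s59pslx_mem_line_of_forall ρ b _ fun k => ?_
  obtain ⟨l, hl, hlk⟩ := h P hP φ hφ k v
  exact ⟨l, s59pslx_span_le_line ρ _ _ hI hl, hlk⟩

end Line

section Model

variable {A : Type} [CommRing A] [IsLocalRing A]

/-- **A model of `ρ mod 𝔪ᵏ` at `(P, φ)`**: additive groups `F`, `X` with plain actions of `G_ℚ`,
maps `Ψ : F → X`, `Θ : F → V`, an inertia-stable subgroup `Z ≤ X` without trivial sub-quotients and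
an operator `E` on `F` (think of `φ² − T_p φ + p` on `F = R[G_ℚ]^r`, `X = J[pᵐ]^r`, `Z = 𝔄 X`)
such that `Ψ ∘ E` has values in `Z`, and `Θ` is inertia-equivariant, surjective, transforms `E`
into `φ² − a φ + p` and kills `ker Ψ` — all modulo `𝔪ᵏ V`. -/
def S59pslxModel (ρ : GaloisRepAdic A) (P : ValuationSubring Qbar) (φ : S59G) (p : ℕ) (a : A)
    (k : ℕ) : Prop :=
  ∃ (F X : Type) (_ : AddCommGroup F) (_ : AddCommGroup X) (actF : S59G → F → F)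
    (actX : S59G → X → X) (Ψ : F →+ X) (Θ : F →+ ρ.V) (Z : AddSubgroup X) (E : F → F),
    NTS (P.inertiaSubgroupIn ℚ) actX Z ∧ ntsStable (P.inertiaSubgroupIn ℚ) actX Z ∧
    (∀ σ ∈ P.inertiaSubgroupIn ℚ, ∀ c, Ψ (actF σ c) = actX σ (Ψ c)) ∧
    (∀ c, Ψ (E c) ∈ Z) ∧
    (∀ σ ∈ P.inertiaSubgroupIn ℚ, ∀ c,
      Θ (actF σ c) - ρ.ρ σ (Θ c) ∈ (maximalIdeal A ^ k) • (⊤ : Submodule A ρ.V)) ∧
    (∀ c, Θ (E c) - s59pslxOp ρ φ p a (Θ c) ∈ (maximalIdeal A ^ k) • (⊤ : Submodule A ρ.V)) ∧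
    (∀ c, Ψ c = 0 → Θ c ∈ (maximalIdeal A ^ k) • (⊤ : Submodule A ρ.V)) ∧
    (∀ v : ρ.V, ∃ c, Θ c - v ∈ (maximalIdeal A ^ k) • (⊤ : Submodule A ρ.V))

/-- the action on `V ⧸ 𝔪ᵏ V` -/
def s59pslxActQ (ρ : GaloisRepAdic A) (k : ℕ) :
    S59G → (ρ.V ⧸ (maximalIdeal A ^ k) • (⊤ : Submodule A ρ.V)) →
      (ρ.V ⧸ (maximalIdeal A ^ k) • (⊤ : Submodule A ρ.V)) :=
  fun σ => Submodule.mapQ _ _ (ρ.ρ σ) (fun v hv => s59pslx_end_mem ρ _ (ρ.ρ σ) hv)

theorem s59pslxActQ_mk (ρ : GaloisRepAdic A) (k : ℕ) (σ : S59G) (v : ρ.V) :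
    s59pslxActQ ρ k σ (Submodule.Quotient.mk v) = Submodule.Quotient.mk (ρ.ρ σ v) := rfl

/-- **a model gives `(φ² − a φ + p) V ⊆ 𝔄 V + 𝔪ᵏ V`** -/
theorem s59pslx_span_of_model (ρ : GaloisRepAdic A) (P : ValuationSubring Qbar) (φ : S59G)
    (p : ℕ) (a : A) (k : ℕ) (hm : S59pslxModel ρ P φ p a k) (v : ρ.V) :
    ∃ l ∈ ntsSpan (P.inertiaSubgroupIn ℚ) (s59pslxAct ρ) (⊤ : AddSubgroup ρ.V),
      s59pslxOp ρ φ p a v - l ∈ (maximalIdeal A ^ k) • (⊤ : Submodule A ρ.V) := by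
  obtain ⟨F, X, _, _, actF, actX, Ψ, Θ, Z, E, hZ, hZst, hΨ, hE, hΘI, hΘE, hker, hsurj⟩ := hm
  set M : Submodule A ρ.V := (maximalIdeal A ^ k) • (⊤ : Submodule A ρ.V) with hM
  set q : ρ.V →+ ρ.V ⧸ M := (Submodule.mkQ M).toAddMonoidHom with hq
  have hq0 : ∀ w : ρ.V, q w = 0 ↔ w ∈ M := fun w => Submodule.Quotient.mk_eq_zero M
  have hqeq : ∀ w w' : ρ.V, w - w' ∈ M → q w = q w' := by
    intro w w' h
    have := (hq0 (w - w')).2 h
    rwa [map_sub, sub_eq_zero] at this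
  -- the transfer
  obtain ⟨c, hc⟩ := hsurj v
  have hT := s59pslx_transfer (I := P.inertiaSubgroupIn ℚ) (actF := actF) (actX := actX)
    (actY := s59pslxActQ ρ k) Ψ (q.comp Θ) hΨ
    (fun σ hσ c' => by
      rw [AddMonoidHom.comp_apply, AddMonoidHom.comp_apply]
      exact hqeq _ _ (hΘI σ hσ c'))
    (fun c' hc' => by
      rw [AddMonoidHom.comp_apply]
      exact (hq0 _).2 (hker c' hc'))
    hZ hZst E hE c
  -- the span of the quotient is the image of the span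
  have hmap : ntsSpan (P.inertiaSubgroupIn ℚ) (s59pslxActQ ρ k)
      (⊤ : AddSubgroup (ρ.V ⧸ M)) ≤
      (ntsSpan (P.inertiaSubgroupIn ℚ) (s59pslxAct ρ) (⊤ : AddSubgroup ρ.V)).map q := by
    have h1 := ntsSpan_map_le (I := P.inertiaSubgroupIn ℚ) (actF := s59pslxAct ρ)
      (actX := s59pslxActQ ρ k) q (fun σ _ w => rfl) (⊤ : AddSubgroup ρ.V)
    have h2 : (⊤ : AddSubgroup ρ.V).map q = ⊤ := by
      rw [← AddMonoidHom.range_eq_map, AddMonoidHom.range_eq_top]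
      exact Submodule.mkQ_surjective M
    rwa [h2] at h1
  obtain ⟨l, hl, hlq⟩ := hmap hT
  refine ⟨l, hl, ?_⟩
  -- `q (Op v) = q (Op (Θ c)) = q (Θ (E c)) = q l`
  have h3 : q (s59pslxOp ρ φ p a v) = q (s59pslxOp ρ φ p a (Θ c)) := by
    refine (hqeq _ _ ?_).symm
    have e : s59pslxOp ρ φ p a (Θ c) - s59pslxOp ρ φ p a v = s59pslxOp ρ φ p a (Θ c - v) := by
      have := s59pslxOp_add ρ φ p a (Θ c - v) v
      rw [sub_add_cancel] at this
      rw [this, add_sub_cancel_right]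
    rw [e]
    exact s59pslxOp_mem ρ φ p a M (fun w hw => s59pslx_end_mem ρ _ (ρ.ρ φ) hw) hc
  have h4 : q (Θ (E c)) = q (s59pslxOp ρ φ p a (Θ c)) := hqeq _ _ (hΘE c)
  have h5 : q (s59pslxOp ρ φ p a v - l) = 0 := by
    rw [map_sub, h3, ← h4, ← AddMonoidHom.comp_apply, ← hlq, sub_self]
  exact (hq0 _).1 h5

/-- **LG-P from models of `ρ mod 𝔪ᵏ` for all `k`.** -/
theorem s59pslx_unitRoot_of_models [IsNoetherianRing A] (ρ : GaloisRepAdic A) {p : ℕ} {a α : A}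
    (hp : (p : A) ∈ maximalIdeal A) (hord : ρ.IsOrdinaryAt p)
    (hmodel : ∀ P : ValuationSubring Qbar, P.LiesOverPrime p → ∀ φ : S59G,
      P.IsFrobeniusAt φ p → ∀ k : ℕ, S59pslxModel ρ P φ p a k)
    (hα : IsUnit α) (hα2 : α ^ 2 - a * α + (p : A) = 0) : s59psUnitRoot ρ p α :=
  s59pslg_unitRoot_of_quad ρ hp hord
    (s59pslx_quad_of_span ρ fun P hP φ hφ k v =>
      s59pslx_span_of_model ρ P φ p a k (hmodel P hP φ hφ k) v) hα hα2

end Model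

end Fermat.Agent.S59

end
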