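/-
S59, case (c) (`W` multiplicative at `p`, `ρ̄` peu ramifié at `p`) **at the team's case condition**
`s59staCondC` (helper43, `S59/Strict/AsmOrd.lean`) — helper76.

* `s59pstf_peu_bar`  : `s59staCondC W p` ⇒ `ρ̄ = s59feBar W hΔ p φ hφ` is peu ramifié at `p`
  (base change `tateRepInt.residual → s59feBar`);
* `s59pstf_minlev`   : MINLEV-C at `s59staCondC` from the walls M1 and LOWQ (helper30's
  `s59lppt_minlev_res`);
* **`s59pstf_stages_c`** : (STAGES) at `s59staCondC` from S29 ✓, S22 ✓, M1, LOWQ, LG-P and R1-C;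
* `s59pstf_stages_bad` : (STAGES) at the bad primes from the cases (b) (helper43's
  `s59sta_stages`) and (c);
* **`s59pstf_result`** : frozen S59 from S58 ✓, S22 ✓, S29 ✓ and the walls of the three cases.
-/
import Fermat.Agent.S59.PStep.AsmC
import Fermat.Agent.S59.Strict.AsmOrd
import Fermat.Agent.S59.LowP.PeuInfTop
import Fermat.Agent.S59.TopOwed

set_option autoImplicit false
set_option linter.style.haveILetI false
set_option linter.unusedSectionVars false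
set_option linter.unusedVariables false
set_option linter.style.longLine false

noncomputable section

namespace Fermat.Agent.S59

open IsLocalRing Polynomial Fermat.Agent.TW Fermat.Agent.S53 Fermat.Agent.EC

/-- in case (c), `ρ̄ = s59feBar W hΔ p φ hφ` is peu ramifié at `p`, for every `𝒪`. -/
theorem s59pstf_peu_bar (W : WeierstrassCurve ℤ) (hΔ : W.Δ ≠ 0) (p : ℕ) [hp : Fact p.Prime]
    (h : s59staCondC W p)
    {𝒪 : Type} [CommRing 𝒪] [IsDomain 𝒪] [IsDiscreteValuationRing 𝒪]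
    [IsAdicComplete (maximalIdeal 𝒪) 𝒪] [Finite (ResidueField 𝒪)]
    (φ : ℤ_[p] →+* 𝒪) (hφ : IsLocalHom φ) :
    s59psPeuTriv (GaloisRepAdic.ofResidualGaloisRep (s59feBar W hΔ p φ hφ)) p :=
  fun t ht => (Fermat.Agent.RT.Prod.rtphw_one_iff _ _ t).2 (h.2 hΔ hp t ht)

/-- **MINLEV-C at `s59staCondC`** from the walls M1 and LOWQ. -/
theorem s59pstf_minlev (hM1 : s59lsq_StmtWall) (hQ : s59topm_StmtLowQ) :
    s59pste_StmtMinLevC s59staCondC := by
  intro p hpF hp W hΔ hW hirr hc M₀ _ hres hM₀ hM₀3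
  exact s59lppt_minlev_res hM1 hQ p hp W hΔ hW hirr (hc.2 hΔ hpF) M₀
    (Nat.pos_of_ne_zero (NeZero.ne M₀)) hres hM₀ hM₀3

/-- **(STAGES) in case (c)** from S29 ✓, S22 ✓, the walls M1, LOWQ (MINLEV-C), LG-P and R1-C. -/
theorem s59pstf_stages_c (hS29 : s59tres_StmtS29)
    (hfin : ∀ (N : ℕ) [NeZero N] (S : Set ℕ), Module.Finite ℤ (CuspForm.heckeAlgebra N 2 S))
    (hM1 : s59lsq_StmtWall) (hQ : s59topm_StmtLowQ)
    (hLGP : ∀ (𝒪 : Type) [CommRing 𝒪] [IsDomain 𝒪] [IsDiscreteValuationRing 𝒪]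
      [IsAdicComplete (maximalIdeal 𝒪) 𝒪] [CharZero 𝒪] [Finite (ResidueField 𝒪)],
      s59ps_StmtLGP 𝒪)
    (hR1 : s59pste_StmtR1C s59staCondC) :
    s59topw_StmtStagesAt s59staCondC :=
  s59pste_stages s59staCondC (fun _ _ h => h.1)
    (fun p _ W hΔ h 𝒪 _ _ _ _ _ φ hφ => s59pstf_peu_bar W hΔ p h φ hφ)
    hS29 hfin (s59pstf_minlev hM1 hQ) hLGP hR1

/-- **(STAGES) at the bad primes** from the open inputs of the cases (b) and (c). -/
theorem s59pstf_stages_bad (hS29 : s59tres_StmtS29)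
    (hfin : ∀ (N : ℕ) [NeZero N] (S : Set ℕ), Module.Finite ℤ (CuspForm.heckeAlgebra N 2 S))
    (hM1 : s59lsq_StmtWall) (hQ : s59topm_StmtLowQ)
    -- case (b)
    (hMinB : s59sta_StmtMinLevB) (hDefB : s59sta_StmtDefCond) (hRB : s59sta_StmtR2R1)
    -- case (c)
    (hLGP : ∀ (𝒪 : Type) [CommRing 𝒪] [IsDomain 𝒪] [IsDiscreteValuationRing 𝒪]
      [IsAdicComplete (maximalIdeal 𝒪) 𝒪] [CharZero 𝒪] [Finite (ResidueField 𝒪)],
      s59ps_StmtLGP 𝒪)
    (hR1C : s59pste_StmtR1C s59staCondC) :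
    s59topw_StmtStagesAt fun W p => ¬ W.IsGoodPrimeFor p :=
  s59sta_stages_bad (s59sta_stages hS29 hfin hMinB hDefB hRB)
    (s59pstf_stages_c hS29 hfin hM1 hQ hLGP hR1C)

/-- **Frozen S59 from S58 ✓, S22 ✓, S29 ✓ and the walls of the three cases**:
(a) M1, LOWQ, LOWP-GOOD, RAISE, R1 (`s59towd_StmtR1`); (b) MINLEV-B, DEF-COND (`twOrd`),
R2-INST + E-BASE + R1 (`twOrd`); (c) LG-P, R1-C. -/
theorem s59pstf_result (h58 : s59p_StmtS58)
    (hfin : ∀ (N : ℕ) [NeZero N] (S : Set ℕ), Module.Finite ℤ (CuspForm.heckeAlgebra N 2 S))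
    (hS29 : s59tres_StmtS29) (hM1 : s59lsq_StmtWall) (hQ : s59topm_StmtLowQ)
    (hP : s59topm_StmtLowPGood) (hraise : LowQ.s59lq_StmtRaise) (hR1 : s59towd_StmtR1)
    (hMinB : s59sta_StmtMinLevB) (hDefB : s59sta_StmtDefCond) (hRB : s59sta_StmtR2R1)
    (hLGP : ∀ (𝒪 : Type) [CommRing 𝒪] [IsDomain 𝒪] [IsDiscreteValuationRing 𝒪]
      [IsAdicComplete (maximalIdeal 𝒪) 𝒪] [CharZero 𝒪] [Finite (ResidueField 𝒪)],
      s59ps_StmtLGP 𝒪)
    (hR1C : s59pste_StmtR1C s59staCondC)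
    (p : ℕ) (hp : p = 3 ∨ p = 5)
    (W : WeierstrassCurve ℤ) (hΔ : W.Δ ≠ 0) (hW : W.IsSemistableModel)
    (hirr : W.ModRepIsIrreducible p)
    (M₀ : ℕ) [NeZero M₀] (hres₀ : W.IsResiduallyModularOfLevel p M₀)
    (hM₀ : ¬ p ^ 2 ∣ M₀)
    (hM₀3 : ∀ q : ℕ, q.Prime → q ≠ p → ¬ q ^ 3 ∣ M₀) :
    Mlc1IsModularModelOfExactConductorLevel W :=
  s59towd_result h58 hfin hS29 hM1 hQ hP hraise hR1
    (s59pstf_stages_bad hS29 hfin hM1 hQ hMinB hDefB hRB hLGP hR1C)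
    p hp W hΔ hW hirr M₀ hres₀ hM₀ hM₀3

end Fermat.Agent.S59

end
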