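/-
S59, case (c) (`W` multiplicative at `p`, `ρ̄` peu ramifié at `p`), **LG-P PLUGGED** (helper76):
helper42's `s59pslfin_lgp` (`S59/PStep/LgFinal.lean`: LG-P for every complete discrete valuation
ring of characteristic zero, unconditional) in `S59/PStep/TopC.lean`.

* **`s59pstg_stages_c`** : (STAGES) at `s59staCondC` from S29 ✓, S22 ✓, the walls M1, LOWQ and
  R1-C (`s59pste_StmtR1C s59staCondC`) — the wall M5 = P-STEP owes NOTHING else;
* `s59pstg_stages_bad` : (STAGES) at the bad primes from the cases (b) and (c);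
* **`s59pstg_result`** : frozen S59 from S58 ✓, S22 ✓, S29 ✓ and the walls of the three cases.
-/
import Fermat.Agent.S59.PStep.TopC
import Fermat.Agent.S59.PStep.LgFinal

set_option autoImplicit false
set_option linter.style.haveILetI false
set_option linter.unusedSectionVars false
set_option linter.unusedVariables false
set_option linter.style.longLine false

noncomputable section

namespace Fermat.Agent.S59

open IsLocalRing Polynomial

/-- **(STAGES) in case (c)**, LG-P plugged: from S29 ✓, S22 ✓, M1, LOWQ and R1-C. -/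
theorem s59pstg_stages_c (hS29 : s59tres_StmtS29)
    (hfin : ∀ (N : ℕ) [NeZero N] (S : Set ℕ), Module.Finite ℤ (CuspForm.heckeAlgebra N 2 S))
    (hM1 : s59lsq_StmtWall) (hQ : s59topm_StmtLowQ)
    (hR1 : s59pste_StmtR1C s59staCondC) :
    s59topw_StmtStagesAt s59staCondC :=
  s59pstf_stages_c hS29 hfin hM1 hQ (fun 𝒪 _ _ _ _ _ _ => s59pslfin_lgp 𝒪) hR1

/-- **(STAGES) at the bad primes**, LG-P plugged. -/
theorem s59pstg_stages_bad (hS29 : s59tres_StmtS29)
    (hfin : ∀ (N : ℕ) [NeZero N] (S : Set ℕ), Module.Finite ℤ (CuspForm.heckeAlgebra N 2 S))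
    (hM1 : s59lsq_StmtWall) (hQ : s59topm_StmtLowQ)
    (hMinB : s59sta_StmtMinLevB) (hDefB : s59sta_StmtDefCond) (hRB : s59sta_StmtR2R1)
    (hR1C : s59pste_StmtR1C s59staCondC) :
    s59topw_StmtStagesAt fun W p => ¬ W.IsGoodPrimeFor p :=
  s59pstf_stages_bad hS29 hfin hM1 hQ hMinB hDefB hRB (fun 𝒪 _ _ _ _ _ _ => s59pslfin_lgp 𝒪) hR1C

/-- **Frozen S59 from S58 ✓, S22 ✓, S29 ✓ and the walls of the three cases**, LG-P plugged:
(a) M1, LOWQ, LOWP-GOOD, RAISE, R1 (`s59towd_StmtR1`); (b) MINLEV-B, DEF-COND (`twOrd`),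
R2-INST + E-BASE + R1 (`twOrd`); (c) R1-C. -/
theorem s59pstg_result (h58 : s59p_StmtS58)
    (hfin : ∀ (N : ℕ) [NeZero N] (S : Set ℕ), Module.Finite ℤ (CuspForm.heckeAlgebra N 2 S))
    (hS29 : s59tres_StmtS29) (hM1 : s59lsq_StmtWall) (hQ : s59topm_StmtLowQ)
    (hP : s59topm_StmtLowPGood) (hraise : LowQ.s59lq_StmtRaise) (hR1 : s59towd_StmtR1)
    (hMinB : s59sta_StmtMinLevB) (hDefB : s59sta_StmtDefCond) (hRB : s59sta_StmtR2R1)
    (hR1C : s59pste_StmtR1C s59staCondC)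
    (p : ℕ) (hp : p = 3 ∨ p = 5)
    (W : WeierstrassCurve ℤ) (hΔ : W.Δ ≠ 0) (hW : W.IsSemistableModel)
    (hirr : W.ModRepIsIrreducible p)
    (M₀ : ℕ) [NeZero M₀] (hres₀ : W.IsResiduallyModularOfLevel p M₀)
    (hM₀ : ¬ p ^ 2 ∣ M₀)
    (hM₀3 : ∀ q : ℕ, q.Prime → q ≠ p → ¬ q ^ 3 ∣ M₀) :
    Mlc1IsModularModelOfExactConductorLevel W :=
  s59pstf_result h58 hfin hS29 hM1 hQ hP hraise hR1 hMinB hDefB hRB
    (fun 𝒪 _ _ _ _ _ _ => s59pslfin_lgp 𝒪) hR1C p hp W hΔ hW hirr M₀ hres₀ hM₀ hM₀3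

end Fermat.Agent.S59

end
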